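/-
S37 moonshot, package [RG] (hgen), abstract Gauss-datum level.

For a Gauss datum `G` (discrete valuation ring `A ⊂ K`, reduction `π : A → κ`) and the modular
function field `𝓕 = laurentBaseChange K (modularFunctionFieldFull N)`: every nonzero `f ∈ 𝓕` is
`ϖ^n · Y₁ / Y₂` with `Y₁, Y₂ ∈ A((q))` integral series lying in `𝓕`, with nonzero reductions lying in
`modularFunctionFieldFullC κ N`.
-/
import Fermat.Agent.Lib.S18.GRedF

set_option autoImplicit false

noncomputable section

namespace Fermat.Agent.Lib.S37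

open ModularCurve HahnSeries Polynomial Fermat.Agent.Lib.S18 Fermat.Agent.Lib.S28

variable {K : Type*} [Field K] {κ : Type*} [Field κ] (G : s18g_GaussData K κ)

/-- evaluation of an integral polynomial at `j`, as an integral series -/
def s37g_ev (R : G.A[X]) : LaurentSeries G.A :=
  Polynomial.eval₂ (HahnSeries.C : G.A →+* LaurentSeries G.A) (jqModC G.A) R

theorem s37g_iota_ev (R : G.A[X]) :
    s18g_iota G (s37g_ev G R) = Polynomial.aeval (jqModC K) (R.map G.A.subtype) := by
  unfold s37g_ev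
  rw [Polynomial.hom_eval₂, Polynomial.aeval_def, Polynomial.eval₂_map, s18g_iota_jq]
  congr 1
  ext a : 1
  show s18g_iota G (HahnSeries.C a) = algebraMap K (LaurentSeries K) (a : K)
  rw [s18g_iota_C, s18g_algebraMap_eq_C]

theorem s37g_rho_ev (R : G.A[X]) :
    s18g_rho G (s37g_ev G R) = Polynomial.aeval (jqModC κ) (R.map G.π) := by
  unfold s37g_ev
  rw [Polynomial.hom_eval₂, Polynomial.aeval_def, Polynomial.eval₂_map, s18g_rho_jq]
  congr 1
  ext a : 1
  show s18g_rho G (HahnSeries.C a) = algebraMap κ (LaurentSeries κ) (G.π a)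
  rw [s18g_rho_C, s18g_algebraMap_eq_C]

/-- monomials in the `j(q^d)` are integral series, and reduce to monomials -/
theorem s37g_exists_monomial (N : ℕ) {x : LaurentSeries K}
    (hx : x ∈ Submonoid.closure (divisorExpansionsC K N)) :
    ∃ Y : LaurentSeries G.A, s18g_iota G Y = x ∧
      s18g_rho G Y ∈ Submonoid.closure (divisorExpansionsC κ N) := by
  induction hx using Submonoid.closure_induction with
  | mem x hx =>
    obtain ⟨d, hd, hdN, rfl⟩ := hx
    exact ⟨qExpand G.A d (jqModC G.A), s18g_iota_jqN G d, by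
      rw [s18g_rho_jqN]; exact Submonoid.subset_closure ⟨d, hd, hdN, rfl⟩⟩
  | one => exact ⟨1, map_one _, by rw [map_one]; exact Submonoid.one_mem _⟩
  | mul x y _ _ hx hy =>
    obtain ⟨X, rfl, hX⟩ := hx
    obtain ⟨Y, rfl, hY⟩ := hy
    exact ⟨X * Y, map_mul _ _ _, by rw [map_mul]; exact Submonoid.mul_mem _ hX hY⟩

variable [Algebra ℚ K] (N : ℕ)

theorem s37g_aeval_mem_fullC (R : κ[X]) :
    Polynomial.aeval (jqModC κ) R ∈ modularFunctionFieldFullC κ N := by
  have := Subalgebra.aeval_coe (modularFunctionFieldFullC κ N).toSubalgebra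
    ⟨jqModC κ, jqModC_mem_full κ N⟩ R
  rw [show ((⟨jqModC κ, jqModC_mem_full κ N⟩ :
    (modularFunctionFieldFullC κ N).toSubalgebra) : LaurentSeries κ) = jqModC κ from rfl] at this
  rw [this]
  exact Subtype.mem _

theorem s37g_aeval_mem_baseChange (R : K[X]) :
    Polynomial.aeval (jqModC K) R ∈ laurentBaseChange K (modularFunctionFieldFull N) := by
  have := Subalgebra.aeval_coe (laurentBaseChange K (modularFunctionFieldFull N)).toSubalgebra
    ⟨jqModC K, s18g_jq_mem_baseChange N⟩ R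
  rw [show ((⟨jqModC K, s18g_jq_mem_baseChange N⟩ :
    (laurentBaseChange K (modularFunctionFieldFull N)).toSubalgebra) : LaurentSeries K) =
      jqModC K from rfl] at this
  rw [this]
  exact Subtype.mem _

theorem s37g_exists_presentation [NeZero N] (hT : s18g_HT κ N) (hdeg : s18g_HDeg K N)
    (f : LaurentSeries K) (hf𝓕 : f ∈ laurentBaseChange K (modularFunctionFieldFull N))
    (hf : f ≠ 0) :
    ∃ (n : ℤ) (Y1 Y2 : LaurentSeries G.A),
      s18g_iota G Y1 ∈ laurentBaseChange K (modularFunctionFieldFull N) ∧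
      s18g_iota G Y2 ∈ laurentBaseChange K (modularFunctionFieldFull N) ∧
      s18g_rho G Y1 ∈ modularFunctionFieldFullC κ N ∧
      s18g_rho G Y2 ∈ modularFunctionFieldFullC κ N ∧
      s18g_rho G Y1 ≠ 0 ∧ s18g_rho G Y2 ≠ 0 ∧
      s18g_iota G Y2 * f = (HahnSeries.C ((G.ϖ : G.A) : K)) ^ n * s18g_iota G Y1 := by
  classical
  have h𝓕 : ∀ f ∈ laurentBaseChange K (modularFunctionFieldFull N), f ∈ s18g_Frac G :=
    fun f hf => s18g_baseChange_mem_Frac G N hf
  obtain ⟨n, u, hfu⟩ := s18g_exists_zpow_unitV G _ h𝓕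
    (⟨f, hf𝓕⟩ : ↥(laurentBaseChange K (modularFunctionFieldFull N)))
    (by intro h; exact hf (congrArg Subtype.val h))
  have hured : s18g_redV G _ h𝓕 (u : s18g_V G _ h𝓕) ≠ 0 :=
    (s18g_isUnit_V_iff G _ h𝓕 _).mp u.isUnit
  obtain ⟨Θ, hΘmem, hΘred, hind, -, hspan⟩ := s18g_exists_basis G N hT hdeg
  set uL : LaurentSeries K :=
    (((u : s18g_V G _ h𝓕) : ↥(laurentBaseChange K (modularFunctionFieldFull N))) :
      LaurentSeries K) with huL
  have huL𝓕 : uL ∈ laurentBaseChange K (modularFunctionFieldFull N) := Subtype.mem _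
  have huLO : uL ∈ s18g_O G := (u : s18g_V G _ h𝓕).2
  obtain ⟨Q, P, hQ, hrel⟩ := hspan uL huL𝓕
  let PP : Option (Fin (dedekindPsi N)) → K[X] := fun o => o.elim Q P
  have hPP : PP ≠ 0 := fun h => hQ (congrFun h none)
  obtain ⟨c, R, hc, hR, o₀, ho₀⟩ := s18g_exists_normalise G PP hPP
  choose Θ' hΘ'ι hΘ'ρ using fun i => s37g_exists_monomial G N (hΘmem i)
  set Y2 := s37g_ev G (R none) with hY2
  set Y1 := ∑ i, s37g_ev G (R (some i)) * Θ' i with hY1
  have hιY2 : s18g_iota G Y2 = HahnSeries.C c * Polynomial.aeval (jqModC K) Q := by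
    rw [hY2, s37g_iota_ev, hR none, map_mul, Polynomial.aeval_C, s18g_algebraMap_eq_C]
    rfl
  have hιY1 : s18g_iota G Y1 =
      HahnSeries.C c * ∑ i, Polynomial.aeval (jqModC K) (P i) * (Θ i : LaurentSeries K) := by
    rw [hY1, map_sum, Finset.mul_sum]
    refine Finset.sum_congr rfl fun i _ => ?_
    rw [map_mul, s37g_iota_ev, hR (some i), map_mul, Polynomial.aeval_C, s18g_algebraMap_eq_C,
      hΘ'ι i]
    show _ * Polynomial.aeval (jqModC K) (P i) * _ = _
    ring
  have hmain : s18g_iota G Y2 * uL = s18g_iota G Y1 := by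
    rw [hιY2, hιY1, mul_assoc, hrel]
  -- reductions
  have hρΘ : ∀ i, s18g_rho G (Θ' i) = s18g_red G (Θ i) := by
    intro i
    rw [← s18g_red_iota G (Θ' i)]
    congr 1
    exact Subtype.ext (hΘ'ι i)
  have hρY2 : s18g_rho G Y2 = Polynomial.aeval (jqModC κ) ((R none).map G.π) := by
    rw [hY2, s37g_rho_ev]
  have hρY1 : s18g_rho G Y1 =
      ∑ i, Polynomial.aeval (jqModC κ) ((R (some i)).map G.π) * s18g_red G (Θ i) := by
    rw [hY1, map_sum]
    refine Finset.sum_congr rfl fun i _ => ?_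
    rw [map_mul, s37g_rho_ev, hρΘ i]
  have hredrel : s18g_rho G Y2 * s18g_red G ⟨uL, huLO⟩ = s18g_rho G Y1 := by
    have h1 : (⟨s18g_iota G Y2, s18g_iota_mem_O G Y2⟩ : s18g_O G) * ⟨uL, huLO⟩ =
        ⟨s18g_iota G Y1, s18g_iota_mem_O G Y1⟩ := Subtype.ext hmain
    have h2 := congrArg (s18g_red G) h1
    rwa [map_mul, s18g_red_iota, s18g_red_iota] at h2
  have hured' : s18g_red G ⟨uL, huLO⟩ ≠ 0 := hured
  have hY2ne : s18g_rho G Y2 ≠ 0 := by
    intro h0
    have h1 : s18g_rho G Y1 = 0 := by rw [← hredrel, h0, zero_mul]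
    have hRn : (R none).map G.π = 0 := by
      rw [hρY2] at h0
      exact (transcendental_iff_injective.mp (s28v_transcendental_jqModC κ))
        (by rw [h0, map_zero])
    have hall := hind (fun i => (R (some i)).map G.π) (by rw [← hρY1]; exact h1)
    cases o₀ with
    | none => exact ho₀ hRn
    | some i => exact ho₀ (congrFun hall i)
  have hY1ne : s18g_rho G Y1 ≠ 0 := by
    rw [← hredrel]
    exact mul_ne_zero hY2ne hured'
  refine ⟨n, Y1, Y2, ?_, ?_, ?_, ?_, hY1ne, hY2ne, ?_⟩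
  · rw [hιY1]
    refine mul_mem ?_ (sum_mem fun i _ => mul_mem (s37g_aeval_mem_baseChange N _) ?_)
    · rw [← s18g_algebraMap_eq_C]
      exact (laurentBaseChange K (modularFunctionFieldFull N)).algebraMap_mem c
    · exact s18g_closure_le_baseChange N (hΘmem i)
  · rw [hιY2]
    refine mul_mem ?_ (s37g_aeval_mem_baseChange N _)
    rw [← s18g_algebraMap_eq_C]
    exact (laurentBaseChange K (modularFunctionFieldFull N)).algebraMap_mem c
  · rw [hρY1]
    exact sum_mem fun i _ => mul_mem (s37g_aeval_mem_fullC N _)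
      (s18g_closure_le_fullC N (hΘred i))
  · rw [hρY2]
    exact s37g_aeval_mem_fullC N _
  · have hf' : f = (HahnSeries.C ((G.ϖ : G.A) : K)) ^ n * uL := by
      have h1 := congrArg Subtype.val hfu
      rw [MulMemClass.coe_mul, s18g_coe_zpow, s18g_coe_algebraMap] at h1
      exact h1
    rw [hf', mul_left_comm, hmain]

end Fermat.Agent.Lib.S37
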