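/-
S37 moonshot, package [RG] (hgen): principal divisors of the modular function field over `ℚ̄` are
generated by divisors of integral series with nonzero reduction lying in the characteristic-`ℓ`
function field (`PrincipalGeneratedByIntegral`), for every level `M` prime to `ℓ`.

Route: descend `f` to a number field `L₀`; `A₀ = A ∩ L₀` is a discrete valuation ring; the Gauss
datum `(A₀, ϖ, A₀ → A → κ)` with `κ` the (big) residue field of `A`; `f₀ = ϖ^n · Y₁ / Y₂`
(`GGenAbs`); push `Y₁, Y₂` to `A((q))`.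
-/
import Fermat.Agent.Lib.S37.GGenAbs
import Fermat.Agent.Lib.S18.GDegree
import Fermat.Agent.Lib.S18.TIndepJ
import Fermat.Agent.Lib.S18.QDvr
import Fermat.Agent.Lib.S18.XPerfect
import Fermat.Agent.Lib.S18.RData
import Fermat.Prelude.Def_ModularCurve_ReductionModL

set_option autoImplicit false

noncomputable section

namespace Fermat.Agent.Lib.S37

open ModularCurve AlgebraicCurve HahnSeries Polynomial
open Fermat.Agent.Lib.S18 Fermat.Agent.Lib.S28 Fermat.Agent.Lib.FF

local notation "Qbar" => AlgebraicClosure ℚ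

set_option synthInstance.maxHeartbeats 400000 in
/-- **hgen**: every principal divisor is a difference of two integral principal divisors. -/
theorem s37g_principalGenerated (M : ℕ) [NeZero M] {ℓ : ℕ} [Fact ℓ.Prime] (hℓM : ¬ ℓ ∣ M)
    (A : ValuationSubring (AlgebraicClosure ℚ)) (hA : A.LiesOverPrime ℓ) :
    ModularCurve.PrincipalGeneratedByIntegral A (IsLocalRing.residue A) M := by
  classical
  intro D hD
  obtain ⟨f, hf, hDf⟩ := hD
  -- descend `f` to a number field
  obtain ⟨L₀, hfd, hL₀⟩ := s18q_exists_field M {f}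
  obtain ⟨f0, hf0⟩ := hL₀ f (by simp)
  have := hfd
  have hdvr : IsDiscreteValuationRing ↥(s18q_A0 A L₀) := s18q_A0_dvr A L₀ hA
  obtain ⟨ϖ, hϖ⟩ := IsDiscreteValuationRing.exists_irreducible ↥(s18q_A0 A L₀)
  have hπ : RingHom.ker ((IsLocalRing.residue A).comp (s18q_A0_hom A L₀)) =
      IsLocalRing.maximalIdeal ↥(s18q_A0 A L₀) :=
    s18q_ker_residue_A0 A L₀ (IsLocalRing.residue A) IsLocalRing.ker_residue
  set G : s18g_GaussData ↥L₀ (IsLocalRing.ResidueField A) :=
    s18g_GaussData.ofHom (s18q_A0 A L₀) ϖ hϖ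
      ((IsLocalRing.residue A).comp (s18q_A0_hom A L₀)) hπ with hG
  have : CharP (IsLocalRing.ResidueField A) ℓ := s18x_charP_residueField A Fact.out hA
  have hT : s18g_HT (IsLocalRing.ResidueField A) M :=
    s18t_indep_j ℓ M hℓM (IsLocalRing.ResidueField A)
  have hdeg : s18g_HDeg ↥L₀ M := fun n b hb hn =>
    s18g_exists_relation M (algebraMap ↥L₀ Qbar) hn b hb
  have hf0ne : (f0 : LaurentSeries ↥L₀) ≠ 0 := by
    intro h0
    apply hf
    rw [← hf0, show f0 = 0 from Subtype.ext h0, map_zero]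
  obtain ⟨n, Y1, Y2, h1, h2, h1k, h2k, h1ne, h2ne, hrel⟩ :=
    s37g_exists_presentation G M hT hdeg (f0 : LaurentSeries ↥L₀) f0.2 hf0ne
  -- the integral series over `A`
  set YA1 : LaurentSeries A := coeffMap (s18q_A0_hom A L₀) Y1 with hYA1
  set YA2 : LaurentSeries A := coeffMap (s18q_A0_hom A L₀) Y2 with hYA2
  have hsub : ∀ Y : LaurentSeries ↥(s18q_A0 A L₀),
      coeffMap A.subtype (coeffMap (s18q_A0_hom A L₀) Y) =
        coeffMap (algebraMap ↥L₀ Qbar) (s18g_iota G Y) := by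
    intro Y
    rw [s18g_iota, coeffMap_coeffMap, coeffMap_coeffMap]
    exact coeffMap_congr (RingHom.ext fun _ => rfl) Y
  have hres : ∀ Y : LaurentSeries ↥(s18q_A0 A L₀),
      coeffMap (IsLocalRing.residue A) (coeffMap (s18q_A0_hom A L₀) Y) = s18g_rho G Y := by
    intro Y
    rw [s18g_rho, coeffMap_coeffMap]
    rfl
  -- the two functions over `ℚ̄`
  set y1 := s18q_incl M L₀ ⟨s18g_iota G Y1, h1⟩ with hy1
  set y2 := s18q_incl M L₀ ⟨s18g_iota G Y2, h2⟩ with hy2
  have hy1coe : (y1 : LaurentSeries Qbar) = coeffMap A.subtype YA1 := by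
    rw [hy1, s18q_incl_coe, hYA1, hsub]
  have hy2coe : (y2 : LaurentSeries Qbar) = coeffMap A.subtype YA2 := by
    rw [hy2, s18q_incl_coe, hYA2, hsub]
  -- nonvanishing
  have hιne : ∀ Y : LaurentSeries ↥(s18q_A0 A L₀), s18g_rho G Y ≠ 0 → s18g_iota G Y ≠ 0 := by
    intro Y hY h0
    apply hY
    rw [s18g_iota_injective G (h0.trans (map_zero _).symm), map_zero]
  have hy1ne : y1 ≠ 0 := by
    rw [hy1, Ne, map_eq_zero]
    intro h0
    exact hιne Y1 h1ne (congrArg Subtype.val h0)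
  have hy2ne : y2 ≠ 0 := by
    rw [hy2, Ne, map_eq_zero]
    intro h0
    exact hιne Y2 h2ne (congrArg Subtype.val h0)
  -- the relation over `L₀`, then over `ℚ̄`
  have hrel0 : (⟨s18g_iota G Y2, h2⟩ : ↥(laurentBaseChange ↥L₀ (modularFunctionFieldFull M))) * f0 =
      (algebraMap ↥L₀ ↥(laurentBaseChange ↥L₀ (modularFunctionFieldFull M))
        ((ϖ : ↥(s18q_A0 A L₀)) : ↥L₀)) ^ n * ⟨s18g_iota G Y1, h1⟩ := by
    apply Subtype.ext
    rw [MulMemClass.coe_mul, MulMemClass.coe_mul, s18g_coe_zpow, s18g_coe_algebraMap]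
    exact hrel
  have hrelQ : y2 * f = (algebraMap Qbar
      ↥(laurentBaseChange Qbar (modularFunctionFieldFull M))
        ((((ϖ : ↥(s18q_A0 A L₀)) : ↥L₀) : Qbar))) ^ n * y1 := by
    have h := congrArg (s18q_incl M L₀) hrel0
    rw [map_mul, map_mul, map_zpow₀, s18q_incl_algebraMap, hf0] at h
    exact h
  -- orders
  have hc0 : (algebraMap Qbar ↥(laurentBaseChange Qbar (modularFunctionFieldFull M))
      ((((ϖ : ↥(s18q_A0 A L₀)) : ↥L₀) : Qbar))) ≠ 0 := by
    rw [Ne, map_eq_zero]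
    intro h0
    apply hϖ.ne_zero
    apply Subtype.ext
    apply Subtype.ext
    exact h0
  have hord : ∀ P : Place Qbar ↥(laurentBaseChange Qbar (modularFunctionFieldFull M)),
      P.ord f = P.ord y1 - P.ord y2 := by
    intro P
    have h := congrArg P.ord hrelQ
    rw [P.ord_mul hy2ne hf, P.ord_mul (zpow_ne_zero _ hc0) hy1ne, P.ord_zpow,
      ff_ord_algebraMap, mul_zero, zero_add] at h
    omega
  -- divisors
  obtain ⟨D1, hD1, -⟩ := HasPrincipalDivisors.exists_divisor (K := Qbar) y1 hy1ne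
  obtain ⟨D2, hD2, -⟩ := HasPrincipalDivisors.exists_divisor (K := Qbar) y2 hy2ne
  have hDD : D = D1 - D2 := Finsupp.ext fun P => by
    rw [hDf, Finsupp.sub_apply, hD1, hD2, hord]
  have hmem1 : D1 ∈ integralPrincipalDivisors A (IsLocalRing.residue A) M := by
    refine ⟨YA1, hy1coe ▸ y1.2, ?_, ?_, ?_⟩
    · rw [hYA1, hres]; exact h1k
    · rw [hYA1, hres]; exact h1ne
    · intro P
      rw [hD1]
      congr 1
  have hmem2 : D2 ∈ integralPrincipalDivisors A (IsLocalRing.residue A) M := by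
    refine ⟨YA2, hy2coe ▸ y2.2, ?_, ?_, ?_⟩
    · rw [hYA2, hres]; exact h2k
    · rw [hYA2, hres]; exact h2ne
    · intro P
      rw [hD2]
      congr 1
  rw [hDD]
  exact sub_mem (AddSubgroup.subset_closure hmem1) (AddSubgroup.subset_closure hmem2)

end Fermat.Agent.Lib.S37
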