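/-
S37 (Eichler–Shimura congruence), package (E) (helper6), part 2: the coefficientwise action of
`Aut(κ)` on the characteristic-`ℓ` function field `modularFunctionFieldFullC κ N`
(the analogue of the Prelude's `arithmeticGalois` on the special fibre), and the Frobenius
semilinear automorphism.

* `s37e_coeffMap_mem_fullC` : `coeffMap φ` maps `F̄_N(κ)` into `F̄_N(κ')` for any `φ : κ →+* κ'`.
* `s37e_coeffRingAut φ : F̄_N ≃+* F̄_N` for `φ : κ ≃+* κ`.
* `s37e_coeffAut : (κ ≃+* κ) →* SemilinearAut κ F̄_N`.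
* `s37e_ord_coeffAut` : `(ψ • Q).ord (coeffMap φ z) = Q.ord z`.
-/
import Mathlib
import Fermat.Prelude.Def_ModularCurve_X0ModL
import Fermat.Prelude.Def_AlgebraicCurve_BaseChangeGalois

set_option autoImplicit false

namespace Fermat.Agent.Lib.S37

open ModularCurve HahnSeries AlgebraicCurve IntermediateField

noncomputable section

variable {κ κ' : Type*} [Field κ] [Field κ'] (N : ℕ)

theorem s37e_coeffMap_algebraMap (φ : κ →+* κ') (c : κ) :
    coeffMap φ (algebraMap κ (LaurentSeries κ) c) = algebraMap κ' (LaurentSeries κ') (φ c) := by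
  rw [algebraMap_laurentSeries_eq_single, algebraMap_laurentSeries_eq_single, coeffMap_single]

/-- `coeffMap φ` maps the function field over `κ` into the function field over `κ'`. -/
theorem s37e_coeffMap_mem_fullC (φ : κ →+* κ') {x : LaurentSeries κ}
    (hx : x ∈ modularFunctionFieldFullC κ N) :
    coeffMap φ x ∈ modularFunctionFieldFullC κ' N := by
  unfold modularFunctionFieldFullC at hx
  induction hx using IntermediateField.adjoin_induction with
  | mem y hy =>
    obtain ⟨d, hd, hdN, rfl⟩ := hy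
    have := hd
    rw [coeffMap_qExpand, coeffMap_jqModC]
    exact jqModCd_mem_full κ' N hdN
  | algebraMap c =>
    rw [s37e_coeffMap_algebraMap]
    exact (modularFunctionFieldFullC κ' N).algebraMap_mem _
  | add x y _ _ hx hy => rw [map_add]; exact add_mem hx hy
  | inv x _ hx => rw [map_inv₀]; exact inv_mem hx
  | mul x y _ _ hx hy => rw [map_mul]; exact mul_mem hx hy

/-- The coefficientwise ring automorphism of `F̄_N` attached to `φ : κ ≃+* κ`. -/
def s37e_coeffRingAut (φ : κ ≃+* κ) :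
    (modularFunctionFieldFullC κ N) ≃+* (modularFunctionFieldFullC κ N) where
  toFun x := ⟨coeffMap (φ : κ →+* κ) (x : LaurentSeries κ), s37e_coeffMap_mem_fullC N _ x.2⟩
  invFun x := ⟨coeffMap (φ.symm : κ →+* κ) (x : LaurentSeries κ),
    s37e_coeffMap_mem_fullC N _ x.2⟩
  left_inv x := Subtype.ext <| by
    show coeffMap (φ.symm : κ →+* κ) (coeffMap (φ : κ →+* κ) (x : LaurentSeries κ))
      = (x : LaurentSeries κ)
    rw [coeffMap_coeffMap,
      coeffMap_congr (g := RingHom.id κ) (RingHom.ext fun a => φ.symm_apply_apply a)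
        (x : LaurentSeries κ), coeffMap_id]
  right_inv x := Subtype.ext <| by
    show coeffMap (φ : κ →+* κ) (coeffMap (φ.symm : κ →+* κ) (x : LaurentSeries κ))
      = (x : LaurentSeries κ)
    rw [coeffMap_coeffMap,
      coeffMap_congr (g := RingHom.id κ) (RingHom.ext fun a => φ.apply_symm_apply a)
        (x : LaurentSeries κ), coeffMap_id]
  map_mul' x y :=
    Subtype.ext (map_mul (coeffMap (φ : κ →+* κ)) (x : LaurentSeries κ) (y : LaurentSeries κ))
  map_add' x y :=
    Subtype.ext (map_add (coeffMap (φ : κ →+* κ)) (x : LaurentSeries κ) (y : LaurentSeries κ))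

@[simp]
theorem s37e_coe_coeffRingAut_apply (φ : κ ≃+* κ) (x : modularFunctionFieldFullC κ N) :
    (s37e_coeffRingAut N φ x : LaurentSeries κ) = coeffMap (φ : κ →+* κ) (x : LaurentSeries κ) :=
  rfl

theorem s37e_coeffRingAut_algebraMap (φ : κ ≃+* κ) (a : κ) :
    s37e_coeffRingAut N φ (algebraMap κ (modularFunctionFieldFullC κ N) a)
      = algebraMap κ (modularFunctionFieldFullC κ N) (φ a) :=
  Subtype.ext (s37e_coeffMap_algebraMap (φ : κ →+* κ) a)

/-- The coefficientwise action of `Aut(κ)` on `F̄_N` by semilinear automorphisms. -/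
def s37e_coeffAut : (κ ≃+* κ) →* SemilinearAut κ (modularFunctionFieldFullC κ N) where
  toFun φ := ⟨(s37e_coeffRingAut N φ, φ), fun a => s37e_coeffRingAut_algebraMap N φ a⟩
  map_one' := by
    refine Subtype.ext (Prod.ext (RingEquiv.ext fun x => Subtype.ext ?_) rfl)
    show coeffMap ((1 : κ ≃+* κ) : κ →+* κ) (x : LaurentSeries κ) = (x : LaurentSeries κ)
    rw [show ((1 : κ ≃+* κ) : κ →+* κ) = RingHom.id κ from RingHom.ext fun _ => rfl, coeffMap_id]
  map_mul' σ τ := by
    refine Subtype.ext (Prod.ext (RingEquiv.ext fun x => Subtype.ext ?_) rfl)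
    show coeffMap ((σ * τ : κ ≃+* κ) : κ →+* κ) (x : LaurentSeries κ)
      = coeffMap (σ : κ →+* κ) (coeffMap (τ : κ →+* κ) (x : LaurentSeries κ))
    rw [coeffMap_coeffMap]
    exact coeffMap_congr (RingHom.ext fun _ => rfl) _

@[simp]
theorem s37e_toRingAut_coeffAut (φ : κ ≃+* κ) :
    SemilinearAut.toRingAut (s37e_coeffAut N φ) = s37e_coeffRingAut N φ := rfl

@[simp]
theorem s37e_baseAut_coeffAut (φ : κ ≃+* κ) :
    SemilinearAut.baseAut (s37e_coeffAut N φ) = φ := rfl

theorem s37e_coe_coeffAut_smul (φ : κ ≃+* κ) (x : modularFunctionFieldFullC κ N) :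
    ((s37e_coeffAut N φ • x : modularFunctionFieldFullC κ N) : LaurentSeries κ)
      = coeffMap (φ : κ →+* κ) (x : LaurentSeries κ) :=
  rfl

/-- Orders are transported: `ord_{ψ Q}(φ z) = ord_Q z`. -/
theorem s37e_ord_coeffAut (φ : κ ≃+* κ) (Q : Place κ (modularFunctionFieldFullC κ N))
    (z : modularFunctionFieldFullC κ N) :
    (s37e_coeffAut N φ • Q).ord (s37e_coeffAut N φ • z) = Q.ord z :=
  SemilinearAut.ord_smul _ Q z

/-- The order of `(ψ⁻¹ z)^ℓ · ψ z` at `Q`: the local form of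
`div((Fr⁻¹ z)^ℓ · Fr z) = ℓ · ψ⁻¹(div z) + ψ(div z)`. -/
theorem s37e_ord_es (ℓ : ℕ) (φ : κ ≃+* κ) (Q : Place κ (modularFunctionFieldFullC κ N))
    {z : modularFunctionFieldFullC κ N} (hz : z ≠ 0) :
    Q.ord (((s37e_coeffAut N φ)⁻¹ • z) ^ ℓ * (s37e_coeffAut N φ • z)) =
      ℓ * (s37e_coeffAut N φ • Q).ord z + ((s37e_coeffAut N φ)⁻¹ • Q).ord z := by
  set ψ := s37e_coeffAut N φ with hψ
  have h1 : ψ⁻¹ • z ≠ 0 := by
    intro h
    apply hz
    have := congrArg (ψ • ·) h
    simpa using this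
  have h2 : ψ • z ≠ 0 := by
    intro h
    apply hz
    have := congrArg (ψ⁻¹ • ·) h
    simpa using this
  have e1 : Q.ord (ψ⁻¹ • z) = (ψ • Q).ord z := by
    have := SemilinearAut.ord_smul ψ Q (ψ⁻¹ • z)
    rw [smul_inv_smul] at this
    exact this.symm
  have e2 : Q.ord (ψ • z) = (ψ⁻¹ • Q).ord z := by
    have := SemilinearAut.ord_smul ψ⁻¹ Q (ψ • z)
    rw [inv_smul_smul] at this
    exact this.symm
  rw [Q.ord_mul (pow_ne_zero ℓ h1) h2, ← zpow_natCast, Q.ord_zpow, e1, e2]

end

end Fermat.Agent.Lib.S37
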