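/-
S37 moonshot (M-B), package [R] (helper3): the TOP-LEVEL Gauss ring.

For a valuation subring `A` of a field `L` (NOT assumed discrete) and a ring homomorphism
`π : A →+* k` into a field, `s37r_O A π ⊆ L((q))` is the ring of quotients `P/Q` of series with
coefficients in `A` such that `Q` has nonzero reduction, and `s37r_red : s37r_O A π →+* k((q))` is
the reduction `P/Q ↦ P̄/Q̄`.  (Same construction as `s18g_O`/`s18g_red` of Lib/S18/GO, without a
uniformiser.)  The link with the Gauss rings of the number-field levels is `s37r_mem_O_of_level`,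
`s37r_red_of_level`.
-/
import Mathlib
import Fermat.Prelude.Def_ModularCurve_ReductionModL

set_option autoImplicit false

noncomputable section

namespace Fermat.Agent.Lib.S37

open ModularCurve HahnSeries

variable {L : Type*} [Field L] (A : ValuationSubring L) {k : Type*} [Field k] (π : A →+* k)

theorem s37r_iota_injective : Function.Injective (coeffMap A.subtype) := by
  intro P Q h
  ext n
  have := congrArg (fun f => f.coeff n) h
  simpa using this

/-- the top-level Gauss ring inside `L((q))`. -/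
def s37r_O : Subring (LaurentSeries L) where
  carrier := {f | ∃ P Q : LaurentSeries A,
    coeffMap π Q ≠ 0 ∧ coeffMap A.subtype Q * f = coeffMap A.subtype P}
  mul_mem' := by
    rintro f g ⟨P, Q, hQ, h⟩ ⟨P', Q', hQ', h'⟩
    refine ⟨P * P', Q * Q', ?_, ?_⟩
    · rw [map_mul]; exact mul_ne_zero hQ hQ'
    · rw [map_mul, map_mul, ← h, ← h']; ring
  one_mem' := ⟨1, 1, by rw [map_one]; exact one_ne_zero, by simp⟩
  add_mem' := by
    rintro f g ⟨P, Q, hQ, h⟩ ⟨P', Q', hQ', h'⟩
    refine ⟨P * Q' + P' * Q, Q * Q', ?_, ?_⟩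
    · rw [map_mul]; exact mul_ne_zero hQ hQ'
    · rw [map_mul, map_add, map_mul, map_mul, ← h, ← h']; ring
  zero_mem' := ⟨0, 1, by rw [map_one]; exact one_ne_zero, by simp⟩
  neg_mem' := by
    rintro f ⟨P, Q, hQ, h⟩
    exact ⟨-P, Q, hQ, by rw [map_neg, ← h]; ring⟩

theorem s37r_mem_O_iff {f : LaurentSeries L} : f ∈ s37r_O A π ↔
    ∃ P Q : LaurentSeries A,
      coeffMap π Q ≠ 0 ∧ coeffMap A.subtype Q * f = coeffMap A.subtype P := Iff.rfl

theorem s37r_iota_mem_O (P : LaurentSeries A) : coeffMap A.subtype P ∈ s37r_O A π :=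
  ⟨P, 1, by rw [map_one]; exact one_ne_zero, by simp⟩

/-- the reduction, as a function. -/
def s37r_redFun (f : s37r_O A π) : LaurentSeries k :=
  coeffMap π f.2.choose / coeffMap π f.2.choose_spec.choose

theorem s37r_redFun_eq (f : s37r_O A π) (P Q : LaurentSeries A)
    (hQ : coeffMap π Q ≠ 0)
    (h : coeffMap A.subtype Q * (f : LaurentSeries L) = coeffMap A.subtype P) :
    s37r_redFun A π f = coeffMap π P / coeffMap π Q := by
  unfold s37r_redFun
  set P₀ := f.2.choose
  set Q₀ := f.2.choose_spec.choose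
  have hQ₀ : coeffMap π Q₀ ≠ 0 := f.2.choose_spec.choose_spec.1
  have h₀ : coeffMap A.subtype Q₀ * (f : LaurentSeries L) = coeffMap A.subtype P₀ :=
    f.2.choose_spec.choose_spec.2
  have hcross : Q * P₀ = Q₀ * P := by
    apply s37r_iota_injective A
    rw [map_mul, map_mul, ← h₀, ← h]
    ring
  have := congrArg (coeffMap π) hcross
  rw [map_mul, map_mul] at this
  rw [div_eq_div_iff hQ₀ hQ]
  rw [mul_comm (coeffMap π P₀), this]
  ring

/-- **the top-level reduction homomorphism** `O → k((q))`. -/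
def s37r_red : s37r_O A π →+* LaurentSeries k where
  toFun := s37r_redFun A π
  map_one' := by
    rw [s37r_redFun_eq A π 1 1 1 (by rw [map_one]; exact one_ne_zero) (by simp)]
    simp
  map_zero' := by
    rw [s37r_redFun_eq A π 0 0 1 (by rw [map_one]; exact one_ne_zero) (by simp)]
    simp
  map_mul' := by
    intro f g
    obtain ⟨P, Q, hQ, h⟩ := f.2
    obtain ⟨P', Q', hQ', h'⟩ := g.2
    rw [s37r_redFun_eq A π f P Q hQ h, s37r_redFun_eq A π g P' Q' hQ' h',
      s37r_redFun_eq A π (f * g) (P * P') (Q * Q')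
        (by rw [map_mul]; exact mul_ne_zero hQ hQ')
        (by
          rw [Subring.coe_mul, map_mul, map_mul, ← h, ← h']; ring)]
    rw [map_mul, map_mul, mul_div_mul_comm]
  map_add' := by
    intro f g
    obtain ⟨P, Q, hQ, h⟩ := f.2
    obtain ⟨P', Q', hQ', h'⟩ := g.2
    rw [s37r_redFun_eq A π f P Q hQ h, s37r_redFun_eq A π g P' Q' hQ' h',
      s37r_redFun_eq A π (f + g) (P * Q' + P' * Q) (Q * Q')
        (by rw [map_mul]; exact mul_ne_zero hQ hQ')
        (by
          rw [Subring.coe_add, map_mul, map_add, map_mul, map_mul, ← h, ← h']; ring)]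
    rw [map_add, map_mul, map_mul, map_mul, div_add_div _ _ hQ hQ', mul_comm (coeffMap π P')]

theorem s37r_red_eq (f : s37r_O A π) (P Q : LaurentSeries A)
    (hQ : coeffMap π Q ≠ 0)
    (h : coeffMap A.subtype Q * (f : LaurentSeries L) = coeffMap A.subtype P) :
    s37r_red A π f = coeffMap π P / coeffMap π Q :=
  s37r_redFun_eq A π f P Q hQ h

theorem s37r_red_iota (P : LaurentSeries A) :
    s37r_red A π ⟨coeffMap A.subtype P, s37r_iota_mem_O A π P⟩ = coeffMap π P := by
  rw [s37r_red_eq A π _ P 1 (by rw [map_one]; exact one_ne_zero) (by simp)]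
  simp

/-- reduction of an element with a nonzero-reduction presentation is nonzero iff the numerator
has nonzero reduction. -/
theorem s37r_red_ne_zero_iff (f : s37r_O A π) (P Q : LaurentSeries A)
    (hQ : coeffMap π Q ≠ 0)
    (h : coeffMap A.subtype Q * (f : LaurentSeries L) = coeffMap A.subtype P) :
    s37r_red A π f ≠ 0 ↔ coeffMap π P ≠ 0 := by
  rw [s37r_red_eq A π f P Q hQ h, Ne, div_eq_zero_iff, not_or]
  exact ⟨fun h => h.1, fun h => ⟨h, hQ⟩⟩

section Level

/-! ### Link with a subfield level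

`φ : K₀ →+* L` a subfield, `A₀ = A.comap φ`, `π₀ : A₀ →+* k₀`, `ψ : k₀ →+* k` with
`π ∘ (A₀ → A) = ψ ∘ π₀`. -/

variable {K₀ : Type*} [Field K₀] (φ : K₀ →+* L) {k₀ : Type*} [Field k₀]
  (π₀ : ↥(A.comap φ) →+* k₀) (ψ : k₀ →+* k)

/-- the local homomorphism `A ∩ K₀ → A`. -/
def s37r_comapHom : ↥(A.comap φ) →+* ↥A :=
  (φ.comp (A.comap φ).subtype).codRestrict A fun x => x.2

@[simp]
theorem s37r_comapHom_coe (x : ↥(A.comap φ)) : ((s37r_comapHom A φ x : A) : L) = φ (x : K₀) := rfl

theorem s37r_subtype_comapHom (Y : LaurentSeries ↥(A.comap φ)) :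
    coeffMap A.subtype (coeffMap (s37r_comapHom A φ) Y) =
      coeffMap φ (coeffMap (A.comap φ).subtype Y) := by
  rw [coeffMap_coeffMap, coeffMap_coeffMap]
  rfl

variable (hcomp : π.comp (s37r_comapHom A φ) = ψ.comp π₀)
include hcomp

theorem s37r_pi_comapHom (Y : LaurentSeries ↥(A.comap φ)) :
    coeffMap π (coeffMap (s37r_comapHom A φ) Y) = coeffMap ψ (coeffMap π₀ Y) := by
  rw [coeffMap_coeffMap, coeffMap_coeffMap, hcomp]

/-- an element of the level Gauss ring maps into the top-level Gauss ring. -/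
theorem s37r_mem_O_of_level {f : LaurentSeries K₀}
    (hf : ∃ P Q : LaurentSeries ↥(A.comap φ), coeffMap π₀ Q ≠ 0 ∧
      coeffMap (A.comap φ).subtype Q * f = coeffMap (A.comap φ).subtype P) :
    coeffMap φ f ∈ s37r_O A π := by
  obtain ⟨P, Q, hQ, h⟩ := hf
  refine ⟨coeffMap (s37r_comapHom A φ) P, coeffMap (s37r_comapHom A φ) Q, ?_, ?_⟩
  · rw [s37r_pi_comapHom A π φ π₀ ψ hcomp]
    intro h0
    apply hQ
    have hinj : Function.Injective (coeffMap ψ) := by
      intro x y hxy
      ext n
      apply ψ.injective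
      have := congrArg (fun z : LaurentSeries k => z.coeff n) hxy
      simpa using this
    apply hinj
    rw [h0, map_zero]
  · rw [s37r_subtype_comapHom, s37r_subtype_comapHom, ← map_mul, h]

/-- the top-level reduction of an element coming from a level is the coefficient extension of
the level reduction `P̄/Q̄`. -/
theorem s37r_red_of_level {f : LaurentSeries K₀} (P Q : LaurentSeries ↥(A.comap φ))
    (hQ : coeffMap π₀ Q ≠ 0)
    (h : coeffMap (A.comap φ).subtype Q * f = coeffMap (A.comap φ).subtype P)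
    (hmem : coeffMap φ f ∈ s37r_O A π) :
    s37r_red A π ⟨coeffMap φ f, hmem⟩ = coeffMap ψ (coeffMap π₀ P / coeffMap π₀ Q) := by
  have hinj : Function.Injective (coeffMap ψ) := by
    intro x y hxy
    ext n
    apply ψ.injective
    have := congrArg (fun z : LaurentSeries k => z.coeff n) hxy
    simpa using this
  have hQ' : coeffMap π (coeffMap (s37r_comapHom A φ) Q) ≠ 0 := by
    rw [s37r_pi_comapHom A π φ π₀ ψ hcomp]
    intro h0
    apply hQ
    apply hinj
    rw [h0, map_zero]
  rw [s37r_red_eq A π _ (coeffMap (s37r_comapHom A φ) P) (coeffMap (s37r_comapHom A φ) Q) hQ'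
    (by
      show coeffMap A.subtype (coeffMap (s37r_comapHom A φ) Q) * coeffMap φ f = _
      rw [s37r_subtype_comapHom, s37r_subtype_comapHom, ← map_mul, h]),
    s37r_pi_comapHom A π φ π₀ ψ hcomp, s37r_pi_comapHom A π φ π₀ ψ hcomp, map_div₀]

end Level

end Fermat.Agent.Lib.S37
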