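/-
S37 moonshot (M-B), package [R] (helper3): the TOP-LEVEL Gauss valuation subring `s37r_OF` of
`F = modularFunctionFieldBar M` (for a valuation subring `A ⊆ ℚ̄` over a prime `ℓ`), its reduction
`s37r_redOF : O_F →+* κ((q))` (`κ = ResidueField A`), and the link with the number-field levels
`L₀ ⊆ ℚ̄` (Gauss datum `ofResidue (A ∩ L₀) ϖ`): `incl (V_{L₀}) = incl (F_{L₀}) ∩ O_F`, and
`red (incl f₀) = coeffMap ψ (redV f₀)`.
-/
import Fermat.Agent.Lib.S37.RGauss
import Fermat.Agent.Lib.S18.XFinal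

set_option autoImplicit false
set_option linter.style.haveILetI false
set_option linter.unusedSectionVars false

noncomputable section

namespace Fermat.Agent.Lib.S37

open ModularCurve HahnSeries AlgebraicCurve Fermat.Agent.Lib.S18 Fermat.Agent.Lib.FF

local notation "Qbar" => AlgebraicClosure ℚ

variable (A : ValuationSubring Qbar)

section Level

variable (L₀ : IntermediateField ℚ Qbar)

/-- the homomorphism `A ∩ L₀ → A` is local. -/
instance s37r_isLocalHom_A0_hom : IsLocalHom (s18q_A0_hom A L₀) where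
  map_nonunit x hx := by
    by_contra hnu
    have h1 : x ∈ IsLocalRing.maximalIdeal ↥(s18q_A0 A L₀) := hnu
    have h2 := (s18q_A0_hom_mem_maximalIdeal A L₀ x).mpr h1
    exact h2 hx

/-- the inclusion of residue fields `κ₀ = ResidueField (A ∩ L₀) → κ = ResidueField A`. -/
def s37r_resMap : IsLocalRing.ResidueField ↥(s18q_A0 A L₀) →+* IsLocalRing.ResidueField ↥A :=
  IsLocalRing.ResidueField.map (s18q_A0_hom A L₀)

theorem s37r_resMap_comp :
    (IsLocalRing.residue ↥A).comp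
        (s37r_comapHom A (algebraMap ↥L₀ Qbar)) =
      (s37r_resMap A L₀).comp (IsLocalRing.residue ↥(s18q_A0 A L₀)) := by
  refine RingHom.ext fun x => ?_
  rfl

theorem s37r_coeffMap_resMap_injective :
    Function.Injective (coeffMap (s37r_resMap A L₀)) := by
  intro x y hxy
  ext n
  apply (s37r_resMap A L₀).injective
  have := congrArg (fun z : LaurentSeries _ => z.coeff n) hxy
  simpa using this

variable [IsDiscreteValuationRing ↥(s18q_A0 A L₀)] (ϖ : ↥(s18q_A0 A L₀)) (hϖ : Irreducible ϖ)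
  (M : ℕ)

/-- the Gauss datum of the level `L₀`. -/
abbrev s37r_G : s18g_GaussData ↥L₀ (IsLocalRing.ResidueField ↥(s18q_A0 A L₀)) :=
  s18g_GaussData.ofResidue (s18q_A0 A L₀) ϖ hϖ

/-- elements of the level Gauss ring are in the top-level Gauss ring. -/
theorem s37r_level_mem_O {f : LaurentSeries ↥L₀} (hf : f ∈ s18g_O (s37r_G A L₀ ϖ hϖ)) :
    coeffMap (algebraMap ↥L₀ Qbar) f ∈ s37r_O A (IsLocalRing.residue ↥A) :=
  s37r_mem_O_of_level A (IsLocalRing.residue ↥A) (algebraMap ↥L₀ Qbar)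
    (IsLocalRing.residue ↥(s18q_A0 A L₀)) (s37r_resMap A L₀) (s37r_resMap_comp A L₀) hf

/-- the top-level reduction of an element of the level Gauss ring. -/
theorem s37r_level_red (f : s18g_O (s37r_G A L₀ ϖ hϖ))
    (hmem : coeffMap (algebraMap ↥L₀ Qbar) (f : LaurentSeries ↥L₀) ∈
      s37r_O A (IsLocalRing.residue ↥A)) :
    s37r_red A (IsLocalRing.residue ↥A) ⟨_, hmem⟩ =
      coeffMap (s37r_resMap A L₀) (s18g_red (s37r_G A L₀ ϖ hϖ) f) := by
  obtain ⟨P, Q, hQ, h⟩ := f.2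
  rw [s18g_red_eq (s37r_G A L₀ ϖ hϖ) f P Q hQ h]
  exact s37r_red_of_level A (IsLocalRing.residue ↥A) (algebraMap ↥L₀ Qbar)
    (IsLocalRing.residue ↥(s18q_A0 A L₀)) (s37r_resMap A L₀) (s37r_resMap_comp A L₀) P Q hQ h hmem

include hϖ in
/-- the uniformiser of the level is in the maximal ideal of `A`. -/
theorem s37r_unif_mem_maximalIdeal :
    s18q_A0_hom A L₀ ϖ ∈ IsLocalRing.maximalIdeal ↥A := by
  rw [s18q_A0_hom_mem_maximalIdeal]
  exact hϖ.not_isUnit

/-- conversely: an element of the level function field whose image is top-level Gauss-integral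
is level Gauss-integral. -/
theorem s37r_level_mem_V_of_mem_O
    (f₀ : ↥(laurentBaseChange ↥L₀ (modularFunctionFieldFull M)))
    (hf : coeffMap (algebraMap ↥L₀ Qbar) (f₀ : LaurentSeries ↥L₀) ∈
      s37r_O A (IsLocalRing.residue ↥A)) :
    f₀ ∈ s18x_V (s37r_G A L₀ ϖ hϖ) M := by
  set G := s37r_G A L₀ ϖ hϖ with hG
  set V := s18x_V G M with hV
  by_contra hnot
  -- then `f₀⁻¹ ∈ ϖ V`
  have hinv : f₀⁻¹ ∈ V := (V.mem_or_inv_mem f₀).resolve_left hnot
  have hf0 : f₀ ≠ 0 := fun h => hnot (h ▸ V.zero_mem)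
  have hnu : ¬ IsUnit (⟨f₀⁻¹, hinv⟩ : V) := by
    intro hu
    obtain ⟨v, hv⟩ := hu.exists_right_inv
    apply hnot
    have h1 : f₀⁻¹ * (v : ↥(laurentBaseChange ↥L₀ (modularFunctionFieldFull M))) = 1 :=
      congrArg Subtype.val hv
    have : (v : ↥(laurentBaseChange ↥L₀ (modularFunctionFieldFull M))) = f₀ := by
      have := congrArg (fun z => f₀ * z) h1
      simp only [mul_one] at this
      rw [← mul_assoc, mul_inv_cancel₀ hf0, one_mul] at this
      exact this
    rw [← this]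
    exact v.2
  obtain ⟨g, hg⟩ := s18g_unifV_dvd_of_not_isUnit G _ _ ⟨f₀⁻¹, hinv⟩ hnu
  -- reduce at the top level
  have hgO : ((g : ↥(laurentBaseChange ↥L₀ (modularFunctionFieldFull M))) :
      LaurentSeries ↥L₀) ∈ s18g_O G := g.2
  have hg' : coeffMap (algebraMap ↥L₀ Qbar)
      ((g : ↥(laurentBaseChange ↥L₀ (modularFunctionFieldFull M))) : LaurentSeries ↥L₀) ∈
      s37r_O A (IsLocalRing.residue ↥A) := s37r_level_mem_O A L₀ ϖ hϖ hgO
  -- `1 = incl f₀ * C ϖ * incl g`
  have hrel : (f₀⁻¹ : ↥(laurentBaseChange ↥L₀ (modularFunctionFieldFull M))) =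
      algebraMap ↥L₀ _ ((ϖ : ↥(s18q_A0 A L₀)) : ↥L₀) * (g : _) := by
    have := congrArg Subtype.val hg
    rw [MulMemClass.coe_mul] at this
    exact this
  have hone : (1 : LaurentSeries Qbar) =
      coeffMap (algebraMap ↥L₀ Qbar) (f₀ : LaurentSeries ↥L₀) *
        (coeffMap A.subtype (HahnSeries.C (s18q_A0_hom A L₀ ϖ)) *
          coeffMap (algebraMap ↥L₀ Qbar)
            ((g : ↥(laurentBaseChange ↥L₀ (modularFunctionFieldFull M))) : LaurentSeries ↥L₀)) := by
    have h1 : (1 : ↥(laurentBaseChange ↥L₀ (modularFunctionFieldFull M))) =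
        f₀ * (algebraMap ↥L₀ _ ((ϖ : ↥(s18q_A0 A L₀)) : ↥L₀) * (g : _)) := by
      rw [← hrel, mul_inv_cancel₀ hf0]
    have h2 := congrArg (fun z : ↥(laurentBaseChange ↥L₀ (modularFunctionFieldFull M)) =>
      coeffMap (algebraMap ↥L₀ Qbar) (z : LaurentSeries ↥L₀)) h1
    simp only [OneMemClass.coe_one, map_one, MulMemClass.coe_mul, map_mul] at h2
    rw [h2]
    congr 2
    have : ((algebraMap ↥L₀ ↥(laurentBaseChange ↥L₀ (modularFunctionFieldFull M))
        ((ϖ : ↥(s18q_A0 A L₀)) : ↥L₀) : ↥(laurentBaseChange ↥L₀ (modularFunctionFieldFull M))) :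
        LaurentSeries ↥L₀) = HahnSeries.C ((ϖ : ↥(s18q_A0 A L₀)) : ↥L₀) := by
      rw [← s18g_coe_algebraMap]
    rw [this, HahnSeries.C_apply, HahnSeries.C_apply, coeffMap_single, coeffMap_single]
    rfl
  have hCmem : coeffMap A.subtype (HahnSeries.C (s18q_A0_hom A L₀ ϖ)) ∈
      s37r_O A (IsLocalRing.residue ↥A) := s37r_iota_mem_O A _ _
  have hred := congrArg (s37r_red A (IsLocalRing.residue ↥A))
    (show (1 : s37r_O A (IsLocalRing.residue ↥A)) = ⟨_, hf⟩ * (⟨_, hCmem⟩ * ⟨_, hg'⟩) from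
      Subtype.ext hone)
  rw [map_one, map_mul, map_mul, s37r_red_iota] at hred
  have hC0 : coeffMap (IsLocalRing.residue ↥A) (HahnSeries.C (s18q_A0_hom A L₀ ϖ)) = 0 := by
    rw [HahnSeries.C_apply, coeffMap_single,
      (IsLocalRing.residue_eq_zero_iff _).mpr (s37r_unif_mem_maximalIdeal A L₀ ϖ hϖ),
      HahnSeries.single_eq_zero]
  rw [hC0, zero_mul, mul_zero] at hred
  exact one_ne_zero hred

end Level

end Fermat.Agent.Lib.S37
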