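/-
S37 moonshot (M-B), package [R], leaf (P3)(b) (helper6): DESCENT ON THE SPECIAL FIBRE.

`κ = ResidueField A` (`A ⊆ ℚ̄` a valuation ring), `κ_L = ResidueField (A ∩ L)` for a subfield
`L ⊆ ℚ̄`, `ρ_L = s37r_resMap A L : κ_L →+* κ`.

* `s37kd_exists_level`   : finitely many elements of `κ` lie in `range ρ_L` for a finite `L ⊇ L₁`;
* `s37kd_exists_finset_of_mem` : every `z ∈ F_κ(M)` descends to `F_{κ_L}(M)` as soon as a finite set
  of constants does;
* `s37kd_descent_series`, `s37kd_descent` : if moreover `z` is integral over `κ[w̄]`, then for a suitable finite level `L₀`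
  and EVERY `L ⊇ L₀`, for every `w̄₀` over `κ_L` with `coeffMap ρ_L w̄₀ = w̄` there is
  `z₀ ∈ F_{κ_L}(M)`, integral over `κ_L[w̄₀]`, with `coeffMap ρ_L z₀ = z`.
-/
import Fermat.Agent.Lib.S37.RTop
import Fermat.Agent.Lib.S37.EFrob

set_option autoImplicit false
set_option linter.style.haveILetI false
set_option linter.unusedSectionVars false
set_option synthInstance.maxHeartbeats 400000

noncomputable section

namespace Fermat.Agent.Lib.S37

open ModularCurve HahnSeries AlgebraicCurve Fermat.Agent.Lib.S18 IntermediateField Polynomial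

local notation "Qbar" => AlgebraicClosure ℚ

/-! ### Abstract polynomial descent -/

section Abstract

variable {k₀ k : Type*} [CommRing k₀] [CommRing k] (ρ : k₀ →+* k)

/-- A two-variable polynomial lifts along `ρ` as soon as all its coefficients do. -/
theorem s37kd_lifts_of_coeffs (p : k[X][X])
    (h : ∀ n m, (p.coeff n).coeff m ∈ Set.range ρ) :
    p ∈ Polynomial.lifts (Polynomial.mapRingHom ρ) := by
  rw [Polynomial.lifts_iff_coeff_lifts]
  intro n
  have h1 : p.coeff n ∈ Polynomial.lifts ρ := by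
    rw [Polynomial.lifts_iff_coeff_lifts]
    exact fun m => h n m
  obtain ⟨q, hq⟩ := (Polynomial.mem_lifts _).mp h1
  exact ⟨q, hq⟩

end Abstract

section AbstractSeries

variable {k₀ k : Type*} [Field k₀] [Field k] (ρ : k₀ →+* k)

theorem s37kd_coeffMap_injective : Function.Injective (coeffMap ρ) := by
  intro x y hxy
  ext n
  apply ρ.injective
  have := congrArg (fun z : LaurentSeries k => z.coeff n) hxy
  simpa using this

/-- `coeffMap ρ (p(w₀)) = (ρ p)(coeffMap ρ w₀)`. -/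
theorem s37kd_coeffMap_comp_aeval (w₀ : LaurentSeries k₀) :
    (coeffMap ρ).comp (Polynomial.aeval w₀ : k₀[X] →ₐ[k₀] LaurentSeries k₀).toRingHom =
      ((Polynomial.aeval (coeffMap ρ w₀) : k[X] →ₐ[k] LaurentSeries k).toRingHom).comp
        (Polynomial.mapRingHom ρ) := by
  refine Polynomial.ringHom_ext (fun a => ?_) ?_
  · simp only [RingHom.coe_comp, Function.comp_apply, AlgHom.toRingHom_eq_coe, RingHom.coe_coe,
      Polynomial.aeval_C, Polynomial.coe_mapRingHom, Polynomial.map_C]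
    exact s37e_coeffMap_algebraMap ρ a
  · simp only [RingHom.coe_comp, Function.comp_apply, AlgHom.toRingHom_eq_coe, RingHom.coe_coe,
      Polynomial.aeval_X, Polynomial.coe_mapRingHom, Polynomial.map_X]

/-- Integrality over `k₀[w₀]` can be checked after applying the injective map `coeffMap ρ`,
provided the monic equation over `k[coeffMap ρ w₀]` has coefficients in the range of `ρ`. -/
theorem s37kd_isIntegralElem_descent (w₀ z₀ : LaurentSeries k₀) (p : k[X][X]) (hp : p.Monic)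
    (hlift : p ∈ Polynomial.lifts (Polynomial.mapRingHom ρ))
    (hroot : Polynomial.eval₂
      (Polynomial.aeval (coeffMap ρ w₀) : k[X] →ₐ[k] LaurentSeries k).toRingHom
      (coeffMap ρ z₀) p = 0) :
    (Polynomial.aeval w₀ : k₀[X] →ₐ[k₀] LaurentSeries k₀).toRingHom.IsIntegralElem z₀ := by
  obtain ⟨p₀, hmap, -, hmonic⟩ := Polynomial.lifts_and_degree_eq_and_monic hlift hp
  refine ⟨p₀, hmonic, ?_⟩
  apply s37kd_coeffMap_injective ρ
  rw [map_zero, Polynomial.hom_eval₂, s37kd_coeffMap_comp_aeval, ← Polynomial.eval₂_map]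
  rw [hmap]
  exact hroot

/-- Integrality of an element of an intermediate field `E ⊆ k((q))` over `k[x]`, `x ∈ E`, can be
tested in `k((q))`. -/
theorem s37kd_isIntegralElem_coe_iff {k : Type*} [Field k]
    (E : IntermediateField k (LaurentSeries k)) (x z : ↥E) :
    (Polynomial.aeval x : k[X] →ₐ[k] ↥E).toRingHom.IsIntegralElem z ↔
      (Polynomial.aeval (x : LaurentSeries k) : k[X] →ₐ[k] LaurentSeries k).toRingHom.IsIntegralElem
        (z : LaurentSeries k) := by
  have hcomp : (E.val : ↥E →+* LaurentSeries k).comp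
      (Polynomial.aeval x : k[X] →ₐ[k] ↥E).toRingHom =
      (Polynomial.aeval (x : LaurentSeries k) : k[X] →ₐ[k] LaurentSeries k).toRingHom := by
    refine RingHom.ext fun p => ?_
    show E.val (Polynomial.aeval x p) = Polynomial.aeval (x : LaurentSeries k) p
    rw [← Polynomial.aeval_algHom_apply]
    rfl
  have key : ∀ p : k[X][X],
      ((Polynomial.eval₂ (Polynomial.aeval x : k[X] →ₐ[k] ↥E).toRingHom z p : ↥E) :
        LaurentSeries k) =
      Polynomial.eval₂
        (Polynomial.aeval (x : LaurentSeries k) : k[X] →ₐ[k] LaurentSeries k).toRingHom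
        (z : LaurentSeries k) p := by
    intro p
    have h := Polynomial.hom_eval₂ p (Polynomial.aeval x : k[X] →ₐ[k] ↥E).toRingHom
      (E.val : ↥E →+* LaurentSeries k) z
    rw [hcomp] at h
    exact h
  constructor
  · rintro ⟨p, hp, h0⟩
    refine ⟨p, hp, ?_⟩
    rw [← key p, h0]
    rfl
  · rintro ⟨p, hp, h0⟩
    refine ⟨p, hp, Subtype.ext ?_⟩
    rw [key p, h0]
    rfl

end AbstractSeries

/-! ### Levels -/

section Levels

variable (A : ValuationSubring Qbar)

local notation "κ" => IsLocalRing.ResidueField A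

/-- the residue of an element of `A ∩ L` is in the range of `ρ_L`. -/
theorem s37kd_mem_range_of_mem (L : IntermediateField ℚ Qbar) (a : Qbar) (haA : a ∈ A)
    (haL : a ∈ L) : IsLocalRing.residue ↥A ⟨a, haA⟩ ∈ Set.range (s37r_resMap A L) :=
  ⟨IsLocalRing.residue _ (⟨⟨a, haL⟩, haA⟩ : ↥(s18q_A0 A L)), rfl⟩

/-- the ranges of the `ρ_L` grow with `L`. -/
theorem s37kd_range_mono {L₀ L : IntermediateField ℚ Qbar} (h : L₀ ≤ L) :
    Set.range (s37r_resMap A L₀) ⊆ Set.range (s37r_resMap A L) := by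
  rintro _ ⟨c₀, rfl⟩
  obtain ⟨x, rfl⟩ := IsLocalRing.residue_surjective c₀
  exact s37kd_mem_range_of_mem A L ((x : ↥L₀) : Qbar) x.2 (h (x : ↥L₀).2)

/-- **(K1)** finitely many elements of `κ` come from a common finite level. -/
theorem s37kd_exists_level (L₁ : IntermediateField ℚ Qbar) [FiniteDimensional ℚ ↥L₁]
    (s : Finset κ) :
    ∃ L₀ : IntermediateField ℚ Qbar, FiniteDimensional ℚ ↥L₀ ∧ L₁ ≤ L₀ ∧
      ∀ c ∈ s, c ∈ Set.range (s37r_resMap A L₀) := by
  classical
  induction s using Finset.induction_on with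
  | empty => exact ⟨L₁, inferInstance, le_rfl, fun c hc => absurd hc (Finset.notMem_empty c)⟩
  | insert c s hc ih =>
    obtain ⟨L₀, hfin, hle, hs⟩ := ih
    obtain ⟨a, rfl⟩ := IsLocalRing.residue_surjective c
    haveI := hfin
    haveI : Algebra.IsAlgebraic ℚ Qbar := s18q_isAlgebraic_bar
    haveI : FiniteDimensional ℚ ↥(ℚ⟮(a : Qbar)⟯) :=
      IntermediateField.adjoin.finiteDimensional
        (Algebra.IsAlgebraic.isAlgebraic (a : Qbar)).isIntegral
    refine ⟨L₀ ⊔ ℚ⟮(a : Qbar)⟯, IntermediateField.finiteDimensional_sup _ _,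
      le_trans hle le_sup_left, ?_⟩
    intro c' hc'
    rcases Finset.mem_insert.mp hc' with rfl | hc'
    · exact s37kd_mem_range_of_mem A _ (a : Qbar) a.2
        ((le_sup_right : ℚ⟮(a : Qbar)⟯ ≤ L₀ ⊔ ℚ⟮(a : Qbar)⟯) (mem_adjoin_simple_self ℚ _))
    · exact s37kd_range_mono A le_sup_left (hs c' hc')

variable (M : ℕ) [NeZero M]

/-- **(K2)** every element of `F_κ(M)` descends to any level containing a finite set of
constants. -/
theorem s37kd_exists_finset_of_mem {z : LaurentSeries κ}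
    (hz : z ∈ modularFunctionFieldFullC κ M) :
    ∃ s : Finset κ, ∀ L : IntermediateField ℚ Qbar,
      (∀ c ∈ s, c ∈ Set.range (s37r_resMap A L)) →
        ∃ z₀ ∈ modularFunctionFieldFullC (IsLocalRing.ResidueField ↥(s18q_A0 A L)) M,
          coeffMap (s37r_resMap A L) z₀ = z := by
  classical
  unfold modularFunctionFieldFullC at hz
  induction hz using IntermediateField.adjoin_induction with
  | mem y hy =>
    obtain ⟨d, hd, hdN, rfl⟩ := hy
    have := hd
    refine ⟨∅, fun L _ => ⟨qExpand _ d (jqModC _), jqModCd_mem_full _ M hdN, ?_⟩⟩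
    rw [coeffMap_qExpand, coeffMap_jqModC]
  | algebraMap c =>
    refine ⟨{c}, fun L hL => ?_⟩
    obtain ⟨c₀, hc₀⟩ := hL c (Finset.mem_singleton_self c)
    exact ⟨algebraMap _ _ c₀, (modularFunctionFieldFullC _ M).algebraMap_mem _, by
      rw [s37e_coeffMap_algebraMap, hc₀]⟩
  | add x y _ _ hx hy =>
    obtain ⟨s, hs⟩ := hx
    obtain ⟨t, ht⟩ := hy
    refine ⟨s ∪ t, fun L hL => ?_⟩
    obtain ⟨x₀, hx₀, rfl⟩ := hs L (fun c hc => hL c (Finset.mem_union_left _ hc))
    obtain ⟨y₀, hy₀, rfl⟩ := ht L (fun c hc => hL c (Finset.mem_union_right _ hc))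
    exact ⟨x₀ + y₀, add_mem hx₀ hy₀, map_add _ _ _⟩
  | inv x _ hx =>
    obtain ⟨s, hs⟩ := hx
    refine ⟨s, fun L hL => ?_⟩
    obtain ⟨x₀, hx₀, rfl⟩ := hs L hL
    exact ⟨x₀⁻¹, inv_mem hx₀, map_inv₀ _ _⟩
  | mul x y _ _ hx hy =>
    obtain ⟨s, hs⟩ := hx
    obtain ⟨t, ht⟩ := hy
    refine ⟨s ∪ t, fun L hL => ?_⟩
    obtain ⟨x₀, hx₀, rfl⟩ := hs L (fun c hc => hL c (Finset.mem_union_left _ hc))
    obtain ⟨y₀, hy₀, rfl⟩ := ht L (fun c hc => hL c (Finset.mem_union_right _ hc))
    exact ⟨x₀ * y₀, mul_mem hx₀ hy₀, map_mul _ _ _⟩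

/-- **(K3)** descent of integral elements: if `z ∈ F_κ(M)` is integral over `κ[w̄]`, then at every
level `L` containing a suitable finite level `L₀ ⊇ L₁`, for every `w̄₀` over `κ_L` lifting `w̄`
there is `z₀ ∈ F_{κ_L}(M)` lifting `z`, integral over `κ_L[w̄₀]`. -/
theorem s37kd_descent_series (L₁ : IntermediateField ℚ Qbar) [FiniteDimensional ℚ ↥L₁]
    (wb z : LaurentSeries κ) (hz : z ∈ modularFunctionFieldFullC κ M)
    (hint : (Polynomial.aeval wb : κ[X] →ₐ[κ] LaurentSeries κ).toRingHom.IsIntegralElem z) :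
    ∃ L₀ : IntermediateField ℚ Qbar, FiniteDimensional ℚ ↥L₀ ∧ L₁ ≤ L₀ ∧
      ∀ L : IntermediateField ℚ Qbar, L₀ ≤ L →
        ∀ w₀ : LaurentSeries (IsLocalRing.ResidueField ↥(s18q_A0 A L)),
          coeffMap (s37r_resMap A L) w₀ = wb →
          ∃ z₀ ∈ modularFunctionFieldFullC (IsLocalRing.ResidueField ↥(s18q_A0 A L)) M,
            coeffMap (s37r_resMap A L) z₀ = z ∧
              (Polynomial.aeval w₀ : (IsLocalRing.ResidueField ↥(s18q_A0 A L))[X] →ₐ[_]
                LaurentSeries (IsLocalRing.ResidueField ↥(s18q_A0 A L))).toRingHom.IsIntegralElem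
                z₀ := by
  classical
  obtain ⟨p, hp, hroot⟩ := hint
  obtain ⟨s, hs⟩ := s37kd_exists_finset_of_mem A M hz
  set t : Finset κ := p.coeffs.biUnion Polynomial.coeffs with ht
  obtain ⟨L₀, hfin, hle, hL₀⟩ := s37kd_exists_level A L₁ (s ∪ t)
  refine ⟨L₀, hfin, hle, fun L hL w₀ hw₀ => ?_⟩
  have hrange : ∀ c ∈ s ∪ t, c ∈ Set.range (s37r_resMap A L) :=
    fun c hc => s37kd_range_mono A hL (hL₀ c hc)
  obtain ⟨z₀, hz₀, hz₀z⟩ := hs L (fun c hc => hrange c (Finset.mem_union_left _ hc))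
  refine ⟨z₀, hz₀, hz₀z, ?_⟩
  have hlift : p ∈ Polynomial.lifts (Polynomial.mapRingHom (s37r_resMap A L)) := by
    refine s37kd_lifts_of_coeffs _ p (fun n m => ?_)
    by_cases hm : (p.coeff n).coeff m = 0
    · exact ⟨0, by rw [map_zero, hm]⟩
    · have hn : p.coeff n ≠ 0 := fun h0 => hm (by rw [h0, Polynomial.coeff_zero])
      exact hrange _ (Finset.mem_union_right _ (Finset.mem_biUnion.mpr
        ⟨p.coeff n, Polynomial.coeff_mem_coeffs hn, Polynomial.coeff_mem_coeffs hm⟩))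
  refine s37kd_isIntegralElem_descent (s37r_resMap A L) w₀ z₀ p hp hlift ?_
  rw [hw₀, hz₀z]
  exact hroot

/-- **(P3b)** descent of integral elements, in the form consumed by the glue (P3c): elements of
the function fields, the level `L₀` itself. -/
theorem s37kd_descent (L₁ : IntermediateField ℚ Qbar) [FiniteDimensional ℚ ↥L₁]
    (wb z : ↥(modularFunctionFieldFullC κ M))
    (hz : (Polynomial.aeval wb : κ[X] →ₐ[κ] ↥(modularFunctionFieldFullC κ M)).toRingHom.IsIntegralElem
      z) :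
    ∃ L₀ : IntermediateField ℚ Qbar, FiniteDimensional ℚ ↥L₀ ∧ L₁ ≤ L₀ ∧
      ∀ w0b : ↥(modularFunctionFieldFullC (IsLocalRing.ResidueField ↥(s18q_A0 A L₀)) M),
        coeffMap (s37r_resMap A L₀)
            (w0b : LaurentSeries (IsLocalRing.ResidueField ↥(s18q_A0 A L₀))) =
          (wb : LaurentSeries κ) →
        ∃ z0 : ↥(modularFunctionFieldFullC (IsLocalRing.ResidueField ↥(s18q_A0 A L₀)) M),
          coeffMap (s37r_resMap A L₀)
              (z0 : LaurentSeries (IsLocalRing.ResidueField ↥(s18q_A0 A L₀))) =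
            (z : LaurentSeries κ) ∧
          (Polynomial.aeval w0b : (IsLocalRing.ResidueField ↥(s18q_A0 A L₀))[X] →ₐ[_]
            ↥(modularFunctionFieldFullC (IsLocalRing.ResidueField ↥(s18q_A0 A L₀))
              M)).toRingHom.IsIntegralElem z0 := by
  obtain ⟨L₀, hfin, hle, h⟩ := s37kd_descent_series A M L₁ (wb : LaurentSeries κ)
    (z : LaurentSeries κ) z.2 ((s37kd_isIntegralElem_coe_iff _ wb z).mp hz)
  refine ⟨L₀, hfin, hle, fun w0b hw => ?_⟩
  obtain ⟨z₀, hz₀, hz₀z, hint⟩ := h L₀ le_rfl _ hw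
  exact ⟨⟨z₀, hz₀⟩, hz₀z, (s37kd_isIntegralElem_coe_iff _ w0b ⟨z₀, hz₀⟩).mpr hint⟩

end Levels

end Fermat.Agent.Lib.S37
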