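/-
S37 moonshot, package [RB] (lead): the special fibre is a Dedekind chart.

Abstract form: `k₀` a perfect field, `F ⊇ k₀` a field of characteristic `ℓ`, generated over `k₀`
by a finite set `S`; `x ∈ F` transcendental over `k₀`, not an `ℓ`-th power in `F`, every element of
`S` algebraic over `k₀(x)`.  Then for ANY algebra structure `[Algebra k₀[X] F]` acting through
`X ↦ x`, the integral closure of `k₀[X]` in `F` is a Dedekind domain with fraction field `F`.
-/
import Fermat.Agent.Lib.S18.GDeg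

set_option autoImplicit false
set_option linter.style.haveILetI false

noncomputable section

namespace Fermat.Agent.Lib.S37

open Polynomial IntermediateField Fermat.Agent.Lib.S18

section Abs

variable {k₀ F : Type*} [Field k₀] [Field F] [Algebra k₀ F]

/-- Finiteness over `k₀(x) ⊆ F` transfers to any model `Fr` of the fraction field of `k₀[X]`
acting through `X ↦ x`. -/
theorem s37b_finite_fraction {Fr : Type*} (x : F)
    (hx : Transcendental k₀ x) [Field Fr] [Algebra k₀[X] Fr] [IsFractionRing k₀[X] Fr]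
    [Algebra k₀[X] F] (hA : ∀ p : k₀[X], algebraMap k₀[X] F p = aeval x p) [Algebra Fr F]
    [IsScalarTower k₀[X] Fr F] [hfin : Module.Finite ↥k₀⟮x⟯ F] :
    Module.Finite Fr F := by
  let φ : RatFunc k₀ ≃ₐ[k₀] ↥k₀⟮x⟯ := RatFunc.algEquivOfTranscendental x hx
  let ψ : RatFunc k₀ ≃ₐ[k₀[X]] Fr :=
    IsLocalization.algEquiv (nonZeroDivisors k₀[X]) (RatFunc k₀) Fr
  let e₁ : ↥k₀⟮x⟯ ≃+* Fr := φ.symm.toRingEquiv.trans ψ.toRingEquiv
  have hcomp : ((algebraMap Fr F).comp (ψ : RatFunc k₀ →+* Fr)) =
      (algebraMap ↥k₀⟮x⟯ F).comp (φ : RatFunc k₀ →+* ↥k₀⟮x⟯) := by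
    apply IsLocalization.ringHom_ext (nonZeroDivisors k₀[X])
    refine RingHom.ext fun p => ?_
    show algebraMap Fr F (ψ (algebraMap k₀[X] (RatFunc k₀) p)) =
      algebraMap ↥k₀⟮x⟯ F (φ (algebraMap k₀[X] (RatFunc k₀) p))
    rw [AlgEquiv.commutes, ← IsScalarTower.algebraMap_apply, hA,
      RatFunc.algEquivOfTranscendental_algebraMap, ← Polynomial.aeval_algebraMap_apply,
      IntermediateField.AdjoinSimple.algebraMap_gen]
  refine Module.Finite.of_equiv_equiv e₁ (RingEquiv.refl F) ?_
  ext u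
  obtain ⟨v, rfl⟩ := φ.surjective u
  have := DFunLike.congr_fun hcomp v
  simpa [e₁] using this

variable [PerfectField k₀] (ℓ : ℕ) [Fact ℓ.Prime] [CharP F ℓ]

/-- **The abstract Dedekind chart.** -/
theorem s37b_dedekind_abs (x : F) (hxtr : Transcendental k₀ x) (hxpow : ∀ y : F, y ^ ℓ ≠ x)
    (S : Set F) (hSfin : S.Finite) (hStop : IntermediateField.adjoin k₀ S = ⊤)
    (hSalg : ∀ s ∈ S, IsAlgebraic ↥k₀⟮x⟯ s)
    [Algebra k₀[X] F] (hA : ∀ p : k₀[X], algebraMap k₀[X] F p = Polynomial.aeval x p) :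
    IsDedekindDomain ↥(integralClosure k₀[X] F) ∧
      IsFractionRing ↥(integralClosure k₀[X] F) F := by
  -- finiteness over `k₀(x)`
  haveI hfin : Module.Finite ↥k₀⟮x⟯ F := by
    haveI : Finite ↥S := hSfin.to_subtype
    have h1 : FiniteDimensional ↥k₀⟮x⟯ ↥(IntermediateField.adjoin ↥k₀⟮x⟯ S) :=
      IntermediateField.finiteDimensional_adjoin (fun s hs => (hSalg s hs).isIntegral)
    have htop : IntermediateField.adjoin ↥k₀⟮x⟯ S = ⊤ := by
      rw [eq_top_iff]
      have h2 : IntermediateField.adjoin k₀ S ≤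
          (IntermediateField.adjoin ↥k₀⟮x⟯ S).restrictScalars k₀ := by
        rw [IntermediateField.adjoin_le_iff]
        intro s hs
        exact IntermediateField.subset_adjoin _ _ hs
      intro u _
      have h3 : u ∈ IntermediateField.adjoin k₀ S := by rw [hStop]; trivial
      exact h2 h3
    rw [htop] at h1
    exact Module.Finite.equiv (IntermediateField.topEquiv (F := ↥k₀⟮x⟯) (E := F)).toLinearEquiv
  -- separability over `k₀(x)`
  haveI hsep : Algebra.IsSeparable ↥k₀⟮x⟯ F := by
    haveI : Algebra.IsAlgebraic ↥k₀⟮x⟯ F := Algebra.IsAlgebraic.of_finite _ _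
    exact ⟨fun u => s18t_isSeparable_of_not_pow ℓ x hxpow u (Algebra.IsAlgebraic.isAlgebraic u)⟩
  -- transfer to the fraction ring
  haveI : FaithfulSMul k₀[X] F :=
    (faithfulSMul_iff_algebraMap_injective _ _).mpr (s18g_algebraMap_poly_injective x hxtr hA)
  letI : Algebra (FractionRing k₀[X]) F := FractionRing.liftAlgebra _ _
  haveI : IsScalarTower k₀[X] (FractionRing k₀[X]) F := FractionRing.isScalarTower_liftAlgebra _ _
  haveI : Module.Finite (FractionRing k₀[X]) F := s37b_finite_fraction x hxtr hA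
  haveI : Algebra.IsSeparable (FractionRing k₀[X]) F := s18g_isSeparable_fraction x hxtr hA
  exact ⟨integralClosure.isDedekindDomain k₀[X] (FractionRing k₀[X]) F,
    integralClosure.isFractionRing_of_finite_extension (FractionRing k₀[X]) F⟩

end Abs

end Fermat.Agent.Lib.S37
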