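/-
S37 moonshot, package [RB] (lead), concrete part: the special fibre `F_κ(M) = κ(j̄(q^d) : d ∣ M)`
inside `κ((q))`, `κ` perfect of characteristic `ℓ`, is a Dedekind chart over the line of any good
coordinate `x` (`s37b_Coord`: transcendental, `q`-order prime to `ℓ`, `j̄ ∈ κ(x)`): for ANY algebra
structure `[Algebra κ[X] F_κ(M)]` acting through `X ↦ x`, the integral closure of `κ[X]` in
`F_κ(M)` is a Dedekind domain with fraction field `F_κ(M)`.  Good coordinates: `j̄`, `t̄₂`, `t̄₃`
and their inverses.  No exact degree is needed, only finiteness (the modular equations make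
`j̄(q^d)` integral over `ℤ[j̄]`) and separability (MacLane, package [T] of S18).
-/
import Fermat.Agent.Lib.S37.BBase
import Fermat.Agent.Lib.S28.DInt
import Fermat.Agent.Lib.S28.EConc
import Fermat.Agent.Lib.S18.TLevelU
import Fermat.Agent.Lib.S18.BHaupt
import Fermat.Agent.Lib.S18.XPerfect
import Fermat.Agent.Lib.S28.VTrans

set_option autoImplicit false
set_option linter.style.haveILetI false

noncomputable section

namespace Fermat.Agent.Lib.S37

open Polynomial IntermediateField Fermat.Agent.Lib.S18 Fermat.Agent.Lib.S28 ModularCurve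

theorem s37b_adjoin_preimage_eq_top {k L : Type*} [Field k] [Field L] [Algebra k L] (S' : Set L) :
    IntermediateField.adjoin k ((IntermediateField.adjoin k S').val ⁻¹' S') = ⊤ := by
  apply IntermediateField.map_injective (IntermediateField.adjoin k S').val
  rw [IntermediateField.adjoin_map, Set.image_preimage_eq_of_subset,
    ← AlgHom.fieldRange_eq_map, IntermediateField.fieldRange_val]
  intro s hs
  exact ⟨⟨s, IntermediateField.subset_adjoin k S' hs⟩, rfl⟩

/-- From the explicit integrality `s28d_IntOver u v` to integrality over any ring through which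
`u` factors. -/
theorem s37b_isIntegral_of_intOver {A E : Type*} [CommRing A] [CommRing E] [Algebra A E]
    (a : A) (v : E) (h : s28d_IntOver (algebraMap A E a) v) : IsIntegral A v := by
  obtain ⟨G, hG, h0⟩ := h
  refine ⟨G.map (aeval a : Polynomial ℤ →ₐ[ℤ] A).toRingHom, hG.map _, ?_⟩
  rw [Polynomial.eval₂_map]
  have h1 : (algebraMap A E).comp (aeval a : Polynomial ℤ →ₐ[ℤ] A).toRingHom =
      (aeval (algebraMap A E a) : Polynomial ℤ →ₐ[ℤ] E).toRingHom := by
    apply Polynomial.ringHom_ext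
    · intro c; simp
    · simp
  rw [h1, ← Polynomial.eval_map]
  exact h0

/-- `j̄(q^d)` is explicitly integral over `ℤ[j̄]` in `κ((q))`, any commutative ring `κ`. -/
theorem s37b_intOver_jqModC (κ : Type*) [CommRing κ] (d : ℕ) [NeZero d] :
    s28d_IntOver (jqModC κ) (qExpand κ d (jqModC κ)) := by
  have h1 : s28d_IntOver (jqModC ℤ) (qExpand ℤ d (jqModC ℤ)) := by
    refine s28d_intOver_of_map (coeffMap (Int.castRingHom ℚ))
      (s28d_coeffMap_injective _ (Int.castRingHom ℚ).injective_int) ?_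
    rw [coeffMap_qExpand, coeffMap_jqModC]
    exact s28d_intOver_jq d
  have h2 := s28d_intOver_map (coeffMap (Int.castRingHom κ)) h1
  rwa [coeffMap_qExpand, coeffMap_jqModC] at h2

section Conc

variable (κ : Type*) [Field κ] [PerfectField κ] (ℓ : ℕ) [Fact ℓ.Prime] [CharP κ ℓ] (M : ℕ)
  [NeZero M]

/-- **[RB], general form**: for a coordinate `x ∈ F_κ(M)`, transcendental, of `q`-order prime to
`ℓ`, with `j̄ ∈ κ(x)`: the integral closure of `κ[x]` in `F_κ(M)` is a Dedekind domain with
fraction field `F_κ(M)`. -/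
theorem s37b_dedekind (x : ↥(modularFunctionFieldFullC κ M))
    (hxtr : Transcendental κ (x : LaurentSeries κ))
    (hord : ¬ (ℓ : ℤ) ∣ (x : LaurentSeries κ).order)
    (hj : jqModC κ ∈ κ⟮(x : LaurentSeries κ)⟯)
    [Algebra κ[X] ↥(modularFunctionFieldFullC κ M)]
    (hA : ∀ p : κ[X], algebraMap κ[X] ↥(modularFunctionFieldFullC κ M) p = Polynomial.aeval x p) :
    IsDedekindDomain ↥(integralClosure κ[X] ↥(modularFunctionFieldFullC κ M)) ∧
      IsFractionRing ↥(integralClosure κ[X] ↥(modularFunctionFieldFullC κ M))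
        ↥(modularFunctionFieldFullC κ M) := by
  haveI : CharP ↥(modularFunctionFieldFullC κ M) ℓ :=
    ((algebraMap κ ↥(modularFunctionFieldFullC κ M)).charP_iff_charP ℓ).mp inferInstance
  -- transcendence in `F`
  have hxtr' : Transcendental κ x := by
    rw [transcendental_iff]
    intro p hp
    have h2 := Polynomial.aeval_algHom_apply (modularFunctionFieldFullC κ M).val x p
    rw [hp, map_zero] at h2
    exact (transcendental_iff.mp hxtr) p h2
  -- not an `ℓ`-th power
  have hpow : ∀ y : ↥(modularFunctionFieldFullC κ M), y ^ ℓ ≠ x := by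
    intro y hy
    refine s18t_not_pow_of_order ℓ _ hord (y : LaurentSeries κ) ?_
    have h1 := congrArg (fun z : ↥(modularFunctionFieldFullC κ M) => (z : LaurentSeries κ)) hy
    simp only [SubmonoidClass.coe_pow] at h1
    exact h1
  -- `j̄ ∈ κ(x)` in `F`
  have hjF : (⟨jqModC κ, jqModC_mem_full κ M⟩ : ↥(modularFunctionFieldFullC κ M)) ∈ κ⟮x⟯ := by
    have h1 : κ⟮(x : LaurentSeries κ)⟯ = (κ⟮x⟯).map (modularFunctionFieldFullC κ M).val := by
      rw [IntermediateField.adjoin_map, Set.image_singleton]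
      rfl
    rw [h1] at hj
    obtain ⟨y, hy, hyj⟩ := hj
    have : y = ⟨jqModC κ, jqModC_mem_full κ M⟩ := Subtype.ext hyj
    rwa [← this]
  refine s37b_dedekind_abs ℓ x hxtr' hpow
    ((modularFunctionFieldFullC κ M).val ⁻¹' divisorExpansionsC κ M) ?_ ?_ ?_ hA
  · exact Set.Finite.preimage (Set.injOn_of_injective (modularFunctionFieldFullC κ M).val.injective)
      (s28e_finite_divisorExpansionsC κ M)
  · exact s37b_adjoin_preimage_eq_top (divisorExpansionsC κ M)
  · intro s hs
    obtain ⟨d, hd, -, hsd⟩ := hs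
    refine IsIntegral.isAlgebraic ?_
    refine s37b_isIntegral_of_intOver (A := ↥κ⟮x⟯) (E := ↥(modularFunctionFieldFullC κ M))
      ⟨_, hjF⟩ s ?_
    refine s28d_intOver_of_map ((modularFunctionFieldFullC κ M).val : _ →+* LaurentSeries κ)
      (modularFunctionFieldFullC κ M).val.injective ?_
    have h2 : ((modularFunctionFieldFullC κ M).val : _ →+* LaurentSeries κ) s =
        qExpand κ d (jqModC κ) := hsd
    rw [h2]
    exact s37b_intOver_jqModC κ d

end Conc

section Coord

variable (κ : Type*) [Field κ] (ℓ : ℕ) [Fact ℓ.Prime]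

/-- A good coordinate of the special fibre: transcendental, of `q`-order prime to `ℓ`, with
`j̄ ∈ κ(x)`. -/
def s37b_Coord (x : LaurentSeries κ) : Prop :=
  Transcendental κ x ∧ ¬ (ℓ : ℤ) ∣ x.order ∧ jqModC κ ∈ κ⟮x⟯

theorem s37b_not_dvd_neg_one : ¬ (ℓ : ℤ) ∣ -1 := by
  intro h
  have h1 : (ℓ : ℤ) ∣ 1 := (dvd_neg).mp h
  have : ℓ ∣ 1 := by exact_mod_cast h1
  exact (Fact.out : ℓ.Prime).one_lt.ne' (Nat.dvd_one.mp this)

theorem s37b_coord_jq : s37b_Coord κ ℓ (jqModC κ) := by
  refine ⟨s28v_transcendental_jqModC κ, ?_, mem_adjoin_simple_self κ _⟩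
  rw [s18t_order_jqModC]
  exact s37b_not_dvd_neg_one ℓ

theorem s37b_coord_t2 : s37b_Coord κ ℓ (s18u_t2 κ) := by
  refine ⟨s18b_transcendental_t2 κ, ?_, (s18t_haupt_t2 κ).j_mem⟩
  rw [s18t_t2_order]
  exact s37b_not_dvd_neg_one ℓ

theorem s37b_coord_t3 : s37b_Coord κ ℓ (s18u_t3 κ) := by
  refine ⟨s18b_transcendental_t3 κ, ?_, (s18t_haupt_t3 κ).j_mem⟩
  rw [s18t_t3_order]
  exact s37b_not_dvd_neg_one ℓ

variable {κ} in
theorem s37b_order_inv {x : LaurentSeries κ} (hx : x ≠ 0) : (x⁻¹).order = -x.order := by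
  have h1 := HahnSeries.order_mul hx (inv_ne_zero hx)
  rw [mul_inv_cancel₀ hx, HahnSeries.order_one] at h1
  omega

omit [Fact ℓ.Prime] in
variable {κ ℓ} in
theorem s37b_coord_inv {x : LaurentSeries κ} (h : s37b_Coord κ ℓ x) : s37b_Coord κ ℓ x⁻¹ := by
  obtain ⟨htr, hord, hj⟩ := h
  have hx0 : x ≠ 0 := by
    rintro rfl
    exact hord (by rw [HahnSeries.order_zero]; exact dvd_zero _)
  refine ⟨?_, ?_, ?_⟩
  · unfold Transcendental
    rw [IsAlgebraic.inv_iff]
    exact htr
  · rw [s37b_order_inv hx0, dvd_neg]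
    exact hord
  · have hle : κ⟮x⟯ ≤ κ⟮x⁻¹⟯ := by
      rw [IntermediateField.adjoin_simple_le_iff]
      have h1 : (x⁻¹)⁻¹ ∈ κ⟮x⁻¹⟯ := inv_mem (mem_adjoin_simple_self κ _)
      rwa [inv_inv] at h1
    exact hle hj

end Coord

section Final

variable (κ : Type*) [Field κ] [PerfectField κ] (ℓ : ℕ) [Fact ℓ.Prime] [CharP κ ℓ] (M : ℕ)
  [NeZero M]

/-- **[RB]**: the Dedekind chart of the special fibre at a good coordinate. -/
theorem s37b_dedekind_of_coord (x : ↥(modularFunctionFieldFullC κ M))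
    (hx : s37b_Coord κ ℓ (x : LaurentSeries κ))
    [Algebra κ[X] ↥(modularFunctionFieldFullC κ M)]
    (hA : ∀ p : κ[X], algebraMap κ[X] ↥(modularFunctionFieldFullC κ M) p = Polynomial.aeval x p) :
    IsDedekindDomain ↥(integralClosure κ[X] ↥(modularFunctionFieldFullC κ M)) ∧
      IsFractionRing ↥(integralClosure κ[X] ↥(modularFunctionFieldFullC κ M))
        ↥(modularFunctionFieldFullC κ M) :=
  s37b_dedekind κ ℓ M x hx.1 hx.2.1 hx.2.2 hA

end Final

section Residue

set_option synthInstance.maxHeartbeats 400000 in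
/-- **[RB] at a place**: `A ⊂ K₀` a valuation ring of an algebraic extension of `ℚ` over `ℓ`,
`κ = A/𝔪`. -/
theorem s37b_dedekind_residue {K₀ : Type*} [Field K₀] [CharZero K₀] [Algebra.IsAlgebraic ℚ K₀]
    (A : ValuationSubring K₀) {ℓ : ℕ} (hℓ : ℓ.Prime) (hAℓ : A.LiesOverPrime ℓ)
    (M : ℕ) [NeZero M]
    (x : ↥(modularFunctionFieldFullC (IsLocalRing.ResidueField A) M))
    (hx : @s37b_Coord (IsLocalRing.ResidueField A) _ ℓ
      (x : LaurentSeries (IsLocalRing.ResidueField A)))
    [Algebra (IsLocalRing.ResidueField A)[X]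
      ↥(modularFunctionFieldFullC (IsLocalRing.ResidueField A) M)]
    (hA : ∀ p : (IsLocalRing.ResidueField A)[X],
      algebraMap (IsLocalRing.ResidueField A)[X]
        ↥(modularFunctionFieldFullC (IsLocalRing.ResidueField A) M) p = Polynomial.aeval x p) :
    IsDedekindDomain ↥(integralClosure (IsLocalRing.ResidueField A)[X]
        ↥(modularFunctionFieldFullC (IsLocalRing.ResidueField A) M)) ∧
      IsFractionRing ↥(integralClosure (IsLocalRing.ResidueField A)[X]
        ↥(modularFunctionFieldFullC (IsLocalRing.ResidueField A) M))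
        ↥(modularFunctionFieldFullC (IsLocalRing.ResidueField A) M) := by
  haveI : Fact ℓ.Prime := ⟨hℓ⟩
  haveI : CharP (IsLocalRing.ResidueField A) ℓ := s18x_charP_residueField A hℓ hAℓ
  haveI : PerfectField (IsLocalRing.ResidueField A) := s18x_perfectField_residue A hℓ hAℓ
  exact s37b_dedekind_of_coord (IsLocalRing.ResidueField A) ℓ M x hx hA

end Residue

end Fermat.Agent.Lib.S37
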