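/-
S37 moonshot, package [RB] (lead), exports: what is inlined in the proofs of `BBase`/`BConc`.
For `F_κ(M) = κ(j̄(q^d) : d ∣ M)`, `κ` ANY field, and a coordinate `x ∈ F_κ(M)` transcendental over
`κ` with `j̄ ∈ κ(x)`: `F_κ(M)` is finite over `κ(x)`, i.e. `FFGen κ x`; for `κ` perfect of
characteristic `ℓ` and `x` of `q`-order prime to `ℓ` it is separable over `κ(x)`.
-/
import Fermat.Agent.Lib.S37.BConc
import Fermat.Agent.Lib.FF.FFBasicDedekind

set_option autoImplicit false
set_option linter.style.haveILetI false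

noncomputable section

namespace Fermat.Agent.Lib.S37

open Polynomial IntermediateField Fermat.Agent.Lib.S18 Fermat.Agent.Lib.S28 ModularCurve
  Fermat.Agent.Lib.FF

section Abs

variable {k₀ F : Type*} [Field k₀] [Field F] [Algebra k₀ F]

/-- A field generated over `k₀` by finitely many elements algebraic over `k₀(x)` is finite over
`k₀(x)`. -/
theorem s37b_finite_adjoin (x : F) (S : Set F) (hSfin : S.Finite)
    (hStop : IntermediateField.adjoin k₀ S = ⊤) (hSalg : ∀ s ∈ S, IsAlgebraic ↥k₀⟮x⟯ s) :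
    Module.Finite ↥k₀⟮x⟯ F := by
  haveI : Finite ↥S := hSfin.to_subtype
  have h1 : FiniteDimensional ↥k₀⟮x⟯ ↥(IntermediateField.adjoin ↥k₀⟮x⟯ S) :=
    IntermediateField.finiteDimensional_adjoin (fun s hs => (hSalg s hs).isIntegral)
  have htop : IntermediateField.adjoin ↥k₀⟮x⟯ S = ⊤ := by
    rw [eq_top_iff]
    have h2 : IntermediateField.adjoin k₀ S ≤
        (IntermediateField.adjoin ↥k₀⟮x⟯ S).restrictScalars k₀ := by
      rw [IntermediateField.adjoin_le_iff]
      intro s hs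
      exact IntermediateField.subset_adjoin _ _ hs
    intro u _
    have h3 : u ∈ IntermediateField.adjoin k₀ S := by rw [hStop]; trivial
    exact h2 h3
  rw [htop] at h1
  exact Module.Finite.equiv (IntermediateField.topEquiv (F := ↥k₀⟮x⟯) (E := F)).toLinearEquiv

/-- Separability over `k₀(x)` of a finite extension in which `x` is not an `ℓ`-th power. -/
theorem s37b_isSeparable_abs [PerfectField k₀] (ℓ : ℕ) [Fact ℓ.Prime] [CharP F ℓ] (x : F)
    (hxpow : ∀ y : F, y ^ ℓ ≠ x) [Module.Finite ↥k₀⟮x⟯ F] : Algebra.IsSeparable ↥k₀⟮x⟯ F := by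
  haveI : Algebra.IsAlgebraic ↥k₀⟮x⟯ F := Algebra.IsAlgebraic.of_finite _ _
  exact ⟨fun u => s18t_isSeparable_of_not_pow ℓ x hxpow u (Algebra.IsAlgebraic.isAlgebraic u)⟩

end Abs

section Conc

variable (κ : Type*) [Field κ] (M : ℕ) [NeZero M]

/-- Transcendence descends from `κ((q))` to the subfield `F_κ(M)`. -/
theorem s37b_transcendental_of_coe (x : ↥(modularFunctionFieldFullC κ M))
    (hxtr : Transcendental κ (x : LaurentSeries κ)) : Transcendental κ x := by
  rw [transcendental_iff]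
  intro p hp
  have h2 := Polynomial.aeval_algHom_apply (modularFunctionFieldFullC κ M).val x p
  rw [hp, map_zero] at h2
  exact (transcendental_iff.mp hxtr) p h2

/-- `j̄ ∈ κ(x)` inside `κ((q))` gives `j̄ ∈ κ(x)` inside `F_κ(M)`. -/
theorem s37b_jF_mem (x : ↥(modularFunctionFieldFullC κ M))
    (hj : jqModC κ ∈ κ⟮(x : LaurentSeries κ)⟯) :
    (⟨jqModC κ, jqModC_mem_full κ M⟩ : ↥(modularFunctionFieldFullC κ M)) ∈ κ⟮x⟯ := by
  have h1 : κ⟮(x : LaurentSeries κ)⟯ = (κ⟮x⟯).map (modularFunctionFieldFullC κ M).val := by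
    rw [IntermediateField.adjoin_map, Set.image_singleton]
    rfl
  rw [h1] at hj
  obtain ⟨y, hy, hyj⟩ := hj
  have : y = ⟨jqModC κ, jqModC_mem_full κ M⟩ := Subtype.ext hyj
  rwa [← this]

/-- **`F_κ(M)` is finite over `κ(x)`** as soon as `j̄ ∈ κ(x)`; `κ` any field. -/
theorem s37b_finite (x : ↥(modularFunctionFieldFullC κ M))
    (hj : jqModC κ ∈ κ⟮(x : LaurentSeries κ)⟯) :
    Module.Finite ↥κ⟮x⟯ ↥(modularFunctionFieldFullC κ M) := by
  have hjF := s37b_jF_mem κ M x hj
  refine s37b_finite_adjoin x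
    ((modularFunctionFieldFullC κ M).val ⁻¹' divisorExpansionsC κ M) ?_ ?_ ?_
  · exact Set.Finite.preimage (Set.injOn_of_injective (modularFunctionFieldFullC κ M).val.injective)
      (s28e_finite_divisorExpansionsC κ M)
  · exact s37b_adjoin_preimage_eq_top (divisorExpansionsC κ M)
  · intro s hs
    obtain ⟨d, hd, -, hsd⟩ := hs
    refine IsIntegral.isAlgebraic ?_
    refine s37b_isIntegral_of_intOver (A := ↥κ⟮x⟯) (E := ↥(modularFunctionFieldFullC κ M))
      ⟨_, hjF⟩ s ?_
    refine s28d_intOver_of_map ((modularFunctionFieldFullC κ M).val : _ →+* LaurentSeries κ)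
      (modularFunctionFieldFullC κ M).val.injective ?_
    have h2 : ((modularFunctionFieldFullC κ M).val : _ →+* LaurentSeries κ) s =
        qExpand κ d (jqModC κ) := hsd
    rw [h2]
    exact s37b_intOver_jqModC κ d

/-- **`FFGen κ x`** for a transcendental coordinate with `j̄ ∈ κ(x)`; `κ` any field. -/
theorem s37b_ffGen (x : ↥(modularFunctionFieldFullC κ M))
    (hxtr : Transcendental κ (x : LaurentSeries κ))
    (hj : jqModC κ ∈ κ⟮(x : LaurentSeries κ)⟯) : FFGen κ x :=
  ⟨s37b_transcendental_of_coe κ M x hxtr, s37b_finite κ M x hj⟩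

/-- `FFGen κ x` at a good coordinate. -/
theorem s37b_ffGen_of_coord (ℓ : ℕ) (x : ↥(modularFunctionFieldFullC κ M))
    (hx : s37b_Coord κ ℓ (x : LaurentSeries κ)) : FFGen κ x :=
  s37b_ffGen κ M x hx.1 hx.2.2

/-- `FFGen κ j̄`. -/
theorem s37b_ffGen_jF :
    FFGen κ (⟨jqModC κ, jqModC_mem_full κ M⟩ : ↥(modularFunctionFieldFullC κ M)) :=
  s37b_ffGen κ M _ (s28v_transcendental_jqModC κ) (mem_adjoin_simple_self κ _)

/-- A good coordinate is not an `ℓ`-th power in `F_κ(M)`. -/
theorem s37b_not_pow (ℓ : ℕ) (x : ↥(modularFunctionFieldFullC κ M))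
    (hord : ¬ (ℓ : ℤ) ∣ (x : LaurentSeries κ).order) :
    ∀ y : ↥(modularFunctionFieldFullC κ M), y ^ ℓ ≠ x := by
  intro y hy
  refine s18t_not_pow_of_order ℓ _ hord (y : LaurentSeries κ) ?_
  have h1 := congrArg (fun z : ↥(modularFunctionFieldFullC κ M) => (z : LaurentSeries κ)) hy
  simp only [SubmonoidClass.coe_pow] at h1
  exact h1

/-- **Separability of `F_κ(M)` over `κ(x)`** at a good coordinate, `κ` perfect of
characteristic `ℓ`. -/
theorem s37b_isSeparable [PerfectField κ] (ℓ : ℕ) [Fact ℓ.Prime] [CharP κ ℓ]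
    (x : ↥(modularFunctionFieldFullC κ M)) (hx : s37b_Coord κ ℓ (x : LaurentSeries κ)) :
    Algebra.IsSeparable ↥κ⟮x⟯ ↥(modularFunctionFieldFullC κ M) := by
  haveI : CharP ↥(modularFunctionFieldFullC κ M) ℓ :=
    ((algebraMap κ ↥(modularFunctionFieldFullC κ M)).charP_iff_charP ℓ).mp inferInstance
  haveI := s37b_finite κ M x hx.2.2
  exact s37b_isSeparable_abs ℓ x (s37b_not_pow κ M ℓ x hx.2.1)

end Conc

end Fermat.Agent.Lib.S37
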