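/-
S37 moonshot, helper lemma (helper4): over an ALGEBRAICALLY CLOSED constant field of ANY
characteristic, every place of a function field of one variable (`[FFGen K x]`) has residue field
`K`, hence degree one.  (Lib/FF has this only in characteristic zero, through the Dedekind
dictionary.)  Proof: if the residue `ȳ` of `f ∈ O_v` is not a constant, it is transcendental, so
`K(f) ⊆ O_v`; `F` is algebraic over `K(f)` and `O_v` is integrally closed, so `O_v = F`.
-/
import Fermat.Agent.Lib.FF.FFBasicDedekind

set_option autoImplicit false
set_option linter.style.haveILetI false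

noncomputable section

namespace Fermat.Agent.Lib.S37

open AlgebraicCurve Fermat.Agent.Lib.FF Polynomial

variable {K F : Type*} [Field K] [Field F] [Algebra K F]

/-- the residue of `aeval f p` is `aeval (residue f) p`. -/
theorem s37dg_residue_aeval (v : Place K F) (f : v.toValuationSubring) (p : K[X]) :
    IsLocalRing.residue v.toValuationSubring (aeval f p) =
      aeval (IsLocalRing.residue v.toValuationSubring f) p := by
  have h := Polynomial.aeval_algHom_apply
    (IsScalarTower.toAlgHom K v.toValuationSubring v.ResidueField) f p
  exact h.symm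

/-- the coercion of `aeval f p` is `aeval (f : F) p`. -/
theorem s37dg_coe_aeval (v : Place K F) (f : v.toValuationSubring) (p : K[X]) :
    ((aeval f p : v.toValuationSubring) : F) = aeval (f : F) p := by
  have h := Polynomial.aeval_algHom_apply
    (IsScalarTower.toAlgHom K v.toValuationSubring F) f p
  exact h.symm

/-- **Residue fields of places over an algebraically closed field are trivial.** -/
theorem s37dg_residue_surjective [IsAlgClosed K] (x : F) [FFGen K x] (v : Place K F) :
    Function.Surjective (algebraMap K v.ResidueField) := by
  intro y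
  by_contra hy
  obtain ⟨f, rfl⟩ := IsLocalRing.residue_surjective y
  -- the residue is transcendental
  have htr : Transcendental K (IsLocalRing.residue v.toValuationSubring f) := by
    intro halg
    have hint : IsIntegral K (IsLocalRing.residue v.toValuationSubring f) := halg.isIntegral
    have hirr := minpoly.irreducible hint
    have hdeg := IsAlgClosed.degree_eq_one_of_irreducible K hirr
    obtain ⟨c, hc⟩ := minpoly.mem_range_of_degree_eq_one K _ hdeg
    exact hy ⟨c, hc⟩
  -- nonzero polynomials in `f` are units of `O_v`
  have hunit : ∀ p : K[X], p ≠ 0 → (aeval (f : F) p)⁻¹ ∈ v.toValuationSubring := by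
    intro p hp
    have h1 : IsLocalRing.residue v.toValuationSubring (aeval f p) ≠ 0 := by
      rw [s37dg_residue_aeval]
      exact fun h0 => htr ⟨p, hp, h0⟩
    have h2 : IsUnit (aeval f p : v.toValuationSubring) := by
      by_contra hnu
      apply h1
      rw [IsLocalRing.residue_eq_zero_iff, IsLocalRing.mem_maximalIdeal, mem_nonunits_iff]
      exact hnu
    have h3 := ff_inv_mem_of_isUnit v h2
    rwa [s37dg_coe_aeval] at h3
  -- `f` is transcendental
  have htrf : Transcendental K (f : F) := by
    rintro ⟨p, hp, h0⟩
    apply htr
    refine ⟨p, hp, ?_⟩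
    rw [← s37dg_residue_aeval]
    have : (aeval f p : v.toValuationSubring) = 0 := by
      apply Subtype.ext
      rw [s37dg_coe_aeval, h0]
      rfl
    rw [this, map_zero]
  haveI : FFGen K (f : F) := ff_gen_of_transcendental (x := x) htrf
  -- `K(f) ⊆ O_v`
  have hKf : ∀ z ∈ IntermediateField.adjoin K {(f : F)}, z ∈ v.toValuationSubring := by
    intro z hz
    obtain ⟨r, s, rfl⟩ := (IntermediateField.mem_adjoin_simple_iff K z).mp hz
    by_cases hs : s = 0
    · rw [hs, map_zero, div_zero]
      exact v.toValuationSubring.zero_mem
    · rw [div_eq_mul_inv]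
      refine v.toValuationSubring.mul_mem _ _ ?_ (hunit s hs)
      rw [← s37dg_coe_aeval]
      exact (aeval f r : v.toValuationSubring).2
  -- hence `O_v = ⊤`
  apply v.ne_top'
  refine SetLike.ext fun g => ⟨fun _ => ValuationSubring.mem_top g, fun _ => ?_⟩
  haveI : FiniteDimensional (IntermediateField.adjoin K {(f : F)}) F := ff_finiteDimensional
  have hgint : IsIntegral (IntermediateField.adjoin K {(f : F)}) g :=
    Algebra.IsIntegral.isIntegral g
  obtain ⟨p, hpm, hp⟩ := hgint
  let ι' : (IntermediateField.adjoin K {(f : F)}) →+* v.toValuationSubring :=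
    (algebraMap (IntermediateField.adjoin K {(f : F)}) F).codRestrict
      v.toValuationSubring.toSubring (fun z => hKf z z.2)
  have hint : IsIntegral v.toValuationSubring g := by
    refine ⟨p.map ι', hpm.map _, ?_⟩
    rw [Polynomial.eval₂_map]
    exact hp
  obtain ⟨z, hz⟩ := IsIntegrallyClosed.isIntegral_iff.mp hint
  rw [← hz]
  exact z.2

/-- **Every place has degree one** (algebraically closed constants, any characteristic). -/
theorem s37dg_deg_eq_one [IsAlgClosed K] (x : F) [FFGen K x] (v : Place K F) : v.deg = 1 := by
  have hbij : Function.Bijective (algebraMap K v.ResidueField) :=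
    ⟨(algebraMap K v.ResidueField).injective, s37dg_residue_surjective x v⟩
  have e : K ≃ₗ[K] v.ResidueField :=
    LinearEquiv.ofBijective (Algebra.linearMap K v.ResidueField) hbij
  rw [Place.deg, ← e.finrank_eq, Module.finrank_self]

/-- the value of a regular function at a place: `f - c` vanishes at `v` for a unique constant. -/
theorem s37dg_exists_value [IsAlgClosed K] (x : F) [FFGen K x] (v : Place K F) (f : F)
    (hf : f ∈ v.toValuationSubring) :
    ∃ c : K, f - algebraMap K F c ∈ v.toValuationSubring ∧
      (f - algebraMap K F c = 0 ∨ (f - algebraMap K F c)⁻¹ ∉ v.toValuationSubring) := by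
  obtain ⟨c, hc⟩ := s37dg_residue_surjective x v (IsLocalRing.residue v.toValuationSubring ⟨f, hf⟩)
  refine ⟨c, sub_mem hf (v.algebraMap_mem' c), ?_⟩
  by_cases h0 : f - algebraMap K F c = 0
  · exact Or.inl h0
  · right
    intro hinv
    have hmem : f - algebraMap K F c ∈ v.toValuationSubring :=
      sub_mem hf (v.algebraMap_mem' c)
    have hres : IsLocalRing.residue v.toValuationSubring
        (⟨f - algebraMap K F c, hmem⟩ : v.toValuationSubring) = 0 := by
      have : (⟨f - algebraMap K F c, hmem⟩ : v.toValuationSubring) =
          ⟨f, hf⟩ - algebraMap K v.toValuationSubring c := Subtype.ext rfl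
      rw [this, map_sub, sub_eq_zero, hc.symm]
      rfl
    rw [IsLocalRing.residue_eq_zero_iff, IsLocalRing.mem_maximalIdeal, mem_nonunits_iff] at hres
    apply hres
    refine IsUnit.of_mul_eq_one (⟨(f - algebraMap K F c)⁻¹, hinv⟩ : v.toValuationSubring)
      (Subtype.ext ?_)
    exact mul_inv_cancel₀ h0

end Fermat.Agent.Lib.S37
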