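/-
S37 moonshot, package [RI] (helper1): the WEAK RIEMANN INEQUALITY in the Lib/FF setting
(`K` algebraically closed of characteristic zero, `F` a finite extension of `K(x)`):
there is `γ` such that every divisor `D` of degree `≥ γ` has `L(D) ≠ 0`.

Proof (Stichtenoth 1.4.14, no differentials, no finite-dimensionality of `L(D)`):
(1) `L(D + P) / L(D)` has dimension `≤ 1` (residue field `= K`), in the form
    `finrank V ≤ finrank (V ⊓ L(D)) + (deg D' - deg D)` for f.d. `V ≤ L(D')`, `D ≤ D'`;
(2) with `B = (x)_∞`, `n = [F : K(x)]`, `u_i` a `K(x)`-basis of `F` integral over `K[x]`, all in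
    `L(c₀ B)`: the `(m+1) n` elements `x^k u_i` (`k ≤ m`) are `K`-independent in `L((m + c₀) B)`;
(3) any `D`: choose `z = ∏ (x - a_i)^{k_i}` with `D - div z ≤ m B`.
-/
import Fermat.Agent.Lib.FF.FFBasicIface
import Fermat.Prelude.Def_AlgebraicCurve_Repartitions

set_option autoImplicit false

noncomputable section

open AlgebraicCurve IntermediateField Polynomial Fermat.Agent.Lib.FF
open scoped IntermediateField.algebraAdjoinAdjoin

namespace Fermat.Agent.Lib.S37

set_option linter.unusedSectionVars false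

variable {K F : Type*} [Field K] [Field F] [Algebra K F]

/-! ### Part 1: the spaces `L(D)` -/

theorem s37i_mem_L {D : Divisor K F} {f : F} (hf : f ≠ 0) :
    f ∈ riemannRochSpace D ↔ ∀ v : Place K F, 0 ≤ D v + v.ord f := by
  rw [mem_riemannRochSpace_iff]
  refine forall_congr' fun v => ?_
  constructor
  · rintro (h | h)
    · exact absurd h hf
    · omega
  · intro h
    right
    omega

theorem s37i_L_mono {D D' : Divisor K F} (h : D ≤ D') :
    riemannRochSpace D ≤ riemannRochSpace D' := by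
  intro f hf
  rw [mem_riemannRochSpace_iff] at hf ⊢
  intro v
  rcases hf v with h0 | h0
  · exact Or.inl h0
  · right
    have := Finsupp.le_def.mp h v
    omega

/-- `L(D₁) · L(D₂) ⊆ L(D₁ + D₂)`. -/
theorem s37i_mul_mem_L {D₁ D₂ : Divisor K F} {f g : F} (hf : f ∈ riemannRochSpace D₁)
    (hg : g ∈ riemannRochSpace D₂) : f * g ∈ riemannRochSpace (D₁ + D₂) := by
  rcases eq_or_ne f 0 with rfl | hf0
  · rw [zero_mul]; exact Submodule.zero_mem _
  rcases eq_or_ne g 0 with rfl | hg0
  · rw [mul_zero]; exact Submodule.zero_mem _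
  rw [s37i_mem_L hf0] at hf
  rw [s37i_mem_L hg0] at hg
  rw [s37i_mem_L (mul_ne_zero hf0 hg0)]
  intro v
  rw [v.ord_mul hf0 hg0, Finsupp.add_apply]
  have := hf v
  have := hg v
  omega

/-! ### Part 2: `dim L(D + P) / L(D) ≤ 1` -/

section Step

variable (x : F) [FFGen K x] [CharZero K] [IsAlgClosed K]

include x in
/-- The one-place step. -/
theorem s37i_step (D : Divisor K F) (P : Place K F) (V : Submodule K F)
    [FiniteDimensional K V] (hV : V ≤ riemannRochSpace (D + Finsupp.single P 1)) :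
    Module.finrank K V ≤ Module.finrank K ↥(V ⊓ riemannRochSpace D) + 1 := by
  classical
  by_cases hle : V ≤ riemannRochSpace D
  · rw [inf_eq_left.mpr hle]
    omega
  obtain ⟨f0, hf0V, hf0D⟩ := SetLike.not_le_iff_exists.mp hle
  have hf0 : f0 ≠ 0 := fun h => hf0D (h ▸ Submodule.zero_mem _)
  have hf0' := (s37i_mem_L hf0).mp (hV hf0V)
  -- the order of `f0` at `P`
  have hordP : P.ord f0 = -D P - 1 := by
    by_contra hne
    apply hf0D
    rw [s37i_mem_L hf0]
    intro v
    have h1 := hf0' v
    rw [Finsupp.add_apply] at h1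
    by_cases hv : v = P
    · subst hv
      rw [Finsupp.single_eq_same] at h1
      omega
    · rw [Finsupp.single_eq_of_ne hv] at h1
      omega
  have hsup : V ≤ (V ⊓ riemannRochSpace D) ⊔ Submodule.span K {f0} := by
    intro f hfV
    rcases eq_or_ne f 0 with rfl | hfne
    · exact Submodule.zero_mem _
    have hf' := (s37i_mem_L hfne).mp (hV hfV)
    -- `g = f / f0` is regular at `P`
    have hg0 : f / f0 ≠ 0 := div_ne_zero hfne hf0
    have hgord : 0 ≤ P.ord (f / f0) := by
      rw [div_eq_mul_inv, P.ord_mul hfne (inv_ne_zero hf0), P.ord_inv, hordP]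
      have h1 := hf' P
      rw [Finsupp.add_apply, Finsupp.single_eq_same] at h1
      omega
    have hgmem : f / f0 ∈ P.toValuationSubring := (ff_mem_iff_ord_nonneg P hg0).mpr hgord
    obtain ⟨c, hc⟩ := ff_exists_const_sub_mem K x P hgmem
    have hdecomp : f = (f - c • f0) + c • f0 := by ring
    rw [hdecomp]
    refine Submodule.add_mem _ (Submodule.mem_sup_left ⟨?_, ?_⟩)
      (Submodule.mem_sup_right (Submodule.smul_mem _ _ (Submodule.mem_span_singleton_self f0)))
    · exact Submodule.sub_mem _ hfV (Submodule.smul_mem _ _ hf0V)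
    · rcases eq_or_ne (f - c • f0) 0 with h0 | hne
      · rw [h0]; exact Submodule.zero_mem _
      rw [SetLike.mem_coe, s37i_mem_L hne]
      have hmem' : f - c • f0 ∈ riemannRochSpace (D + Finsupp.single P 1) :=
        Submodule.sub_mem _ (hV hfV) (Submodule.smul_mem _ _ (hV hf0V))
      have h2 := (s37i_mem_L hne).mp hmem'
      intro v
      have h1 := h2 v
      rw [Finsupp.add_apply] at h1
      by_cases hv : v = P
      · subst hv
        -- here the constant term cancels
        have hfac : f - c • f0 = (f / f0 - algebraMap K F c) * f0 := by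
          rw [Algebra.smul_def]
          field_simp
        rcases hc with hc | hc
        · exfalso
          apply hne
          rw [hfac, hc, sub_self, zero_mul]
        · have hne2 : f / f0 - algebraMap K F c ≠ 0 := by
            intro h0
            apply hne
            rw [hfac, h0, zero_mul]
          rw [hfac, v.ord_mul hne2 hf0, hordP]
          omega
      · rw [Finsupp.single_eq_of_ne hv] at h1
        omega
  have hfd1 : FiniteDimensional K ↥(V ⊓ riemannRochSpace D) :=
    Submodule.finiteDimensional_of_le inf_le_left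
  calc Module.finrank K V
      ≤ Module.finrank K ↥((V ⊓ riemannRochSpace D) ⊔ Submodule.span K {f0}) :=
        Submodule.finrank_mono hsup
    _ ≤ Module.finrank K ↥(V ⊓ riemannRochSpace D) + Module.finrank K ↥(Submodule.span K {f0}) :=
        Submodule.finrank_add_le_finrank_add_finrank _ _
    _ ≤ Module.finrank K ↥(V ⊓ riemannRochSpace D) + 1 := by
        have := finrank_span_singleton (K := K) hf0
        omega

/-! ### Part 3: `dim L(D') / L(D) ≤ deg D' - deg D` -/

include x in
theorem s37i_degree_eq_sum (D : Divisor K F) : Divisor.degree D = D.sum fun _ n => n := by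
  rw [Divisor.degree, Finsupp.liftAddHom_apply]
  refine Finsupp.sum_congr fun v _ => ?_
  rw [AddMonoidHom.coe_mulRight, ff_deg_eq_one K x v]
  simp

include x in
theorem s37i_degree_nonneg {E : Divisor K F} (hE : 0 ≤ E) : 0 ≤ Divisor.degree E := by
  rw [s37i_degree_eq_sum x]
  exact Finsupp.sum_nonneg fun v _ => Finsupp.le_def.mp hE v

include x in
theorem s37i_degree_mono {D D' : Divisor K F} (h : D ≤ D') :
    Divisor.degree D ≤ Divisor.degree D' := by
  have h1 : 0 ≤ D' - D := sub_nonneg.mpr h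
  have h2 := s37i_degree_nonneg x h1
  rw [map_sub] at h2
  omega

include x in
theorem s37i_eq_zero_of_degree_eq_zero {E : Divisor K F} (hE : 0 ≤ E)
    (hdeg : Divisor.degree E = 0) : E = 0 := by
  rw [s37i_degree_eq_sum x, Finsupp.sum] at hdeg
  have h1 := (Finset.sum_eq_zero_iff_of_nonneg fun v _ => Finsupp.le_def.mp hE v).mp hdeg
  ext v
  by_cases hv : v ∈ E.support
  · exact h1 v hv
  · exact Finsupp.notMem_support_iff.mp hv

include x in
theorem s37i_codim (d : ℕ) : ∀ (D D' : Divisor K F), D ≤ D' →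
    Divisor.degree D' = Divisor.degree D + d → ∀ (V : Submodule K F) [FiniteDimensional K V],
    V ≤ riemannRochSpace D' →
    Module.finrank K V ≤ Module.finrank K ↥(V ⊓ riemannRochSpace D) + d := by
  classical
  induction d with
  | zero =>
    intro D D' hle hdeg V _ hV
    have h1 : D' - D = 0 := by
      apply s37i_eq_zero_of_degree_eq_zero x (sub_nonneg.mpr hle)
      rw [map_sub, hdeg]
      simp
    have h2 : D' = D := sub_eq_zero.mp h1
    rw [h2] at hV
    rw [inf_eq_left.mpr hV]
    omega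
  | succ d ih =>
    intro D D' hle hdeg V _ hV
    -- a place where `D' - D` is positive
    have hex : ∃ P, 0 < (D' - D) P := by
      by_contra hno
      have hno' : ∀ P, (D' - D) P = 0 := fun P => by
        have h1 : ¬ 0 < (D' - D) P := fun h => hno ⟨P, h⟩
        have h2 := Finsupp.le_def.mp (sub_nonneg.mpr hle) P
        simp only [Finsupp.coe_zero, Pi.zero_apply] at h2
        omega
      have h0 : D' - D = 0 := Finsupp.ext hno'
      have : Divisor.degree (D' - D) = 0 := by rw [h0, map_zero]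
      rw [map_sub, hdeg] at this
      push_cast at this
      omega
    obtain ⟨P, hP⟩ := hex
    rw [Finsupp.sub_apply] at hP
    set D'' : Divisor K F := D' - Finsupp.single P 1 with hD''
    have hle'' : D ≤ D'' := by
      rw [Finsupp.le_def]
      intro v
      have h1 := Finsupp.le_def.mp hle v
      rw [hD'', Finsupp.sub_apply]
      by_cases hv : v = P
      · subst hv
        rw [Finsupp.single_eq_same]
        omega
      · rw [Finsupp.single_eq_of_ne hv]
        omega
    have hD' : D' = D'' + Finsupp.single P 1 := by rw [hD'']; abel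
    have hdeg'' : Divisor.degree D'' = Divisor.degree D + d := by
      rw [hD'', map_sub, hdeg, Divisor.degree_single, ff_deg_eq_one K x P]
      push_cast
      ring
    rw [hD'] at hV
    have h1 := s37i_step x D'' P V hV
    have hfd : FiniteDimensional K ↥(V ⊓ riemannRochSpace D'') :=
      Submodule.finiteDimensional_of_le inf_le_left
    have h2 := ih D D'' hle'' hdeg'' (V ⊓ riemannRochSpace D'') inf_le_right
    have h3 : V ⊓ riemannRochSpace D'' ⊓ riemannRochSpace D = V ⊓ riemannRochSpace D := by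
      rw [inf_assoc, inf_eq_right.mpr (s37i_L_mono hle'')]
    rw [h3] at h2
    omega

/-! ### Part 4: the pole divisor of `x` and the big spaces -/

include x in
/-- The pole divisor `B = (x)_∞`, of degree `n = [F : K(x)]`. -/
theorem s37i_exists_poleDivisor : ∃ B : Divisor K F,
    (∀ v : Place K F, 0 ≤ v.ord x → B v = 0) ∧ (∀ v : Place K F, v.ord x < 0 → B v = -v.ord x) ∧
      Divisor.degree B = (Module.finrank K⟮x⟯ F : ℤ) := by
  classical
  obtain ⟨P, hP, hsum⟩ := ff_fibreSum_poles K x
  let B : Divisor K F := Finsupp.onFinset P (fun v => if v.ord x < 0 then -v.ord x else 0) (by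
    intro v hv
    rw [hP]
    by_contra h
    exact hv (if_neg h))
  have hB : ∀ v, B v = if v.ord x < 0 then -v.ord x else 0 := fun v => rfl
  refine ⟨B, fun v hv => ?_, fun v hv => ?_, ?_⟩
  · rw [hB, if_neg (by omega)]
  · rw [hB, if_pos hv]
  · rw [s37i_degree_eq_sum x, Finsupp.onFinset_sum _ (fun _ => rfl)]
    have : ∀ v ∈ P, (if v.ord x < 0 then -v.ord x else 0) = -v.ord x := fun v hv => by
      rw [if_pos ((hP v).mp hv)]
    rw [Finset.sum_congr rfl this, Finset.sum_neg_distrib, hsum, neg_neg]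

include x in
/-- `x^k ∈ L(k B)`. -/
theorem s37i_pow_mem (B : Divisor K F) (hB0 : ∀ v : Place K F, 0 ≤ v.ord x → B v = 0)
    (hB1 : ∀ v : Place K F, v.ord x < 0 → B v = -v.ord x) (k : ℕ) :
    x ^ k ∈ riemannRochSpace (k • B) := by
  have hx0 : x ≠ 0 := by
    have := ff_sub_ne_zero (K := K) (x := x) 0
    simpa using this
  rw [s37i_mem_L (pow_ne_zero k hx0)]
  intro v
  have h1 : v.ord (x ^ k) = k * v.ord x := by
    have := v.ord_zpow x k
    simpa using this
  rw [h1, Finsupp.smul_apply, nsmul_eq_mul]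
  by_cases hv : v.ord x < 0
  · rw [hB1 v hv]
    have : (k : ℤ) * -v.ord x + k * v.ord x = 0 := by ring
    omega
  · rw [hB0 v (by omega), mul_zero, zero_add]
    exact mul_nonneg (by positivity) (by omega)

include x in
/-- An element integral over `K[x]` lies in `L(c B)` for some `c`. -/
theorem s37i_integral_mem (B : Divisor K F) (hB0 : ∀ v : Place K F, 0 ≤ v.ord x → B v = 0)
    (hB1 : ∀ v : Place K F, v.ord x < 0 → B v = -v.ord x) (b : F)
    (hb : IsIntegral (ffA K x) b) : ∃ c : ℕ, b ∈ riemannRochSpace (c • B) := by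
  classical
  rcases eq_or_ne b 0 with rfl | hb0
  · exact ⟨0, Submodule.zero_mem _⟩
  obtain ⟨P, hP, -⟩ := ff_fibreSum_poles K x
  have hx0 : x ≠ 0 := by
    have := ff_sub_ne_zero (K := K) (x := x) 0
    simpa using this
  refine ⟨∑ v ∈ P, (-(v.ord b)).toNat, ?_⟩
  rw [s37i_mem_L hb0]
  intro v
  rw [Finsupp.smul_apply, nsmul_eq_mul]
  by_cases hv : v.ord x < 0
  · rw [hB1 v hv]
    have hvP : v ∈ P := (hP v).mpr hv
    have h1 : (-(v.ord b)).toNat ≤ ∑ w ∈ P, (-(w.ord b)).toNat :=
      Finset.single_le_sum (f := fun w : Place K F => (-(w.ord b)).toNat)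
        (fun _ _ => Nat.zero_le _) hvP
    have h2 : -(v.ord b) ≤ ((-(v.ord b)).toNat : ℤ) := Int.self_le_toNat _
    have h3 : ((∑ w ∈ P, (-(w.ord b)).toNat : ℕ) : ℤ) ≤
        ((∑ w ∈ P, (-(w.ord b)).toNat : ℕ) : ℤ) * -v.ord x := by
      have : (1 : ℤ) ≤ -v.ord x := by omega
      nlinarith [Int.natCast_nonneg (∑ w ∈ P, (-(w.ord b)).toNat)]
    have h4 : ((-(v.ord b)).toNat : ℤ) ≤ ((∑ w ∈ P, (-(w.ord b)).toNat : ℕ) : ℤ) := by
      exact_mod_cast h1
    omega
  · rw [hB0 v (by omega), mul_zero, zero_add]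
    have hx : x ∈ v.toValuationSubring := (ff_mem_iff_ord_nonneg v hx0).mpr (by omega)
    have hmem : b ∈ v.toValuationSubring := ff_B_mem_of_mem v hx ⟨b, hb⟩
    exact (ff_mem_iff_ord_nonneg v hb0).mp hmem

theorem s37i_linearIndependent_pow {A : Type*} [CommRing A] [Algebra K A] (g : A)
    (hg : Transcendental K g) : LinearIndependent K (fun k : ℕ => g ^ k) := by
  have h1 : LinearIndependent K (fun k : ℕ => (Polynomial.basisMonomials K) k) :=
    (Polynomial.basisMonomials K).linearIndependent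
  have h2 := h1.map' (Polynomial.aeval g).toLinearMap
    (LinearMap.ker_eq_bot.mpr (transcendental_iff_injective.mp hg))
  have h3 : (fun k : ℕ => g ^ k) =
      (⇑(Polynomial.aeval g).toLinearMap ∘ fun k : ℕ => (Polynomial.basisMonomials K) k) := by
    funext k
    simp [Polynomial.coe_basisMonomials]
  rw [h3]
  exact h2

include x in
theorem s37i_poleDivisor_nonneg (B : Divisor K F) (hB0 : ∀ v : Place K F, 0 ≤ v.ord x → B v = 0)
    (hB1 : ∀ v : Place K F, v.ord x < 0 → B v = -v.ord x) : 0 ≤ B := by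
  rw [Finsupp.le_def]
  intro v
  simp only [Finsupp.coe_zero, Pi.zero_apply]
  by_cases hv : v.ord x < 0
  · rw [hB1 v hv]; omega
  · rw [hB0 v (by omega)]

theorem s37i_smul_le_smul {B : Divisor K F} (hB : 0 ≤ B) {a b : ℕ} (h : a ≤ b) :
    a • B ≤ b • B := by
  rw [Finsupp.le_def]
  intro v
  rw [Finsupp.smul_apply, Finsupp.smul_apply, nsmul_eq_mul, nsmul_eq_mul]
  have h1 : (0 : ℤ) ≤ B v := Finsupp.le_def.mp hB v
  have h2 : (a : ℤ) ≤ b := by exact_mod_cast h
  exact mul_le_mul_of_nonneg_right h2 h1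

include x in
/-- **The big spaces**: `V_m ≤ L((m + c₀) B)` of dimension `(m + 1) n`. -/
theorem s37i_exists_big (B : Divisor K F) (hB0 : ∀ v : Place K F, 0 ≤ v.ord x → B v = 0)
    (hB1 : ∀ v : Place K F, v.ord x < 0 → B v = -v.ord x) :
    ∃ c0 : ℕ, ∀ m : ℕ, ∃ V : Submodule K F, FiniteDimensional K V ∧
      V ≤ riemannRochSpace ((m + c0) • B) ∧
      Module.finrank K V = (m + 1) * Module.finrank K⟮x⟯ F := by
  classical
  have hBnn := s37i_poleDivisor_nonneg x B hB0 hB1
  obtain ⟨s, b, hb⟩ := FiniteDimensional.exists_is_basis_integral (ffA K x) K⟮x⟯ F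
  choose c hc using fun i : s => s37i_integral_mem x B hB0 hB1 (b i) (hb i)
  refine ⟨∑ i, c i, fun m => ?_⟩
  have htr : Transcendental K (AdjoinSimple.gen K x) := by
    rw [← transcendental_algebraMap_iff (algebraMap K⟮x⟯ F).injective]
    have h0 : Transcendental K x := FFGen.transc
    exact h0
  have hpow := s37i_linearIndependent_pow (K := K) (AdjoinSimple.gen K x) htr
  have hpow' : LinearIndependent K (fun k : Fin (m + 1) => (AdjoinSimple.gen K x) ^ (k : ℕ)) :=
    hpow.comp (fun k : Fin (m + 1) => (k : ℕ)) Fin.val_injective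
  have hw := linearIndependent_smul hpow' b.linearIndependent
  set w : Fin (m + 1) × s → F := fun p => (AdjoinSimple.gen K x) ^ (p.1 : ℕ) • b p.2 with hwdef
  refine ⟨Submodule.span K (Set.range w), FiniteDimensional.span_of_finite K (Set.finite_range w),
    ?_, ?_⟩
  · rw [Submodule.span_le]
    rintro _ ⟨⟨k, i⟩, rfl⟩
    have h1 : w (k, i) = x ^ (k : ℕ) * b i := by
      rw [hwdef]
      simp only
      rw [IntermediateField.smul_def, smul_eq_mul]
      congr 1
    rw [SetLike.mem_coe, h1]
    have h2 := s37i_mul_mem_L (s37i_pow_mem x B hB0 hB1 (k : ℕ)) (hc i)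
    rw [← add_smul] at h2
    refine s37i_L_mono (s37i_smul_le_smul hBnn ?_) h2
    have h3 : c i ≤ ∑ j, c j := Finset.single_le_sum (f := c) (fun _ _ => Nat.zero_le _)
      (Finset.mem_univ i)
    have h4 : (k : ℕ) ≤ m := Nat.lt_succ_iff.mp k.2
    omega
  · rw [finrank_span_eq_card hw, Fintype.card_prod, Fintype.card_fin,
      Module.finrank_eq_card_basis b]

/-! ### Part 5: divisors of functions -/

include x in
/-- Every nonzero function has a divisor, of degree zero. -/
theorem s37i_exists_divisor (f : F) (hf : f ≠ 0) :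
    ∃ D : Divisor K F, (∀ v : Place K F, D v = v.ord f) ∧ Divisor.degree D = 0 := by
  classical
  have hprin := ff_ifacePrincipal K x
  by_cases halg : IsAlgebraic K f
  · obtain ⟨a, rfl⟩ := ff_mem_range_of_isAlgebraic halg
    refine ⟨0, fun v => ?_, map_zero _⟩
    rw [ff_ord_algebraMap]
    rfl
  · have hgen : FFGen K f := ff_gen_of_transcendental (x := x) halg
    have hgeninv : FFGen K f⁻¹ := ff_gen_inv
    obtain ⟨P₁, hP₁, -⟩ := @ff_fibreSum K F _ _ _ f hgen _ _
    obtain ⟨P₂, hP₂, -⟩ := @ff_fibreSum K F _ _ _ f⁻¹ hgeninv _ _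
    let D : Divisor K F := Finsupp.onFinset (P₁ ∪ P₂) (fun v => v.ord f) (by
      intro v hv
      rw [Finset.mem_union, hP₁, hP₂, v.ord_inv]
      omega)
    have hD : ∀ v : Place K F, D v = v.ord f := fun v => rfl
    exact ⟨D, hD, hprin f hf D hD⟩

theorem s37i_ord_pow (v : Place K F) (f : F) (k : ℕ) : v.ord (f ^ k) = k * v.ord f := by
  have := v.ord_zpow f (k : ℤ)
  rwa [zpow_natCast] at this

theorem s37i_ord_prod {ι : Type*} (v : Place K F) (s : Finset ι) (g : ι → F)
    (h : ∀ i ∈ s, g i ≠ 0) : v.ord (∏ i ∈ s, g i) = ∑ i ∈ s, v.ord (g i) := by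
  classical
  induction s using Finset.induction_on with
  | empty => simp
  | insert a s ha ih =>
    have hga : g a ≠ 0 := h a (Finset.mem_insert_self a s)
    have hs : ∀ i ∈ s, g i ≠ 0 := fun i hi => h i (Finset.mem_insert_of_mem hi)
    have hp : ∏ i ∈ s, g i ≠ 0 := Finset.prod_ne_zero_iff.mpr hs
    rw [Finset.prod_insert ha, Finset.sum_insert ha, v.ord_mul hga hp, ih hs]

/-! ### Part 6: the weak Riemann inequality -/

include x in
/-- **Weak Riemann inequality**: there is `γ` such that every divisor of degree `≥ γ` is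
linearly equivalent to an effective divisor (`L(D) ≠ 0`). -/
theorem s37i_riemann : ∃ γ : ℕ, ∀ D : Divisor K F, (γ : ℤ) ≤ Divisor.degree D →
    ∃ f : F, f ≠ 0 ∧ ∀ P : Place K F, 0 ≤ D P + P.ord f := by
  classical
  obtain ⟨B, hB0, hB1, hBdeg⟩ := s37i_exists_poleDivisor (K := K) x
  obtain ⟨c0, hbig⟩ := s37i_exists_big x B hB0 hB1
  have hBnn := s37i_poleDivisor_nonneg x B hB0 hB1
  have hx0 : x ≠ 0 := by
    have := ff_sub_ne_zero (K := K) (x := x) 0
    simpa using this
  refine ⟨Module.finrank K⟮x⟯ F * c0 + 1, fun D hD => ?_⟩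
  obtain ⟨Ppol, hPpol, -⟩ := ff_fibreSum_poles K x
  -- the places where `D` is positive and `x` is regular
  set S : Finset (Place K F) := D.support.filter (fun v => 0 < D v ∧ 0 ≤ v.ord x) with hSdef
  have hS : ∀ v : Place K F, 0 ≤ v.ord x → ∃ a : K, 0 < v.ord (x - algebraMap K F a) :=
    fun v hv => ff_exists_ord_sub_pos v ((ff_mem_iff_ord_nonneg v hx0).mpr hv)
  -- a centre for every place (arbitrary at the poles)
  have hS' : ∀ v : Place K F, ∃ a : K, 0 ≤ v.ord x → 0 < v.ord (x - algebraMap K F a) := by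
    intro v
    by_cases hv : 0 ≤ v.ord x
    · obtain ⟨a, ha⟩ := hS v hv
      exact ⟨a, fun _ => ha⟩
    · exact ⟨0, fun h => absurd h hv⟩
  choose a ha using hS'
  set z : F := ∏ v ∈ S, (x - algebraMap K F (a v)) ^ (D v).toNat with hzdef
  have hfac : ∀ v ∈ S, (x - algebraMap K F (a v)) ^ (D v).toNat ≠ 0 :=
    fun v _ => pow_ne_zero _ (ff_sub_ne_zero (a v))
  have hz : z ≠ 0 := Finset.prod_ne_zero_iff.mpr hfac
  obtain ⟨Dz, hDz, hDzdeg⟩ := s37i_exists_divisor (K := K) x z hz
  set D₁ : Divisor K F := D - Dz with hD₁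
  have hD₁deg : Divisor.degree D₁ = Divisor.degree D := by
    rw [hD₁, map_sub, hDzdeg, sub_zero]
  -- orders of the factors at a place where `x` is regular
  have hfacord : ∀ v w : Place K F, 0 ≤ v.ord x →
      0 ≤ v.ord ((x - algebraMap K F (a w)) ^ (D w).toNat) := by
    intro v w hv
    have h1 : v.ord ((x - algebraMap K F (a w)) ^ (D w).toNat) =
        (D w).toNat * v.ord (x - algebraMap K F (a w)) := s37i_ord_pow v _ _
    rw [h1]
    have hx : x ∈ v.toValuationSubring := (ff_mem_iff_ord_nonneg v hx0).mpr hv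
    have hmem : x - algebraMap K F (a w) ∈ v.toValuationSubring :=
      sub_mem hx (v.algebraMap_mem' (a w))
    have h2 := (ff_mem_iff_ord_nonneg v (ff_sub_ne_zero (a w))).mp hmem
    exact mul_nonneg (by positivity) h2
  -- at the places where `x` is regular, `D₁ ≤ 0`
  have hnonpole : ∀ v : Place K F, 0 ≤ v.ord x → D₁ v ≤ 0 := by
    intro v hv
    rw [hD₁, Finsupp.sub_apply, hDz v, hzdef, s37i_ord_prod v S _ hfac]
    have hsum_nonneg : 0 ≤ ∑ w ∈ S, v.ord ((x - algebraMap K F (a w)) ^ (D w).toNat) :=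
      Finset.sum_nonneg fun w _ => hfacord v w hv
    by_cases hvS : v ∈ S
    · have h1 : v.ord ((x - algebraMap K F (a v)) ^ (D v).toNat) ≤
          ∑ w ∈ S, v.ord ((x - algebraMap K F (a w)) ^ (D w).toNat) :=
        Finset.single_le_sum (f := fun w => v.ord ((x - algebraMap K F (a w)) ^ (D w).toNat))
          (fun w _ => hfacord v w hv) hvS
      have h2 : v.ord ((x - algebraMap K F (a v)) ^ (D v).toNat) =
          (D v).toNat * v.ord (x - algebraMap K F (a v)) := s37i_ord_pow v _ _
      have h3 := ha v hv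
      have h4 : D v ≤ ((D v).toNat : ℤ) := Int.self_le_toNat _
      have h5 : ((D v).toNat : ℤ) ≤ (D v).toNat * v.ord (x - algebraMap K F (a v)) := by
        have : (1 : ℤ) ≤ v.ord (x - algebraMap K F (a v)) := h3
        nlinarith [Int.natCast_nonneg (D v).toNat]
      omega
    · have h1 : D v ≤ 0 := by
        by_contra hpos
        apply hvS
        rw [hSdef, Finset.mem_filter, Finsupp.mem_support_iff]
        exact ⟨by omega, by omega, hv⟩
      omega
  -- the multiple of `B`
  set m : ℕ := ∑ v ∈ Ppol, (D₁ v).toNat with hm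
  have hle : D₁ ≤ (m + c0) • B := by
    rw [Finsupp.le_def]
    intro v
    rw [Finsupp.smul_apply, nsmul_eq_mul]
    by_cases hv : v.ord x < 0
    · rw [hB1 v hv]
      have hvP : v ∈ Ppol := (hPpol v).mpr hv
      have h1 : (D₁ v).toNat ≤ m :=
        Finset.single_le_sum (f := fun w : Place K F => (D₁ w).toNat)
          (fun _ _ => Nat.zero_le _) hvP
      have h2 : D₁ v ≤ ((D₁ v).toNat : ℤ) := Int.self_le_toNat _
      have h3 : ((m + c0 : ℕ) : ℤ) ≤ ((m + c0 : ℕ) : ℤ) * -v.ord x := by
        have : (1 : ℤ) ≤ -v.ord x := by omega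
        nlinarith [Int.natCast_nonneg (m + c0)]
      have h4 : ((D₁ v).toNat : ℤ) ≤ ((m + c0 : ℕ) : ℤ) := by
        have : (D₁ v).toNat ≤ m + c0 := by omega
        exact_mod_cast this
      omega
    · rw [hB0 v (by omega), mul_zero]
      exact hnonpole v (by omega)
  obtain ⟨V, hVfd, hVle, hVrank⟩ := hbig m
  have hdegB : Divisor.degree ((m + c0) • B) =
      ((m + c0 : ℕ) : ℤ) * (Module.finrank K⟮x⟯ F : ℤ) := by
    rw [map_nsmul, hBdeg, nsmul_eq_mul]
  have hdegle := s37i_degree_mono x hle
  rw [hdegB, hD₁deg] at hdegle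
  set n : ℕ := Module.finrank K⟮x⟯ F with hn
  set d : ℕ := (((m + c0 : ℕ) : ℤ) * (n : ℤ) - Divisor.degree D).toNat with hd
  have hdcast : (d : ℤ) = ((m + c0 : ℕ) : ℤ) * (n : ℤ) - Divisor.degree D := by
    rw [hd]
    exact Int.toNat_of_nonneg (by omega)
  have hcodim := s37i_codim x d D₁ ((m + c0) • B) hle (by rw [hdegB, hD₁deg, hdcast]; ring) V hVle
  rw [hVrank] at hcodim
  -- the arithmetic
  have hpos : 0 < Module.finrank K ↥(V ⊓ riemannRochSpace D₁) := by
    have h1 : ((m + 1) * n : ℕ) ≤ Module.finrank K ↥(V ⊓ riemannRochSpace D₁) + d := hcodim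
    have h2 : (((m + 1) * n : ℕ) : ℤ) ≤
        (Module.finrank K ↥(V ⊓ riemannRochSpace D₁) : ℤ) + (d : ℤ) := by exact_mod_cast h1
    rw [hdcast] at h2
    push_cast at h2 hD
    have h3 : (0 : ℤ) < (Module.finrank K ↥(V ⊓ riemannRochSpace D₁) : ℤ) := by
      nlinarith [Int.natCast_nonneg n]
    exact_mod_cast h3
  have hfd : FiniteDimensional K ↥(V ⊓ riemannRochSpace D₁) :=
    Submodule.finiteDimensional_of_le inf_le_left
  obtain ⟨⟨g, hgmem⟩, hgne⟩ := Module.finrank_pos_iff_exists_ne_zero.mp hpos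
  have hg0 : g ≠ 0 := fun h => hgne (Subtype.ext h)
  have hgL := (s37i_mem_L hg0).mp hgmem.2
  refine ⟨g * z⁻¹, mul_ne_zero hg0 (inv_ne_zero hz), fun P => ?_⟩
  rw [P.ord_mul hg0 (inv_ne_zero hz), P.ord_inv]
  have h1 := hgL P
  rw [hD₁, Finsupp.sub_apply, hDz P] at h1
  omega

include x in
/-- **Weak Riemann inequality, effective form**: every divisor of degree `≥ γ` is linearly
equivalent to an effective divisor. -/
theorem s37i_riemann_effective : ∃ γ : ℕ, ∀ D : Divisor K F, (γ : ℤ) ≤ Divisor.degree D →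
    ∃ E : Divisor K F, 0 ≤ E ∧ D - E ∈ Divisor.principal (K := K) (F := F) := by
  obtain ⟨γ, hγ⟩ := s37i_riemann (K := K) x
  refine ⟨γ, fun D hD => ?_⟩
  obtain ⟨f, hf, hfD⟩ := hγ D hD
  obtain ⟨Df, hDf, -⟩ := s37i_exists_divisor (K := K) x f hf
  refine ⟨D + Df, ?_, ?_⟩
  · rw [Finsupp.le_def]
    intro v
    rw [Finsupp.add_apply, hDf v]
    exact hfD v
  · rw [Divisor.mem_principal]
    refine ⟨f⁻¹, inv_ne_zero hf, fun v => ?_⟩
    rw [Finsupp.sub_apply, Finsupp.add_apply, hDf v, v.ord_inv]
    ring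

end Step

end Fermat.Agent.Lib.S37
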