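/-
S37 moonshot, package [RI] (helper1): the weak Riemann inequality for the modular function
fields `F̄(N) = ffi_F N` over `Q̄` (instance of Lib/S37/IRiemann at `x = j`).
-/
import Fermat.Agent.Lib.S37.IRiemann
import Fermat.Agent.Lib.S18.RData

set_option autoImplicit false

noncomputable section

open AlgebraicCurve Fermat.Agent.Lib.FF Fermat.Agent.Lib.S18

namespace Fermat.Agent.Lib.S37

variable (N : ℕ) [NeZero N]

/-- **Weak Riemann inequality for `F̄(N)`.** -/
theorem s37i_riemann_bar : ∃ γ : ℕ, ∀ D : Divisor ffi_K (ffi_F N), (γ : ℤ) ≤ Divisor.degree D →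
    ∃ f : ffi_F N, f ≠ 0 ∧ ∀ P : Place ffi_K (ffi_F N), 0 ≤ D P + P.ord f := by
  have : FFGen ffi_K (ffd_jBar N) := s18r_ffGen N
  exact s37i_riemann (K := ffi_K) (ffd_jBar N)

/-- **Weak Riemann inequality for `F̄(N)`, effective form.** -/
theorem s37i_riemann_effective_bar : ∃ γ : ℕ, ∀ D : Divisor ffi_K (ffi_F N),
    (γ : ℤ) ≤ Divisor.degree D →
    ∃ E : Divisor ffi_K (ffi_F N), 0 ≤ E ∧
      D - E ∈ Divisor.principal (K := ffi_K) (F := ffi_F N) := by
  have : FFGen ffi_K (ffd_jBar N) := s18r_ffGen N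
  exact s37i_riemann_effective (K := ffi_K) (ffd_jBar N)

/-- Every place of `F̄(N)` has degree one. -/
theorem s37i_deg_eq_one_bar (P : Place ffi_K (ffi_F N)) : P.deg = 1 := by
  have : FFGen ffi_K (ffd_jBar N) := s18r_ffGen N
  exact ff_deg_eq_one ffi_K (ffd_jBar N) P

/-- The degree of a divisor of `F̄(N)` is the sum of its coefficients. -/
theorem s37i_degree_eq_sum_bar (D : Divisor ffi_K (ffi_F N)) :
    Divisor.degree D = D.sum fun _ n => n := by
  have : FFGen ffi_K (ffd_jBar N) := s18r_ffGen N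
  exact s37i_degree_eq_sum (K := ffi_K) (ffd_jBar N) D

end Fermat.Agent.Lib.S37
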