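/-
S37 moonshot (M-B), package [R], bridge for (P10) (helper9): from the conclusion of helper3's
abstract `s37r_exists_reduction` (conservation of number for every Gauss unit `y ∈ O_F`) to the
Prelude's `IsPlaceReductionModL A M r`, and then (with helper2's `hgen`) to
`ReductionInputsModL A M`.

* degrees: every place of `F_{ℚ̄}(M)` and of `F_κ(M)` (`κ` algebraically closed) has degree one;
* conservation for an integral series `Y` is the case `y = ιY` (`redF (ιY) = ρY`).
-/
import Fermat.Agent.Lib.S37.RChart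
import Fermat.Agent.Lib.S37.DegOne
import Fermat.Agent.Lib.S37.BGen
import Fermat.Agent.Lib.S37.IRiemannBar
import Fermat.Agent.Lib.S37.GGen
import Fermat.Agent.Lib.S18.NResidue

set_option autoImplicit false
set_option linter.style.haveILetI false
set_option linter.unusedSectionVars false
set_option synthInstance.maxHeartbeats 400000
set_option maxHeartbeats 800000

noncomputable section

namespace Fermat.Agent.Lib.S37

open ModularCurve HahnSeries AlgebraicCurve Fermat.Agent.Lib.S18 Fermat.Agent.Lib.FF

local notation "Qbar" => AlgebraicClosure ℚ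

variable (A : ValuationSubring Qbar) (M : ℕ) [NeZero M] {ℓ : ℕ} [Fact ℓ.Prime]
  (hA : A.LiesOverPrime ℓ) (hℓM : ¬ ℓ ∣ M)

local notation "κ" => IsLocalRing.ResidueField A

/-- every place of the special fibre has degree one. -/
theorem s37r10_deg_eq_one_special (Q : Place κ ↥(modularFunctionFieldFullC κ M)) : Q.deg = 1 := by
  haveI := s18n_isAlgClosed_residueField A
  haveI := s37b_ffGen_jF κ M
  exact s37dg_deg_eq_one (⟨jqModC κ, jqModC_mem_full κ M⟩ : ↥(modularFunctionFieldFullC κ M)) Q

/-- **Bridge**: a map on places satisfying conservation of number for all Gauss units is a place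
reduction in the sense of the Prelude. -/
theorem s37r10_isPlaceReduction
    (r : Place Qbar ↥(modularFunctionFieldBar M) → Place κ ↥(modularFunctionFieldFullC κ M))
    (hcons : ∀ (y : ↥(modularFunctionFieldBar M)) (hy : y ∈ s37r_OF A M hA),
      s37r_redF A M hA hℓM ⟨y, hy⟩ ≠ 0 →
      ∀ Dv : Divisor Qbar ↥(modularFunctionFieldBar M), (∀ P, Dv P = P.ord y) →
        ∀ Q, Finsupp.mapDomain r Dv Q = Q.ord (s37r_redF A M hA hℓM ⟨y, hy⟩)) :
    IsPlaceReductionModL A M r := by
  refine ⟨fun P => ?_, ?_⟩
  · rw [s37r10_deg_eq_one_special A M (r P), s37i_deg_eq_one_bar M P]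
  · intro Y hY hYk hne D hD Q
    have hyO := s37r_iota_mem_OF A M hA Y hY
    have hred : s37r_redF A M hA hℓM ⟨⟨coeffMap A.subtype Y, hY⟩, hyO⟩ =
        ⟨coeffMap (IsLocalRing.residue ↥A) Y, hYk⟩ :=
      Subtype.ext (s37r_redV_iota A M hA Y hY)
    have h := hcons ⟨coeffMap A.subtype Y, hY⟩ hyO
      (by rw [hred]; exact fun h0 => hne (congrArg Subtype.val h0)) D hD Q
    rw [hred] at h
    exact h

/-- **(R0)** from conservation of number: `ReductionInputsModL A M`. -/
theorem s37r10_reductionInputs
    (r : Place Qbar ↥(modularFunctionFieldBar M) → Place κ ↥(modularFunctionFieldFullC κ M))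
    (hcons : ∀ (y : ↥(modularFunctionFieldBar M)) (hy : y ∈ s37r_OF A M hA),
      s37r_redF A M hA hℓM ⟨y, hy⟩ ≠ 0 →
      ∀ Dv : Divisor Qbar ↥(modularFunctionFieldBar M), (∀ P, Dv P = P.ord y) →
        ∀ Q, Finsupp.mapDomain r Dv Q = Q.ord (s37r_redF A M hA hℓM ⟨y, hy⟩)) :
    ReductionInputsModL A M :=
  ⟨r, s37r10_isPlaceReduction A M hA hℓM r hcons, s37g_principalGenerated M hℓM A hA⟩

end Fermat.Agent.Lib.S37
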