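/-
S37 moonshot (M-B), package [R] (helper3): the TOP-LEVEL objects of the place reduction.

For `A ⊆ ℚ̄` a valuation subring over the prime `ℓ`, `κ = ResidueField A`, `F = F_{ℚ̄}(M)`:
* `s37r_OF A M hA : ValuationSubring F`  — the Gauss valuation subring (`A`-integral quotients);
* `s37r_redF A M hA hℓM : O_F →+* F_κ(M)` — the reduction;
* for a coordinate `w : F`: the top-level chart ring `s37r_B A M hA w = s18_ring O_F (chart1 w)` and
  `s37r_Psi : B →+* F_κ(M)`;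
* the link with the levels: `incl b ∈ B ↔ b ∈ B_{L₀}` (`s37r_incl_mem_B_iff`).
-/
import Fermat.Agent.Lib.S37.RTop
import Fermat.Agent.Lib.S37.EFrob
import Fermat.Agent.Lib.S18.QPlace
import Fermat.Agent.Lib.S18.FFinal
import Fermat.Agent.Lib.S18.GRedF

set_option autoImplicit false
set_option linter.style.haveILetI false
set_option linter.unusedSectionVars false

noncomputable section

namespace Fermat.Agent.Lib.S37

open ModularCurve HahnSeries AlgebraicCurve Fermat.Agent.Lib.S18 Fermat.Agent.Lib.FF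

local notation "Qbar" => AlgebraicClosure ℚ

variable (A : ValuationSubring Qbar) (M : ℕ) [NeZero M] {ℓ : ℕ} [Fact ℓ.Prime]
  (hA : A.LiesOverPrime ℓ)

include hA in
/-- an irreducible element of the DVR `A ∩ L₀`. -/
theorem s37r_exists_unif (L₀ : IntermediateField ℚ Qbar) [FiniteDimensional ℚ L₀] :
    ∃ (_ : IsDiscreteValuationRing ↥(s18q_A0 A L₀)) (ϖ : ↥(s18q_A0 A L₀)), Irreducible ϖ := by
  haveI := s18q_A0_dvr A L₀ hA
  obtain ⟨ϖ, hϖ⟩ := IsDiscreteValuationRing.exists_irreducible ↥(s18q_A0 A L₀)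
  exact ⟨inferInstance, ϖ, hϖ⟩

include hA in
/-- every function is Gauss-integral or has a Gauss-integral inverse. -/
theorem s37r_mem_or_inv_mem (f : ↥(modularFunctionFieldBar M)) :
    (f : LaurentSeries Qbar) ∈ s37r_O A (IsLocalRing.residue ↥A) ∨
      ((f⁻¹ : ↥(modularFunctionFieldBar M)) : LaurentSeries Qbar) ∈
        s37r_O A (IsLocalRing.residue ↥A) := by
  classical
  obtain ⟨L₀, hfd, hL₀⟩ := s18q_exists_field M {f}
  obtain ⟨f₀, hf₀⟩ := hL₀ f (Finset.mem_singleton_self f)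
  haveI := hfd
  obtain ⟨_, ϖ, hϖ⟩ := s37r_exists_unif A hA L₀
  rcases (s18x_V (s37r_G A L₀ ϖ hϖ) M).mem_or_inv_mem f₀ with h | h
  · left
    rw [← hf₀]
    exact s37r_level_mem_O A L₀ ϖ hϖ h
  · right
    rw [← hf₀, ← map_inv₀]
    exact s37r_level_mem_O A L₀ ϖ hϖ h

/-- **the top-level Gauss valuation subring** of `F_{ℚ̄}(M)`. -/
def s37r_OF : ValuationSubring ↥(modularFunctionFieldBar M) where
  carrier := {f | (f : LaurentSeries Qbar) ∈ s37r_O A (IsLocalRing.residue ↥A)}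
  mul_mem' := fun {a b} ha hb => by
    show ((a * b : ↥(modularFunctionFieldBar M)) : LaurentSeries Qbar) ∈ s37r_O A (IsLocalRing.residue ↥A)
    rw [MulMemClass.coe_mul]
    exact (s37r_O A _).mul_mem ha hb
  one_mem' := by
    show ((1 : ↥(modularFunctionFieldBar M)) : LaurentSeries Qbar) ∈ s37r_O A (IsLocalRing.residue ↥A)
    rw [OneMemClass.coe_one]
    exact (s37r_O A _).one_mem
  add_mem' := fun {a b} ha hb => by
    show ((a + b : ↥(modularFunctionFieldBar M)) : LaurentSeries Qbar) ∈ s37r_O A (IsLocalRing.residue ↥A)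
    rw [AddMemClass.coe_add]
    exact (s37r_O A _).add_mem ha hb
  zero_mem' := by
    show ((0 : ↥(modularFunctionFieldBar M)) : LaurentSeries Qbar) ∈ s37r_O A (IsLocalRing.residue ↥A)
    rw [ZeroMemClass.coe_zero]
    exact (s37r_O A _).zero_mem
  neg_mem' := fun {a} ha => by
    show ((-a : ↥(modularFunctionFieldBar M)) : LaurentSeries Qbar) ∈ s37r_O A (IsLocalRing.residue ↥A)
    rw [NegMemClass.coe_neg]
    exact (s37r_O A _).neg_mem ha
  mem_or_inv_mem' := s37r_mem_or_inv_mem A M hA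

theorem s37r_mem_OF_iff (f : ↥(modularFunctionFieldBar M)) :
    f ∈ s37r_OF A M hA ↔ (f : LaurentSeries Qbar) ∈ s37r_O A (IsLocalRing.residue ↥A) := Iff.rfl

/-- the inclusion `O_F → O`. -/
def s37r_OFtoO : ↥(s37r_OF A M hA) →+* ↥(s37r_O A (IsLocalRing.residue ↥A)) where
  toFun f := ⟨((f : ↥(modularFunctionFieldBar M)) : LaurentSeries Qbar), f.2⟩
  map_one' := rfl
  map_mul' _ _ := rfl
  map_zero' := rfl
  map_add' _ _ := rfl

/-- the reduction `O_F →+* κ((q))`. -/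
def s37r_redV : ↥(s37r_OF A M hA) →+* LaurentSeries (IsLocalRing.ResidueField ↥A) :=
  (s37r_red A (IsLocalRing.residue ↥A)).comp (s37r_OFtoO A M hA)

/-- level link for the function field: `incl f₀ ∈ O_F ↔ f₀ ∈ V_{L₀}`. -/
theorem s37r_incl_mem_OF_iff (L₀ : IntermediateField ℚ Qbar)
    [IsDiscreteValuationRing ↥(s18q_A0 A L₀)] (ϖ : ↥(s18q_A0 A L₀)) (hϖ : Irreducible ϖ)
    (f₀ : ↥(laurentBaseChange ↥L₀ (modularFunctionFieldFull M))) :
    s18q_incl M L₀ f₀ ∈ s37r_OF A M hA ↔ f₀ ∈ s18x_V (s37r_G A L₀ ϖ hϖ) M :=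
  ⟨fun h => s37r_level_mem_V_of_mem_O A L₀ ϖ hϖ M f₀ h,
    fun h => s37r_level_mem_O A L₀ ϖ hϖ h⟩

/-- level link for the reduction. -/
theorem s37r_redV_incl (L₀ : IntermediateField ℚ Qbar)
    [IsDiscreteValuationRing ↥(s18q_A0 A L₀)] (ϖ : ↥(s18q_A0 A L₀)) (hϖ : Irreducible ϖ)
    (f₀ : ↥(laurentBaseChange ↥L₀ (modularFunctionFieldFull M)))
    (hf₀ : f₀ ∈ s18x_V (s37r_G A L₀ ϖ hϖ) M)
    (hmem : s18q_incl M L₀ f₀ ∈ s37r_OF A M hA) :
    s37r_redV A M hA ⟨s18q_incl M L₀ f₀, hmem⟩ =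
      coeffMap (s37r_resMap A L₀)
        (s18g_redV (s37r_G A L₀ ϖ hϖ) (laurentBaseChange ↥L₀ (modularFunctionFieldFull M))
          (fun _ hf => s18g_baseChange_mem_Frac (s37r_G A L₀ ϖ hϖ) M hf) ⟨f₀, hf₀⟩) :=
  s37r_level_red A L₀ ϖ hϖ ⟨(f₀ : LaurentSeries ↥L₀), hf₀⟩ hmem

variable (hℓM : ¬ ℓ ∣ M)

include hℓM in
/-- the reduction lands in the characteristic-`ℓ` function field. -/
theorem s37r_redV_mem_fullC (f : ↥(s37r_OF A M hA)) :
    s37r_redV A M hA f ∈ modularFunctionFieldFullC (IsLocalRing.ResidueField ↥A) M := by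
  classical
  obtain ⟨L₀, hfd, hL₀⟩ := s18q_exists_field M {(f : ↥(modularFunctionFieldBar M))}
  obtain ⟨f₀, hf₀⟩ := hL₀ (f : ↥(modularFunctionFieldBar M)) (Finset.mem_singleton_self _)
  haveI := hfd
  obtain ⟨_, ϖ, hϖ⟩ := s37r_exists_unif A hA L₀
  have hℓ : ℓ.Prime := Fact.out
  have hℓ0 : ((ℓ : ℕ) : ↥L₀) ∈ (A.comap (algebraMap ↥L₀ Qbar)).nonunits := by
    rw [ValuationSubring.mem_nonunits_iff_or]
    right
    intro hinv
    rw [ValuationSubring.mem_comap, map_inv₀, map_natCast] at hinv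
    rcases (ValuationSubring.mem_nonunits_iff_or (A := A)).mp hA with h0 | h0
    · exact (Nat.cast_ne_zero.mpr hℓ.ne_zero) h0
    · exact h0 hinv
  haveI hchar : CharP (IsLocalRing.ResidueField ↥(s18q_A0 A L₀)) ℓ :=
    s18x_charP_residueField _ hℓ hℓ0
  have hT : s18g_HT (IsLocalRing.ResidueField ↥(s18q_A0 A L₀)) M := s18t_indep_j ℓ M hℓM _
  have hdeg : s18g_HDeg ↥L₀ M := fun n b hb hn =>
    s18g_exists_relation M (algebraMap ↥L₀ Qbar) hn b hb
  have hmem : s18q_incl M L₀ f₀ ∈ s37r_OF A M hA := by rw [hf₀]; exact f.2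
  have hf₀V : f₀ ∈ s18x_V (s37r_G A L₀ ϖ hϖ) M :=
    (s37r_incl_mem_OF_iff A M hA L₀ ϖ hϖ f₀).mp hmem
  have hfeq : f = ⟨s18q_incl M L₀ f₀, hmem⟩ := Subtype.ext hf₀.symm
  rw [hfeq, s37r_redV_incl A M hA L₀ ϖ hϖ f₀ hf₀V hmem]
  exact s37e_coeffMap_mem_fullC M (s37r_resMap A L₀)
    (s18g_redV_mem_fullC (s37r_G A L₀ ϖ hϖ) M _ hT hdeg ⟨f₀, hf₀V⟩)

/-- **the top-level reduction** `redF : O_F →+* F_κ(M)`. -/
def s37r_redF : ↥(s37r_OF A M hA) →+*
    ↥(modularFunctionFieldFullC (IsLocalRing.ResidueField ↥A) M) :=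
  (s37r_redV A M hA).codRestrict (modularFunctionFieldFullC (IsLocalRing.ResidueField ↥A) M)
    (s37r_redV_mem_fullC A M hA hℓM)

@[simp] theorem s37r_coe_redF (f : ↥(s37r_OF A M hA)) :
    ((s37r_redF A M hA hℓM f : ↥(modularFunctionFieldFullC (IsLocalRing.ResidueField ↥A) M)) :
      LaurentSeries (IsLocalRing.ResidueField ↥A)) = s37r_redV A M hA f := rfl

/-- integral series are in `O_F`, with the expected reduction. -/
theorem s37r_iota_mem_OF (Y : LaurentSeries ↥A)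
    (hY : coeffMap A.subtype Y ∈ modularFunctionFieldBar M) :
    (⟨coeffMap A.subtype Y, hY⟩ : ↥(modularFunctionFieldBar M)) ∈ s37r_OF A M hA :=
  s37r_iota_mem_O A _ Y

theorem s37r_redV_iota (Y : LaurentSeries ↥A)
    (hY : coeffMap A.subtype Y ∈ modularFunctionFieldBar M) :
    s37r_redV A M hA ⟨⟨coeffMap A.subtype Y, hY⟩, s37r_iota_mem_OF A M hA Y hY⟩ =
      coeffMap (IsLocalRing.residue ↥A) Y :=
  s37r_red_iota A _ Y

/-! ### The top-level chart ring of a coordinate `w` -/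

variable (w : ↥(modularFunctionFieldBar M))

/-- the chart of `w` at the top level: places at which `w` is regular. -/
abbrev s37r_S : Set (Place Qbar ↥(modularFunctionFieldBar M)) := s18_chart1 (L₀ := Qbar) w

/-- **the top-level chart ring**. -/
abbrev s37r_B : Subring ↥(modularFunctionFieldBar M) := s18_ring (s37r_OF A M hA) (s37r_S M w)

/-- the reduction on the chart ring. -/
def s37r_Psi : ↥(s37r_B A M hA w) →+*
    ↥(modularFunctionFieldFullC (IsLocalRing.ResidueField ↥A) M) :=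
  (s37r_redF A M hA hℓM).comp (Subring.inclusion (s18_ring_le (s37r_OF A M hA) (s37r_S M w)))

/-- level link for the chart ring: for `w = incl w₀`, `incl b ∈ B ↔ b ∈ B_{L₀}`. -/
theorem s37r_incl_mem_B_iff (L₀ : IntermediateField ℚ Qbar)
    [IsDiscreteValuationRing ↥(s18q_A0 A L₀)] (ϖ : ↥(s18q_A0 A L₀)) (hϖ : Irreducible ϖ)
    (w₀ : ↥(laurentBaseChange ↥L₀ (modularFunctionFieldFull M)))
    (hw₀ : s18q_incl M L₀ w₀ = w)
    (b : ↥(laurentBaseChange ↥L₀ (modularFunctionFieldFull M))) :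
    s18q_incl M L₀ b ∈ s37r_B A M hA w ↔
      b ∈ s18_ring (s18x_V (s37r_G A L₀ ϖ hϖ) M) (s18_chart1 (L₀ := ↥L₀) w₀) := by
  constructor
  · rintro ⟨hO, hS⟩
    refine ⟨(s37r_incl_mem_OF_iff A M hA L₀ ϖ hϖ b).mp hO, fun Q hQ => ?_⟩
    obtain ⟨P, rfl⟩ := s18q_restrict_surjective M L₀ Q
    rw [s18q_mem_restrict]
    apply hS P
    show w ∈ P.toValuationSubring
    rw [← hw₀, ← s18q_mem_restrict]
    exact hQ
  · rintro ⟨hV, hS⟩
    refine ⟨(s37r_incl_mem_OF_iff A M hA L₀ ϖ hϖ b).mpr hV, fun P hP => ?_⟩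
    rw [← s18q_mem_restrict]
    apply hS (s18q_restrict M L₀ P)
    show w₀ ∈ (s18q_restrict M L₀ P).toValuationSubring
    rw [s18q_mem_restrict, hw₀]
    exact hP

end Fermat.Agent.Lib.S37
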