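/-
S37 moonshot (M-B), package [R] (helper3): the level inputs of a coordinate `w` of `F_{ℚ̄}(M)`,
as ONE proposition `s37r_LevelInputs A M w` (= what S18's [S]-providers `s18f_sFive`, `s18f_sThree`,
`s18f_sTwo` + (α) + [B] give at every number field level `L₀ ⊆ ℚ̄`): `w` descends to `w₀ ∈ F_{L₀}(M)`,
which is a generator (`FFGen`), Gauss-integral, satisfies (α) and the per-chart contract
`s18f_ChartS … w₀ 1`.
-/
import Fermat.Agent.Lib.S37.RChart

set_option autoImplicit false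
set_option linter.style.haveILetI false
set_option linter.unusedSectionVars false

noncomputable section

namespace Fermat.Agent.Lib.S37

open ModularCurve HahnSeries AlgebraicCurve Fermat.Agent.Lib.S18 Fermat.Agent.Lib.FF Polynomial

local notation "Qbar" => AlgebraicClosure ℚ

variable (A : ValuationSubring Qbar) (M : ℕ) (w : ↥(modularFunctionFieldBar M))

/-- **the level inputs** for the chart of the coordinate `w`. -/
def s37r_LevelInputs : Prop :=
  ∀ (L₀ : IntermediateField ℚ Qbar) [FiniteDimensional ℚ L₀]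
    [IsDiscreteValuationRing ↥(s18q_A0 A L₀)] (ϖ : ↥(s18q_A0 A L₀)) (hϖ : Irreducible ϖ),
    ∃ w₀ : ↥(laurentBaseChange ↥L₀ (modularFunctionFieldFull M)),
      s18q_incl M L₀ w₀ = w ∧ FFGen ↥L₀ w₀ ∧ w₀ ∈ s18x_V (s37r_G A L₀ ϖ hϖ) M ∧
      (∀ y ∈ s18x_V (s37r_G A L₀ ϖ hϖ) M, ∃ s : (s37r_G A L₀ ϖ hϖ).A[X],
        s.map (s37r_G A L₀ ϖ hϖ).π ≠ 0 ∧
        (s18b_ev (s37r_G A L₀ ϖ hϖ) (laurentBaseChange ↥L₀ (modularFunctionFieldFull M))
          w₀).IsIntegralElem
          (s18b_ev (s37r_G A L₀ ϖ hϖ) (laurentBaseChange ↥L₀ (modularFunctionFieldFull M))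
            w₀ s * y)) ∧
      s18f_ChartS (s37r_G A L₀ ϖ hϖ) M w₀ 1

end Fermat.Agent.Lib.S37
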