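/-
S37 moonshot (M-B), package [R], leaves (P4)+(P5) (helper4): VALUES and KERNEL for the top-level
chart ring `B = s37r_B A M hA w` of a coordinate `w` with level inputs `s37r_LevelInputs A M w`.

* `s37r4_value`: if `w(P) = c ∈ A`, every `b ∈ B` has a value `b(P) = c' ∈ A`;
* `s37r4_ker`: `Ψ b = 0 ⇒ b = c · b'` with `c ∈ 𝔪_A`, `b' ∈ B`;
* `s37r4_const_mem`, `s37r4_Psi_const`, `s37r4_w_mem`.
-/
import Fermat.Agent.Lib.S37.RLevelDef
import Fermat.Agent.Lib.S37.PValue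
import Fermat.Agent.Lib.S18.RData
import Fermat.Agent.Lib.S18.FChartS

set_option autoImplicit false
set_option linter.style.haveILetI false
set_option linter.unusedSectionVars false
set_option synthInstance.maxHeartbeats 400000
set_option maxHeartbeats 800000

noncomputable section

namespace Fermat.Agent.Lib.S37

open ModularCurve HahnSeries AlgebraicCurve Fermat.Agent.Lib.S18 Fermat.Agent.Lib.FF Polynomial

local notation "Qbar" => AlgebraicClosure ℚ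

variable (A : ValuationSubring Qbar) (M : ℕ) [NeZero M] {ℓ : ℕ} [Fact ℓ.Prime]
  (hA : A.LiesOverPrime ℓ) (hℓM : ¬ ℓ ∣ M) (w : ↥(modularFunctionFieldBar M))

/-- the coordinate lies in its chart ring as soon as it is Gauss-integral. -/
theorem s37r4_w_mem (hwO : w ∈ s37r_OF A M hA) : w ∈ s37r_B A M hA w :=
  ⟨hwO, fun _ hQ => hQ⟩

/-- the series of a constant of `A`. -/
theorem s37r4_coe_const (c : Qbar) (hc : c ∈ A) :
    ((algebraMap Qbar ↥(modularFunctionFieldBar M) c : ↥(modularFunctionFieldBar M)) :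
      LaurentSeries Qbar) = coeffMap A.subtype (HahnSeries.C (⟨c, hc⟩ : A)) := by
  rw [s18g_coe_algebraMap, HahnSeries.C_apply, HahnSeries.C_apply, coeffMap_single]
  rfl

/-- constants of `A` are Gauss-integral. -/
theorem s37r4_const_mem_OF (c : Qbar) (hc : c ∈ A) :
    algebraMap Qbar ↥(modularFunctionFieldBar M) c ∈ s37r_OF A M hA := by
  rw [s37r_mem_OF_iff, s37r4_coe_const A M c hc]
  exact s37r_iota_mem_O A _ _

/-- constants of `A` lie in the chart ring. -/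
theorem s37r4_const_mem (c : Qbar) (hc : c ∈ A) :
    algebraMap Qbar ↥(modularFunctionFieldBar M) c ∈ s37r_B A M hA w :=
  ⟨s37r4_const_mem_OF A M hA c hc, fun Q _ => Q.algebraMap_mem' c⟩

/-- `Ψ` of a constant is the residue of the constant. -/
theorem s37r4_Psi_const (c : Qbar) (hc : c ∈ A) :
    s37r_Psi A M hA hℓM w ⟨algebraMap Qbar ↥(modularFunctionFieldBar M) c,
        s37r4_const_mem A M hA w c hc⟩ =
      algebraMap (IsLocalRing.ResidueField ↥A)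
        ↥(modularFunctionFieldFullC (IsLocalRing.ResidueField ↥A) M)
        (IsLocalRing.residue ↥A ⟨c, hc⟩) := by
  apply Subtype.ext
  have hY : coeffMap A.subtype (HahnSeries.C (⟨c, hc⟩ : A)) ∈ modularFunctionFieldBar M := by
    rw [← s37r4_coe_const A M c hc]
    exact Subtype.mem _
  have h1 := s37r_redV_iota A M hA (HahnSeries.C (⟨c, hc⟩ : A)) hY
  have h2 : ((s37r_Psi A M hA hℓM w ⟨algebraMap Qbar ↥(modularFunctionFieldBar M) c,
        s37r4_const_mem A M hA w c hc⟩ :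
        ↥(modularFunctionFieldFullC (IsLocalRing.ResidueField ↥A) M)) :
        LaurentSeries (IsLocalRing.ResidueField ↥A)) =
      s37r_redV A M hA ⟨⟨coeffMap A.subtype (HahnSeries.C (⟨c, hc⟩ : A)), hY⟩,
        s37r_iota_mem_OF A M hA _ hY⟩ := by
    show s37r_redV A M hA _ = _
    congr 1
    apply Subtype.ext
    apply Subtype.ext
    exact s37r4_coe_const A M c hc
  rw [h2, h1, HahnSeries.C_apply, coeffMap_single, s18g_coe_algebraMap, HahnSeries.C_apply]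

/-- **(P5) the kernel of `Ψ`**: an element of the chart ring with zero reduction is a non-unit
constant of `A` times an element of the chart ring. -/
theorem s37r4_ker (hlev : s37r_LevelInputs A M w) (b : ↥(s37r_B A M hA w))
    (h : s37r_Psi A M hA hℓM w b = 0) :
    ∃ (c : Qbar) (b' : ↥(s37r_B A M hA w)), c ∈ A ∧ c⁻¹ ∉ A ∧
      (b : ↥(modularFunctionFieldBar M)) =
        algebraMap Qbar ↥(modularFunctionFieldBar M) c * (b' : ↥(modularFunctionFieldBar M)) := by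
  classical
  obtain ⟨L₀, hfd, hL₀⟩ := s18q_exists_field M {(b : ↥(modularFunctionFieldBar M))}
  obtain ⟨b₀, hb₀⟩ := hL₀ _ (Finset.mem_singleton_self _)
  haveI := hfd
  obtain ⟨hdvr, ϖ, hϖ⟩ := s37r_exists_unif A hA L₀
  haveI := hdvr
  obtain ⟨w₀, hw₀, hgen, hwV, hα, hS⟩ := hlev L₀ ϖ hϖ
  have hbmem : s18q_incl M L₀ b₀ ∈ s37r_B A M hA w := by rw [hb₀]; exact b.2
  have hbB : b₀ ∈ s18_ring (s18x_V (s37r_G A L₀ ϖ hϖ) M) (s18_chart1 (L₀ := ↥L₀) w₀) :=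
    (s37r_incl_mem_B_iff A M hA w L₀ ϖ hϖ w₀ hw₀ b₀).mp hbmem
  have hmem : s18q_incl M L₀ b₀ ∈ s37r_OF A M hA := hbmem.1
  have hred := s37r_redV_incl A M hA L₀ ϖ hϖ b₀ hbB.1 hmem
  have h0 : s37r_redV A M hA ⟨s18q_incl M L₀ b₀, hmem⟩ = 0 := by
    have h' := congrArg Subtype.val h
    have h'' : s37r_redV A M hA ⟨(b : ↥(modularFunctionFieldBar M)), b.2.1⟩ = 0 := h'
    have heq : (⟨s18q_incl M L₀ b₀, hmem⟩ : ↥(s37r_OF A M hA)) =
        ⟨(b : ↥(modularFunctionFieldBar M)), b.2.1⟩ := Subtype.ext hb₀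
    rw [heq]
    exact h''
  rw [hred] at h0
  have h1 : s18g_redV (s37r_G A L₀ ϖ hϖ) (laurentBaseChange ↥L₀ (modularFunctionFieldFull M))
      (fun _ hf => s18g_baseChange_mem_Frac (s37r_G A L₀ ϖ hϖ) M hf) ⟨b₀, hbB.1⟩ = 0 := by
    apply s37r_coeffMap_resMap_injective A L₀
    rw [h0, map_zero]
  obtain ⟨g, hg⟩ := (s18g_redV_eq_zero_iff (s37r_G A L₀ ϖ hϖ) _ _ _).mp h1
  have hϖ0 : ((ϖ : ↥(s18q_A0 A L₀)) : ↥L₀) ≠ 0 := fun h0 => hϖ.ne_zero (Subtype.ext h0)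
  have hb₀g : b₀ = algebraMap ↥L₀ ↥(laurentBaseChange ↥L₀ (modularFunctionFieldFull M))
      ((ϖ : ↥(s18q_A0 A L₀)) : ↥L₀) * (g : ↥(laurentBaseChange ↥L₀ (modularFunctionFieldFull M))) :=
    congrArg Subtype.val hg
  have hgB : (g : ↥(laurentBaseChange ↥L₀ (modularFunctionFieldFull M))) ∈
      s18_ring (s18x_V (s37r_G A L₀ ϖ hϖ) M) (s18_chart1 (L₀ := ↥L₀) w₀) :=
    s18f_ring_pure (s18x_V (s37r_G A L₀ ϖ hϖ) M) (s18_chart1 (L₀ := ↥L₀) w₀)
      ((ϖ : ↥(s18q_A0 A L₀)) : ↥L₀) hϖ0 hbB g.2 hb₀g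
  have hcA : algebraMap ↥L₀ Qbar ((ϖ : ↥(s18q_A0 A L₀)) : ↥L₀) ∈ A := ϖ.2
  refine ⟨algebraMap ↥L₀ Qbar ((ϖ : ↥(s18q_A0 A L₀)) : ↥L₀),
    ⟨s18q_incl M L₀ (g : ↥(laurentBaseChange ↥L₀ (modularFunctionFieldFull M))),
      (s37r_incl_mem_B_iff A M hA w L₀ ϖ hϖ w₀ hw₀ _).mpr hgB⟩, hcA, ?_, ?_⟩
  · intro hinv
    have hmax := s37r_unif_mem_maximalIdeal A L₀ ϖ hϖ
    rw [IsLocalRing.mem_maximalIdeal, mem_nonunits_iff] at hmax
    apply hmax
    refine IsUnit.of_mul_eq_one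
      (⟨(algebraMap ↥L₀ Qbar ((ϖ : ↥(s18q_A0 A L₀)) : ↥L₀))⁻¹, hinv⟩ : ↥A) (Subtype.ext ?_)
    show algebraMap ↥L₀ Qbar ((ϖ : ↥(s18q_A0 A L₀)) : ↥L₀) *
      (algebraMap ↥L₀ Qbar ((ϖ : ↥(s18q_A0 A L₀)) : ↥L₀))⁻¹ = 1
    exact mul_inv_cancel₀ ((_root_.map_ne_zero _).mpr hϖ0)
  · show (b : ↥(modularFunctionFieldBar M)) = _ * s18q_incl M L₀ _
    rw [← hb₀, hb₀g, map_mul, s18q_incl_algebraMap]
    rfl

/-- the level evaluation `A₀[X] → F_{L₀}` at `w₀`, pushed to the top level, is the evaluation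
`A[X] → F` at `w`. -/
theorem s37r4_incl_comp_ev (L₀ : IntermediateField ℚ Qbar)
    (w₀ : ↥(laurentBaseChange ↥L₀ (modularFunctionFieldFull M)))
    (hw₀ : s18q_incl M L₀ w₀ = w) :
    (s18q_incl M L₀).comp (s18b_evA ↥(s18q_A0 A L₀) ↥L₀ w₀) =
      (s37pv_evalA A w).comp (Polynomial.mapRingHom (s18q_A0_hom A L₀)) := by
  refine Polynomial.ringHom_ext (fun a => ?_) ?_
  · show s18q_incl M L₀ (s18b_evA _ _ w₀ (Polynomial.C a)) =
      s37pv_evalA A w (Polynomial.map (s18q_A0_hom A L₀) (Polynomial.C a))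
    rw [s18b_evA_C, s18q_incl_algebraMap, Polynomial.map_C]
    show _ = Polynomial.eval₂ _ w (Polynomial.C _)
    rw [Polynomial.eval₂_C]
    rfl
  · show s18q_incl M L₀ (s18b_evA _ _ w₀ Polynomial.X) =
      s37pv_evalA A w (Polynomial.map (s18q_A0_hom A L₀) Polynomial.X)
    rw [s18b_evA_X, hw₀, Polynomial.map_X]
    show _ = Polynomial.eval₂ _ w Polynomial.X
    rw [Polynomial.eval₂_X]

/-- **(P4) values**: at a place `P` with `w(P) = c ∈ A`, every element of the chart ring has a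
value in `A`. -/
theorem s37r4_value (hlev : s37r_LevelInputs A M w) (b : ↥(s37r_B A M hA w))
    (P : Place Qbar ↥(modularFunctionFieldBar M)) (c : Qbar) (hc : c ∈ A)
    (hwc : 0 < P.ord (w - algebraMap Qbar ↥(modularFunctionFieldBar M) c)) :
    ∃ c' : Qbar, c' ∈ A ∧
      ((b : ↥(modularFunctionFieldBar M)) = algebraMap Qbar ↥(modularFunctionFieldBar M) c' ∨
        0 < P.ord ((b : ↥(modularFunctionFieldBar M)) -
          algebraMap Qbar ↥(modularFunctionFieldBar M) c')) := by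
  classical
  haveI : FFGen Qbar (ffd_jBar M) := s18r_ffGen M
  -- `w ∈ O_P` with value `c`
  have hw0 : w - algebraMap Qbar ↥(modularFunctionFieldBar M) c ≠ 0 := by
    intro h0
    rw [h0, Place.ord_zero] at hwc
    exact lt_irrefl _ hwc
  have hwP : w ∈ P.toValuationSubring := by
    have h1 := ((ff_ord_pos_iff P hw0).mp hwc).1
    have h2 := add_mem h1 (P.algebraMap_mem' c)
    rwa [sub_add_cancel] at h2
  have hev_w : s37pv_ev (ffd_jBar M) P ⟨w, hwP⟩ = c :=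
    (s37pv_ev_coe_eq_iff (ffd_jBar M) P ⟨w, hwP⟩ c).mpr (Or.inr hwc)
  -- descend `b` to a level
  obtain ⟨L₀, hfd, hL₀⟩ := s18q_exists_field M {(b : ↥(modularFunctionFieldBar M))}
  obtain ⟨b₀, hb₀⟩ := hL₀ _ (Finset.mem_singleton_self _)
  haveI := hfd
  obtain ⟨hdvr, ϖ, hϖ⟩ := s37r_exists_unif A hA L₀
  haveI := hdvr
  obtain ⟨w₀, hw₀, hgen, hwV, hα, hS⟩ := hlev L₀ ϖ hϖ
  haveI := hgen
  haveI : IsDiscreteValuationRing ↥(s37r_G A L₀ ϖ hϖ).A := hdvr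
  have hbmem : s18q_incl M L₀ b₀ ∈ s37r_B A M hA w := by rw [hb₀]; exact b.2
  have hbB : b₀ ∈ s18_ring (s18x_V (s37r_G A L₀ ϖ hϖ) M) (s18_chart1 (L₀ := ↥L₀) w₀) :=
    (s37r_incl_mem_B_iff A M hA w L₀ ϖ hϖ w₀ hw₀ b₀).mp hbmem
  have hint : (s18b_ev (s37r_G A L₀ ϖ hϖ)
      (laurentBaseChange ↥L₀ (modularFunctionFieldFull M)) w₀).IsIntegralElem b₀ :=
    s18b_isIntegralElem_of_mem_ring (s37r_G A L₀ ϖ hϖ)
      (laurentBaseChange ↥L₀ (modularFunctionFieldFull M))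
      (fun _ hf => s18g_baseChange_mem_Frac (s37r_G A L₀ ϖ hϖ) M hf) w₀ hα b₀ hbB
  -- integrality at the top level
  have hint2 : (s18b_evA ↥(s18q_A0 A L₀) ↥L₀ w₀).IsIntegralElem b₀ := hint
  have hint' : (s37pv_evalA A w).IsIntegralElem (b : ↥(modularFunctionFieldBar M)) := by
    obtain ⟨p, hpm, hp⟩ := hint2
    refine ⟨p.map (Polynomial.mapRingHom (s18q_A0_hom A L₀)), hpm.map _, ?_⟩
    rw [Polynomial.eval₂_map, ← s37r4_incl_comp_ev A M w L₀ w₀ hw₀, ← hb₀]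
    have h3 := Polynomial.hom_eval₂ p (s18b_evA ↥(s18q_A0 A L₀) ↥L₀ w₀) (s18q_incl M L₀) b₀
    rw [← h3, hp, map_zero]
  obtain ⟨hbv, hbA⟩ := s37pv_ev_mem_of_integral (ffd_jBar M) P A w hwP (by rw [hev_w]; exact hc)
    (b : ↥(modularFunctionFieldBar M)) hint'
  exact ⟨s37pv_ev (ffd_jBar M) P ⟨(b : ↥(modularFunctionFieldBar M)), hbv⟩, hbA,
    (s37pv_ev_coe_eq_iff (ffd_jBar M) P ⟨(b : ↥(modularFunctionFieldBar M)), hbv⟩ _).mp rfl⟩

end Fermat.Agent.Lib.S37
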