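/-
S37 moonshot (M-B), package [R], leaf (P7) (helper4): the TOP-LEVEL form of (α).

For a coordinate `w` with level inputs, every Gauss-integral function `y ∈ O_F` becomes an element
of the top-level chart ring `B` after multiplication by some `b₂ = s(w) ∈ B`, `s ∈ A[X]`, whose
reduction `s̄(w̄)` is nonzero (as soon as `w̄` is transcendental over `κ`).
-/
import Fermat.Agent.Lib.S37.RValue

set_option autoImplicit false
set_option linter.style.haveILetI false
set_option linter.unusedSectionVars false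
set_option synthInstance.maxHeartbeats 400000
set_option maxHeartbeats 800000

noncomputable section

namespace Fermat.Agent.Lib.S37

open ModularCurve HahnSeries AlgebraicCurve Fermat.Agent.Lib.S18 Fermat.Agent.Lib.FF Polynomial

local notation "Qbar" => AlgebraicClosure ℚ

variable (A : ValuationSubring Qbar) (M : ℕ) [NeZero M] {ℓ : ℕ} [Fact ℓ.Prime]
  (hA : A.LiesOverPrime ℓ) (hℓM : ¬ ℓ ∣ M) (w : ↥(modularFunctionFieldBar M))

/-- the coordinate is Gauss-integral (from the level inputs at the level `ℚ`). -/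
theorem s37r7_w_mem_OF (hlev : s37r_LevelInputs A M w) : w ∈ s37r_OF A M hA := by
  obtain ⟨hdvr, ϖ, hϖ⟩ := s37r_exists_unif A hA (⊥ : IntermediateField ℚ Qbar)
  haveI := hdvr
  obtain ⟨w₀, hw₀, -, hwV, -, -⟩ := hlev ⊥ ϖ hϖ
  rw [← hw₀]
  exact (s37r_incl_mem_OF_iff A M hA ⊥ ϖ hϖ w₀).mpr hwV

/-- the constants, as a ring homomorphism `A →+* B`. -/
def s37r7_constB : ↥A →+* ↥(s37r_B A M hA w) where
  toFun a := ⟨algebraMap Qbar ↥(modularFunctionFieldBar M) (a : Qbar),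
    s37r4_const_mem A M hA w (a : Qbar) a.2⟩
  map_one' := Subtype.ext (by simp)
  map_mul' a b := Subtype.ext (by simp [map_mul])
  map_zero' := Subtype.ext (by simp)
  map_add' a b := Subtype.ext (by simp [map_add])

/-- evaluation `A[X] →+* B` at `w`. -/
def s37r7_evalB (hwO : w ∈ s37r_OF A M hA) : (↥A)[X] →+* ↥(s37r_B A M hA w) :=
  Polynomial.eval₂RingHom (s37r7_constB A M hA w) ⟨w, s37r4_w_mem A M hA w hwO⟩

theorem s37r7_coe_evalB (hwO : w ∈ s37r_OF A M hA) (p : (↥A)[X]) :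
    ((s37r7_evalB A M hA w hwO p : ↥(s37r_B A M hA w)) : ↥(modularFunctionFieldBar M)) =
      s37pv_evalA A w p := by
  have h := Polynomial.hom_eval₂ p (s37r7_constB A M hA w) (s37r_B A M hA w).subtype
    ⟨w, s37r4_w_mem A M hA w hwO⟩
  exact h

theorem s37r7_Psi_evalB (hwO : w ∈ s37r_OF A M hA) (p : (↥A)[X]) :
    s37r_Psi A M hA hℓM w (s37r7_evalB A M hA w hwO p) =
      Polynomial.eval₂ ((algebraMap (IsLocalRing.ResidueField ↥A)
          ↥(modularFunctionFieldFullC (IsLocalRing.ResidueField ↥A) M)).comp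
          (IsLocalRing.residue ↥A))
        (s37r_redF A M hA hℓM ⟨w, hwO⟩) p := by
  have h := Polynomial.hom_eval₂ p (s37r7_constB A M hA w) (s37r_Psi A M hA hℓM w)
    ⟨w, s37r4_w_mem A M hA w hwO⟩
  have hcomp : (s37r_Psi A M hA hℓM w).comp (s37r7_constB A M hA w) =
      (algebraMap (IsLocalRing.ResidueField ↥A)
          ↥(modularFunctionFieldFullC (IsLocalRing.ResidueField ↥A) M)).comp
        (IsLocalRing.residue ↥A) := by
    refine RingHom.ext fun a => ?_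
    exact s37r4_Psi_const A M hA hℓM w (a : Qbar) a.2
  rw [hcomp] at h
  exact h

/-- **(P7) top-level (α).** -/
theorem s37r7_alpha (hlev : s37r_LevelInputs A M w) (hwO : w ∈ s37r_OF A M hA)
    (htr : Transcendental (IsLocalRing.ResidueField ↥A) (s37r_redF A M hA hℓM ⟨w, hwO⟩))
    (y : ↥(modularFunctionFieldBar M)) (hy : y ∈ s37r_OF A M hA) :
    ∃ b₂ : ↥(s37r_B A M hA w), s37r_Psi A M hA hℓM w b₂ ≠ 0 ∧
      y * (b₂ : ↥(modularFunctionFieldBar M)) ∈ s37r_B A M hA w := by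
  classical
  obtain ⟨L₀, hfd, hL₀⟩ := s18q_exists_field M {y}
  obtain ⟨y₀, hy₀⟩ := hL₀ _ (Finset.mem_singleton_self _)
  haveI := hfd
  obtain ⟨hdvr, ϖ, hϖ⟩ := s37r_exists_unif A hA L₀
  haveI := hdvr
  obtain ⟨w₀, hw₀, hgen, hwV, hα, hS⟩ := hlev L₀ ϖ hϖ
  have hy₀V : y₀ ∈ s18x_V (s37r_G A L₀ ϖ hϖ) M :=
    (s37r_incl_mem_OF_iff A M hA L₀ ϖ hϖ y₀).mp (by rw [hy₀]; exact hy)
  -- restate (α) over `A₀ = A ∩ L₀`
  have key : ∃ s : (↥(s18q_A0 A L₀))[X],
      Polynomial.map (IsLocalRing.residue ↥(s18q_A0 A L₀)) s ≠ 0 ∧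
      (s18b_ev (s37r_G A L₀ ϖ hϖ)
        (laurentBaseChange ↥L₀ (modularFunctionFieldFull M)) w₀).IsIntegralElem
        (s18b_evA ↥(s18q_A0 A L₀) ↥L₀ w₀ s * y₀) := hα y₀ hy₀V
  obtain ⟨s, hs', hint⟩ := key
  have hmemL : s18b_evA ↥(s18q_A0 A L₀) ↥L₀ w₀ s * y₀ ∈
      s18_ring (s18x_V (s37r_G A L₀ ϖ hϖ) M) (s18_chart1 (L₀ := ↥L₀) w₀) :=
    s18b_mem_ring_of_isIntegralElem (s37r_G A L₀ ϖ hϖ)
      (laurentBaseChange ↥L₀ (modularFunctionFieldFull M))
      (fun _ hf => s18g_baseChange_mem_Frac (s37r_G A L₀ ϖ hϖ) M hf) w₀ hwV _ hint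
  refine ⟨s37r7_evalB A M hA w hwO (s.map (s18q_A0_hom A L₀)), ?_, ?_⟩
  · -- nonvanishing of the reduction
    rw [s37r7_Psi_evalB, ← Polynomial.eval₂_map]
    intro h0
    apply htr
    refine ⟨(s.map (s18q_A0_hom A L₀)).map (IsLocalRing.residue ↥A), ?_, ?_⟩
    · rw [Polynomial.map_map]
      have hcomp : (IsLocalRing.residue ↥A).comp (s18q_A0_hom A L₀) =
          (s37r_resMap A L₀).comp (IsLocalRing.residue ↥(s18q_A0 A L₀)) :=
        s37r_resMap_comp A L₀
      rw [hcomp, ← Polynomial.map_map]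
      intro h1
      apply hs'
      apply Polynomial.map_injective (s37r_resMap A L₀) (s37r_resMap A L₀).injective
      rw [h1, Polynomial.map_zero]
    · rw [Polynomial.aeval_def]
      exact h0
  · -- membership in the chart ring
    rw [s37r7_coe_evalB]
    have h1 : s37pv_evalA A w (s.map (s18q_A0_hom A L₀)) =
        s18q_incl M L₀ (s18b_evA ↥(s18q_A0 A L₀) ↥L₀ w₀ s) := by
      have := congrArg (fun f => f s) (s37r4_incl_comp_ev A M w L₀ w₀ hw₀)
      exact this.symm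
    rw [h1, ← hy₀, mul_comm, ← map_mul]
    exact (s37r_incl_mem_B_iff A M hA w L₀ ϖ hϖ w₀ hw₀ _).mpr hmemL

end Fermat.Agent.Lib.S37
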