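/-
S37 moonshot (M-B), package [R], leaf (P3), integrality half (lead): for a coordinate `w` with level
inputs, every element `b` of the top-level chart ring `B = s37r_B A M hA w` is integral over
`A[w]` (top-level form of (B1)), hence its reduction `Ψ b` is integral over `κ[X]` (`X ↦ w̄`).
-/
import Fermat.Agent.Lib.S37.RAlpha

set_option autoImplicit false
set_option linter.style.haveILetI false
set_option linter.unusedSectionVars false
set_option synthInstance.maxHeartbeats 400000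
set_option maxHeartbeats 800000

noncomputable section

namespace Fermat.Agent.Lib.S37

open ModularCurve HahnSeries AlgebraicCurve Fermat.Agent.Lib.S18 Fermat.Agent.Lib.FF Polynomial

local notation "Qbar" => AlgebraicClosure ℚ

variable (A : ValuationSubring Qbar) (M : ℕ) [NeZero M] {ℓ : ℕ} [Fact ℓ.Prime]
  (hA : A.LiesOverPrime ℓ) (hℓM : ¬ ℓ ∣ M) (w : ↥(modularFunctionFieldBar M))

/-- **top-level (B1)**: every element of the chart ring is integral over `A[w]`. -/
theorem s37r3i_isIntegralElem (hlev : s37r_LevelInputs A M w) (b : ↥(s37r_B A M hA w)) :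
    (s37pv_evalA A w).IsIntegralElem (b : ↥(modularFunctionFieldBar M)) := by
  classical
  obtain ⟨L₀, hfd, hL₀⟩ := s18q_exists_field M {(b : ↥(modularFunctionFieldBar M))}
  obtain ⟨b₀, hb₀⟩ := hL₀ _ (Finset.mem_singleton_self _)
  haveI := hfd
  obtain ⟨hdvr, ϖ, hϖ⟩ := s37r_exists_unif A hA L₀
  haveI := hdvr
  obtain ⟨w₀, hw₀, hgen, hwV, hα, hS⟩ := hlev L₀ ϖ hϖ
  haveI := hgen
  haveI : IsDiscreteValuationRing ↥(s37r_G A L₀ ϖ hϖ).A := hdvr
  have hbmem : s18q_incl M L₀ b₀ ∈ s37r_B A M hA w := by rw [hb₀]; exact b.2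
  have hbB : b₀ ∈ s18_ring (s18x_V (s37r_G A L₀ ϖ hϖ) M) (s18_chart1 (L₀ := ↥L₀) w₀) :=
    (s37r_incl_mem_B_iff A M hA w L₀ ϖ hϖ w₀ hw₀ b₀).mp hbmem
  have hint : (s18b_ev (s37r_G A L₀ ϖ hϖ)
      (laurentBaseChange ↥L₀ (modularFunctionFieldFull M)) w₀).IsIntegralElem b₀ :=
    s18b_isIntegralElem_of_mem_ring (s37r_G A L₀ ϖ hϖ)
      (laurentBaseChange ↥L₀ (modularFunctionFieldFull M))
      (fun _ hf => s18g_baseChange_mem_Frac (s37r_G A L₀ ϖ hϖ) M hf) w₀ hα b₀ hbB
  have hint2 : (s18b_evA ↥(s18q_A0 A L₀) ↥L₀ w₀).IsIntegralElem b₀ := hint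
  obtain ⟨p, hpm, hp⟩ := hint2
  refine ⟨p.map (Polynomial.mapRingHom (s18q_A0_hom A L₀)), hpm.map _, ?_⟩
  rw [Polynomial.eval₂_map, ← s37r4_incl_comp_ev A M w L₀ w₀ hw₀, ← hb₀]
  have h3 := Polynomial.hom_eval₂ p (s18b_evA ↥(s18q_A0 A L₀) ↥L₀ w₀) (s18q_incl M L₀) b₀
  rw [← h3, hp, map_zero]

/-- **(P3), integrality half**: the reduction of the chart ring lands in the integral closure of
`κ[X]` (acting through `X ↦ w̄`). -/
theorem s37r3i_Psi_isIntegral (hlev : s37r_LevelInputs A M w) (hwO : w ∈ s37r_OF A M hA)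
    [Algebra (IsLocalRing.ResidueField ↥A)[X]
      ↥(modularFunctionFieldFullC (IsLocalRing.ResidueField ↥A) M)]
    (hAlg : ∀ p : (IsLocalRing.ResidueField ↥A)[X],
      algebraMap (IsLocalRing.ResidueField ↥A)[X]
        ↥(modularFunctionFieldFullC (IsLocalRing.ResidueField ↥A) M) p =
        Polynomial.aeval (s37r_redF A M hA hℓM ⟨w, hwO⟩) p)
    (b : ↥(s37r_B A M hA w)) :
    IsIntegral (IsLocalRing.ResidueField ↥A)[X] (s37r_Psi A M hA hℓM w b) := by
  obtain ⟨p, hpm, hp⟩ := s37r3i_isIntegralElem A M hA w hlev b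
  -- the equation inside `B`
  have h1 : Polynomial.eval₂ (s37r7_evalB A M hA w hwO) b p = 0 := by
    apply Subtype.val_injective
    have h := Polynomial.hom_eval₂ p (s37r7_evalB A M hA w hwO) (s37r_B A M hA w).subtype b
    have hcomp : ((s37r_B A M hA w).subtype : ↥(s37r_B A M hA w) →+* _).comp
        (s37r7_evalB A M hA w hwO) = s37pv_evalA A w := by
      refine RingHom.ext fun q => ?_
      exact s37r7_coe_evalB A M hA w hwO q
    rw [hcomp] at h
    rw [ZeroMemClass.coe_zero, ← hp]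
    exact h
  -- apply `Ψ`
  have hcomp2 : (s37r_Psi A M hA hℓM w).comp (s37r7_evalB A M hA w hwO) =
      (algebraMap (IsLocalRing.ResidueField ↥A)[X]
          ↥(modularFunctionFieldFullC (IsLocalRing.ResidueField ↥A) M)).comp
        (Polynomial.mapRingHom (IsLocalRing.residue ↥A)) := by
    refine RingHom.ext fun q => ?_
    rw [RingHom.comp_apply, s37r7_Psi_evalB, RingHom.comp_apply, hAlg, Polynomial.aeval_def,
      Polynomial.coe_mapRingHom, Polynomial.eval₂_map]
  have h2 := Polynomial.hom_eval₂ p (s37r7_evalB A M hA w hwO) (s37r_Psi A M hA hℓM w) b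
  rw [h1, map_zero, hcomp2, ← Polynomial.eval₂_map] at h2
  exact ⟨p.map (Polynomial.mapRingHom (IsLocalRing.residue ↥A)), hpm.map _, h2.symm⟩

end Fermat.Agent.Lib.S37
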