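/-
S37 moonshot (M-B), package [R], piece [RL] (helper9): DISCHARGE of helper3's level inputs
`s37r_LevelInputs A M w` for the six chart coordinates
`w = j^{±1}` (`ℓ ≥ 5`), `t₂^{±1}` (`ℓ = 3`, `2 ∣ M`), `t₃^{±1}` (`ℓ = 2`, `3 ∣ M`),
from the landed S18 providers `s18f_sFive`, `s18f_sThree`, `s18f_sTwo` (with `m = 1`), the (α)
statements and [B]'s `FFGen`/Gauss-integrality of the coordinates.
-/
import Fermat.Agent.Lib.S37.RLevelDef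
import Fermat.Agent.Lib.S18.FProv23

set_option autoImplicit false
set_option linter.style.haveILetI false
set_option linter.unusedSectionVars false
set_option synthInstance.maxHeartbeats 400000
set_option maxHeartbeats 800000

noncomputable section

namespace Fermat.Agent.Lib.S37

open ModularCurve HahnSeries AlgebraicCurve Fermat.Agent.Lib.S18 Fermat.Agent.Lib.FF Polynomial

local notation "Qbar" => AlgebraicClosure ℚ

section Common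

variable (A : ValuationSubring Qbar) {ℓ : ℕ} [Fact ℓ.Prime] (hA : A.LiesOverPrime ℓ)
  (L₀ : IntermediateField ℚ Qbar)

include hA in
theorem s37rl_nonunit : ((ℓ : ℕ) : ↥L₀) ∈ (s18q_A0 A L₀).nonunits := by
  have hℓ : ℓ.Prime := Fact.out
  rw [ValuationSubring.mem_nonunits_iff_or]
  right
  intro hinv
  rw [s18q_A0, ValuationSubring.mem_comap, map_inv₀, map_natCast] at hinv
  rcases (ValuationSubring.mem_nonunits_iff_or (A := A)).mp hA with h0 | h0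
  · exact (Nat.cast_ne_zero.mpr hℓ.ne_zero) h0
  · exact h0 hinv

include hA in
theorem s37rl_charP : CharP (IsLocalRing.ResidueField ↥(s18q_A0 A L₀)) ℓ :=
  s18x_charP_residueField _ Fact.out (s37rl_nonunit A hA L₀)

include hA in
theorem s37rl_perfectField [FiniteDimensional ℚ L₀] :
    PerfectField (IsLocalRing.ResidueField ↥(s18q_A0 A L₀)) :=
  haveI : Algebra.IsAlgebraic ℚ ↥L₀ := Algebra.IsAlgebraic.of_finite ℚ ↥L₀
  s18x_perfectField_residue _ Fact.out (s37rl_nonunit A hA L₀)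

theorem s37rl_one_inv_mem : (((1 : ℕ) : ↥L₀))⁻¹ ∈ s18q_A0 A L₀ := by
  rw [Nat.cast_one, inv_one]
  exact (s18q_A0 A L₀).one_mem

end Common

section J

variable (A : ValuationSubring Qbar) (M : ℕ) [NeZero M] {ℓ : ℕ} [Fact ℓ.Prime]
  (hA : A.LiesOverPrime ℓ) (hℓM : ¬ ℓ ∣ M)

theorem s37rl_incl_jF (L₀ : IntermediateField ℚ Qbar) :
    s18q_incl M L₀ (s18g_jF (K := ↥L₀) M) = s18g_jF (K := Qbar) M := by
  apply Subtype.ext
  rw [s18q_incl_coe, s18g_coe_jF, s18g_coe_jF, coeffMap_jqModC]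

include hA hℓM in
/-- **level inputs for `w = j`** (`ℓ ≥ 5`). -/
theorem s37rl_levelInputs_j (h5 : 5 ≤ ℓ) : s37r_LevelInputs A M (s18g_jF (K := Qbar) M) := by
  intro L₀ hfd hdvr ϖ hϖ
  haveI : NumberField ↥L₀ := ⟨⟩
  haveI := s37rl_charP A hA L₀
  haveI := s37rl_perfectField A hA L₀
  set G := s37r_G A L₀ ϖ hϖ with hG
  haveI hdvr' : IsDiscreteValuationRing ↥G.A := hdvr
  have hT : s18g_HT (IsLocalRing.ResidueField ↥(s18q_A0 A L₀)) M := s18t_indep_j ℓ M hℓM _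
  have hdeg : s18g_HDeg ↥L₀ M := fun n b hb hn =>
    s18g_exists_relation M (algebraMap ↥L₀ Qbar) hn b hb
  have hS := s18f_sFive M ℓ hℓM h5 ↥L₀ (algebraMap ↥L₀ Qbar) _ G
    IsLocalRing.residue_surjective 1 one_ne_zero (s37rl_one_inv_mem A L₀)
  exact ⟨s18g_jF (K := ↥L₀) M, s37rl_incl_jF M L₀, s18b_ffGen_jF M hdeg,
    s18g_jF_mem_V G M _, s18g_alpha_j_b G M hT hdeg _, hS.1⟩

include hA hℓM in
/-- **level inputs for `w = j⁻¹`** (`ℓ ≥ 5`). -/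
theorem s37rl_levelInputs_j_inv (h5 : 5 ≤ ℓ) :
    s37r_LevelInputs A M (s18g_jF (K := Qbar) M)⁻¹ := by
  intro L₀ hfd hdvr ϖ hϖ
  haveI : NumberField ↥L₀ := ⟨⟩
  haveI := s37rl_charP A hA L₀
  haveI := s37rl_perfectField A hA L₀
  set G := s37r_G A L₀ ϖ hϖ with hG
  haveI hdvr' : IsDiscreteValuationRing ↥G.A := hdvr
  have hT : s18g_HT (IsLocalRing.ResidueField ↥(s18q_A0 A L₀)) M := s18t_indep_j ℓ M hℓM _
  have hdeg : s18g_HDeg ↥L₀ M := fun n b hb hn =>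
    s18g_exists_relation M (algebraMap ↥L₀ Qbar) hn b hb
  have hS := s18f_sFive M ℓ hℓM h5 ↥L₀ (algebraMap ↥L₀ Qbar) _ G
    IsLocalRing.residue_surjective 1 one_ne_zero (s37rl_one_inv_mem A L₀)
  refine ⟨(s18g_jF (K := ↥L₀) M)⁻¹, ?_, s18b_ffGen_jF_inv M hdeg,
    s18g_jF_inv_mem_V G M _, s18g_alpha_inv_b G M hT hdeg _, hS.2⟩
  rw [map_inv₀, s37rl_incl_jF]

end J

section T23

variable (A : ValuationSubring Qbar) (M : ℕ) [NeZero M] {ℓ : ℕ} [Fact ℓ.Prime]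
  (hA : A.LiesOverPrime ℓ) (hℓM : ¬ ℓ ∣ M)

include hA hℓM in
/-- **level inputs for `w = t₂` and `w = t₂⁻¹`** (`ℓ = 3`, `2 ∣ M`), for any element `w` of
`F_{ℚ̄}(M)` whose `q`-expansion is `t₂`. -/
theorem s37rl_levelInputs_t2 (hℓ3 : ℓ = 3) (h2M : 2 ∣ M) (w : ↥(modularFunctionFieldBar M))
    (hw : (w : LaurentSeries Qbar) = s18u_t2 Qbar) :
    s37r_LevelInputs A M w ∧ s37r_LevelInputs A M w⁻¹ := by
  have key : ∀ (L₀ : IntermediateField ℚ Qbar) [FiniteDimensional ℚ L₀]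
      [IsDiscreteValuationRing ↥(s18q_A0 A L₀)] (ϖ : ↥(s18q_A0 A L₀)) (hϖ : Irreducible ϖ),
      ∃ w₀ : ↥(laurentBaseChange ↥L₀ (modularFunctionFieldFull M)),
        s18q_incl M L₀ w₀ = w ∧ FFGen ↥L₀ w₀ ∧ FFGen ↥L₀ w₀⁻¹ ∧
        w₀ ∈ s18x_V (s37r_G A L₀ ϖ hϖ) M ∧ w₀⁻¹ ∈ s18x_V (s37r_G A L₀ ϖ hϖ) M ∧
        (∀ y ∈ s18x_V (s37r_G A L₀ ϖ hϖ) M, ∃ s : (s37r_G A L₀ ϖ hϖ).A[X],
          s.map (s37r_G A L₀ ϖ hϖ).π ≠ 0 ∧
          (s18b_ev (s37r_G A L₀ ϖ hϖ) (laurentBaseChange ↥L₀ (modularFunctionFieldFull M))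
            w₀).IsIntegralElem
            (s18b_ev (s37r_G A L₀ ϖ hϖ) (laurentBaseChange ↥L₀ (modularFunctionFieldFull M))
              w₀ s * y)) ∧
        (∀ y ∈ s18x_V (s37r_G A L₀ ϖ hϖ) M, ∃ s : (s37r_G A L₀ ϖ hϖ).A[X],
          s.map (s37r_G A L₀ ϖ hϖ).π ≠ 0 ∧
          (s18b_ev (s37r_G A L₀ ϖ hϖ) (laurentBaseChange ↥L₀ (modularFunctionFieldFull M))
            w₀⁻¹).IsIntegralElem
            (s18b_ev (s37r_G A L₀ ϖ hϖ) (laurentBaseChange ↥L₀ (modularFunctionFieldFull M))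
              w₀⁻¹ s * y)) ∧
        s18f_ChartS (s37r_G A L₀ ϖ hϖ) M w₀ 1 ∧ s18f_ChartS (s37r_G A L₀ ϖ hϖ) M w₀⁻¹ 1 := by
    intro L₀ hfd hdvr ϖ hϖ
    haveI : NumberField ↥L₀ := ⟨⟩
    haveI := s37rl_charP A hA L₀
    haveI := s37rl_perfectField A hA L₀
    set G := s37r_G A L₀ ϖ hϖ with hG
    haveI hdvr' : IsDiscreteValuationRing ↥G.A := hdvr
    have hℓ2 : ¬ ℓ ∣ 2 := by rw [hℓ3]; decide
    have hT : s18g_HT (IsLocalRing.ResidueField ↥(s18q_A0 A L₀)) M := s18t_indep_j ℓ M hℓM _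
    have hdeg : s18g_HDeg ↥L₀ M := fun n b hb hn =>
      s18g_exists_relation M (algebraMap ↥L₀ Qbar) hn b hb
    have hT2 : s18g_HT (IsLocalRing.ResidueField ↥(s18q_A0 A L₀)) 2 := s18t_indep_j ℓ 2 hℓ2 _
    have hdeg2 : s18g_HDeg ↥L₀ 2 := fun n b hb hn =>
      s18g_exists_relation 2 (algebraMap ↥L₀ Qbar) hn b hb
    obtain ⟨w₀, hwt, ⟨hwV, -⟩, hwinvV, hgen, hgeninv⟩ :=
      s18b_W1_t2 G hT2 hdeg2 M h2M hdeg (fun _ hf => s18g_baseChange_mem_Frac G M hf)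
    have hS := s18f_sThree M ℓ hℓM hℓ3 h2M ↥L₀ (algebraMap ↥L₀ Qbar) _ G
      IsLocalRing.residue_surjective 1 one_ne_zero (s37rl_one_inv_mem A L₀) w₀ hwt hgen hgeninv
    refine ⟨w₀, ?_, hgen, hgeninv, hwV, hwinvV,
      s18f_alpha_of_coe G M w₀ _ hwt (s18u_alpha_t2_coe G M hT hdeg),
      s18f_alpha_inv_of_coe G M w₀ _ hwt (s18u_alpha_t2_inv_coe G M hT hdeg), hS.1, hS.2⟩
    apply Subtype.ext
    rw [s18q_incl_coe, hwt, hw, s18u_coeffMap_t2]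
  constructor
  · intro L₀ hfd hdvr ϖ hϖ
    obtain ⟨w₀, h1, h2, -, h4, -, h6, -, h8, -⟩ := key L₀ ϖ hϖ
    exact ⟨w₀, h1, h2, h4, h6, h8⟩
  · intro L₀ hfd hdvr ϖ hϖ
    obtain ⟨w₀, h1, -, h3, -, h5, -, h7, -, h9⟩ := key L₀ ϖ hϖ
    exact ⟨w₀⁻¹, by rw [map_inv₀, h1], h3, h5, h7, h9⟩

include hA hℓM in
/-- **level inputs for `w = t₃` and `w = t₃⁻¹`** (`ℓ = 2`, `3 ∣ M`). -/
theorem s37rl_levelInputs_t3 (hℓ2 : ℓ = 2) (h3M : 3 ∣ M) (w : ↥(modularFunctionFieldBar M))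
    (hw : (w : LaurentSeries Qbar) = s18u_t3 Qbar) :
    s37r_LevelInputs A M w ∧ s37r_LevelInputs A M w⁻¹ := by
  have key : ∀ (L₀ : IntermediateField ℚ Qbar) [FiniteDimensional ℚ L₀]
      [IsDiscreteValuationRing ↥(s18q_A0 A L₀)] (ϖ : ↥(s18q_A0 A L₀)) (hϖ : Irreducible ϖ),
      ∃ w₀ : ↥(laurentBaseChange ↥L₀ (modularFunctionFieldFull M)),
        s18q_incl M L₀ w₀ = w ∧ FFGen ↥L₀ w₀ ∧ FFGen ↥L₀ w₀⁻¹ ∧
        w₀ ∈ s18x_V (s37r_G A L₀ ϖ hϖ) M ∧ w₀⁻¹ ∈ s18x_V (s37r_G A L₀ ϖ hϖ) M ∧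
        (∀ y ∈ s18x_V (s37r_G A L₀ ϖ hϖ) M, ∃ s : (s37r_G A L₀ ϖ hϖ).A[X],
          s.map (s37r_G A L₀ ϖ hϖ).π ≠ 0 ∧
          (s18b_ev (s37r_G A L₀ ϖ hϖ) (laurentBaseChange ↥L₀ (modularFunctionFieldFull M))
            w₀).IsIntegralElem
            (s18b_ev (s37r_G A L₀ ϖ hϖ) (laurentBaseChange ↥L₀ (modularFunctionFieldFull M))
              w₀ s * y)) ∧
        (∀ y ∈ s18x_V (s37r_G A L₀ ϖ hϖ) M, ∃ s : (s37r_G A L₀ ϖ hϖ).A[X],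
          s.map (s37r_G A L₀ ϖ hϖ).π ≠ 0 ∧
          (s18b_ev (s37r_G A L₀ ϖ hϖ) (laurentBaseChange ↥L₀ (modularFunctionFieldFull M))
            w₀⁻¹).IsIntegralElem
            (s18b_ev (s37r_G A L₀ ϖ hϖ) (laurentBaseChange ↥L₀ (modularFunctionFieldFull M))
              w₀⁻¹ s * y)) ∧
        s18f_ChartS (s37r_G A L₀ ϖ hϖ) M w₀ 1 ∧ s18f_ChartS (s37r_G A L₀ ϖ hϖ) M w₀⁻¹ 1 := by
    intro L₀ hfd hdvr ϖ hϖ
    haveI : NumberField ↥L₀ := ⟨⟩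
    haveI := s37rl_charP A hA L₀
    haveI := s37rl_perfectField A hA L₀
    set G := s37r_G A L₀ ϖ hϖ with hG
    haveI hdvr' : IsDiscreteValuationRing ↥G.A := hdvr
    have hℓ3 : ¬ ℓ ∣ 3 := by rw [hℓ2]; decide
    have hT : s18g_HT (IsLocalRing.ResidueField ↥(s18q_A0 A L₀)) M := s18t_indep_j ℓ M hℓM _
    have hdeg : s18g_HDeg ↥L₀ M := fun n b hb hn =>
      s18g_exists_relation M (algebraMap ↥L₀ Qbar) hn b hb
    have hT3 : s18g_HT (IsLocalRing.ResidueField ↥(s18q_A0 A L₀)) 3 := s18t_indep_j ℓ 3 hℓ3 _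
    have hdeg3 : s18g_HDeg ↥L₀ 3 := fun n b hb hn =>
      s18g_exists_relation 3 (algebraMap ↥L₀ Qbar) hn b hb
    obtain ⟨w₀, hwt, ⟨hwV, -⟩, hwinvV, hgen, hgeninv⟩ :=
      s18b_W1_t3 G hT3 hdeg3 M h3M hdeg (fun _ hf => s18g_baseChange_mem_Frac G M hf)
    have hS := s18f_sTwo M ℓ hℓM hℓ2 h3M ↥L₀ (algebraMap ↥L₀ Qbar) _ G
      IsLocalRing.residue_surjective 1 one_ne_zero (s37rl_one_inv_mem A L₀) w₀ hwt hgen hgeninv
    refine ⟨w₀, ?_, hgen, hgeninv, hwV, hwinvV,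
      s18f_alpha_of_coe G M w₀ _ hwt (s18u_alpha_t3_coe G M hT hdeg),
      s18f_alpha_inv_of_coe G M w₀ _ hwt (s18u_alpha_t3_inv_coe G M hT hdeg), hS.1, hS.2⟩
    apply Subtype.ext
    rw [s18q_incl_coe, hwt, hw, s18u_coeffMap_t3]
  constructor
  · intro L₀ hfd hdvr ϖ hϖ
    obtain ⟨w₀, h1, h2, -, h4, -, h6, -, h8, -⟩ := key L₀ ϖ hϖ
    exact ⟨w₀, h1, h2, h4, h6, h8⟩
  · intro L₀ hfd hdvr ϖ hϖ
    obtain ⟨w₀, h1, -, h3, -, h5, -, h7, -, h9⟩ := key L₀ ϖ hϖ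
    exact ⟨w₀⁻¹, by rw [map_inv₀, h1], h3, h5, h7, h9⟩

end T23

section Package

variable (A : ValuationSubring Qbar) (M : ℕ) [NeZero M] {ℓ : ℕ} [Fact ℓ.Prime]
  (hA : A.LiesOverPrime ℓ) (hℓM : ¬ ℓ ∣ M)

local notation "κ" => IsLocalRing.ResidueField A

/-- a coordinate with level inputs is Gauss-integral at the top level. -/
theorem s37rl_mem_OF_of_levelInputs {w : ↥(modularFunctionFieldBar M)}
    (hlev : s37r_LevelInputs A M w) : w ∈ s37r_OF A M hA := by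
  obtain ⟨hdvr, ϖ, hϖ⟩ := s37r_exists_unif A hA (⊥ : IntermediateField ℚ Qbar)
  obtain ⟨w₀, hw₀, -, hV, -⟩ := hlev ⊥ ϖ hϖ
  rw [← hw₀]
  exact (s37r_incl_mem_OF_iff A M hA ⊥ ϖ hϖ w₀).mpr hV

/-- the reduction of a coordinate which is the image of an integral series. -/
theorem s37rl_redF_of_iota (w : ↥(modularFunctionFieldBar M)) (Y : LaurentSeries ↥A)
    (hwY : (w : LaurentSeries Qbar) = coeffMap A.subtype Y) :
    ∃ hwO : w ∈ s37r_OF A M hA,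
      ((s37r_redF A M hA hℓM ⟨w, hwO⟩ : ↥(modularFunctionFieldFullC κ M)) : LaurentSeries κ) =
        coeffMap (IsLocalRing.residue ↥A) Y := by
  have hY : coeffMap A.subtype Y ∈ modularFunctionFieldBar M := hwY ▸ w.2
  have hw : w = ⟨coeffMap A.subtype Y, hY⟩ := Subtype.ext hwY
  subst hw
  exact ⟨s37r_iota_mem_OF A M hA Y hY, s37r_redV_iota A M hA Y hY⟩

/-- the reduction of the inverse of a Gauss unit. -/
theorem s37rl_redF_inv {w : ↥(modularFunctionFieldBar M)} (hw0 : w ≠ 0)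
    (hwO : w ∈ s37r_OF A M hA) (hwinvO : w⁻¹ ∈ s37r_OF A M hA) :
    s37r_redF A M hA hℓM ⟨w⁻¹, hwinvO⟩ = (s37r_redF A M hA hℓM ⟨w, hwO⟩)⁻¹ := by
  have h1 : (⟨w, hwO⟩ : ↥(s37r_OF A M hA)) * ⟨w⁻¹, hwinvO⟩ = 1 :=
    Subtype.ext (mul_inv_cancel₀ hw0)
  have h2 := congrArg (s37r_redF A M hA hℓM) h1
  rw [map_mul, map_one] at h2
  exact eq_inv_of_mul_eq_one_right h2

/-- the top-level `j`: Gauss-integral with reduction `j̄`. -/
theorem s37rl_redF_jF :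
    ∃ hwO : s18g_jF (K := Qbar) M ∈ s37r_OF A M hA,
      ((s37r_redF A M hA hℓM ⟨s18g_jF (K := Qbar) M, hwO⟩ :
        ↥(modularFunctionFieldFullC κ M)) : LaurentSeries κ) = jqModC κ := by
  obtain ⟨hwO, h⟩ := s37rl_redF_of_iota A M hA hℓM (s18g_jF (K := Qbar) M) (jqModC ↥A)
    (by rw [s18g_coe_jF, coeffMap_jqModC])
  exact ⟨hwO, by rw [h, coeffMap_jqModC]⟩

include hA in
/-- existence of the top-level `t₂`. -/
theorem s37rl_exists_t2 (hℓ3 : ℓ = 3) (h2M : 2 ∣ M) :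
    ∃ w : ↥(modularFunctionFieldBar M), (w : LaurentSeries Qbar) = s18u_t2 Qbar := by
  obtain ⟨hdvr, ϖ, hϖ⟩ := s37r_exists_unif A hA (⊥ : IntermediateField ℚ Qbar)
  haveI : NumberField ↥(⊥ : IntermediateField ℚ Qbar) := ⟨⟩
  haveI := s37rl_charP A hA (⊥ : IntermediateField ℚ Qbar)
  have hℓ2 : ¬ ℓ ∣ 2 := by rw [hℓ3]; decide
  have hT2 : s18g_HT (IsLocalRing.ResidueField ↥(s18q_A0 A (⊥ : IntermediateField ℚ Qbar))) 2 :=
    s18t_indep_j ℓ 2 hℓ2 _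
  have hdeg2 : s18g_HDeg ↥(⊥ : IntermediateField ℚ Qbar) 2 := fun n b hb hn =>
    s18g_exists_relation 2 (algebraMap ↥(⊥ : IntermediateField ℚ Qbar) Qbar) hn b hb
  have hmem := s18b_t2_mem_baseChange (s37r_G A ⊥ ϖ hϖ) hT2 hdeg2 M h2M
  refine ⟨s18q_incl M ⊥ ⟨s18u_t2 ↥(⊥ : IntermediateField ℚ Qbar), hmem⟩, ?_⟩
  rw [s18q_incl_coe, s18u_coeffMap_t2]

include hA in
/-- existence of the top-level `t₃`. -/
theorem s37rl_exists_t3 (hℓ2 : ℓ = 2) (h3M : 3 ∣ M) :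
    ∃ w : ↥(modularFunctionFieldBar M), (w : LaurentSeries Qbar) = s18u_t3 Qbar := by
  obtain ⟨hdvr, ϖ, hϖ⟩ := s37r_exists_unif A hA (⊥ : IntermediateField ℚ Qbar)
  haveI : NumberField ↥(⊥ : IntermediateField ℚ Qbar) := ⟨⟩
  haveI := s37rl_charP A hA (⊥ : IntermediateField ℚ Qbar)
  have hℓ3 : ¬ ℓ ∣ 3 := by rw [hℓ2]; decide
  have hT3 : s18g_HT (IsLocalRing.ResidueField ↥(s18q_A0 A (⊥ : IntermediateField ℚ Qbar))) 3 :=
    s18t_indep_j ℓ 3 hℓ3 _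
  have hdeg3 : s18g_HDeg ↥(⊥ : IntermediateField ℚ Qbar) 3 := fun n b hb hn =>
    s18g_exists_relation 3 (algebraMap ↥(⊥ : IntermediateField ℚ Qbar) Qbar) hn b hb
  have hmem := s18b_t3_mem_baseChange (s37r_G A ⊥ ϖ hϖ) hT3 hdeg3 M h3M
  refine ⟨s18q_incl M ⊥ ⟨s18u_t3 ↥(⊥ : IntermediateField ℚ Qbar), hmem⟩, ?_⟩
  rw [s18q_incl_coe, s18u_coeffMap_t3]

include hA hℓM in
/-- **the chart coordinate at a good level**, packaged: a coordinate `w ≠ 0` of `F_{ℚ̄}(M)`, with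
`w, w⁻¹` Gauss-integral, level inputs for both charts, and the `q`-expansion of its reduction:
`j̄` (`ℓ ≥ 5`), `t̄₂` (`ℓ = 3`, `2 ∣ M`), `t̄₃` (`ℓ = 2`, `3 ∣ M`). -/
theorem s37rl_exists_coord (hgood : s18_GoodLevel ℓ M) :
    ∃ (w : ↥(modularFunctionFieldBar M)) (hwO : w ∈ s37r_OF A M hA)
      (_ : w⁻¹ ∈ s37r_OF A M hA),
      w ≠ 0 ∧ s37r_LevelInputs A M w ∧ s37r_LevelInputs A M w⁻¹ ∧
      (((s37r_redF A M hA hℓM ⟨w, hwO⟩ : ↥(modularFunctionFieldFullC κ M)) :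
          LaurentSeries κ) = jqModC κ ∨
        ((s37r_redF A M hA hℓM ⟨w, hwO⟩ : ↥(modularFunctionFieldFullC κ M)) :
          LaurentSeries κ) = s18u_t2 κ ∨
        ((s37r_redF A M hA hℓM ⟨w, hwO⟩ : ↥(modularFunctionFieldFullC κ M)) :
          LaurentSeries κ) = s18u_t3 κ) := by
  obtain ⟨-, h5 | ⟨hℓ3, h2M⟩ | ⟨hℓ2, h3M⟩⟩ := hgood
  · have h1 := s37rl_levelInputs_j A M hA hℓM h5
    have h2 := s37rl_levelInputs_j_inv A M hA hℓM h5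
    obtain ⟨hwO, hred⟩ := s37rl_redF_jF A M hA hℓM
    exact ⟨s18g_jF (K := Qbar) M, hwO, s37rl_mem_OF_of_levelInputs A M hA h2,
      s18g_jF_ne_zero M, h1, h2, Or.inl hred⟩
  · obtain ⟨w, hw⟩ := s37rl_exists_t2 A M hA hℓ3 h2M
    obtain ⟨h1, h2⟩ := s37rl_levelInputs_t2 A M hA hℓM hℓ3 h2M w hw
    obtain ⟨hwO, hred⟩ := s37rl_redF_of_iota A M hA hℓM w (s18u_t2 ↥A)
      (by rw [hw, s18u_coeffMap_t2])
    refine ⟨w, hwO, s37rl_mem_OF_of_levelInputs A M hA h2, ?_, h1, h2,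
      Or.inr (Or.inl (by rw [hred, s18u_coeffMap_t2]))⟩
    intro h0
    apply s18b_t2_ne_zero Qbar
    rw [← hw, h0]
    rfl
  · obtain ⟨w, hw⟩ := s37rl_exists_t3 A M hA hℓ2 h3M
    obtain ⟨h1, h2⟩ := s37rl_levelInputs_t3 A M hA hℓM hℓ2 h3M w hw
    obtain ⟨hwO, hred⟩ := s37rl_redF_of_iota A M hA hℓM w (s18u_t3 ↥A)
      (by rw [hw, s18u_coeffMap_t3])
    refine ⟨w, hwO, s37rl_mem_OF_of_levelInputs A M hA h2, ?_, h1, h2,
      Or.inr (Or.inr (by rw [hred, s18u_coeffMap_t3]))⟩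
    intro h0
    apply s18b_t3_ne_zero Qbar
    rw [← hw, h0]
    rfl

end Package

section P8

/-! ### (P8) in helper3's shape (#1045) -/

variable (A : ValuationSubring Qbar) (M : ℕ) [NeZero M] {ℓ : ℕ} [Fact ℓ.Prime]
  (hA : A.LiesOverPrime ℓ) (hℓM : ¬ ℓ ∣ M)

local notation "κ" => IsLocalRing.ResidueField A

include hA hℓM in
theorem s37r8_level_j (h5 : 5 ≤ ℓ) :
    ∃ w : ↥(modularFunctionFieldBar M),
      (∃ Y : LaurentSeries ↥A, coeffMap A.subtype Y = (w : LaurentSeries Qbar) ∧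
        coeffMap (IsLocalRing.residue ↥A) Y = jqModC κ) ∧
      s37r_LevelInputs A M w ∧ s37r_LevelInputs A M w⁻¹ :=
  ⟨s18g_jF (K := Qbar) M,
    ⟨jqModC ↥A, by rw [s18g_coe_jF, coeffMap_jqModC], by rw [coeffMap_jqModC]⟩,
    s37rl_levelInputs_j A M hA hℓM h5, s37rl_levelInputs_j_inv A M hA hℓM h5⟩

include hA hℓM in
theorem s37r8_level_t2 (h3 : ℓ = 3) (h2 : 2 ∣ M) :
    ∃ w : ↥(modularFunctionFieldBar M),
      (∃ Y : LaurentSeries ↥A, coeffMap A.subtype Y = (w : LaurentSeries Qbar) ∧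
        coeffMap (IsLocalRing.residue ↥A) Y = s18u_t2 κ) ∧
      s37r_LevelInputs A M w ∧ s37r_LevelInputs A M w⁻¹ := by
  obtain ⟨w, hw⟩ := s37rl_exists_t2 A M hA h3 h2
  obtain ⟨h1, h2'⟩ := s37rl_levelInputs_t2 A M hA hℓM h3 h2 w hw
  exact ⟨w, ⟨s18u_t2 ↥A, by rw [hw, s18u_coeffMap_t2], by rw [s18u_coeffMap_t2]⟩, h1, h2'⟩

include hA hℓM in
theorem s37r8_level_t3 (h2 : ℓ = 2) (h3 : 3 ∣ M) :
    ∃ w : ↥(modularFunctionFieldBar M),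
      (∃ Y : LaurentSeries ↥A, coeffMap A.subtype Y = (w : LaurentSeries Qbar) ∧
        coeffMap (IsLocalRing.residue ↥A) Y = s18u_t3 κ) ∧
      s37r_LevelInputs A M w ∧ s37r_LevelInputs A M w⁻¹ := by
  obtain ⟨w, hw⟩ := s37rl_exists_t3 A M hA h2 h3
  obtain ⟨h1, h2'⟩ := s37rl_levelInputs_t3 A M hA hℓM h2 h3 w hw
  exact ⟨w, ⟨s18u_t3 ↥A, by rw [hw, s18u_coeffMap_t3], by rw [s18u_coeffMap_t3]⟩, h1, h2'⟩

end P8

end Fermat.Agent.Lib.S37
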