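/-
S37 moonshot, package [RD] (helper5): the dictionary `maximal ideals ↔ places` for a Dedekind
subring `R` of a function field `F/K` with fraction field `F`, in ANY characteristic.  Setting =
the typeclass setting of the Prelude's `AlgebraicCurve.Place.ofHeightOneSpectrum`.

* (D1) `s37d_ord_ofHeightOneSpectrum`: the normalised order of the place of `w` is the `w`-adic
  valuation;
* (D2) `s37d_primeOf`: the centre on `R` of a place whose valuation ring contains `R`, with
  `s37d_mem_primeOf`, `s37d_ofHeightOneSpectrum_primeOf`, `s37d_primeOf_ofHeightOneSpectrum`;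
* (D3) `s37d_ord_of_span_eq_prod`: counting form — the order of `r ∈ R` at the place of `w` read off
  from a factorisation of `(r)` into powers of maximal ideals.
-/
import Fermat.Agent.Lib.FF.FFBasicDedekind

set_option autoImplicit false
set_option linter.unusedSectionVars false

noncomputable section

namespace Fermat.Agent.Lib.S37

open IsDedekindDomain WithZero IsLocalRing AlgebraicCurve Fermat.Agent.Lib.FF

variable {K F R : Type*} [Field K] [Field F] [Algebra K F] [CommRing R] [IsDedekindDomain R]
  [Algebra R F] [IsFractionRing R F] [Algebra K R] [IsScalarTower K R F]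

/-! ### (D1) the order function -/

theorem s37d_mem_ofHeightOneSpectrum_iff (w : HeightOneSpectrum R) (f : F) :
    f ∈ (Place.ofHeightOneSpectrum (K := K) w).toValuationSubring ↔ w.valuation F f ≤ 1 :=
  Iff.rfl

theorem s37d_algebraMap_mem_ofHeightOneSpectrum (w : HeightOneSpectrum R) (r : R) :
    algebraMap R F r ∈ (Place.ofHeightOneSpectrum (K := K) (F := F) w).toValuationSubring :=
  w.valuation_le_one r

/-- **(D1)** the normalised order of the place of `w` is the `w`-adic valuation. -/
theorem s37d_ord_ofHeightOneSpectrum (w : HeightOneSpectrum R) (f : F) :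
    (Place.ofHeightOneSpectrum (K := K) w).ord f = -(WithZero.log (w.valuation F f)) := by
  rcases eq_or_ne f 0 with rfl | hf
  · simp
  set v : Place K F := Place.ofHeightOneSpectrum (K := K) (F := F) w
  obtain ⟨m, hm, hmf⟩ := ff_ord_unique v (fun f => -(WithZero.log (w.valuation F f)))
    (fun f g hf hg => by
      simp only [map_mul]
      rw [WithZero.log_mul ((Valuation.ne_zero_iff _).mpr hf) ((Valuation.ne_zero_iff _).mpr hg)]
      ring)
    (fun f hf => by
      rw [s37d_mem_ofHeightOneSpectrum_iff, neg_nonneg, ← WithZero.log_one,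
        WithZero.log_le_log ((Valuation.ne_zero_iff _).mpr hf) one_ne_zero])
  obtain ⟨ϖ, hϖ⟩ := w.valuation_exists_uniformizer F
  have hϖ0 : ϖ ≠ 0 := by
    rintro rfl
    rw [map_zero] at hϖ
    exact WithZero.exp_ne_zero hϖ.symm
  have h1 := hmf ϖ hϖ0
  simp only [hϖ, WithZero.log_exp, neg_neg] at h1
  have hm1 : m = 1 := by
    have hd : m ∣ 1 := ⟨v.ord ϖ, h1⟩
    exact Int.eq_one_of_dvd_one hm.le hd
  have := hmf f hf
  simp only [hm1, one_mul] at this
  exact this.symm

/-- the order of an element of `R` at the place of `w` is its multiplicity in `(r)`. -/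
theorem s37d_ord_algebraMap (w : HeightOneSpectrum R) {r : R} (hr : r ≠ 0) :
    (Place.ofHeightOneSpectrum (K := K) w).ord (algebraMap R F r) =
      (multiplicity w.asIdeal (Ideal.span {r}) : ℤ) := by
  rw [s37d_ord_ofHeightOneSpectrum, HeightOneSpectrum.valuation_of_algebraMap,
    HeightOneSpectrum.intValuation_eq_exp_neg_multiplicity w hr, WithZero.log_exp, neg_neg]

theorem s37d_ofHeightOneSpectrum_injective :
    Function.Injective (Place.ofHeightOneSpectrum (K := K) (F := F) (R := R)) := by
  intro w w' h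
  apply HeightOneSpectrum.eq_of_valuation_isEquiv_valuation (K := F)
  rw [Valuation.isEquiv_iff_val_le_one]
  intro f
  have := congrArg Place.toValuationSubring h
  rw [← s37d_mem_ofHeightOneSpectrum_iff (K := K), ← s37d_mem_ofHeightOneSpectrum_iff (K := K),
    this]

/-! ### (D2) the centre of a place -/

/-- the inclusion `R → O_v`. -/
def s37d_toO (v : Place K F) (hv : ∀ r : R, algebraMap R F r ∈ v.toValuationSubring) :
    R →+* v.toValuationSubring where
  toFun r := ⟨algebraMap R F r, hv r⟩
  map_one' := Subtype.ext (map_one _)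
  map_mul' a b := Subtype.ext (map_mul _ a b)
  map_zero' := Subtype.ext (map_zero _)
  map_add' a b := Subtype.ext (map_add _ a b)

@[simp] theorem s37d_toO_coe (v : Place K F)
    (hv : ∀ r : R, algebraMap R F r ∈ v.toValuationSubring) (r : R) :
    ((s37d_toO v hv r : v.toValuationSubring) : F) = algebraMap R F r := rfl

/-- **(D2)** the centre on `R` of a place whose valuation ring contains `R`. -/
def s37d_primeOf (v : Place K F) (hv : ∀ r : R, algebraMap R F r ∈ v.toValuationSubring) :
    HeightOneSpectrum R where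
  asIdeal := (IsLocalRing.maximalIdeal v.toValuationSubring).comap (s37d_toO v hv)
  isPrime := Ideal.comap_isPrime _ _
  ne_bot := by
    intro hbot
    apply v.ne_top'
    refine SetLike.ext fun f => ⟨fun _ => ValuationSubring.mem_top f, fun _ => ?_⟩
    obtain ⟨b, s, hs, rfl⟩ := IsFractionRing.div_surjective (A := R) f
    have hs0 : s ≠ 0 := nonZeroDivisors.ne_zero hs
    have hsu : IsUnit (s37d_toO v hv s) := by
      by_contra hnu
      have : s ∈ (IsLocalRing.maximalIdeal v.toValuationSubring).comap (s37d_toO v hv) := by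
        rw [Ideal.mem_comap, IsLocalRing.mem_maximalIdeal]; exact hnu
      rw [hbot, Ideal.mem_bot] at this
      exact hs0 this
    have hinv := ff_inv_mem_of_isUnit v hsu
    rw [div_eq_mul_inv]
    exact mul_mem (hv b) hinv

theorem s37d_mem_primeOf_iff_not_isUnit (v : Place K F)
    (hv : ∀ r : R, algebraMap R F r ∈ v.toValuationSubring) (r : R) :
    r ∈ (s37d_primeOf v hv).asIdeal ↔ ¬ IsUnit (s37d_toO v hv r) := by
  show r ∈ (IsLocalRing.maximalIdeal v.toValuationSubring).comap (s37d_toO v hv) ↔ _
  rw [Ideal.mem_comap, IsLocalRing.mem_maximalIdeal, mem_nonunits_iff]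

theorem s37d_mem_primeOf (v : Place K F)
    (hv : ∀ r : R, algebraMap R F r ∈ v.toValuationSubring) (r : R) :
    r ∈ (s37d_primeOf v hv).asIdeal ↔ r = 0 ∨ 0 < v.ord (algebraMap R F r) := by
  rw [s37d_mem_primeOf_iff_not_isUnit]
  rcases eq_or_ne r 0 with rfl | hr
  · simp
  have hrF : algebraMap R F r ≠ 0 := by
    intro h0
    exact hr ((IsFractionRing.injective R F) (by rw [h0, map_zero]))
  rw [ff_ord_pos_iff v hrF]
  constructor
  · intro hnu
    refine Or.inr ⟨hv r, fun hinv => hnu ?_⟩
    refine isUnit_iff_exists_inv.mpr ⟨⟨(algebraMap R F r)⁻¹, hinv⟩, ?_⟩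
    apply Subtype.ext
    show algebraMap R F r * (algebraMap R F r)⁻¹ = 1
    exact mul_inv_cancel₀ hrF
  · rintro (h0 | ⟨-, hinv⟩) hu
    · exact hr h0
    · exact hinv (ff_inv_mem_of_isUnit v hu)

/-- the place of the centre of `v` is `v`. -/
theorem s37d_ofHeightOneSpectrum_primeOf (v : Place K F)
    (hv : ∀ r : R, algebraMap R F r ∈ v.toValuationSubring) :
    Place.ofHeightOneSpectrum (K := K) (s37d_primeOf v hv) = v := by
  apply ff_place_eq_of_le
  intro f hf
  rw [s37d_mem_ofHeightOneSpectrum_iff] at hf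
  obtain ⟨n, d, hnd⟩ := (s37d_primeOf v hv).exists_primeCompl_mul_eq_of_integer f hf
  have hd : IsUnit (s37d_toO v hv d) := by
    by_contra hnu
    apply d.2
    exact (s37d_mem_primeOf_iff_not_isUnit v hv d).mpr hnu
  have hd0 : algebraMap R F d ≠ 0 := by
    intro h0
    have : s37d_toO v hv d = 0 := Subtype.ext h0
    rw [this] at hd
    exact not_isUnit_zero hd
  have : f = algebraMap R F n * (algebraMap R F d)⁻¹ := by
    rw [← hnd, mul_assoc, mul_inv_cancel₀ hd0, mul_one]
  rw [this]
  exact mul_mem (hv n) (ff_inv_mem_of_isUnit v hd)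

/-- the centre of the place of `w` is `w`. -/
theorem s37d_primeOf_ofHeightOneSpectrum (w : HeightOneSpectrum R) :
    s37d_primeOf (Place.ofHeightOneSpectrum (K := K) (F := F) w)
      (fun r => w.valuation_le_one r) = w :=
  s37d_ofHeightOneSpectrum_injective (K := K) (F := F) (s37d_ofHeightOneSpectrum_primeOf _ _)

/-- the range of `ofHeightOneSpectrum`: the places whose valuation ring contains `R`. -/
theorem s37d_range_ofHeightOneSpectrum :
    Set.range (Place.ofHeightOneSpectrum (K := K) (F := F) (R := R)) =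
      {v | ∀ r : R, algebraMap R F r ∈ v.toValuationSubring} := by
  ext v
  constructor
  · rintro ⟨w, rfl⟩ r
    exact w.valuation_le_one r
  · intro hv
    exact ⟨s37d_primeOf v hv, s37d_ofHeightOneSpectrum_primeOf v hv⟩

/-! ### (D3) counting form -/

/-- the multiplicity of a height-one prime in `J ^ n`, `J` maximal or `⊤`. -/
theorem s37d_emultiplicity_pow (w : HeightOneSpectrum R) (J : Ideal R)
    (hJ : J = ⊤ ∨ J.IsMaximal) (n : ℕ) [Decidable (J = w.asIdeal)] :
    emultiplicity w.asIdeal (J ^ n) = if J = w.asIdeal then (n : ℕ∞) else 0 := by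
  split_ifs with h
  · rw [h]
    exact emultiplicity_pow_self_of_prime w.prime n
  · rw [emultiplicity_pow w.prime]
    have h0 : emultiplicity w.asIdeal J = 0 := by
      rw [emultiplicity_eq_zero, Ideal.dvd_iff_le]
      intro hle
      rcases hJ with hJ | hJ
      · rw [hJ, top_le_iff] at hle
        exact w.isPrime.ne_top hle
      · exact h (hJ.eq_of_le w.isPrime.ne_top hle)
    rw [h0, mul_zero]

open Classical in
/-- **(D3)** counting form: the order of `r ∈ R` at the place of `w`, from a factorisation of `(r)`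
into powers of maximal ideals (or `⊤`). -/
theorem s37d_ord_of_span_eq_prod {ι : Type*} (s : Finset ι) (J : ι → Ideal R) (n : ι → ℕ)
    (hJ : ∀ i ∈ s, J i = ⊤ ∨ (J i).IsMaximal) (r : R) (hr : r ≠ 0)
    (h : Ideal.span {r} = ∏ i ∈ s, J i ^ n i) (w : HeightOneSpectrum R) :
    (Place.ofHeightOneSpectrum (K := K) w).ord (algebraMap R F r) =
      ∑ i ∈ s with J i = w.asIdeal, (n i : ℤ) := by
  rw [s37d_ord_algebraMap w hr]
  have hsr : Ideal.span {r} ≠ 0 := Submodule.span_singleton_eq_bot.mp.mt hr
  have hfm : FiniteMultiplicity w.asIdeal (Ideal.span {r}) :=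
    FiniteMultiplicity.of_prime_left w.prime hsr
  have hem : emultiplicity w.asIdeal (Ideal.span {r}) =
      ((∑ i ∈ s with J i = w.asIdeal, n i : ℕ) : ℕ∞) := by
    rw [h, Finset.emultiplicity_prod w.prime, Finset.sum_filter, Nat.cast_sum]
    refine Finset.sum_congr rfl fun i hi => ?_
    rw [s37d_emultiplicity_pow w (J i) (hJ i hi) (n i)]
    split_ifs <;> simp
  rw [hfm.emultiplicity_eq_multiplicity] at hem
  have hnat : multiplicity w.asIdeal (Ideal.span {r}) = ∑ i ∈ s with J i = w.asIdeal, n i := by
    exact_mod_cast hem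
  rw [hnat, Nat.cast_sum]

/-- **(D3)**, any decidability instance. -/
theorem s37d_ord_of_span_eq_prod' {ι : Type*} (s : Finset ι) (J : ι → Ideal R) (n : ι → ℕ)
    (hJ : ∀ i ∈ s, J i = ⊤ ∨ (J i).IsMaximal) (r : R) (hr : r ≠ 0)
    (h : Ideal.span {r} = ∏ i ∈ s, J i ^ n i) (w : HeightOneSpectrum R)
    [DecidablePred fun i => J i = w.asIdeal] :
    (Place.ofHeightOneSpectrum (K := K) w).ord (algebraMap R F r) =
      ∑ i ∈ s with J i = w.asIdeal, (n i : ℤ) := by
  rw [s37d_ord_of_span_eq_prod (K := K) (F := F) s J n hJ r hr h w]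
  refine Finset.sum_congr ?_ fun _ _ => rfl
  ext i
  simp only [Finset.mem_filter]

end Fermat.Agent.Lib.S37
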