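/-
S37 moonshot, package [RV]: values of functions at places of a function field of one variable over
an algebraically closed constant field (any characteristic), and integrality of values.
-/
import Fermat.Agent.Lib.S37.DegOne

set_option autoImplicit false
set_option linter.style.haveILetI false

noncomputable section

namespace Fermat.Agent.Lib.S37

open AlgebraicCurve Fermat.Agent.Lib.FF Polynomial

variable {K F : Type*} [Field K] [Field F] [Algebra K F] [IsAlgClosed K]
variable (x : F) [FFGen K x] (v : Place K F)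

/-- the residue field of a place is the constant field -/
def s37pv_resEquiv : K ≃+* v.ResidueField :=
  RingEquiv.ofBijective (algebraMap K v.ResidueField)
    ⟨(algebraMap K v.ResidueField).injective, s37dg_residue_surjective x v⟩

/-- **the value map** `O_v → K` -/
def s37pv_ev : v.toValuationSubring →+* K :=
  ((s37pv_resEquiv x v).symm : v.ResidueField →+* K).comp
    (IsLocalRing.residue v.toValuationSubring)

theorem s37pv_resEquiv_ev (f : v.toValuationSubring) :
    algebraMap K v.ResidueField (s37pv_ev x v f) = IsLocalRing.residue v.toValuationSubring f :=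
  (s37pv_resEquiv x v).apply_symm_apply _

theorem s37pv_ev_algebraMap (c : K) :
    s37pv_ev x v (algebraMap K v.toValuationSubring c) = c := by
  apply (algebraMap K v.ResidueField).injective
  rw [s37pv_resEquiv_ev]
  rfl

theorem s37pv_ev_eq_zero_iff (f : v.toValuationSubring) :
    s37pv_ev x v f = 0 ↔ f ∈ IsLocalRing.maximalIdeal v.toValuationSubring := by
  rw [← IsLocalRing.residue_eq_zero_iff, ← s37pv_resEquiv_ev x v f]
  exact (map_eq_zero (algebraMap K v.ResidueField)).symm

theorem s37pv_sub_ev_mem (f : v.toValuationSubring) :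
    f - algebraMap K v.toValuationSubring (s37pv_ev x v f) ∈
      IsLocalRing.maximalIdeal v.toValuationSubring := by
  rw [← s37pv_ev_eq_zero_iff x v, map_sub, s37pv_ev_algebraMap, sub_self]

theorem s37pv_ev_eq_iff (f : v.toValuationSubring) (c : K) :
    s37pv_ev x v f = c ↔
      f - algebraMap K v.toValuationSubring c ∈ IsLocalRing.maximalIdeal v.toValuationSubring := by
  rw [← s37pv_ev_eq_zero_iff x v, map_sub, s37pv_ev_algebraMap, sub_eq_zero]

theorem s37pv_ev_coe_eq_iff (f : v.toValuationSubring) (c : K) :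
    s37pv_ev x v f = c ↔ (f : F) = algebraMap K F c ∨ 0 < v.ord ((f : F) - algebraMap K F c) := by
  rw [s37pv_ev_eq_iff, IsLocalRing.mem_maximalIdeal, mem_nonunits_iff]
  set g : v.toValuationSubring := f - algebraMap K v.toValuationSubring c with hg
  have hgcoe : (g : F) = (f : F) - algebraMap K F c := rfl
  by_cases h0 : (f : F) = algebraMap K F c
  · have : g = 0 := Subtype.ext (by rw [hgcoe, h0, sub_self]; rfl)
    rw [this]
    exact ⟨fun _ => Or.inl h0, fun _ => not_isUnit_zero⟩
  · have hne : (g : F) ≠ 0 := by rw [hgcoe]; exact sub_ne_zero.mpr h0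
    rw [← hgcoe]
    constructor
    · intro hnu
      right
      rw [ff_ord_pos_iff v hne]
      refine ⟨g.2, fun hinv => hnu ?_⟩
      exact IsUnit.of_mul_eq_one (⟨(g : F)⁻¹, hinv⟩ : v.toValuationSubring)
        (Subtype.ext (mul_inv_cancel₀ hne))
    · rintro (h | h)
      · exact absurd h h0
      · intro hu
        exact ((ff_ord_pos_iff v hne).mp h).2 (ff_inv_mem_of_isUnit v hu)

/-- **integrality of values**: if `φ : R → F` takes values in `O_v` with values in the valuation
ring `A ⊆ K`, then every element of `F` integral over `φ(R)` lies in `O_v` and has its value in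
`A`. -/
theorem s37pv_ev_mem_of_isIntegralElem (A : ValuationSubring K) {R : Type*} [CommRing R]
    (φ : R →+* F) (hφ : ∀ r, φ r ∈ v.toValuationSubring)
    (hA : ∀ r, s37pv_ev x v ⟨φ r, hφ r⟩ ∈ A) (b : F) (hb : φ.IsIntegralElem b) :
    ∃ hbv : b ∈ v.toValuationSubring, s37pv_ev x v ⟨b, hbv⟩ ∈ A := by
  obtain ⟨p, hpm, hp⟩ := hb
  let φ' : R →+* v.toValuationSubring := φ.codRestrict v.toValuationSubring.toSubring hφ
  have hbint : IsIntegral v.toValuationSubring b := by
    refine ⟨p.map φ', hpm.map _, ?_⟩
    rw [Polynomial.eval₂_map]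
    exact hp
  obtain ⟨z, hz⟩ := IsIntegrallyClosed.isIntegral_iff.mp hbint
  have hbv : b ∈ v.toValuationSubring := hz ▸ z.2
  refine ⟨hbv, ?_⟩
  -- the equation in `O_v`
  have hp' : Polynomial.eval₂ φ' (⟨b, hbv⟩ : v.toValuationSubring) p = 0 := by
    apply Subtype.ext
    have h := Polynomial.hom_eval₂ p φ' v.toValuationSubring.subtype ⟨b, hbv⟩
    rw [show (v.toValuationSubring.subtype (Polynomial.eval₂ φ' (⟨b, hbv⟩ :
      v.toValuationSubring) p) : F) = ((Polynomial.eval₂ φ' (⟨b, hbv⟩ :
      v.toValuationSubring) p : v.toValuationSubring) : F) from rfl] at h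
    rw [h]
    exact hp
  -- apply the value map
  let ψ : R →+* A := ((s37pv_ev x v).comp φ').codRestrict A.toSubring hA
  have h2 := congrArg (s37pv_ev x v) hp'
  rw [Polynomial.hom_eval₂, map_zero] at h2
  have hint : IsIntegral A (s37pv_ev x v ⟨b, hbv⟩) := by
    refine ⟨p.map ψ, hpm.map _, ?_⟩
    rw [Polynomial.eval₂_map]
    exact h2
  obtain ⟨a, ha⟩ := IsIntegrallyClosed.isIntegral_iff.mp hint
  rw [← ha]
  exact a.2

/-- evaluation `A[X] → F` at `w`, for a valuation ring `A` of the constant field -/
def s37pv_evalA (A : ValuationSubring K) (w : F) : (↥A)[X] →+* F :=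
  Polynomial.eval₂RingHom ((algebraMap K F).comp A.subtype) w

omit [IsAlgClosed K] in
theorem s37pv_evalA_eq_coe (A : ValuationSubring K) (w : F) (hw : w ∈ v.toValuationSubring)
    (p : (↥A)[X]) :
    s37pv_evalA A w p =
      ((Polynomial.eval₂ ((algebraMap K v.toValuationSubring).comp A.subtype)
        (⟨w, hw⟩ : v.toValuationSubring) p : v.toValuationSubring) : F) := by
  have h := Polynomial.hom_eval₂ p ((algebraMap K v.toValuationSubring).comp A.subtype)
    v.toValuationSubring.subtype ⟨w, hw⟩
  exact h.symm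

omit [IsAlgClosed K] in
theorem s37pv_evalA_mem (A : ValuationSubring K) (w : F) (hw : w ∈ v.toValuationSubring)
    (p : (↥A)[X]) : s37pv_evalA A w p ∈ v.toValuationSubring := by
  rw [s37pv_evalA_eq_coe v A w hw]
  exact Subtype.mem _

theorem s37pv_ev_evalA (A : ValuationSubring K) (w : F) (hw : w ∈ v.toValuationSubring)
    (p : (↥A)[X]) :
    s37pv_ev x v ⟨s37pv_evalA A w p, s37pv_evalA_mem v A w hw p⟩ =
      Polynomial.eval₂ A.subtype (s37pv_ev x v ⟨w, hw⟩) p := by
  have h1 : (⟨s37pv_evalA A w p, s37pv_evalA_mem v A w hw p⟩ : v.toValuationSubring) =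
      Polynomial.eval₂ ((algebraMap K v.toValuationSubring).comp A.subtype)
        (⟨w, hw⟩ : v.toValuationSubring) p := Subtype.ext (s37pv_evalA_eq_coe v A w hw p)
  rw [h1, Polynomial.hom_eval₂]
  congr 1
  ext a : 1
  exact s37pv_ev_algebraMap x v _

/-- **integrality of values, chart form**: if `w(v) ∈ A` and `b` is integral over `A[w]`, then `b`
is regular at `v` and `b(v) ∈ A`. -/
theorem s37pv_ev_mem_of_integral (A : ValuationSubring K) (w : F)
    (hw : w ∈ v.toValuationSubring) (hwA : s37pv_ev x v ⟨w, hw⟩ ∈ A) (b : F)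
    (hb : (s37pv_evalA A w).IsIntegralElem b) :
    ∃ hbv : b ∈ v.toValuationSubring, s37pv_ev x v ⟨b, hbv⟩ ∈ A := by
  refine s37pv_ev_mem_of_isIntegralElem x v A (s37pv_evalA A w)
    (s37pv_evalA_mem v A w hw) (fun p => ?_) b hb
  rw [s37pv_ev_evalA x v A w hw p]
  -- a polynomial with coefficients in `A` evaluated at an element of `A`
  have h := Polynomial.hom_eval₂ p (RingHom.id ↥A) A.subtype
    (⟨s37pv_ev x v ⟨w, hw⟩, hwA⟩ : A)
  rw [RingHom.comp_id] at h
  rw [show (A.subtype ⟨s37pv_ev x v ⟨w, hw⟩, hwA⟩ : K) = s37pv_ev x v ⟨w, hw⟩ from rfl] at h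
  rw [← h]
  exact Subtype.mem _

end Fermat.Agent.Lib.S37
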