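/-
S37 moonshot (M-B), package [R] (helper3): **conservation of number**, abstract form.

Setting of Lib/S18/IInv*: `𝓕/L₀` a function field, `O` the vertical (Gauss) valuation ring, `S` a
chart, `B = s18_ring O S` the chart ring.  From the invertibility `hinv` of the chart lattices
(package [I] of S18) we get the factorisation of ideals of `B`

  `I(E + E') = I(E) · I(E')`,  `I(div y) = (y)` for Gauss units `y ∈ B`,  `I(δ_Q) = 𝔭_Q`,

hence `(y) = ∏ 𝔭_Q ^ ord_Q y`, and after reduction `ψ : B ↠ D`: `(ψ y) = ∏ ψ(𝔭_Q) ^ ord_Q y`.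
-/
import Fermat.Agent.Lib.S18.IInvFinal

set_option autoImplicit false

noncomputable section

namespace Fermat.Agent.Lib.S37

open AlgebraicCurve Fermat.Agent.Lib.FF Fermat.Agent.Lib.S18

variable {L₀ 𝓕 : Type*} [Field L₀] [Field 𝓕] [Algebra L₀ 𝓕]
  (O : ValuationSubring 𝓕) (S : Set (Place L₀ 𝓕))

/-- the invertibility of all finitely supported chart lattices (output `hinv` of package [I]). -/
def s37r_HInv : Prop :=
  ∀ E : Place L₀ 𝓕 → ℤ, {Q | Q ∈ S ∧ E Q ≠ 0}.Finite →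
    ∃ (s : Finset ℕ) (a b : ℕ → 𝓕), (∀ j ∈ s, a j ∈ s18_latSet O S E) ∧
      (∀ j ∈ s, b j ∈ s18_latSet O S (fun Q => - E Q)) ∧ ∑ j ∈ s, a j * b j = 1

/-- the ideal of the chart ring cut out by `E` (only `max (E Q) 0` matters). -/
def s37r_ideal (E : Place L₀ 𝓕 → ℤ) : Ideal (s18_ring O S) where
  carrier := {y | (y : 𝓕) ∈ s18_latSet O S E}
  zero_mem' := (s18_latAdd O S E).zero_mem
  add_mem' := fun {a b} ha hb => by
    show ((a + b : s18_ring O S) : 𝓕) ∈ s18_latAdd O S E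
    rw [Subring.coe_add]
    exact (s18_latAdd O S E).add_mem ha hb
  smul_mem' := fun r a ha => by
    show ((r * a : s18_ring O S) : 𝓕) ∈ s18_latSet O S E
    rw [Subring.coe_mul]
    have hr : (r : 𝓕) ∈ s18_latSet O S (fun _ => 0) := by
      rw [← s18_ringSet_eq_latSet_zero O S]; exact r.2
    have := s18_latSet_mul O S _ _ hr ha
    simpa only [zero_add] using this

theorem s37r_mem_ideal (E : Place L₀ 𝓕 → ℤ) (y : s18_ring O S) :
    y ∈ s37r_ideal O S E ↔ (y : 𝓕) ∈ s18_latSet O S E := Iff.rfl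

/-- `I(E) · I(E') ≤ I(E + E')`. -/
theorem s37r_ideal_mul_le (E E' : Place L₀ 𝓕 → ℤ) :
    s37r_ideal O S E * s37r_ideal O S E' ≤ s37r_ideal O S (fun Q => E Q + E' Q) := by
  rw [Ideal.mul_le]
  intro a ha b hb
  show ((a * b : s18_ring O S) : 𝓕) ∈ s18_latSet O S (fun Q => E Q + E' Q)
  rw [Subring.coe_mul]
  exact s18_latSet_mul O S E E' ha hb

/-- **multiplicativity** of the chart ideals, from `hinv` for `E`. -/
theorem s37r_ideal_mul (hinv : s37r_HInv O S) (E E' : Place L₀ 𝓕 → ℤ)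
    (hE : {Q | Q ∈ S ∧ E Q ≠ 0}.Finite) (hE0 : ∀ Q ∈ S, 0 ≤ E Q) (hE'0 : ∀ Q ∈ S, 0 ≤ E' Q) :
    s37r_ideal O S (fun Q => E Q + E' Q) = s37r_ideal O S E * s37r_ideal O S E' := by
  refine le_antisymm ?_ (s37r_ideal_mul_le O S E E')
  intro y hy
  obtain ⟨s, a, b, ha, hb, hab⟩ := hinv E hE
  -- `a j ∈ I(E) ⊆ B`, and `b j * y ∈ I(E') ⊆ B`
  have haB : ∀ j ∈ s, a j ∈ s18_ring O S := by
    intro j hj
    show a j ∈ s18_ringSet O S
    rw [s18_ringSet_eq_latSet_zero]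
    refine ⟨(ha j hj).1, fun Q hQ => ?_⟩
    rcases (ha j hj).2 Q hQ with h | h
    · exact Or.inl h
    · exact Or.inr ((hE0 Q hQ).trans h)
  have hby : ∀ j ∈ s, b j * (y : 𝓕) ∈ s18_latSet O S E' := by
    intro j hj
    have := s18_latSet_mul O S _ _ (hb j hj) hy
    simpa only [neg_add_cancel_left] using this
  have hbyB : ∀ j ∈ s, b j * (y : 𝓕) ∈ s18_ring O S := by
    intro j hj
    show b j * (y : 𝓕) ∈ s18_ringSet O S
    rw [s18_ringSet_eq_latSet_zero]
    refine ⟨(hby j hj).1, fun Q hQ => ?_⟩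
    rcases (hby j hj).2 Q hQ with h | h
    · exact Or.inl h
    · exact Or.inr ((hE'0 Q hQ).trans h)
  have hy_eq : y = ∑ j ∈ s.attach, (⟨a j, haB j j.2⟩ : s18_ring O S) *
      ⟨b j * (y : 𝓕), hbyB j j.2⟩ := by
    apply Subtype.ext
    rw [AddSubmonoidClass.coe_finsetSum]
    simp only [Subring.coe_mul]
    rw [Finset.sum_attach s (fun j => a j * (b j * (y : 𝓕)))]
    calc (y : 𝓕) = (∑ j ∈ s, a j * b j) * (y : 𝓕) := by rw [hab, one_mul]
      _ = ∑ j ∈ s, a j * (b j * (y : 𝓕)) := by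
          rw [Finset.sum_mul]
          exact Finset.sum_congr rfl fun j _ => mul_assoc _ _ _
  rw [hy_eq]
  refine Ideal.sum_mem _ fun j _ => Ideal.mul_mem_mul ?_ ?_
  · exact ha j j.2
  · exact hby j j.2

/-- the ideal of the zero divisor is the unit ideal. -/
theorem s37r_ideal_zero : s37r_ideal O S (fun _ => 0) = ⊤ := by
  rw [Ideal.eq_top_iff_one]
  show ((1 : s18_ring O S) : 𝓕) ∈ s18_latSet O S (fun _ => 0)
  rw [← s18_ringSet_eq_latSet_zero]
  exact (1 : s18_ring O S).2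

/-- **`I(div y) = (y)`** for `y ∈ B` a unit of the vertical valuation ring. -/
theorem s37r_ideal_ord (y : s18_ring O S) (hy0 : (y : 𝓕) ≠ 0) (hyinv : (y : 𝓕)⁻¹ ∈ O) :
    s37r_ideal O S (fun Q => Q.ord (y : 𝓕)) = Ideal.span {y} := by
  apply le_antisymm
  · intro z hz
    rw [Ideal.mem_span_singleton']
    have hzy : (z : 𝓕) * (y : 𝓕)⁻¹ ∈ s18_ring O S := by
      refine ⟨O.mul_mem _ _ hz.1 hyinv, fun Q hQ => ?_⟩
      by_cases hz0 : (z : 𝓕) = 0
      · rw [hz0, zero_mul]; exact Q.toValuationSubring.zero_mem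
      rw [ff_mem_iff_ord_nonneg Q (mul_ne_zero hz0 (inv_ne_zero hy0)),
        Q.ord_mul hz0 (inv_ne_zero hy0), Q.ord_inv]
      have h1 : Q.ord (y : 𝓕) ≤ Q.ord (z : 𝓕) := (hz.2 Q hQ).resolve_left hz0
      omega
    refine ⟨⟨_, hzy⟩, Subtype.ext ?_⟩
    rw [Subring.coe_mul]
    show (z : 𝓕) * (y : 𝓕)⁻¹ * (y : 𝓕) = z
    rw [mul_assoc, inv_mul_cancel₀ hy0, mul_one]
  · rw [Ideal.span_le, Set.singleton_subset_iff]
    exact ⟨y.2.1, fun Q _ => Or.inr le_rfl⟩

/-- **`I(δ_Q) = 𝔭_Q`**. -/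
theorem s37r_ideal_single [DecidableEq (Place L₀ 𝓕)] (Q : Place L₀ 𝓕) (hQS : Q ∈ S) :
    s37r_ideal O S (fun Q' => if Q' = Q then 1 else 0) = s18i_primeOf O S Q hQS := by
  ext y
  rw [s37r_mem_ideal, s18i_mem_primeOf]
  constructor
  · intro hy
    rcases hy.2 Q hQS with h | h
    · exact Or.inl h
    · have h1 : (1 : ℤ) ≤ Q.ord (y : 𝓕) := by simpa using h
      exact Or.inr (by omega)
  · intro hy
    refine ⟨y.2.1, fun Q' hQ' => ?_⟩
    by_cases hy0 : (y : 𝓕) = 0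
    · exact Or.inl hy0
    right
    show (if Q' = Q then (1 : ℤ) else 0) ≤ Q'.ord (y : 𝓕)
    by_cases hQQ : Q' = Q
    · rw [if_pos hQQ, hQQ]
      have := hy.resolve_left hy0
      omega
    · rw [if_neg hQQ]
      exact (ff_mem_iff_ord_nonneg Q' hy0).mp (y.2.2 Q' hQ')

/-- the chart ideal only depends on the restriction of `E` to the chart. -/
theorem s37r_ideal_congr {E E' : Place L₀ 𝓕 → ℤ} (h : ∀ Q ∈ S, E Q = E' Q) :
    s37r_ideal O S E = s37r_ideal O S E' := by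
  ext y
  rw [s37r_mem_ideal, s37r_mem_ideal]
  constructor
  · intro hy
    exact ⟨hy.1, fun Q hQ => by rw [← h Q hQ]; exact hy.2 Q hQ⟩
  · intro hy
    exact ⟨hy.1, fun Q hQ => by rw [h Q hQ]; exact hy.2 Q hQ⟩

/-- the prime of the chart ring at `Q` (the unit ideal outside the chart). -/
def s37r_prime (Q : Place L₀ 𝓕) : Ideal (s18_ring O S) :=
  open Classical in if h : Q ∈ S then s18i_primeOf O S Q h else ⊤

theorem s37r_prime_of_mem {Q : Place L₀ 𝓕} (hQS : Q ∈ S) :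
    s37r_prime O S Q = s18i_primeOf O S Q hQS := by
  unfold s37r_prime
  rw [dif_pos hQS]

open Classical in
/-- `I(n · δ_Q) = 𝔭_Q ^ n`. -/
theorem s37r_ideal_single_pow (hinv : s37r_HInv O S) (Q : Place L₀ 𝓕) (hQS : Q ∈ S) (n : ℕ) :
    s37r_ideal O S (fun Q' => if Q' = Q then (n : ℤ) else 0) = s37r_prime O S Q ^ n := by
  induction n with
  | zero =>
    rw [pow_zero, Ideal.one_eq_top, ← s37r_ideal_zero O S]
    exact s37r_ideal_congr O S fun Q' _ => by simp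
  | succ n ih =>
    have hfin : {Q' | Q' ∈ S ∧ (if Q' = Q then (1 : ℤ) else 0) ≠ 0}.Finite := by
      refine (Set.finite_singleton Q).subset ?_
      rintro Q' ⟨-, h⟩
      by_contra hne
      exact h (if_neg hne)
    have h1 := s37r_ideal_mul O S hinv (fun Q' => if Q' = Q then (1 : ℤ) else 0)
      (fun Q' => if Q' = Q then (n : ℤ) else 0) hfin
      (fun Q' _ => by split_ifs <;> simp) (fun Q' _ => by split_ifs <;> simp)
    rw [s37r_ideal_single O S Q hQS, ih, ← s37r_prime_of_mem O S hQS, ← pow_succ'] at h1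
    rw [← h1]
    exact s37r_ideal_congr O S fun Q' _ => by
      split_ifs <;> push_cast <;> ring

open Classical in
/-- **factorisation of the chart ideals**: `I(E) = ∏ 𝔭_Q ^ E(Q)` for `E ≥ 0` supported in the
finite set `T` of places of the chart. -/
theorem s37r_ideal_eq_prod (hinv : s37r_HInv O S) (T : Finset (Place L₀ 𝓕))
    (hT : ∀ Q ∈ T, Q ∈ S) (E : Place L₀ 𝓕 → ℤ) (hE0 : ∀ Q ∈ S, 0 ≤ E Q)
    (hsupp : ∀ Q ∈ S, E Q ≠ 0 → Q ∈ T) :
    s37r_ideal O S E = ∏ Q ∈ T, s37r_prime O S Q ^ (E Q).toNat := by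
  induction T using Finset.induction_on generalizing E with
  | empty =>
    rw [Finset.prod_empty, Ideal.one_eq_top, ← s37r_ideal_zero O S]
    refine s37r_ideal_congr O S fun Q hQ => ?_
    by_contra h
    exact absurd (hsupp Q hQ h) (Finset.notMem_empty Q)
  | insert Q₀ T hQ₀ ih =>
    have hQ₀S : Q₀ ∈ S := hT Q₀ (Finset.mem_insert_self _ _)
    set E' : Place L₀ 𝓕 → ℤ := fun Q => if Q = Q₀ then 0 else E Q with hE'
    have hfin : {Q' | Q' ∈ S ∧ (if Q' = Q₀ then ((E Q₀).toNat : ℤ) else 0) ≠ 0}.Finite := by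
      refine (Set.finite_singleton Q₀).subset ?_
      rintro Q' ⟨-, h⟩
      by_contra hne
      exact h (if_neg hne)
    have hmul := s37r_ideal_mul O S hinv (fun Q' => if Q' = Q₀ then ((E Q₀).toNat : ℤ) else 0)
      E' hfin (fun Q' _ => by split_ifs <;> simp)
      (fun Q' hQ' => by rw [hE']; show 0 ≤ if Q' = Q₀ then (0 : ℤ) else E Q'
                        split_ifs
                        · exact le_rfl
                        · exact hE0 Q' hQ')
    have hsplit : s37r_ideal O S E = s37r_ideal O S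
        (fun Q => (if Q = Q₀ then ((E Q₀).toNat : ℤ) else 0) + E' Q) := by
      refine s37r_ideal_congr O S fun Q hQ => ?_
      rw [hE']
      show E Q = (if Q = Q₀ then ((E Q₀).toNat : ℤ) else 0) + if Q = Q₀ then (0 : ℤ) else E Q
      by_cases hQQ : Q = Q₀
      · rw [if_pos hQQ, if_pos hQQ, add_zero, hQQ, Int.toNat_of_nonneg (hE0 Q₀ hQ₀S)]
      · rw [if_neg hQQ, if_neg hQQ, zero_add]
    rw [hsplit, hmul, s37r_ideal_single_pow O S hinv Q₀ hQ₀S, Finset.prod_insert hQ₀,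
      ih (fun Q hQ => hT Q (Finset.mem_insert_of_mem hQ)) E' ?_ ?_]
    · congr 1
      refine Finset.prod_congr rfl fun Q hQ => ?_
      have hne : Q ≠ Q₀ := fun h => hQ₀ (h ▸ hQ)
      rw [hE']
      show s37r_prime O S Q ^ (if Q = Q₀ then (0 : ℤ) else E Q).toNat = _
      rw [if_neg hne]
    · intro Q hQ
      rw [hE']
      show 0 ≤ if Q = Q₀ then (0 : ℤ) else E Q
      split_ifs
      · exact le_rfl
      · exact hE0 Q hQ
    · intro Q hQ hne
      rw [hE'] at hne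
      have hne' : (if Q = Q₀ then (0 : ℤ) else E Q) ≠ 0 := hne
      by_cases hQQ : Q = Q₀
      · rw [if_pos hQQ] at hne'
        exact absurd rfl hne'
      · rw [if_neg hQQ] at hne'
        exact (Finset.mem_insert.mp (hsupp Q hQ hne')).resolve_left hQQ

open Classical in
/-- **conservation of number, ideal form**: for a Gauss unit `y` of the chart ring,
`(y) = ∏ 𝔭_Q ^ ord_Q y` over any finite set `T ⊆ S` containing the zeros of `y` on the chart. -/
theorem s37r_span_eq_prod (hinv : s37r_HInv O S) (y : s18_ring O S) (hy0 : (y : 𝓕) ≠ 0)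
    (hyinv : (y : 𝓕)⁻¹ ∈ O) (T : Finset (Place L₀ 𝓕)) (hT : ∀ Q ∈ T, Q ∈ S)
    (hsupp : ∀ Q ∈ S, Q.ord (y : 𝓕) ≠ 0 → Q ∈ T) :
    Ideal.span {y} = ∏ Q ∈ T, s37r_prime O S Q ^ (Q.ord (y : 𝓕)).toNat := by
  rw [← s37r_ideal_ord O S y hy0 hyinv]
  exact s37r_ideal_eq_prod O S hinv T hT _
    (fun Q hQ => (ff_mem_iff_ord_nonneg Q hy0).mp (y.2.2 Q hQ)) hsupp

open Classical in
/-- **conservation of number after reduction** `ψ : B →+* D`:
`(ψ y) = ∏ ψ(𝔭_Q) ^ ord_Q y`. -/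
theorem s37r_span_map_eq_prod (hinv : s37r_HInv O S) {D : Type*} [CommRing D]
    (ψ : s18_ring O S →+* D) (y : s18_ring O S) (hy0 : (y : 𝓕) ≠ 0)
    (hyinv : (y : 𝓕)⁻¹ ∈ O) (T : Finset (Place L₀ 𝓕)) (hT : ∀ Q ∈ T, Q ∈ S)
    (hsupp : ∀ Q ∈ S, Q.ord (y : 𝓕) ≠ 0 → Q ∈ T) :
    Ideal.span {ψ y} = ∏ Q ∈ T, (s37r_prime O S Q).map ψ ^ (Q.ord (y : 𝓕)).toNat := by
  have h := congrArg (Ideal.mapHom ψ) (s37r_span_eq_prod O S hinv y hy0 hyinv T hT hsupp)
  rw [map_prod] at h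
  simp only [Ideal.mapHom_apply, Ideal.map_span, Set.image_singleton, Ideal.map_pow] at h
  exact h

end Fermat.Agent.Lib.S37
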