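/-
S37 moonshot (M-B), package [R] (helper3): the ABSTRACT chart hypotheses `s37r_ChartHyp`.

Abstract setting: `F/K` a function field over an algebraically closed field, `A ⊆ K` a valuation
ring with reduction `π : A →+* k`, `O ⊆ F` the Gauss valuation ring with reduction
`red : O →+* Fb` (`Fb/k` the function field of the special fibre), `w ∈ O` a coordinate,
`B = s18_ring O (chart1 w)` the chart ring, `D ⊆ Fb` a Dedekind domain with fraction field `Fb`
(in the application `D = integralClosure k[w̄] Fb`), `PsiD : B →+* D` the reduction.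

`s37r_ChartHyp` collects what the concrete packages (P2)–(P5), (P7), [RB] provide; the abstract
core (RCore/RTwo) derives from it the place reduction and conservation of number.
-/
import Fermat.Agent.Lib.S37.RCons
import Fermat.Agent.Lib.S37.PValue
import Fermat.Agent.Lib.S37.DDict

set_option autoImplicit false
set_option linter.unusedSectionVars false

noncomputable section

namespace Fermat.Agent.Lib.S37

open AlgebraicCurve Fermat.Agent.Lib.FF Fermat.Agent.Lib.S18

variable {K F : Type*} [Field K] [Field F] [Algebra K F] [IsAlgClosed K]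
  {k Fb : Type*} [Field k] [Field Fb] [Algebra k Fb]
  {D : Type*} [CommRing D] [Algebra D Fb]

/-- **the abstract chart hypotheses** for the coordinate `w`. -/
structure s37r_ChartHyp (x : F) [FFGen K x] (A : ValuationSubring K) (π : ↥A →+* k)
    (O : ValuationSubring F) (red : ↥O →+* Fb) (w : F)
    (PsiD : ↥(s18_ring O (s18_chart1 (L₀ := K) w)) →+* D) : Prop where
  /-- `π` is onto … -/
  pi_surj : Function.Surjective π
  /-- … and kills exactly the non-units of `A`. -/
  unit_of_ne : ∀ a : ↥A, π a ≠ 0 → ((a : K))⁻¹ ∈ A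
  /-- divisors of functions have finite support. -/
  fin : ∀ y : F, y ≠ 0 → {P : Place K F | P.ord y ≠ 0}.Finite
  /-- integral constants are Gauss-integral … -/
  const_mem : ∀ c : ↥A, algebraMap K F (c : K) ∈ O
  /-- … and reduce to constants. -/
  red_const : ∀ c : ↥A, red ⟨algebraMap K F (c : K), const_mem c⟩ = algebraMap k Fb (π c)
  /-- `O` is local with maximal ideal `ker red`. -/
  inv_mem : ∀ y : ↥O, red y ≠ 0 → ((y : F))⁻¹ ∈ O
  /-- the coordinate is Gauss-integral … -/
  w_mem : w ∈ O
  /-- … with non-constant reduction. -/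
  w_nonconst : ∀ c : k, red ⟨w, w_mem⟩ ≠ algebraMap k Fb c
  /-- `PsiD` is the reduction on the chart ring, -/
  psi_eq : ∀ b : ↥(s18_ring O (s18_chart1 (L₀ := K) w)),
    algebraMap D Fb (PsiD b) = red ⟨(b : F), b.2.1⟩
  /-- (P3) onto `D`, -/
  psi_surj : Function.Surjective PsiD
  /-- (P5) with kernel generated by the non-units of `A`. -/
  ker : ∀ b : ↥(s18_ring O (s18_chart1 (L₀ := K) w)), red ⟨(b : F), b.2.1⟩ = 0 →
    ∃ (c : ↥A) (b' : ↥(s18_ring O (s18_chart1 (L₀ := K) w))),
      π c = 0 ∧ (b : F) = algebraMap K F (c : K) * (b' : F)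
  /-- (P4) integrality of values: at a place where `w` takes a value in `A`, so does every
  element of the chart ring. -/
  value : ∀ (P : Place K F) (hP : w ∈ P.toValuationSubring), s37pv_ev x P ⟨w, hP⟩ ∈ A →
    ∀ b : ↥(s18_ring O (s18_chart1 (L₀ := K) w)), s37pv_ev x P ⟨(b : F), b.2.2 P hP⟩ ∈ A
  /-- (P2) invertibility of the chart lattices. -/
  hinv : s37r_HInv O (s18_chart1 (L₀ := K) w)
  /-- (P7) = (α): every Gauss-integral function is a quotient of elements of the chart ring with
  Gauss-unit denominator. -/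
  alpha : ∀ y ∈ O, ∃ b₂ : ↥(s18_ring O (s18_chart1 (L₀ := K) w)),
    red ⟨(b₂ : F), b₂.2.1⟩ ≠ 0 ∧ y * (b₂ : F) ∈ s18_ring O (s18_chart1 (L₀ := K) w)
  /-- `D` is regular wherever `w̄` is (integrality of `D` over `k[w̄]`). -/
  reg : ∀ Q : Place k Fb, ((red ⟨w, w_mem⟩ : Fb)) ∈ Q.toValuationSubring →
    ∀ d : D, algebraMap D Fb d ∈ Q.toValuationSubring

end Fermat.Agent.Lib.S37
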