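/-
S37 moonshot (M-B), package [R] (helper3): the ABSTRACT chart core.

From `s37r_ChartHyp` (RCoreDef) for a coordinate `w`:
* `s37r_J PsiD P = map PsiD 𝔭_P` is a maximal ideal of `D` if `w(P) ∈ A` (`s37r_Int`), and `⊤`
  otherwise;
* the chart reduction `s37r_rw h P hInt : Place k Fb` and its compatibility with values;
* **chart conservation of number** `s37r_chart_conservation`.
-/
import Fermat.Agent.Lib.S37.RCoreDef

set_option autoImplicit false
set_option linter.unusedSectionVars false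
set_option linter.style.haveILetI false

noncomputable section

namespace Fermat.Agent.Lib.S37

open AlgebraicCurve Fermat.Agent.Lib.FF Fermat.Agent.Lib.S18 IsDedekindDomain

variable {K F : Type*} [Field K] [Field F] [Algebra K F] [IsAlgClosed K]
  {k Fb : Type*} [Field k] [Field Fb] [Algebra k Fb]
  {D : Type*} [CommRing D] [IsDedekindDomain D] [Algebra D Fb] [IsFractionRing D Fb]
  [Algebra k D] [IsScalarTower k D Fb]

/-- `w` takes a value in `A` at `P`. -/
def s37r_Int (x : F) [FFGen K x] (A : ValuationSubring K) (w : F) (P : Place K F) : Prop :=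
  ∃ hP : w ∈ P.toValuationSubring, s37pv_ev x P ⟨w, hP⟩ ∈ A

/-- the ideal of `D` attached to the place `P`. -/
def s37r_J {O : ValuationSubring F} {w : F}
    (PsiD : ↥(s18_ring O (s18_chart1 (L₀ := K) w)) →+* D) (P : Place K F) : Ideal D :=
  (s37r_prime O (s18_chart1 (L₀ := K) w) P).map PsiD

variable {x : F} [FFGen K x] {A : ValuationSubring K} {π : ↥A →+* k}
  {O : ValuationSubring F} {red : ↥O →+* Fb} {w : F}
  {PsiD : ↥(s18_ring O (s18_chart1 (L₀ := K) w)) →+* D}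
  (h : s37r_ChartHyp x A π O red w PsiD)

local notation "S" => s18_chart1 (L₀ := K) w
local notation "B" => s18_ring O (s18_chart1 (L₀ := K) w)

include h

/-- integral constants, in the chart ring. -/
def s37r_constB (c : ↥A) : ↥B :=
  ⟨algebraMap K F (c : K), h.const_mem c, fun Q _ => Q.algebraMap_mem' _⟩

/-- the coordinate, in the chart ring. -/
def s37r_wB : ↥B := ⟨w, h.w_mem, fun _ hQ => hQ⟩

theorem s37r_algebraMap_injective : Function.Injective (algebraMap D Fb) :=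
  IsFractionRing.injective D Fb

theorem s37r_PsiD_constB (c : ↥A) : PsiD (s37r_constB h c) = algebraMap k D (π c) := by
  apply s37r_algebraMap_injective h
  rw [h.psi_eq, ← IsScalarTower.algebraMap_apply]
  exact h.red_const c

theorem s37r_algebraMap_PsiD_wB : algebraMap D Fb (PsiD (s37r_wB h)) = red ⟨w, h.w_mem⟩ :=
  h.psi_eq _

/-- `PsiD b = 0 ↔ red b = 0`. -/
theorem s37r_PsiD_eq_zero_iff (b : ↥B) : PsiD b = 0 ↔ red ⟨(b : F), b.2.1⟩ = 0 := by
  rw [← h.psi_eq, map_eq_zero_iff _ (s37r_algebraMap_injective h)]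

omit h in
/-- the inclusion of the chart ring into the valuation ring of a place of the chart. -/
def s37r_toOP (O : ValuationSubring F) {w : F} (P : Place K F) (hP : w ∈ P.toValuationSubring) :
    ↥(s18_ring O (s18_chart1 (L₀ := K) w)) →+* ↥P.toValuationSubring :=
  Subring.inclusion (fun _ hb => hb.2 P hP :
    s18_ring O (s18_chart1 (L₀ := K) w) ≤ P.toValuationSubring.toSubring)

omit h in
/-- the value at `P`, on the chart ring. -/
def s37r_evB (x : F) [FFGen K x] (O : ValuationSubring F) {w : F} (P : Place K F)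
    (hP : w ∈ P.toValuationSubring) : ↥(s18_ring O (s18_chart1 (L₀ := K) w)) →+* K :=
  (s37pv_ev x P).comp (s37r_toOP O P hP)

omit h in
theorem s37r_evB_apply (P : Place K F) (hP : w ∈ P.toValuationSubring) (b : ↥B) :
    s37r_evB x O P hP b = s37pv_ev x P ⟨(b : F), b.2.2 P hP⟩ := rfl

theorem s37r_evB_constB (P : Place K F) (hP : w ∈ P.toValuationSubring) (c : ↥A) :
    s37r_evB x O P hP (s37r_constB h c) = (c : K) :=
  s37pv_ev_algebraMap x P (c : K)

theorem s37r_evB_wB (P : Place K F) (hP : w ∈ P.toValuationSubring) :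
    s37r_evB x O P hP (s37r_wB h) = s37pv_ev x P ⟨w, hP⟩ := rfl

omit h in
variable (x) in
/-- vanishing at `P` ↔ membership in the prime of `P`. -/
theorem s37r_evB_eq_zero_iff (P : Place K F) (hP : w ∈ P.toValuationSubring) (b : ↥B) :
    s37r_evB x O P hP b = 0 ↔ b ∈ s37r_prime O S P := by
  rw [s37r_prime_of_mem O S (Q := P) hP, s18i_mem_primeOf, s37r_evB_apply,
    s37pv_ev_coe_eq_iff, map_zero, sub_zero]
  rfl

/-! ### The ideal `J(P)` -/

/-- the value at `P` as a ring hom `B →+* A` (integrality of values (P4)). -/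
def s37r_evA (P : Place K F) (hInt : s37r_Int x A w P) : ↥B →+* ↥A :=
  (s37r_evB x O P hInt.fst).codRestrict A (fun b => h.value P hInt.fst hInt.snd b)

theorem s37r_coe_evA (P : Place K F) (hInt : s37r_Int x A w P) (b : ↥B) :
    ((s37r_evA h P hInt b : ↥A) : K) = s37r_evB x O P hInt.fst b := rfl

/-- the reduced value at `P`. -/
def s37r_eps (P : Place K F) (hInt : s37r_Int x A w P) : ↥B →+* k :=
  π.comp (s37r_evA h P hInt)

theorem s37r_eps_apply (P : Place K F) (hInt : s37r_Int x A w P) (b : ↥B) :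
    s37r_eps h P hInt b = π (s37r_evA h P hInt b) := rfl

theorem s37r_evA_constB (P : Place K F) (hInt : s37r_Int x A w P) (c : ↥A) :
    s37r_evA h P hInt (s37r_constB h c) = c :=
  Subtype.ext (s37r_evB_constB h P hInt.fst c)

theorem s37r_eps_surjective (P : Place K F) (hInt : s37r_Int x A w P) :
    Function.Surjective (s37r_eps h P hInt) := by
  intro c
  obtain ⟨a, rfl⟩ := h.pi_surj c
  exact ⟨s37r_constB h a, by rw [s37r_eps_apply, s37r_evA_constB]⟩

theorem s37r_ker_PsiD_le (P : Place K F) (hInt : s37r_Int x A w P) :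
    RingHom.ker PsiD ≤ RingHom.ker (s37r_eps h P hInt) := by
  intro b hb
  rw [RingHom.mem_ker] at hb ⊢
  obtain ⟨c, b', hc, hbb'⟩ := h.ker b ((s37r_PsiD_eq_zero_iff h b).mp hb)
  have hb2 : b = s37r_constB h c * b' := Subtype.ext hbb'
  rw [hb2, map_mul, s37r_eps_apply, s37r_evA_constB, hc, zero_mul]

theorem s37r_J_eq (P : Place K F) (hInt : s37r_Int x A w P) :
    s37r_J PsiD P = (RingHom.ker (s37r_eps h P hInt)).map PsiD := by
  apply le_antisymm
  · apply Ideal.map_mono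
    intro b hb
    rw [RingHom.mem_ker, s37r_eps_apply]
    have h0 : s37r_evA h P hInt b = 0 :=
      Subtype.ext ((s37r_evB_eq_zero_iff x P hInt.fst b).mpr hb)
    rw [h0, map_zero]
  · rw [Ideal.map_le_iff_le_comap]
    intro b hb
    rw [RingHom.mem_ker, s37r_eps_apply] at hb
    rw [Ideal.mem_comap]
    have h1 : b - s37r_constB h (s37r_evA h P hInt b) ∈ s37r_prime O S P := by
      rw [← s37r_evB_eq_zero_iff x P hInt.fst, map_sub, s37r_evB_constB, sub_eq_zero]
      rfl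
    have h2 : PsiD (s37r_constB h (s37r_evA h P hInt b)) = 0 := by
      rw [s37r_PsiD_constB, hb, map_zero]
    have h3 : PsiD b = PsiD (b - s37r_constB h (s37r_evA h P hInt b)) := by
      rw [map_sub, h2, sub_zero]
    rw [h3]
    exact Ideal.mem_map_of_mem _ h1

/-- **`J(P)` is maximal** if `w(P) ∈ A`. -/
theorem s37r_J_isMaximal (P : Place K F) (hInt : s37r_Int x A w P) :
    (s37r_J PsiD P).IsMaximal := by
  rw [s37r_J_eq h P hInt]
  have hmax : (RingHom.ker (s37r_eps h P hInt)).IsMaximal :=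
    RingHom.ker_isMaximal_of_surjective _ (s37r_eps_surjective h P hInt)
  rcases Ideal.map_eq_top_or_isMaximal_of_surjective PsiD h.psi_surj hmax with htop | hm
  · exfalso
    have h1 := Ideal.comap_map_of_surjective PsiD h.psi_surj (RingHom.ker (s37r_eps h P hInt))
    rw [htop, Ideal.comap_top] at h1
    have h2 : Ideal.comap PsiD ⊥ ≤ RingHom.ker (s37r_eps h P hInt) := s37r_ker_PsiD_le h P hInt
    rw [sup_eq_left.mpr h2] at h1
    exact hmax.ne_top h1.symm
  · exact hm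

/-- **`J(P) = ⊤`** if `w` has no value in `A` at `P`. -/
theorem s37r_J_eq_top (P : Place K F) (hnInt : ¬ s37r_Int x A w P) : s37r_J PsiD P = ⊤ := by
  by_cases hP : w ∈ P.toValuationSubring
  · have hcA : s37pv_ev x P ⟨w, hP⟩ ∉ A := fun hA => hnInt ⟨hP, hA⟩
    have hcinv : (s37pv_ev x P ⟨w, hP⟩)⁻¹ ∈ A := (A.mem_or_inv_mem _).resolve_left hcA
    have hc0 : s37pv_ev x P ⟨w, hP⟩ ≠ 0 := fun h0 => hcA (h0 ▸ A.zero_mem)
    have hπ : π ⟨(s37pv_ev x P ⟨w, hP⟩)⁻¹, hcinv⟩ = 0 := by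
      by_contra hne
      have h1 := h.unit_of_ne ⟨(s37pv_ev x P ⟨w, hP⟩)⁻¹, hcinv⟩ hne
      simp only [inv_inv] at h1
      exact hcA h1
    rw [Ideal.eq_top_iff_one]
    have hb : s37r_constB h ⟨(s37pv_ev x P ⟨w, hP⟩)⁻¹, hcinv⟩ * s37r_wB h - 1 ∈
        s37r_prime O S P := by
      rw [← s37r_evB_eq_zero_iff x P hP, map_sub, map_mul, map_one, s37r_evB_constB, s37r_evB_wB]
      show (s37pv_ev x P ⟨w, hP⟩)⁻¹ * s37pv_ev x P ⟨w, hP⟩ - 1 = 0
      rw [inv_mul_cancel₀ hc0, sub_self]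
    have h2 := Ideal.mem_map_of_mem PsiD hb
    rw [map_sub, map_mul, map_one, s37r_PsiD_constB, hπ, map_zero, zero_mul, zero_sub] at h2
    exact (Ideal.neg_mem_iff _).mp h2
  · have hP' : P ∉ s18_chart1 (L₀ := K) w := hP
    unfold s37r_J s37r_prime
    rw [dif_neg hP']
    exact Ideal.map_top PsiD

theorem s37r_Int_of_J_ne_top (P : Place K F) (hJ : s37r_J PsiD P ≠ ⊤) : s37r_Int x A w P := by
  by_contra hn
  exact hJ (s37r_J_eq_top h P hn)

theorem s37r_J_top_or_isMaximal (P : Place K F) :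
    s37r_J PsiD P = ⊤ ∨ (s37r_J PsiD P).IsMaximal := by
  by_cases hInt : s37r_Int x A w P
  · exact Or.inr (s37r_J_isMaximal h P hInt)
  · exact Or.inl (s37r_J_eq_top h P hInt)

theorem s37r_J_ne_bot (P : Place K F) (hInt : s37r_Int x A w P) : s37r_J PsiD P ≠ ⊥ := by
  intro hbot
  have hb : s37r_wB h - s37r_constB h ⟨s37pv_ev x P ⟨w, hInt.fst⟩, hInt.snd⟩ ∈
      s37r_prime O S P := by
    rw [← s37r_evB_eq_zero_iff x P hInt.fst, map_sub, s37r_evB_constB, s37r_evB_wB, sub_self]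
  have h2 := Ideal.mem_map_of_mem PsiD hb
  rw [show Ideal.map PsiD (s37r_prime O S P) = s37r_J PsiD P from rfl, hbot, Ideal.mem_bot,
    map_sub, sub_eq_zero] at h2
  apply h.w_nonconst (π ⟨s37pv_ev x P ⟨w, hInt.fst⟩, hInt.snd⟩)
  rw [← s37r_algebraMap_PsiD_wB h, h2, s37r_PsiD_constB, ← IsScalarTower.algebraMap_apply]

/-- the height one prime of `D` attached to `P`. -/
def s37r_hos (P : Place K F) (hInt : s37r_Int x A w P) : HeightOneSpectrum D :=
  ⟨s37r_J PsiD P, (s37r_J_isMaximal h P hInt).isPrime, s37r_J_ne_bot h P hInt⟩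

theorem s37r_hos_asIdeal (P : Place K F) (hInt : s37r_Int x A w P) :
    (s37r_hos h P hInt).asIdeal = s37r_J PsiD P := rfl

/-- **the chart reduction** of the place `P`. -/
def s37r_rw (P : Place K F) (hInt : s37r_Int x A w P) : Place k Fb :=
  Place.ofHeightOneSpectrum (K := k) (F := Fb) (s37r_hos h P hInt)

theorem s37r_rw_regular (P : Place K F) (hInt : s37r_Int x A w P) (d : D) :
    algebraMap D Fb d ∈ (s37r_rw h P hInt).toValuationSubring :=
  s37d_algebraMap_mem_ofHeightOneSpectrum (K := k) (F := Fb) (s37r_hos h P hInt) d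

theorem s37r_rw_w_mem (P : Place K F) (hInt : s37r_Int x A w P) :
    (red ⟨w, h.w_mem⟩ : Fb) ∈ (s37r_rw h P hInt).toValuationSubring := by
  rw [← s37r_algebraMap_PsiD_wB h]
  exact s37r_rw_regular h P hInt _

omit h in
/-- elements of a height one prime have positive order at its place. -/
theorem s37r_ord_pos_of_mem (𝔪 : HeightOneSpectrum D) (d : D) (hd : d ∈ 𝔪.asIdeal) (hd0 : d ≠ 0) :
    0 < (Place.ofHeightOneSpectrum (K := k) (F := Fb) 𝔪).ord (algebraMap D Fb d) := by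
  have h1 := (s37d_mem_primeOf (Place.ofHeightOneSpectrum (K := k) (F := Fb) 𝔪)
    (fun r => 𝔪.valuation_le_one r) d).mp
    (by rw [s37d_primeOf_ofHeightOneSpectrum]; exact hd)
  exact h1.resolve_left hd0

/-- **compatibility with values**: `w̄ − c̄` vanishes at the reduction of `P`, `c = w(P)`. -/
theorem s37r_rw_value (P : Place K F) (hInt : s37r_Int x A w P) :
    0 < (s37r_rw h P hInt).ord
      ((red ⟨w, h.w_mem⟩ : Fb) - algebraMap k Fb (π ⟨s37pv_ev x P ⟨w, hInt.fst⟩, hInt.snd⟩)) := by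
  have hb : s37r_wB h - s37r_constB h ⟨s37pv_ev x P ⟨w, hInt.fst⟩, hInt.snd⟩ ∈
      s37r_prime O S P := by
    rw [← s37r_evB_eq_zero_iff x P hInt.fst, map_sub, s37r_evB_constB, s37r_evB_wB, sub_self]
  have h2 : PsiD (s37r_wB h - s37r_constB h ⟨s37pv_ev x P ⟨w, hInt.fst⟩, hInt.snd⟩) ∈
      (s37r_hos h P hInt).asIdeal := Ideal.mem_map_of_mem PsiD hb
  have h3 : algebraMap D Fb
      (PsiD (s37r_wB h - s37r_constB h ⟨s37pv_ev x P ⟨w, hInt.fst⟩, hInt.snd⟩)) =
      (red ⟨w, h.w_mem⟩ : Fb) - algebraMap k Fb (π ⟨s37pv_ev x P ⟨w, hInt.fst⟩, hInt.snd⟩) := by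
    rw [map_sub, map_sub, s37r_algebraMap_PsiD_wB h, s37r_PsiD_constB,
      ← IsScalarTower.algebraMap_apply]
  have h0 : PsiD (s37r_wB h - s37r_constB h ⟨s37pv_ev x P ⟨w, hInt.fst⟩, hInt.snd⟩) ≠ 0 := by
    intro h0
    rw [h0, map_zero] at h3
    exact h.w_nonconst _ (sub_eq_zero.mp h3.symm)
  rw [← h3]
  exact s37r_ord_pos_of_mem _ _ h2 h0

/-! ### Chart conservation of number -/

theorem s37r_mem_chart_of_J_ne_top (P : Place K F) (hJ : s37r_J PsiD P ≠ ⊤) :
    w ∈ P.toValuationSubring :=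
  (s37r_Int_of_J_ne_top h P hJ).fst

open Classical in
/-- conservation for a Gauss unit of the chart ring. -/
theorem s37r_chart_conservation_B (b : ↥B) (hb : red ⟨(b : F), b.2.1⟩ ≠ 0)
    (T : Finset (Place K F)) (hTS : ∀ P ∈ T, w ∈ P.toValuationSubring)
    (hT : ∀ P : Place K F, w ∈ P.toValuationSubring → P.ord (b : F) ≠ 0 → P ∈ T)
    (𝔪 : HeightOneSpectrum D) :
    (Place.ofHeightOneSpectrum (K := k) (F := Fb) 𝔪).ord (red ⟨(b : F), b.2.1⟩) =
      ∑ P ∈ T with s37r_J PsiD P = 𝔪.asIdeal, P.ord (b : F) := by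
  have hb0 : (b : F) ≠ 0 := by
    intro h0
    apply hb
    have : (⟨(b : F), b.2.1⟩ : ↥O) = 0 := Subtype.ext h0
    rw [this, map_zero]
  have hbinv : ((b : F))⁻¹ ∈ O := h.inv_mem ⟨(b : F), b.2.1⟩ hb
  have hspan := s37r_span_map_eq_prod O S h.hinv PsiD b hb0 hbinv T hTS hT
  have hPsi0 : PsiD b ≠ 0 := fun h0 => hb ((s37r_PsiD_eq_zero_iff h b).mp h0)
  have hord := s37d_ord_of_span_eq_prod' (K := k) (F := Fb) T (fun P => s37r_J PsiD P)
    (fun P => (P.ord (b : F)).toNat) (fun P _ => s37r_J_top_or_isMaximal h P) (PsiD b) hPsi0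
    hspan 𝔪
  rw [h.psi_eq] at hord
  rw [hord]
  refine Finset.sum_congr rfl fun P hP => ?_
  rw [Finset.mem_filter] at hP
  exact Int.toNat_of_nonneg ((ff_mem_iff_ord_nonneg P hb0).mp (b.2.2 P (hTS P hP.1)))

open Classical in
/-- **chart conservation of number**: for a Gauss unit `y`, the order of `ȳ` at the place of the
height one prime `𝔪` of `D` is the sum of the orders of `y` at the places `P` with `J(P) = 𝔪`. -/
theorem s37r_chart_conservation (y : F) (hy : y ∈ O) (hy0 : red ⟨y, hy⟩ ≠ 0)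
    (T : Finset (Place K F))
    (hT : ∀ P : Place K F, w ∈ P.toValuationSubring → P.ord y ≠ 0 → P ∈ T)
    (𝔪 : HeightOneSpectrum D) :
    (Place.ofHeightOneSpectrum (K := k) (F := Fb) 𝔪).ord (red ⟨y, hy⟩) =
      ∑ P ∈ T with s37r_J PsiD P = 𝔪.asIdeal, P.ord y := by
  obtain ⟨b₂, hb₂, hb₁mem⟩ := h.alpha y hy
  set b₁ : ↥B := ⟨y * (b₂ : F), hb₁mem⟩ with hb₁def
  have hyF0 : y ≠ 0 := by
    intro h0
    apply hy0
    have : (⟨y, hy⟩ : ↥O) = 0 := Subtype.ext h0
    rw [this, map_zero]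
  have hb₂0 : (b₂ : F) ≠ 0 := by
    intro h0
    apply hb₂
    have : (⟨(b₂ : F), b₂.2.1⟩ : ↥O) = 0 := Subtype.ext h0
    rw [this, map_zero]
  have hb₁0 : (b₁ : F) ≠ 0 := mul_ne_zero hyF0 hb₂0
  have hredmul : red ⟨(b₁ : F), b₁.2.1⟩ = red ⟨y, hy⟩ * red ⟨(b₂ : F), b₂.2.1⟩ := by
    rw [← map_mul]
    rfl
  have hb₁ : red ⟨(b₁ : F), b₁.2.1⟩ ≠ 0 := by
    rw [hredmul]
    exact mul_ne_zero hy0 hb₂
  -- the big finite set
  set Tb : Finset (Place K F) :=
    ((T ∪ (h.fin _ hb₁0).toFinset) ∪ (h.fin _ hb₂0).toFinset).filter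
      (fun P => w ∈ P.toValuationSubring) with hTb
  have hTbS : ∀ P ∈ Tb, w ∈ P.toValuationSubring := fun P hP => (Finset.mem_filter.mp hP).2
  have hTb₁ : ∀ P : Place K F, w ∈ P.toValuationSubring → P.ord (b₁ : F) ≠ 0 → P ∈ Tb := by
    intro P hP hne
    rw [hTb, Finset.mem_filter]
    refine ⟨?_, hP⟩
    rw [Finset.mem_union, Finset.mem_union]
    exact Or.inl (Or.inr ((h.fin _ hb₁0).mem_toFinset.mpr hne))
  have hTb₂ : ∀ P : Place K F, w ∈ P.toValuationSubring → P.ord (b₂ : F) ≠ 0 → P ∈ Tb := by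
    intro P hP hne
    rw [hTb, Finset.mem_filter]
    refine ⟨?_, hP⟩
    rw [Finset.mem_union]
    exact Or.inr ((h.fin _ hb₂0).mem_toFinset.mpr hne)
  have h1 := s37r_chart_conservation_B h b₁ hb₁ Tb hTbS hTb₁ 𝔪
  have h2 := s37r_chart_conservation_B h b₂ hb₂ Tb hTbS hTb₂ 𝔪
  have hordmul : (Place.ofHeightOneSpectrum (K := k) (F := Fb) 𝔪).ord (red ⟨(b₁ : F), b₁.2.1⟩) =
      (Place.ofHeightOneSpectrum (K := k) (F := Fb) 𝔪).ord (red ⟨y, hy⟩) +
        (Place.ofHeightOneSpectrum (K := k) (F := Fb) 𝔪).ord (red ⟨(b₂ : F), b₂.2.1⟩) := by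
    rw [hredmul, Place.ord_mul _ hy0 hb₂]
  have hsum : ∑ P ∈ Tb with s37r_J PsiD P = 𝔪.asIdeal, P.ord (b₁ : F) =
      ∑ P ∈ Tb with s37r_J PsiD P = 𝔪.asIdeal, P.ord y +
        ∑ P ∈ Tb with s37r_J PsiD P = 𝔪.asIdeal, P.ord (b₂ : F) := by
    rw [← Finset.sum_add_distrib]
    refine Finset.sum_congr rfl fun P _ => ?_
    exact P.ord_mul hyF0 hb₂0
  have h3 : (Place.ofHeightOneSpectrum (K := k) (F := Fb) 𝔪).ord (red ⟨y, hy⟩) =
      ∑ P ∈ Tb with s37r_J PsiD P = 𝔪.asIdeal, P.ord y := by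
    rw [hordmul, h2, hsum] at h1
    exact add_right_cancel h1
  rw [h3]
  -- compare the two index sets
  symm
  apply Finset.sum_subset
  · intro P hP
    rw [Finset.mem_filter] at hP ⊢
    refine ⟨?_, hP.2⟩
    have hPS : w ∈ P.toValuationSubring := by
      apply s37r_mem_chart_of_J_ne_top h P
      rw [hP.2]
      exact 𝔪.isPrime.ne_top
    rw [hTb, Finset.mem_filter]
    refine ⟨?_, hPS⟩
    rw [Finset.mem_union, Finset.mem_union]
    exact Or.inl (Or.inl hP.1)
  · intro P hP hPn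
    rw [Finset.mem_filter] at hP hPn
    by_contra hne
    exact hPn ⟨hT P (hTbS P hP.1) hne, hP.2⟩

end Fermat.Agent.Lib.S37
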