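/-
S37 moonshot (M-B), package [R] (helper3): the ABSTRACT two-chart assembly.

From the chart hypotheses `s37r_ChartHyp` for `w` and for `w⁻¹` (RCoreDef), via the one-chart core
(RCore): the place reduction `s37r_r h₁ h₂ : Place K F → Place k Fb` and **conservation of number**
`s37r_conservation`, hence `s37r_exists_reduction`.
-/
import Fermat.Agent.Lib.S37.RCore
import Fermat.Agent.Lib.FF.FFBasicResidue

set_option autoImplicit false
set_option linter.unusedSectionVars false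
set_option linter.style.haveILetI false

noncomputable section

namespace Fermat.Agent.Lib.S37

open AlgebraicCurve Fermat.Agent.Lib.FF Fermat.Agent.Lib.S18 IsDedekindDomain

/-- `mapDomain` evaluated at a point. -/
theorem s37r_mapDomain_apply {α β : Type*} (r : α → β) (Dv : α →₀ ℤ) (Q : β)
    [DecidablePred fun P => r P = Q] :
    Finsupp.mapDomain r Dv Q = ∑ P ∈ Dv.support with r P = Q, Dv P := by
  classical
  rw [Finsupp.mapDomain, Finsupp.sum_apply, Finsupp.sum, Finset.sum_filter]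
  refine Finset.sum_congr rfl fun P _ => ?_
  rw [Finsupp.single_apply]

variable {K F : Type*} [Field K] [Field F] [Algebra K F] [IsAlgClosed K]
  {k Fb : Type*} [Field k] [Field Fb] [Algebra k Fb]
  {D₁ : Type*} [CommRing D₁] [IsDedekindDomain D₁] [Algebra D₁ Fb] [IsFractionRing D₁ Fb]
  [Algebra k D₁] [IsScalarTower k D₁ Fb]
  {D₂ : Type*} [CommRing D₂] [IsDedekindDomain D₂] [Algebra D₂ Fb] [IsFractionRing D₂ Fb]
  [Algebra k D₂] [IsScalarTower k D₂ Fb]
  {x : F} [FFGen K x] {A : ValuationSubring K} {π : ↥A →+* k}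
  {O : ValuationSubring F} {red : ↥O →+* Fb} {w : F}
  {PsiD₁ : ↥(s18_ring O (s18_chart1 (L₀ := K) w)) →+* D₁}
  {PsiD₂ : ↥(s18_ring O (s18_chart1 (L₀ := K) w⁻¹)) →+* D₂}

section One

variable (h₁ : s37r_ChartHyp x A π O red w PsiD₁)

include h₁

theorem s37r_w_ne_zero : w ≠ 0 := by
  intro h0
  apply h₁.w_nonconst 0
  have : (⟨w, h₁.w_mem⟩ : ↥O) = 0 := Subtype.ext h0
  rw [this, map_zero, map_zero]

theorem s37r_red_w_ne_zero : red ⟨w, h₁.w_mem⟩ ≠ 0 := by
  intro h0
  apply h₁.w_nonconst 0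
  rw [h0, map_zero]

/-- if `w` has no value in `A` at `P`, then `w⁻¹` has a value in `A` at `P`, and this value
reduces to `0`. -/
theorem s37r_Int_inv_of_not (P : Place K F) (hn : ¬ s37r_Int x A w P) :
    ∃ hInt : s37r_Int x A w⁻¹ P, π ⟨s37pv_ev x P ⟨w⁻¹, hInt.fst⟩, hInt.snd⟩ = 0 := by
  by_cases hP : w ∈ P.toValuationSubring
  · have hcA : s37pv_ev x P ⟨w, hP⟩ ∉ A := fun hA => hn ⟨hP, hA⟩
    have hcinv : (s37pv_ev x P ⟨w, hP⟩)⁻¹ ∈ A := (A.mem_or_inv_mem _).resolve_left hcA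
    have hc0 : s37pv_ev x P ⟨w, hP⟩ ≠ 0 := fun h0 => hcA (h0 ▸ A.zero_mem)
    have hunit : IsUnit (⟨w, hP⟩ : ↥P.toValuationSubring) := by
      by_contra hnu
      apply hc0
      rw [s37pv_ev_eq_zero_iff, IsLocalRing.mem_maximalIdeal]
      exact hnu
    have hPinv : w⁻¹ ∈ P.toValuationSubring := ff_inv_mem_of_isUnit P hunit
    have hmul : s37pv_ev x P ⟨w⁻¹, hPinv⟩ * s37pv_ev x P ⟨w, hP⟩ = 1 := by
      rw [← map_mul, ← map_one (s37pv_ev x P)]
      congr 1
      apply Subtype.ext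
      show w⁻¹ * w = 1
      exact inv_mul_cancel₀ (s37r_w_ne_zero h₁)
    have hev : s37pv_ev x P ⟨w⁻¹, hPinv⟩ = (s37pv_ev x P ⟨w, hP⟩)⁻¹ :=
      eq_inv_of_mul_eq_one_left hmul
    refine ⟨⟨hPinv, by rw [hev]; exact hcinv⟩, ?_⟩
    by_contra hne
    have h1 := h₁.unit_of_ne _ hne
    simp only [hev, inv_inv] at h1
    exact hcA h1
  · have hPinv : w⁻¹ ∈ P.toValuationSubring := (P.toValuationSubring.mem_or_inv_mem w).resolve_left hP
    have hev : s37pv_ev x P ⟨w⁻¹, hPinv⟩ = 0 := by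
      rw [s37pv_ev_eq_zero_iff, IsLocalRing.mem_maximalIdeal, mem_nonunits_iff]
      intro hu
      have := ff_inv_mem_of_isUnit P hu
      simp only [inv_inv] at this
      exact hP this
    refine ⟨⟨hPinv, by rw [hev]; exact A.zero_mem⟩, ?_⟩
    have : (⟨s37pv_ev x P ⟨w⁻¹, hPinv⟩, by rw [hev]; exact A.zero_mem⟩ : ↥A) = 0 :=
      Subtype.ext hev
    rw [this, map_zero]

/-- if both `w` and `w⁻¹` have values in `A` at `P`, these are units of `A`. -/
theorem s37r_pi_ne_zero_of_both (P : Place K F) (hInt : s37r_Int x A w P)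
    (hInt' : s37r_Int x A w⁻¹ P) :
    π ⟨s37pv_ev x P ⟨w⁻¹, hInt'.fst⟩, hInt'.snd⟩ ≠ 0 := by
  intro h0
  have hmul : (⟨s37pv_ev x P ⟨w⁻¹, hInt'.fst⟩, hInt'.snd⟩ : ↥A) *
      ⟨s37pv_ev x P ⟨w, hInt.fst⟩, hInt.snd⟩ = 1 := by
    apply Subtype.ext
    show s37pv_ev x P ⟨w⁻¹, hInt'.fst⟩ * s37pv_ev x P ⟨w, hInt.fst⟩ = 1
    rw [← map_mul, ← map_one (s37pv_ev x P)]
    congr 1
    apply Subtype.ext
    show w⁻¹ * w = 1
    exact inv_mul_cancel₀ (s37r_w_ne_zero h₁)
  have := congrArg π hmul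
  rw [map_mul, h0, zero_mul, map_one] at this
  exact zero_ne_one this

end One

variable (h₁ : s37r_ChartHyp x A π O red w PsiD₁) (h₂ : s37r_ChartHyp x A π O red w⁻¹ PsiD₂)

include h₁ h₂

theorem s37r_red_inv : red ⟨w⁻¹, h₂.w_mem⟩ = (red ⟨w, h₁.w_mem⟩)⁻¹ := by
  apply eq_inv_of_mul_eq_one_left
  rw [← map_mul, ← map_one red]
  congr 1
  apply Subtype.ext
  show w⁻¹ * w = 1
  exact inv_mul_cancel₀ (s37r_w_ne_zero h₁)

open Classical in
/-- **the place reduction**: the chart of `w` where `w(P) ∈ A`, the chart of `w⁻¹` elsewhere. -/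
def s37r_r (P : Place K F) : Place k Fb :=
  if hInt : s37r_Int x A w P then s37r_rw h₁ P hInt
  else s37r_rw h₂ P (s37r_Int_inv_of_not h₁ P hInt).fst

theorem s37r_r_of_Int (P : Place K F) (hInt : s37r_Int x A w P) :
    s37r_r h₁ h₂ P = s37r_rw h₁ P hInt := by
  unfold s37r_r
  rw [dif_pos hInt]

theorem s37r_r_of_not_Int (P : Place K F) (hn : ¬ s37r_Int x A w P)
    (hInt' : s37r_Int x A w⁻¹ P) :
    s37r_r h₁ h₂ P = s37r_rw h₂ P hInt' := by
  unfold s37r_r
  rw [dif_neg hn]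

/-- outside the integral locus of `w`, the reduction is a pole of `w̄`. -/
theorem s37r_r_pole (P : Place K F) (hn : ¬ s37r_Int x A w P) :
    (red ⟨w, h₁.w_mem⟩ : Fb) ∉ (s37r_r h₁ h₂ P).toValuationSubring := by
  obtain ⟨hInt', hπ⟩ := s37r_Int_inv_of_not h₁ P hn
  rw [s37r_r_of_not_Int h₁ h₂ P hn hInt']
  have hv := s37r_rw_value h₂ P hInt'
  rw [hπ, map_zero, sub_zero, s37r_red_inv h₁ h₂, Place.ord_inv] at hv
  rw [ff_mem_iff_ord_nonneg _ (s37r_red_w_ne_zero h₁)]
  omega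

/-- on the integral locus of `w`, `w̄` is regular at the reduction. -/
theorem s37r_r_regular (P : Place K F) (hInt : s37r_Int x A w P) :
    (red ⟨w, h₁.w_mem⟩ : Fb) ∈ (s37r_r h₁ h₂ P).toValuationSubring := by
  rw [s37r_r_of_Int h₁ h₂ P hInt]
  exact s37r_rw_w_mem h₁ P hInt

open Classical in
/-- **conservation of number.** -/
theorem s37r_conservation (y : F) (hy : y ∈ O) (hy0 : red ⟨y, hy⟩ ≠ 0)
    (Dv : Divisor K F) (hDv : ∀ P, Dv P = P.ord y) (Q : Place k Fb) :
    Finsupp.mapDomain (s37r_r h₁ h₂) Dv Q = Q.ord (red ⟨y, hy⟩) := by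
  rw [s37r_mapDomain_apply]
  by_cases hreg : (red ⟨w, h₁.w_mem⟩ : Fb) ∈ Q.toValuationSubring
  · -- `Q` is on the chart of `w̄`
    have hQ := s37d_ofHeightOneSpectrum_primeOf (K := k) (F := Fb) Q (h₁.reg Q hreg)
    have hcons := s37r_chart_conservation h₁ y hy hy0 Dv.support
      (fun P _ hne => Finsupp.mem_support_iff.mpr (by rw [hDv P]; exact hne))
      (s37d_primeOf Q (h₁.reg Q hreg))
    rw [hQ] at hcons
    rw [hcons]
    refine Finset.sum_congr ?_ fun P _ => hDv P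
    ext P
    simp only [Finset.mem_filter]
    refine and_congr_right fun _ => ?_
    constructor
    · intro hrP
      by_cases hInt : s37r_Int x A w P
      · rw [s37r_r_of_Int h₁ h₂ P hInt, ← hQ] at hrP
        have := s37d_ofHeightOneSpectrum_injective (K := k) (F := Fb) hrP
        rw [← this]
        rfl
      · exfalso
        apply s37r_r_pole h₁ h₂ P hInt
        rw [hrP]
        exact hreg
    · intro hJ
      have hInt : s37r_Int x A w P := by
        apply s37r_Int_of_J_ne_top h₁ P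
        rw [hJ]
        exact (s37d_primeOf Q (h₁.reg Q hreg)).isPrime.ne_top
      rw [s37r_r_of_Int h₁ h₂ P hInt, ← hQ]
      unfold s37r_rw
      congr 1
      exact HeightOneSpectrum.ext hJ
  · -- `Q` is a pole of `w̄`, hence on the chart of `w̄⁻¹`
    have hw0 := s37r_red_w_ne_zero h₁
    have hordneg : Q.ord (red ⟨w, h₁.w_mem⟩) < 0 := by
      rw [ff_mem_iff_ord_nonneg Q hw0] at hreg
      omega
    have hordpos : 0 < Q.ord (red ⟨w⁻¹, h₂.w_mem⟩) := by
      rw [s37r_red_inv h₁ h₂, Place.ord_inv]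
      omega
    have hreg₂ : (red ⟨w⁻¹, h₂.w_mem⟩ : Fb) ∈ Q.toValuationSubring := by
      rw [ff_mem_iff_ord_nonneg Q (s37r_red_w_ne_zero h₂)]
      omega
    have hQ := s37d_ofHeightOneSpectrum_primeOf (K := k) (F := Fb) Q (h₂.reg Q hreg₂)
    have hcons := s37r_chart_conservation h₂ y hy hy0 Dv.support
      (fun P _ hne => Finsupp.mem_support_iff.mpr (by rw [hDv P]; exact hne))
      (s37d_primeOf Q (h₂.reg Q hreg₂))
    rw [hQ] at hcons
    rw [hcons]
    refine Finset.sum_congr ?_ fun P _ => hDv P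
    ext P
    simp only [Finset.mem_filter]
    refine and_congr_right fun _ => ?_
    constructor
    · intro hrP
      by_cases hInt : s37r_Int x A w P
      · exfalso
        apply hreg
        rw [← hrP]
        exact s37r_r_regular h₁ h₂ P hInt
      · obtain ⟨hInt', -⟩ := s37r_Int_inv_of_not h₁ P hInt
        rw [s37r_r_of_not_Int h₁ h₂ P hInt hInt', ← hQ] at hrP
        have := s37d_ofHeightOneSpectrum_injective (K := k) (F := Fb) hrP
        rw [← this]
        rfl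
    · intro hJ
      have hInt' : s37r_Int x A w⁻¹ P := by
        apply s37r_Int_of_J_ne_top h₂ P
        rw [hJ]
        exact (s37d_primeOf Q (h₂.reg Q hreg₂)).isPrime.ne_top
      have hrw : s37r_rw h₂ P hInt' = Q := by
        rw [← hQ]
        unfold s37r_rw
        congr 1
        exact HeightOneSpectrum.ext hJ
      have hn : ¬ s37r_Int x A w P := by
        intro hInt
        have hne := s37r_pi_ne_zero_of_both h₁ P hInt hInt'
        have hv := s37r_rw_value h₂ P hInt'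
        rw [hrw] at hv
        have hv0 : 0 < Q.ord ((red ⟨w⁻¹, h₂.w_mem⟩ : Fb) - algebraMap k Fb 0) := by
          rw [map_zero, sub_zero]
          exact hordpos
        exact hne (ff_ord_sub_pos_unique Q hv hv0)
      rw [s37r_r_of_not_Int h₁ h₂ P hn hInt', hrw]

/-- **the abstract place reduction exists.** -/
theorem s37r_exists_reduction :
    ∃ r : Place K F → Place k Fb, ∀ (y : F) (hy : y ∈ O), red ⟨y, hy⟩ ≠ 0 →
      ∀ Dv : Divisor K F, (∀ P, Dv P = P.ord y) →
        ∀ Q, Finsupp.mapDomain r Dv Q = Q.ord (red ⟨y, hy⟩) :=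
  ⟨s37r_r h₁ h₂, fun y hy hy0 Dv hDv Q => s37r_conservation h₁ h₂ y hy hy0 Dv hDv Q⟩

end Fermat.Agent.Lib.S37
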