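/-
S37 (Eichler–Shimura congruence), package (E) (helper6), part 6: the abstract "bounded
homomorphism" lemmas (helper3's design #1006), in coefficientwise form on `Finsupp`.

`X`, `Y` are the sets of places of the generic and of the special fibre, `X →₀ ℤ`, `Y →₀ ℤ` the
divisor groups, `Prin` the principal divisors, `mass` the degree (all places of degree one),
`hRI` Riemann's inequality in the weak form "a divisor of degree `≥ γ` is linearly equivalent to an
effective one".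

* (A) `s37e_bounded_const`: a homomorphism `δ : Div X →+ Div Y` which kills `Prin` and is bounded
  coefficientwise on places takes the same value on all places.
* (B) `s37e_eq_of_bounded`: two "effective correspondences" `Λ₁, Λ₂ : Div X →+ Div Y` of the same
  degree `n` which agree on `Prin` are equal, provided every place of `Y` is avoided by some
  `Λ₂ (P)`.
-/
import Mathlib

set_option autoImplicit false

namespace Fermat.Agent.Lib.S37

open Finsupp

section

variable {X Y : Type*}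

theorem s37e_apply_eq_sum' (δ : (X →₀ ℤ) →+ (Y →₀ ℤ)) (D : X →₀ ℤ) (Q : Y) :
    δ D Q = ∑ P ∈ D.support, D P * δ (Finsupp.single P 1) Q := by
  conv_lhs => rw [← Finsupp.sum_single D]
  rw [Finsupp.sum, map_sum, Finsupp.finsetSum_apply]
  refine Finset.sum_congr rfl fun P _ => ?_
  have : Finsupp.single P (D P) = (D P) • Finsupp.single P (1 : ℤ) := by
    rw [Finsupp.smul_single, smul_eq_mul, mul_one]
  rw [this, map_zsmul, Finsupp.smul_apply, smul_eq_mul]

theorem s37e_mass_eq_sum (mass : (X →₀ ℤ) →+ ℤ) (hmass1 : ∀ P, mass (Finsupp.single P 1) = 1)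
    (D : X →₀ ℤ) : mass D = ∑ P ∈ D.support, D P := by
  conv_lhs => rw [← Finsupp.sum_single D]
  rw [Finsupp.sum, map_sum]
  refine Finset.sum_congr rfl fun P _ => ?_
  have : Finsupp.single P (D P) = (D P) • Finsupp.single P (1 : ℤ) := by
    rw [Finsupp.smul_single, smul_eq_mul, mul_one]
  rw [this, map_zsmul, hmass1, smul_eq_mul, mul_one]

/-- On effective divisors a coefficientwise bounded homomorphism is bounded by `C · mass`. -/
theorem s37e_abs_apply_le (mass : (X →₀ ℤ) →+ ℤ) (hmass1 : ∀ P, mass (Finsupp.single P 1) = 1)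
    (δ : (X →₀ ℤ) →+ (Y →₀ ℤ)) (C : ℤ) (hC : ∀ P Q, |δ (Finsupp.single P 1) Q| ≤ C)
    (E : X →₀ ℤ) (hE : ∀ P, 0 ≤ E P) (Q : Y) : |δ E Q| ≤ C * mass E := by
  rw [s37e_apply_eq_sum', s37e_mass_eq_sum mass hmass1, Finset.mul_sum]
  refine (Finset.abs_sum_le_sum_abs _ _).trans (Finset.sum_le_sum fun P _ => ?_)
  rw [abs_mul, abs_of_nonneg (hE P), mul_comm]
  exact mul_le_mul_of_nonneg_right (hC P Q) (hE P)

/-- **(A)** bounded homomorphisms killing `Prin` are constant on places. -/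
theorem s37e_bounded_const (Prin : AddSubgroup (X →₀ ℤ)) (mass : (X →₀ ℤ) →+ ℤ)
    (hmass1 : ∀ P, mass (Finsupp.single P 1) = 1) (hmassPrin : ∀ D ∈ Prin, mass D = 0)
    (hRI : ∃ γ : ℕ, ∀ D : X →₀ ℤ, (γ : ℤ) ≤ mass D →
      ∃ E : X →₀ ℤ, (∀ P, 0 ≤ E P) ∧ D - E ∈ Prin)
    (δ : (X →₀ ℤ) →+ (Y →₀ ℤ)) (hPrin : ∀ D ∈ Prin, δ D = 0) (C : ℤ)
    (hC : ∀ P Q, |δ (Finsupp.single P 1) Q| ≤ C) (P P' : X) :
    δ (Finsupp.single P 1) = δ (Finsupp.single P' 1) := by
  obtain ⟨γ, hγ⟩ := hRI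
  ext Q
  set x : ℤ := δ (Finsupp.single P 1) Q - δ (Finsupp.single P' 1) Q with hx
  have hC0 : 0 ≤ C := (abs_nonneg _).trans (hC P Q)
  -- the key estimate, for every `n`
  have key : ∀ n : ℕ, |(n : ℤ) * x| ≤ 2 * (C * γ) := by
    intro n
    set E₀ : X →₀ ℤ := (γ : ℤ) • Finsupp.single P 1 with hE₀
    set Dn : X →₀ ℤ := (n : ℤ) • (Finsupp.single P 1 - Finsupp.single P' 1) + E₀ with hDn
    have hmassDn : mass Dn = γ := by
      rw [hDn, hE₀, map_add, map_zsmul, map_zsmul, map_sub, hmass1, hmass1, sub_self, smul_zero,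
        zero_add, smul_eq_mul, mul_one]
    obtain ⟨En, hEn0, hEnP⟩ := hγ Dn (by rw [hmassDn])
    have hmassEn : mass En = γ := by
      have := hmassPrin _ hEnP
      rw [map_sub, hmassDn] at this
      linarith
    have hδ : δ Dn = δ En := by
      have := hPrin _ hEnP
      rwa [map_sub, sub_eq_zero] at this
    have h1 : δ Dn Q = (n : ℤ) * x + (γ : ℤ) * δ (Finsupp.single P 1) Q := by
      rw [hDn, hE₀, map_add, map_zsmul, map_zsmul, map_sub, Finsupp.add_apply, Finsupp.smul_apply,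
        Finsupp.smul_apply, Finsupp.sub_apply, smul_eq_mul, smul_eq_mul, hx]
    have h2 : |δ En Q| ≤ C * γ := by
      have := s37e_abs_apply_le mass hmass1 δ C hC En hEn0 Q
      rwa [hmassEn] at this
    have h3 : |(γ : ℤ) * δ (Finsupp.single P 1) Q| ≤ C * γ := by
      rw [abs_mul, abs_of_nonneg (Int.natCast_nonneg γ), mul_comm]
      exact mul_le_mul_of_nonneg_right (hC P Q) (Int.natCast_nonneg γ)
    have h4 : (n : ℤ) * x = δ En Q - (γ : ℤ) * δ (Finsupp.single P 1) Q := by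
      rw [← hδ, h1]; ring
    rw [h4]
    calc |δ En Q - (γ : ℤ) * δ (Finsupp.single P 1) Q|
        ≤ |δ En Q| + |(γ : ℤ) * δ (Finsupp.single P 1) Q| := abs_sub _ _
      _ ≤ C * γ + C * γ := add_le_add h2 h3
      _ = 2 * (C * γ) := by ring
  -- hence `x = 0`
  have hx0 : x = 0 := by
    by_contra hne
    have hpos : 1 ≤ |x| := Int.one_le_abs hne
    have hB : 0 ≤ 2 * (C * γ) := by positivity
    set n : ℕ := (2 * (C * γ)).toNat + 1 with hn
    have h := key n
    rw [abs_mul, abs_of_nonneg (Int.natCast_nonneg n)] at h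
    have hn' : (n : ℤ) = 2 * (C * γ) + 1 := by
      rw [hn]; push_cast; rw [Int.toNat_of_nonneg hB]
    have : (n : ℤ) ≤ (n : ℤ) * |x| := le_mul_of_one_le_right (Int.natCast_nonneg n) hpos
    linarith
  have := sub_eq_zero.mp hx0
  exact this

/-- The total mass of a divisor on `Y`. -/
noncomputable def s37e_total : (Y →₀ ℤ) →+ ℤ := Finsupp.liftAddHom fun _ => AddMonoidHom.id ℤ

theorem s37e_total_apply (D : Y →₀ ℤ) : s37e_total D = ∑ Q ∈ D.support, D Q := by
  rw [s37e_total, Finsupp.liftAddHom_apply, Finsupp.sum]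
  rfl

theorem s37e_total_single (Q : Y) (a : ℤ) : s37e_total (Finsupp.single Q a) = a := by
  rw [s37e_total, Finsupp.liftAddHom_apply_single]
  rfl

theorem s37e_apply_le_total (D : Y →₀ ℤ) (hD : ∀ Q, 0 ≤ D Q) (Q : Y) : D Q ≤ s37e_total D := by
  classical
  rw [s37e_total_apply]
  by_cases hQ : Q ∈ D.support
  · exact Finset.single_le_sum (fun q _ => hD q) hQ
  · rw [Finsupp.notMem_support_iff.mp hQ]
    exact Finset.sum_nonneg fun q _ => hD q

theorem s37e_eq_zero_of_total_eq_zero (D : Y →₀ ℤ) (hD : ∀ Q, 0 ≤ D Q)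
    (h0 : s37e_total D = 0) : D = 0 := by
  ext Q
  have h1 := s37e_apply_le_total D hD Q
  rw [h0] at h1
  rw [Finsupp.zero_apply]
  exact le_antisymm h1 (hD Q)

/-- **(B)** two effective correspondences of the same degree which agree on `Prin` are equal. -/
theorem s37e_eq_of_bounded [Nonempty X] (Prin : AddSubgroup (X →₀ ℤ)) (mass : (X →₀ ℤ) →+ ℤ)
    (hmass1 : ∀ P, mass (Finsupp.single P 1) = 1) (hmassPrin : ∀ D ∈ Prin, mass D = 0)
    (hRI : ∃ γ : ℕ, ∀ D : X →₀ ℤ, (γ : ℤ) ≤ mass D →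
      ∃ E : X →₀ ℤ, (∀ P, 0 ≤ E P) ∧ D - E ∈ Prin)
    (Λ₁ Λ₂ : (X →₀ ℤ) →+ (Y →₀ ℤ)) (hagree : ∀ D ∈ Prin, Λ₁ D = Λ₂ D)
    (hpos₁ : ∀ P Q, 0 ≤ Λ₁ (Finsupp.single P 1) Q) (hpos₂ : ∀ P Q, 0 ≤ Λ₂ (Finsupp.single P 1) Q)
    (n : ℤ) (hm₁ : ∀ P, s37e_total (Λ₁ (Finsupp.single P 1)) = n)
    (hm₂ : ∀ P, s37e_total (Λ₂ (Finsupp.single P 1)) = n)
    (havoid : ∀ Q, ∃ P, Λ₂ (Finsupp.single P 1) Q = 0) : Λ₁ = Λ₂ := by
  set δ : (X →₀ ℤ) →+ (Y →₀ ℤ) := Λ₁ - Λ₂ with hδ
  have hδapp : ∀ D, δ D = Λ₁ D - Λ₂ D := fun D => rfl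
  have hPrin : ∀ D ∈ Prin, δ D = 0 := fun D hD => by rw [hδapp, hagree D hD, sub_self]
  have hC : ∀ P Q, |δ (Finsupp.single P 1) Q| ≤ n := by
    intro P Q
    rw [hδapp, Finsupp.sub_apply]
    have h1 := s37e_apply_le_total _ (hpos₁ P) Q
    have h2 := s37e_apply_le_total _ (hpos₂ P) Q
    rw [hm₁] at h1
    rw [hm₂] at h2
    rw [abs_le]
    constructor <;> linarith [hpos₁ P Q, hpos₂ P Q]
  have hconst := s37e_bounded_const Prin mass hmass1 hmassPrin hRI δ hPrin n hC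
  obtain ⟨P₀⟩ := ‹Nonempty X›
  set E := δ (Finsupp.single P₀ 1) with hE
  have hEpos : ∀ Q, 0 ≤ E Q := by
    intro Q
    obtain ⟨P, hP⟩ := havoid Q
    rw [hE, hconst P₀ P, hδapp, Finsupp.sub_apply, hP, sub_zero]
    exact hpos₁ P Q
  have hEtot : s37e_total E = 0 := by
    rw [hE, hδapp, map_sub, hm₁, hm₂, sub_self]
  have hE0 : E = 0 := s37e_eq_zero_of_total_eq_zero E hEpos hEtot
  have hδ0 : δ = 0 := by
    refine Finsupp.addHom_ext fun P a => ?_
    have : Finsupp.single P a = a • Finsupp.single P (1 : ℤ) := by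
      rw [Finsupp.smul_single, smul_eq_mul, mul_one]
    rw [this, map_zsmul, hconst P P₀, ← hE, hE0, smul_zero, AddMonoidHom.zero_apply]
  exact sub_eq_zero.mp hδ0

end

end Fermat.Agent.Lib.S37
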