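/-
S37 (Eichler–Shimura congruence), package (E) (helper6), part 3: the norm congruence (d1) in the
form used by the assembly.

Input (package [W]): the norm `g = Nm_α(β y)` satisfies, in the `t`-coordinate (`q = t^ℓ`),
`g(t^ℓ) = y(t^{ℓ²}) · ∏_{b<ℓ} y(ζ^b t)`.
Output: if `y` has coefficients in a valuation subring `A` with residue map `π : A →+* κ`
(`κ` perfect of characteristic `ℓ`), then so has `g`, and `ḡ = (Fr⁻¹ ȳ)^ℓ · Fr ȳ`.
-/
import Fermat.Agent.Lib.S37.ESeries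

set_option autoImplicit false

namespace Fermat.Agent.Lib.S37

open ModularCurve HahnSeries Fermat.Agent.Lib.S28

noncomputable section

variable {L : Type*} [Field L] (A : ValuationSubring L)

/-- A root of unity lies in every valuation subring. -/
theorem s37e_rootOfUnity_mem {n : ℕ} (hn : 0 < n) {x : L} (hx : x ^ n = 1) : x ∈ A := by
  rcases A.mem_or_inv_mem x with h | h
  · exact h
  · have : x = (x⁻¹) ^ (n - 1) := by
      have hx0 : x ≠ 0 := by
        rintro rfl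
        rw [zero_pow hn.ne'] at hx
        exact zero_ne_one hx
      rw [inv_pow]
      apply eq_inv_of_mul_eq_one_left
      rw [← pow_succ', Nat.sub_add_cancel hn, hx]
    rw [this]
    exact pow_mem h _

/-- A root of unity as a unit of the valuation subring. -/
def s37e_unitOfRoot {n : ℕ} (hn : 0 < n) (ζ : Lˣ) (hζ : ζ ^ n = 1) : (↥A)ˣ where
  val := ⟨(ζ : L), s37e_rootOfUnity_mem A hn (by
    rw [← Units.val_pow_eq_pow_val, hζ, Units.val_one])⟩
  inv := ⟨((ζ⁻¹ : Lˣ) : L), s37e_rootOfUnity_mem A hn (by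
    rw [← Units.val_pow_eq_pow_val, inv_pow, hζ, inv_one, Units.val_one])⟩
  val_inv := Subtype.ext (by simp)
  inv_val := Subtype.ext (by simp)

@[simp] theorem s37e_unitOfRoot_coe {n : ℕ} (hn : 0 < n) (ζ : Lˣ) (hζ : ζ ^ n = 1) :
    (((s37e_unitOfRoot A hn ζ hζ : (↥A)ˣ) : ↥A) : L) = (ζ : L) := rfl

theorem s37e_map_unitOfRoot {n : ℕ} (hn : 0 < n) (ζ : Lˣ) (hζ : ζ ^ n = 1) :
    Units.map (A.subtype : ↥A →* L) (s37e_unitOfRoot A hn ζ hζ) = ζ :=
  Units.ext rfl

theorem s37e_coeffMap_subtype_injective :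
    Function.Injective (coeffMap (A.subtype : ↥A →+* L)) := by
  intro x y h
  ext n
  have := congrArg (fun s => s.coeff n) h
  simp only [coeffMap_coeff] at this
  exact this

/-- **Norm congruence (d1).** -/
theorem s37e_norm_reduction {κ : Type*} [Field κ] (ℓ : ℕ) [hℓ : Fact ℓ.Prime] [CharP κ ℓ]
    [PerfectRing κ ℓ] (π : ↥A →+* κ) (ζ : Lˣ) (hζ : IsPrimitiveRoot (ζ : L) ℓ)
    (Y : LaurentSeries ↥A) (g : LaurentSeries L)
    (hW : qExpand L ℓ g = qExpand L (ℓ * ℓ) (coeffMap A.subtype Y) *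
      s37e_prodTw ℓ ζ (coeffMap A.subtype Y)) :
    ∃ G : LaurentSeries ↥A, coeffMap A.subtype G = g ∧
      coeffMap π G =
        (coeffMap ((frobeniusEquiv κ ℓ).symm : κ →+* κ) (coeffMap π Y)) ^ ℓ *
          coeffMap (frobenius κ ℓ) (coeffMap π Y) := by
  have hℓ0 : 0 < ℓ := hℓ.out.pos
  have hζℓ : ζ ^ ℓ = 1 := by
    apply Units.ext
    rw [Units.val_pow_eq_pow_val, hζ.pow_eq_one, Units.val_one]
  set ζA : (↥A)ˣ := s37e_unitOfRoot A hℓ0 ζ hζℓ with hζA
  have hζA' : IsPrimitiveRoot ((ζA : ↥A)) ℓ := by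
    refine IsPrimitiveRoot.of_map_of_injective (f := A.subtype) ?_ A.subtype_injective
    exact hζ
  have hζAℓ : ζA ^ ℓ = 1 := by
    apply Units.ext
    rw [Units.val_pow_eq_pow_val, hζA'.pow_eq_one, Units.val_one]
  obtain ⟨Z, hZ⟩ := s37e_exists_qExpand_eq_prodTw ℓ ζA hζA' Y
  refine ⟨qExpand ↥A ℓ Y * Z, ?_, ?_⟩
  · apply qExpand_injective (R := L) ℓ
    rw [hW, ← coeffMap_qExpand, s37e_qExpand_norm ℓ ζA Y Z hZ, map_mul, coeffMap_qExpand,
      coeffMap_qExpand, qExpand_qExpand, s37e_coeffMap_prodTw', s37e_map_unitOfRoot]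
  · exact s37e_coeffMap_norm ℓ ζA π (s37e_map_zeta ℓ ζA hζAℓ π) Y Z hZ

end

end Fermat.Agent.Lib.S37
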