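/-
S37 (Eichler–Shimura congruence), package (E) (helper6), part 5: the Eichler–Shimura relation on
PRINCIPAL divisors (step (I1)).

For a Gauss unit `y ∈ F_N` (integral `q`-expansion `Y` with nonzero reduction `Ȳ ∈ F̄_N`):
`T_ℓ (div y) = div (Nm_α (β y))`  (pull back along `β`, norm formula along `α`),
`Nm_α(β y)` is integral with reduction `(Fr⁻¹ Ȳ)^ℓ · Fr Ȳ`  (packages [W] and ESeries/ENorm),
and conservation of number for `y` and for the norm gives
`r_* (T_ℓ (div y)) = ψ • r_*(div y) + ℓ • ψ⁻¹ • r_*(div y)`, `ψ` = Frobenius on places of `F̄_N`.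
-/
import Fermat.Agent.Lib.S37.ENorm
import Fermat.Agent.Lib.S37.EFrob
import Fermat.Prelude.Def_ModularCurve_ReductionModL
import Fermat.Prelude.Def_ModularCurve_HeckeOperator

set_option autoImplicit false
set_option linter.style.haveILetI false

namespace Fermat.Agent.Lib.S37

open ModularCurve HahnSeries AlgebraicCurve IntermediateField Fermat.Agent.Lib.S28

noncomputable section

variable {L : Type*} [Field L] [Algebra ℚ L] (N ℓ : ℕ) [NeZero N] [NeZero ℓ]

/-- The norm along `α : F_N → F_{Nℓ}`. -/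
def s37e_normAlpha
    (x : ↥(laurentBaseChange L (modularFunctionFieldFull (N * ℓ)))) :
    ↥(laurentBaseChange L (modularFunctionFieldFull N)) :=
  letI := algebraAlong (heckeAlphaBar L N ℓ)
  Algebra.norm ↥(laurentBaseChange L (modularFunctionFieldFull N)) x

variable {N ℓ}

/-- `T_ℓ (div f) = div (Nm_α (β f))`. -/
theorem s37e_heckeDivBar_principal
    (hα : HeckeAlphaBarIntegral L N ℓ) (hβ : HeckeBetaBarIntegral L N ℓ)
    [HasPrincipalDivisors L ↥(laurentBaseChange L (modularFunctionFieldFull (N * ℓ)))]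
    (hfin : FiniteAlong L (heckeAlphaBar L N ℓ))
    (hN : NormFormulaAlong L (heckeAlphaBar L N ℓ) hfin)
    (f : ↥(laurentBaseChange L (modularFunctionFieldFull N))) (hf : f ≠ 0)
    (D : Divisor L ↥(laurentBaseChange L (modularFunctionFieldFull N)))
    (hD : ∀ P, D P = P.ord f) (P : Place L ↥(laurentBaseChange L (modularFunctionFieldFull N))) :
    heckeDivBar hα hβ D P = P.ord (s37e_normAlpha N ℓ (heckeBetaBar L N ℓ f)) := by
  have hβf : heckeBetaBar L N ℓ f ≠ 0 := by
    intro h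
    apply hf
    exact (heckeBetaBar L N ℓ).toRingHom.injective (by rw [AlgHom.toRingHom_eq_coe, RingHom.coe_coe, h, map_zero])
  have hpull : ∀ w : Place L ↥(laurentBaseChange L (modularFunctionFieldFull (N * ℓ))),
      Divisor.pullbackAlong (heckeBetaBar L N ℓ) hβ D w = w.ord (heckeBetaBar L N ℓ f) := by
    intro w
    letI := algebraAlong (heckeBetaBar L N ℓ)
    haveI := isScalarTower_along (heckeBetaBar L N ℓ)
    haveI := isIntegral_along (heckeBetaBar L N ℓ) hβ
    exact Divisor.pullback_apply_eq_ord hD w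
  show Divisor.pushforwardAlong (heckeAlphaBar L N ℓ) hα
    (Divisor.pullbackAlong (heckeBetaBar L N ℓ) hβ D) P = _
  letI := algebraAlong (heckeAlphaBar L N ℓ)
  haveI := isScalarTower_along (heckeAlphaBar L N ℓ)
  haveI := isIntegral_along (heckeAlphaBar L N ℓ) hα
  haveI : Module.Finite ↥(laurentBaseChange L (modularFunctionFieldFull N))
    ↥(laurentBaseChange L (modularFunctionFieldFull (N * ℓ))) := hfin
  exact hN (heckeBetaBar L N ℓ f) hβf _ hpull P

/-! ### The Eichler–Shimura relation on principal divisors -/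

/-- The Frobenius semilinear automorphism `ψ` of `F̄_N`. -/
def s37e_psi (κ : Type*) [Field κ] (N ℓ : ℕ) [Fact ℓ.Prime] [CharP κ ℓ] [PerfectRing κ ℓ] :
    SemilinearAut κ ↥(modularFunctionFieldFullC κ N) :=
  s37e_coeffAut N (frobeniusEquiv κ ℓ)

section Principal

variable (A : ValuationSubring L) {κ : Type*} [Field κ] (π : ↥A →+* κ)
  [hℓ : Fact ℓ.Prime] [CharP κ ℓ] [PerfectRing κ ℓ]


theorem s37e_coe_psi_smul (z : ↥(modularFunctionFieldFullC κ N)) :
    ((s37e_psi κ N ℓ • z : ↥(modularFunctionFieldFullC κ N)) : LaurentSeries κ) =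
      coeffMap (frobenius κ ℓ) (z : LaurentSeries κ) := by
  rw [s37e_psi, s37e_coe_coeffAut_smul]
  exact coeffMap_congr (RingHom.ext fun a => by simp) _

theorem s37e_coe_psi_inv_smul (z : ↥(modularFunctionFieldFullC κ N)) :
    (((s37e_psi κ N ℓ)⁻¹ • z : ↥(modularFunctionFieldFullC κ N)) : LaurentSeries κ) =
      coeffMap ((frobeniusEquiv κ ℓ).symm : κ →+* κ) (z : LaurentSeries κ) := by
  rw [s37e_psi, ← map_inv, s37e_coe_coeffAut_smul]
  rfl

/-- **(I1)** the Eichler–Shimura relation on the divisor of a Gauss unit. -/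
theorem s37e_es_principal
    (r : Place L ↥(laurentBaseChange L (modularFunctionFieldFull N)) →
      Place κ ↥(modularFunctionFieldFullC κ N))
    (hr : IsPlaceReductionAlong A π N r)
    (hα : HeckeAlphaBarIntegral L N ℓ) (hβ : HeckeBetaBarIntegral L N ℓ)
    [HasPrincipalDivisors L ↥(laurentBaseChange L (modularFunctionFieldFull (N * ℓ)))]
    (hfin : FiniteAlong L (heckeAlphaBar L N ℓ))
    (hN : NormFormulaAlong L (heckeAlphaBar L N ℓ) hfin)
    (ζ : Lˣ) (hζ : IsPrimitiveRoot (ζ : L) ℓ)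
    (hW : ∀ y : ↥(laurentBaseChange L (modularFunctionFieldFull N)),
      qExpand L ℓ ((s37e_normAlpha N ℓ (heckeBetaBar L N ℓ y) :
          ↥(laurentBaseChange L (modularFunctionFieldFull N))) : LaurentSeries L) =
        qExpand L (ℓ * ℓ) (y : LaurentSeries L) * s37e_prodTw ℓ ζ (y : LaurentSeries L))
    (Y : LaurentSeries ↥A)
    (hY : coeffMap A.subtype Y ∈ laurentBaseChange L (modularFunctionFieldFull N))
    (hYk : coeffMap π Y ∈ modularFunctionFieldFullC κ N) (hY0 : coeffMap π Y ≠ 0)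
    (D : Divisor L ↥(laurentBaseChange L (modularFunctionFieldFull N)))
    (hD : ∀ P, D P = P.ord (⟨coeffMap A.subtype Y, hY⟩ :
      ↥(laurentBaseChange L (modularFunctionFieldFull N)))) :
    reductionDivAlong r (heckeDivBar hα hβ D) =
      s37e_psi κ N ℓ • reductionDivAlong r D +
        ℓ • ((s37e_psi κ N ℓ)⁻¹ • reductionDivAlong r D) := by
  classical
  set f : ↥(laurentBaseChange L (modularFunctionFieldFull N)) := ⟨coeffMap A.subtype Y, hY⟩
    with hfdef
  have hf : f ≠ 0 := by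
    intro h
    apply hY0
    have h1 : coeffMap A.subtype Y = 0 := congrArg Subtype.val h
    have h2 : Y = 0 := s37e_coeffMap_subtype_injective A (by rw [h1, map_zero])
    rw [h2, map_zero]
  set g := s37e_normAlpha N ℓ (heckeBetaBar L N ℓ f) with hgdef
  obtain ⟨G, hG1, hG2⟩ := s37e_norm_reduction A ℓ π ζ hζ Y (g : LaurentSeries L) (hW f)
  have hGmem : coeffMap A.subtype G ∈ laurentBaseChange L (modularFunctionFieldFull N) := by
    rw [hG1]; exact g.2
  set z : ↥(modularFunctionFieldFullC κ N) := ⟨coeffMap π Y, hYk⟩ with hzdef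
  have hz : z ≠ 0 := fun h => hY0 (congrArg Subtype.val h)
  set ψ := s37e_psi κ N ℓ with hψ
  have hGz : coeffMap π G = (((ψ⁻¹ • z) ^ ℓ * (ψ • z) : ↥(modularFunctionFieldFullC κ N)) :
      LaurentSeries κ) := by
    rw [hG2]
    push_cast
    rw [s37e_coe_psi_smul, s37e_coe_psi_inv_smul]
  have hGk : coeffMap π G ∈ modularFunctionFieldFullC κ N := by
    rw [hGz]; exact Subtype.property _
  have hG0 : coeffMap π G ≠ 0 := by
    rw [hGz]
    intro h
    have h1 : ((ψ⁻¹ • z) ^ ℓ * (ψ • z) : ↥(modularFunctionFieldFullC κ N)) = 0 :=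
      Subtype.ext h
    rcases mul_eq_zero.mp h1 with h2 | h2
    · have h3 := pow_eq_zero_iff (hℓ.out.ne_zero) |>.mp h2
      apply hz
      have := congrArg (ψ • ·) h3
      simpa using this
    · apply hz
      have := congrArg (ψ⁻¹ • ·) h2
      simpa using this
  -- the Hecke image is the divisor of `g`
  have hE : ∀ P, heckeDivBar hα hβ D P = P.ord (⟨coeffMap A.subtype G, hGmem⟩ :
      ↥(laurentBaseChange L (modularFunctionFieldFull N))) := by
    intro P
    rw [s37e_heckeDivBar_principal hα hβ hfin hN f hf D hD P]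
    congr 1
    exact Subtype.ext hG1.symm
  set X : Divisor κ ↥(modularFunctionFieldFullC κ N) := reductionDivAlong r D with hX
  have c1 : ∀ Q, reductionDivAlong r (heckeDivBar hα hβ D) Q =
      Q.ord (⟨coeffMap π G, hGk⟩ : ↥(modularFunctionFieldFullC κ N)) :=
    fun Q => hr.2 G hGmem hGk hG0 (heckeDivBar hα hβ D) hE Q
  have c2 : ∀ Q', X Q' = Q'.ord z := fun Q' => hr.2 Y hY hYk hY0 D hD Q'
  have hGz' : (⟨coeffMap π G, hGk⟩ : ↥(modularFunctionFieldFullC κ N)) =
      (ψ⁻¹ • z) ^ ℓ * (ψ • z) := Subtype.ext hGz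
  refine Finsupp.ext fun Q => ?_
  have e1 : Q.ord ((ψ⁻¹ • z) ^ ℓ * (ψ • z)) = ℓ * (ψ • Q).ord z + (ψ⁻¹ • Q).ord z :=
    s37e_ord_es N ℓ (frobeniusEquiv κ ℓ) Q hz
  have e3 : (ψ • X) Q = X (ψ⁻¹ • Q) := SemilinearAut.divisor_smul_apply ψ X Q
  have e4 : (ψ⁻¹ • X) Q = X (ψ • Q) := by
    have := SemilinearAut.divisor_smul_apply ψ⁻¹ X Q
    rwa [inv_inv] at this
  have e5 : (ℓ • (ψ⁻¹ • X)) Q = ℓ * (ψ⁻¹ • X) Q := by
    rw [← nsmul_eq_mul]
    exact Finsupp.smul_apply ℓ (ψ⁻¹ • X) Q
  have e2 : (ψ • X + ℓ • (ψ⁻¹ • X)) Q = (ψ • X) Q + (ℓ • (ψ⁻¹ • X)) Q :=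
    Finsupp.add_apply _ _ _
  rw [c1 Q, hGz', e1, e2, e3, e5, e4, c2, c2]
  ring

end Principal

end

end Fermat.Agent.Lib.S37
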