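/-
S37 moonshot (M-B): the injectivity clause (h_inj) for OUR reduction map from the landed S18,
as a black box.

The prelude's `reductionModL A N` is built from `h.choose` for `h : ReductionInputsModL A N`, an
unknown place reduction `r'`.  Two place reductions `r`, `r'` (both `IsPlaceReductionAlong`, with
`PrincipalGeneratedByIntegral`) induce the same map on PRINCIPAL divisors (both send `div y` to
`div ȳ`), hence on every divisor `D` with `m • D` principal (`m ≠ 0`; divisors are torsion-free).
So the two reduction maps `Pic⁰ → Pic⁰` agree on TORSION classes, and S18 (which is about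
torsion classes) transfers from `reductionModL` to the reduction map of any `r`.
-/
import Fermat.Agent.S18

set_option autoImplicit false

noncomputable section

namespace Fermat.Agent.Lib.S37

open ModularCurve AlgebraicCurve

section General

variable {L : Type*} [Field L] [Algebra ℚ L] {A : ValuationSubring L}
variable {k : Type*} [Field k] {π : A →+* k} {N : ℕ}

local notation "FL" => laurentBaseChange L (modularFunctionFieldFull N)
local notation "Fk" => modularFunctionFieldFullC k N

/-- Two place reductions agree on principal divisors. -/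
theorem s37c_mapDomain_eq_of_principal {r r' : Place L FL → Place k Fk}
    (hr : IsPlaceReductionAlong A π N r) (hr' : IsPlaceReductionAlong A π N r')
    (hgen : PrincipalGeneratedByIntegral A π N) {D : Divisor L FL}
    (hD : D ∈ Divisor.principal (K := L) (F := FL)) :
    Finsupp.mapDomain r D = Finsupp.mapDomain r' D := by
  have hD' := hgen hD
  clear hD
  induction hD' using AddSubgroup.closure_induction with
  | mem E hE =>
    obtain ⟨y, hy, hyk, hne, hDy⟩ := hE
    ext Q
    rw [hr.2 y hy hyk hne E hDy Q, hr'.2 y hy hyk hne E hDy Q]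
  | zero => rw [Finsupp.mapDomain_zero, Finsupp.mapDomain_zero]
  | add E E' _ _ hE hE' => rw [Finsupp.mapDomain_add, Finsupp.mapDomain_add, hE, hE']
  | neg E _ hE =>
    rw [← Finsupp.mapDomain.addMonoidHom_apply, ← Finsupp.mapDomain.addMonoidHom_apply, map_neg,
      map_neg, Finsupp.mapDomain.addMonoidHom_apply, Finsupp.mapDomain.addMonoidHom_apply, hE]

/-- Two place reductions agree on divisors with a principal multiple. -/
theorem s37c_mapDomain_eq_of_nsmul_principal {r r' : Place L FL → Place k Fk}
    (hr : IsPlaceReductionAlong A π N r) (hr' : IsPlaceReductionAlong A π N r')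
    (hgen : PrincipalGeneratedByIntegral A π N) {D : Divisor L FL} (m : ℕ) (hm : m ≠ 0)
    (hD : m • D ∈ Divisor.principal (K := L) (F := FL)) :
    Finsupp.mapDomain r D = Finsupp.mapDomain r' D := by
  have h := s37c_mapDomain_eq_of_principal hr hr' hgen hD
  rw [Finsupp.mapDomain_smul, Finsupp.mapDomain_smul] at h
  ext Q
  have hQ := DFunLike.congr_fun h Q
  rw [Finsupp.smul_apply, Finsupp.smul_apply, nsmul_eq_mul, nsmul_eq_mul] at hQ
  have hm' : (m : ℤ) ≠ 0 := by exact_mod_cast hm
  exact mul_left_cancel₀ hm' hQ

/-- The reduction maps of two place reductions agree on torsion classes. -/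
theorem s37c_reductionPic0Along_eq_of_nsmul_eq_zero {r r' : Place L FL → Place k Fk}
    (hr : IsPlaceReductionAlong A π N r) (hr' : IsPlaceReductionAlong A π N r')
    (hgen : PrincipalGeneratedByIntegral A π N) (m : ℕ) (hm : m ≠ 0)
    (z : Pic0 L FL) (hmz : m • z = 0) :
    reductionPic0Along r hr hgen z = reductionPic0Along r' hr' hgen z := by
  obtain ⟨D, rfl⟩ := Pic0.mk_surjective z
  rw [reductionPic0Along_mk, reductionPic0Along_mk]
  congr 1
  apply Subtype.ext
  rw [coe_reductionDegZeroAlong, coe_reductionDegZeroAlong]
  refine s37c_mapDomain_eq_of_nsmul_principal hr hr' hgen m hm ?_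
  -- m • mk D = 0 means m • D principal
  have h0 : (Pic0.mk (m • D) : Pic0 L FL) = 0 := by
    have : Pic0.mk (m • D) = m • (Pic0.mk D : Pic0 L FL) := rfl
    rw [this, hmz]
  have h1 : (m • D) ∈ (Divisor.principal (K := L) (F := FL)).addSubgroupOf
      (Divisor.degZero (K := L) (F := FL)) := by
    have := (QuotientAddGroup.eq_zero_iff (m • D)).mp h0
    exact this
  rw [AddSubgroup.mem_addSubgroupOf] at h1
  simpa using h1

end General

/-- **(h_inj) for any place reduction**: S18 for the reduction map attached to an arbitrary place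
reduction `r₀` (not only the prelude's chosen one). -/
theorem s37c_injective_torsion (N : ℕ) [NeZero N] {ℓ : ℕ} [Fact ℓ.Prime] (hℓN : ¬ ℓ ∣ N)
    (A : ValuationSubring (AlgebraicClosure ℚ)) (hA : A.LiesOverPrime ℓ)
    (r₀ : Place (AlgebraicClosure ℚ) (modularFunctionFieldBar N) →
      Place (IsLocalRing.ResidueField A) (modularFunctionFieldFullC (IsLocalRing.ResidueField A) N))
    (hr₀ : IsPlaceReductionModL A N r₀)
    (hgen : PrincipalGeneratedByIntegral A (IsLocalRing.residue A) N)
    (m : ℕ) (hm : ¬ ℓ ∣ m) (z : JZero N) (hmz : m • z = 0)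
    (hz : reductionPic0Along r₀ hr₀ hgen z = 0) : z = 0 := by
  have h : ReductionInputsModL A N := ⟨r₀, hr₀, hgen⟩
  have hm0 : m ≠ 0 := by
    rintro rfl
    exact hm (dvd_zero ℓ)
  refine Fermat.Agent.S18.result N hℓN A hA h m hm z hmz ?_
  rw [reductionModL, reductionAlong_eq h]
  rw [s37c_reductionPic0Along_eq_of_nsmul_eq_zero h.choose_spec.1 hr₀ h.choose_spec.2 m hm0 z hmz]
  exact hz

end Fermat.Agent.Lib.S37
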