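/-
S37 moonshot, package [U] (helper9), part 1: UNIQUENESS OF THE PLACE REDUCTION without
divisibility of `Pic⁰` (design of helper3, #1006).

Two place reductions `r₁, r₂` (both `IsPlaceReductionAlong`, with `PrincipalGeneratedByIntegral`)
agree on principal divisors, so `δ = r₁_* - r₂_*` kills principal divisors and has coefficients
bounded by `2`.  The "bounded homomorphism lemma" (Riemann's inequality; proved elsewhere and taken
here as the hypothesis `hB`) makes `δ` constant on places; as in the Prelude's `eq_of_agree`, a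
non-constant `r₁` then forces `r₁ = r₂`.
-/
import Fermat.Agent.Lib.S37.CTorsion

set_option autoImplicit false

noncomputable section

namespace Fermat.Agent.Lib.S37

open ModularCurve AlgebraicCurve

section Abstract

variable {X Y : Type*}

/-- The conclusion of the bounded-homomorphism lemma, as a property of a subgroup `Prin` of
`X →₀ ℤ`: every additive map to a group of finitely supported functions which kills `Prin` and has
uniformly bounded coefficients on the points is constant on the points. -/
def s37u_BoundedConst (Prin : AddSubgroup (X →₀ ℤ)) (Y : Type*) : Prop :=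
  ∀ δ : (X →₀ ℤ) →+ (Y →₀ ℤ), (∀ D ∈ Prin, δ D = 0) →
    (∃ C : ℤ, ∀ (P : X) (Q : Y), |δ (Finsupp.single P 1) Q| ≤ C) →
    ∀ P P' : X, δ (Finsupp.single P 1) = δ (Finsupp.single P' 1)

/-- If `single (r₁ P) - single (r₂ P)` does not depend on `P`, then `r₁ = r₂` or `r₁` is
constant. -/
theorem s37u_eq_or_const {r₁ r₂ : X → Y}
    (hconst : ∀ P Q : X, (Finsupp.single (r₁ P) (1 : ℤ) - Finsupp.single (r₂ P) 1 : Y →₀ ℤ) =
      Finsupp.single (r₁ Q) 1 - Finsupp.single (r₂ Q) 1) :
    r₁ = r₂ ∨ ∀ P Q, r₁ P = r₁ Q := by
  classical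
  rw [or_iff_not_imp_left]
  intro hne
  obtain ⟨P₀, hP₀⟩ : ∃ P₀, r₁ P₀ ≠ r₂ P₀ := by
    by_contra hall
    push Not at hall
    exact hne (funext hall)
  have hr₁const : ∀ Q, r₁ Q = r₁ P₀ := by
    intro Q
    have h := congrArg (fun E => E (r₁ P₀)) (hconst Q P₀)
    simp only [Finsupp.sub_apply, Finsupp.single_apply, if_neg (Ne.symm hP₀)] at h
    by_contra hQ
    rw [if_neg hQ] at h
    split_ifs at h <;> omega
  exact fun P Q => (hr₁const P).trans (hr₁const Q).symm

/-- The bounded-homomorphism property applied to the difference of two push-forward maps. -/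
theorem s37u_eq_or_const_of_bounded {Prin : AddSubgroup (X →₀ ℤ)}
    (hB : s37u_BoundedConst Prin Y) {r₁ r₂ : X → Y}
    (hagree : ∀ D ∈ Prin, Finsupp.mapDomain r₁ D = Finsupp.mapDomain r₂ D) :
    r₁ = r₂ ∨ ∀ P Q, r₁ P = r₁ Q := by
  classical
  set δ : (X →₀ ℤ) →+ (Y →₀ ℤ) :=
    Finsupp.mapDomain.addMonoidHom r₁ - Finsupp.mapDomain.addMonoidHom r₂ with hδ
  have hδapp : ∀ D, δ D = Finsupp.mapDomain r₁ D - Finsupp.mapDomain r₂ D := fun D => rfl
  have hδP : ∀ P, δ (Finsupp.single P 1) =
      Finsupp.single (r₁ P) 1 - Finsupp.single (r₂ P) 1 := by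
    intro P
    rw [hδapp, Finsupp.mapDomain_single, Finsupp.mapDomain_single]
  have h := hB δ (fun D hD => by rw [hδapp, hagree D hD, sub_self]) ⟨2, fun P Q => by
    rw [hδP, Finsupp.sub_apply, Finsupp.single_apply, Finsupp.single_apply]
    split_ifs <;> norm_num⟩
  refine s37u_eq_or_const fun P Q => ?_
  rw [← hδP, ← hδP]
  exact h P Q

end Abstract

section Reduction

variable {L : Type*} [Field L] [Algebra ℚ L] {A : ValuationSubring L}
variable {k : Type*} [Field k] {π : A →+* k} {N : ℕ}

local notation "FL" => laurentBaseChange L (modularFunctionFieldFull N)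
local notation "Fk" => modularFunctionFieldFullC k N

/-- **(U1) Uniqueness of the place reduction.**  `hB` is the bounded-homomorphism property of the
principal divisors of the function field over `L` (Riemann's inequality), `hnc` says that `r₁` is
not constant. -/
theorem s37u_unique {r₁ r₂ : Place L FL → Place k Fk}
    (hB : s37u_BoundedConst (Divisor.principal (K := L) (F := FL)) (Place k Fk))
    (hr₁ : IsPlaceReductionAlong A π N r₁) (hr₂ : IsPlaceReductionAlong A π N r₂)
    (hgen : PrincipalGeneratedByIntegral A π N)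
    (hdeg : ∀ P : Place L FL, P.deg = 1)
    (hprin0 : ∀ D ∈ Divisor.principal (K := L) (F := FL), Divisor.degree D = 0)
    (hnc : ∃ D ∈ Divisor.principal (K := L) (F := FL), Finsupp.mapDomain r₁ D ≠ 0) :
    r₁ = r₂ := by
  classical
  rcases s37u_eq_or_const_of_bounded hB
    (fun D hD => s37c_mapDomain_eq_of_principal hr₁ hr₂ hgen hD) with h | hconst
  · exact h
  obtain ⟨D, hDprin, hDne⟩ := hnc
  obtain ⟨P₀⟩ : Nonempty (Place L FL) := by
    by_contra hempty
    rw [not_nonempty_iff] at hempty
    exact hDne (by rw [Subsingleton.elim D 0, Finsupp.mapDomain_zero])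
  exfalso
  apply hDne
  have hmapconst : ∀ D : Divisor L FL,
      Finsupp.mapDomain r₁ D = Finsupp.single (r₁ P₀) (Divisor.degree D) := by
    intro D
    induction D using Finsupp.induction with
    | zero => simp
    | single_add P n D _ _ ih =>
      rw [Finsupp.mapDomain_add, ih, Finsupp.mapDomain_single, hconst P P₀, map_add,
        Divisor.degree_single, hdeg, Nat.cast_one, mul_one, ← Finsupp.single_add, add_comm]
  rw [hmapconst D, hprin0 D hDprin, Finsupp.single_zero]

end Reduction

end Fermat.Agent.Lib.S37
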