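/-
S37 moonshot, package [U] (helper9), part 2: GALOIS EQUIVARIANCE OF THE PLACE REDUCTION from its
uniqueness (design of helper3, #1006 (U2)).

For `g` in the decomposition group of `A` (acting on `A` and, through `ḡ`, on the residue field
`k_A`), the twisted map `r^g := Ψ(ḡ)⁻¹ ∘ r ∘ Σ(g)` is again a place reduction
(`Σ(g)` = coefficientwise Galois action on the function field over `L`, `Ψ(ḡ)` = coefficientwise
action of `ḡ` on the function field over `k_A`): the divisor of `y` is transported to the divisor
of `Y^g`, whose reduction is `Ψ(ḡ) ȳ`.  By uniqueness `r^g = r`, i.e. `r (g • P) = Ψ(ḡ) • r P`.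
Consequences on `Pic⁰`: the reduction map is invariant under inertia and intertwines a Frobenius
element with the Frobenius `ψ` of the special fibre.
-/
import Fermat.Agent.Lib.S37.UUnique
import Fermat.Agent.Lib.S37.EFun
import Fermat.Prelude.Def_EllipticCurve_FrobeniusTrace

set_option autoImplicit false
set_option synthInstance.maxHeartbeats 400000
set_option maxHeartbeats 800000

noncomputable section

namespace Fermat.Agent.Lib.S37

open ModularCurve AlgebraicCurve

section Twist

variable {L : Type*} [Field L] [Algebra ℚ L] (A : ValuationSubring L) (N : ℕ)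

local notation "kA" => IsLocalRing.ResidueField A
local notation "FL" => laurentBaseChange L (modularFunctionFieldFull N)
local notation "Fk" => modularFunctionFieldFullC kA N

variable (g : A.decompositionSubgroup ℚ)

/-- the action of an element of the decomposition group on `A`, as a ring homomorphism. -/
def s37u_actA : A →+* A := MulSemiringAction.toRingHom (A.decompositionSubgroup ℚ) A g

theorem s37u_coe_actA (a : A) :
    ((s37u_actA A g a : A) : L) = (g : L ≃ₐ[ℚ] L) (a : L) := rfl

/-- the induced automorphism of the residue field. -/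
def s37u_resAut : kA ≃+* kA :=
  MulSemiringAction.toRingAut (A.decompositionSubgroup ℚ) kA g

theorem s37u_resAut_apply (x : kA) : s37u_resAut A g x = g • x := rfl

theorem s37u_residue_actA (a : A) :
    IsLocalRing.residue A (s37u_actA A g a) = s37u_resAut A g (IsLocalRing.residue A a) := rfl

/-- transport of an integral series: over `L` it is the coefficientwise Galois action. -/
theorem s37u_coeffMap_subtype_actA (Y : LaurentSeries A) :
    coeffMap A.subtype (coeffMap (s37u_actA A g) Y) =
      coeffMap (((g : L ≃ₐ[ℚ] L) : L ≃ₐ[ℚ] L) : L →+* L) (coeffMap A.subtype Y) := by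
  rw [coeffMap_coeffMap, coeffMap_coeffMap]
  exact coeffMap_congr (RingHom.ext fun a => rfl) Y

/-- transport of an integral series: its reduction is the coefficientwise action of `ḡ`. -/
theorem s37u_coeffMap_residue_actA (Y : LaurentSeries A) :
    coeffMap (IsLocalRing.residue A) (coeffMap (s37u_actA A g) Y) =
      coeffMap ((s37u_resAut A g : kA ≃+* kA) : kA →+* kA)
        (coeffMap (IsLocalRing.residue A) Y) := by
  rw [coeffMap_coeffMap, coeffMap_coeffMap]
  exact coeffMap_congr (RingHom.ext fun a => rfl) Y

/-- the Galois action on the function field over `L`. -/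
def s37u_Sigma : SemilinearAut L FL :=
  arithmeticGalois (modularFunctionFieldFull N) (g : L ≃ₐ[ℚ] L)

/-- the action of `ḡ` on the function field over the residue field. -/
def s37u_Psi : SemilinearAut kA Fk := s37e_coeffAut N (s37u_resAut A g)

/-- the twisted place map `r^g`. -/
def s37u_twist (r : Place L FL → Place kA Fk) : Place L FL → Place kA Fk :=
  fun P => (s37u_Psi A N g)⁻¹ • r (s37u_Sigma A N g • P)

theorem s37u_mapDomain_twist (r : Place L FL → Place kA Fk) (D : Divisor L FL) :
    Finsupp.mapDomain (s37u_twist A N g r) D =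
      (s37u_Psi A N g)⁻¹ • Finsupp.mapDomain r (s37u_Sigma A N g • D) := by
  rw [SemilinearAut.divisor_smul_def, SemilinearAut.divisor_smul_def, ← Finsupp.mapDomain_comp,
    ← Finsupp.mapDomain_comp]
  rfl

/-- **The twist of a place reduction is a place reduction.** -/
theorem s37u_twist_isPlaceReduction {r : Place L FL → Place kA Fk}
    (hr : IsPlaceReductionAlong A (IsLocalRing.residue A) N r) :
    IsPlaceReductionAlong A (IsLocalRing.residue A) N (s37u_twist A N g r) := by
  refine ⟨fun P => ?_, ?_⟩
  · show ((s37u_Psi A N g)⁻¹ • r (s37u_Sigma A N g • P)).deg = P.deg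
    rw [SemilinearAut.deg_smul, hr.1, SemilinearAut.deg_smul]
  · intro Y hY hYk hne D hD Q
    -- the transported series
    set Y' : LaurentSeries A := coeffMap (s37u_actA A g) Y with hY'def
    have hY' : coeffMap A.subtype Y' ∈ FL := by
      rw [hY'def, s37u_coeffMap_subtype_actA]
      exact coeffMap_mem_laurentBaseChange _ hY
    have hYk' : coeffMap (IsLocalRing.residue A) Y' ∈ Fk := by
      rw [hY'def, s37u_coeffMap_residue_actA]
      exact s37e_coeffMap_mem_fullC N _ hYk
    have hne' : coeffMap (IsLocalRing.residue A) Y' ≠ 0 := by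
      rw [hY'def, s37u_coeffMap_residue_actA]
      intro h0
      apply hne
      have h1 := congrArg (coeffMap (((s37u_resAut A g).symm : kA ≃+* kA) : kA →+* kA)) h0
      rw [coeffMap_coeffMap, map_zero] at h1
      rw [← h1]
      rw [coeffMap_congr (g := RingHom.id kA)
        (RingHom.ext fun a => (s37u_resAut A g).symm_apply_apply a), coeffMap_id]
    -- the transported function and divisor
    have hfun : s37u_Sigma A N g • (⟨coeffMap A.subtype Y, hY⟩ : FL) =
        ⟨coeffMap A.subtype Y', hY'⟩ := by
      apply Subtype.ext
      rw [s37u_Sigma, coe_arithmeticGalois_smul]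
      exact (s37u_coeffMap_subtype_actA A g Y).symm
    have hD' : ∀ P, (s37u_Sigma A N g • D) P = P.ord (⟨coeffMap A.subtype Y', hY'⟩ : FL) := by
      intro P
      rw [SemilinearAut.divisor_smul_apply, hD, ← hfun]
      have h := SemilinearAut.ord_smul (s37u_Sigma A N g) ((s37u_Sigma A N g)⁻¹ • P)
        (⟨coeffMap A.subtype Y, hY⟩ : FL)
      rw [smul_inv_smul] at h
      exact h.symm
    have hred : s37u_Psi A N g • (⟨coeffMap (IsLocalRing.residue A) Y, hYk⟩ : Fk) =
        ⟨coeffMap (IsLocalRing.residue A) Y', hYk'⟩ := by
      apply Subtype.ext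
      rw [s37u_Psi, s37e_coe_coeffAut_smul]
      exact (s37u_coeffMap_residue_actA A g Y).symm
    rw [s37u_mapDomain_twist, SemilinearAut.divisor_smul_apply, inv_inv,
      hr.2 Y' hY' hYk' hne' _ hD' (s37u_Psi A N g • Q), ← hred, SemilinearAut.ord_smul]

/-- **(U2), place level**: a unique place reduction is equivariant. -/
theorem s37u_equivariant {r : Place L FL → Place kA Fk}
    (huniq : ∀ r' : Place L FL → Place kA Fk,
      IsPlaceReductionAlong A (IsLocalRing.residue A) N r' → r' = r)
    (hr : IsPlaceReductionAlong A (IsLocalRing.residue A) N r) (P : Place L FL) :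
    r (s37u_Sigma A N g • P) = s37u_Psi A N g • r P := by
  have h := congrFun (huniq _ (s37u_twist_isPlaceReduction A N g hr)) P
  rw [← h, s37u_twist, smul_inv_smul]

theorem s37u_mapDomain_equivariant {r : Place L FL → Place kA Fk}
    (huniq : ∀ r' : Place L FL → Place kA Fk,
      IsPlaceReductionAlong A (IsLocalRing.residue A) N r' → r' = r)
    (hr : IsPlaceReductionAlong A (IsLocalRing.residue A) N r) (D : Divisor L FL) :
    Finsupp.mapDomain r (s37u_Sigma A N g • D) = s37u_Psi A N g • Finsupp.mapDomain r D := by
  rw [SemilinearAut.divisor_smul_def, SemilinearAut.divisor_smul_def, ← Finsupp.mapDomain_comp,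
    ← Finsupp.mapDomain_comp]
  congr 1
  funext P
  exact s37u_equivariant A N g huniq hr P

/-- **(U2), `Pic⁰` level**: the reduction map intertwines `g` and `Ψ(ḡ)`. -/
theorem s37u_reductionPic0_equivariant {r : Place L FL → Place kA Fk}
    (huniq : ∀ r' : Place L FL → Place kA Fk,
      IsPlaceReductionAlong A (IsLocalRing.residue A) N r' → r' = r)
    (hr : IsPlaceReductionAlong A (IsLocalRing.residue A) N r)
    (hgen : PrincipalGeneratedByIntegral A (IsLocalRing.residue A) N) (z : Pic0 L FL) :
    reductionPic0Along r hr hgen (s37u_Sigma A N g • z) =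
      s37u_Psi A N g • reductionPic0Along r hr hgen z := by
  obtain ⟨D, rfl⟩ := Pic0.mk_surjective z
  rw [SemilinearAut.pic0_smul_mk, reductionPic0Along_mk, reductionPic0Along_mk,
    SemilinearAut.pic0_smul_mk]
  congr 1
  apply Subtype.ext
  rw [coe_reductionDegZeroAlong, SemilinearAut.coe_degZeroSMulHom,
    SemilinearAut.coe_degZeroSMulHom, coe_reductionDegZeroAlong]
  exact s37u_mapDomain_equivariant A N g huniq hr D

end Twist

end Fermat.Agent.Lib.S37
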