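/-
S37 moonshot, package [U] (helper9), part 3: the place reduction at a prime `ℓ ∤ N` over `ℚ̄` is
UNIQUE, and consequently GALOIS EQUIVARIANT.

* `s37u_boundedConst_bar`: the bounded-homomorphism property of the principal divisors of
  `F̄(N) / ℚ̄` (helper6's abstract lemma + helper1's weak Riemann inequality).
* `s37u_nonconstant`: a place reduction is not constant (conservation of number for `j(q^N)`,
  whose reduction is transcendental, plus the constants lemma of S18).
* `s37u_unique_modL`: two place reductions coincide.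
* `s37u_reductionModL_decomposition`: for `g` in the decomposition group,
  `reductionModL (g • x) = Ψ(ḡ) • reductionModL x`.
* `s37u_reductionModL_inertia` **(R1)**: `reductionModL` is invariant under inertia.
* `s37u_reductionModL_frobenius` **(U2)**: `reductionModL (σ • x) = ψ • reductionModL x` for a
  Frobenius element `σ`, `ψ = s37e_psi` the coefficientwise Frobenius.
-/
import Fermat.Agent.Lib.S37.UGalois
import Fermat.Agent.Lib.S37.EBounded
import Fermat.Agent.Lib.S37.IRiemannBar
import Fermat.Agent.Lib.S18.NConst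

set_option autoImplicit false
set_option synthInstance.maxHeartbeats 400000
set_option maxHeartbeats 800000

noncomputable section

namespace Fermat.Agent.Lib.S37

open ModularCurve AlgebraicCurve Fermat.Agent.Lib.FF Fermat.Agent.Lib.S18

section Bar

variable (N : ℕ) [NeZero N]

/-- principal divisors of `F̄(N)` have degree zero. -/
theorem s37u_principal_degree_bar (D : Divisor ffi_K (ffi_F N))
    (hD : D ∈ Divisor.principal (K := ffi_K) (F := ffi_F N)) : Divisor.degree D = 0 := by
  obtain ⟨f, hf, hDf⟩ := hD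
  obtain ⟨D', hD', hdeg⟩ := s18r_exists_divisor N f hf
  have : D = D' := Finsupp.ext fun v => by rw [hDf, hD']
  rw [this, hdeg]

/-- **The bounded-homomorphism lemma for `F̄(N)`.** -/
theorem s37u_boundedConst_bar (Y : Type*) :
    s37u_BoundedConst (Divisor.principal (K := ffi_K) (F := ffi_F N)) Y := by
  rintro δ hδ ⟨C, hC⟩ P P'
  obtain ⟨γ, hγ⟩ := s37i_riemann_effective_bar N
  refine s37e_bounded_const _ Divisor.degree (fun P => ?_) (s37u_principal_degree_bar N)
    ⟨γ, fun D hD => ?_⟩ δ hδ C hC P P'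
  · rw [Divisor.degree_single, s37i_deg_eq_one_bar, Nat.cast_one, mul_one]
  · obtain ⟨E, hE, hDE⟩ := hγ D hD
    exact ⟨E, fun P => hE P, hDE⟩

end Bar

section ModL

variable (N : ℕ) [NeZero N] (A : ValuationSubring (AlgebraicClosure ℚ))

local notation "kA" => IsLocalRing.ResidueField A
local notation "Fk" => modularFunctionFieldFullC kA N

/-- **A place reduction is not constant**: the divisor of `j(q^N)` has nonzero image. -/
theorem s37u_nonconstant {ℓ : ℕ} (hℓ : ℓ.Prime) (hA : A.LiesOverPrime ℓ) (hℓN : ¬ ℓ ∣ N)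
    {r : Place (AlgebraicClosure ℚ) (modularFunctionFieldBar N) → Place kA Fk}
    (hr : IsPlaceReductionModL A N r) :
    ∃ D ∈ Divisor.principal (K := AlgebraicClosure ℚ) (F := modularFunctionFieldBar N),
      Finsupp.mapDomain r D ≠ 0 := by
  set Y : LaurentSeries A := qExpand A N (jqModC A) with hYdef
  have hY : coeffMap A.subtype Y ∈ modularFunctionFieldBar N := by
    rw [hYdef, s18n_subtype_jqd]
    exact s18n_jqd_mem_bar dvd_rfl
  have hYk_eq : coeffMap (IsLocalRing.residue A) Y = qExpand kA N (jqModC kA) := by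
    rw [hYdef, coeffMap_qExpand, coeffMap_jqModC]
  have hYk : coeffMap (IsLocalRing.residue A) Y ∈ Fk := by
    rw [hYk_eq]
    exact (s18n_xN kA N).2
  have hx : (⟨coeffMap (IsLocalRing.residue A) Y, hYk⟩ : Fk) = s18n_xN kA N :=
    Subtype.ext hYk_eq
  have htr := s18n_transcendental_xN kA N
  have hx0 : s18n_xN kA N ≠ 0 := by
    intro h0
    rw [h0] at htr
    exact htr (isAlgebraic_zero)
  have hne : coeffMap (IsLocalRing.residue A) Y ≠ 0 := by
    intro h0
    apply hx0
    rw [← hx]
    exact Subtype.ext h0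
  have hf : (⟨coeffMap A.subtype Y, hY⟩ : modularFunctionFieldBar N) ≠ 0 := by
    intro h0
    apply hne
    have h1 : coeffMap A.subtype Y = 0 := congrArg Subtype.val h0
    have h2 : Y = 0 := s37e_coeffMap_subtype_injective A (by rw [h1, map_zero])
    rw [h2, map_zero]
  obtain ⟨D, hD, -⟩ := s18r_exists_divisor N ⟨coeffMap A.subtype Y, hY⟩ hf
  refine ⟨D, ⟨_, hf, hD⟩, fun h0 => ?_⟩
  have hcons : ∀ Q : Place kA Fk, Q.ord (s18n_xN kA N) = 0 := by
    intro Q
    have h := hr.2 Y hY hYk hne D hD Q
    rw [h0, Finsupp.zero_apply, hx] at h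
    exact h.symm
  obtain ⟨c, hc⟩ := s18n_constFk_residueField N A hℓ hA hℓN (s18n_xN kA N) hx0 hcons
  rw [hc] at htr
  exact htr (isAlgebraic_algebraMap c)

/-- **(U1) Uniqueness of the place reduction at `ℓ ∤ N`.** -/
theorem s37u_unique_modL {ℓ : ℕ} (hℓ : ℓ.Prime) (hA : A.LiesOverPrime ℓ) (hℓN : ¬ ℓ ∣ N)
    {r₁ r₂ : Place (AlgebraicClosure ℚ) (modularFunctionFieldBar N) → Place kA Fk}
    (hr₁ : IsPlaceReductionModL A N r₁) (hr₂ : IsPlaceReductionModL A N r₂)
    (hgen : PrincipalGeneratedByIntegral A (IsLocalRing.residue A) N) : r₁ = r₂ :=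
  s37u_unique (s37u_boundedConst_bar N _) hr₁ hr₂ hgen (s37i_deg_eq_one_bar N)
    (s37u_principal_degree_bar N) (s37u_nonconstant N A hℓ hA hℓN hr₁)

end ModL

section Equivariance

variable (N : ℕ) [NeZero N] (A : ValuationSubring (AlgebraicClosure ℚ))

local notation "kA" => IsLocalRing.ResidueField A
local notation "Fk" => modularFunctionFieldFullC kA N
local notation "Γ" => AlgebraicClosure ℚ ≃ₐ[ℚ] AlgebraicClosure ℚ

/-- **(U2)**: `reductionModL` intertwines an element `g` of the decomposition group with the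
coefficientwise action `Ψ(ḡ)` of the induced automorphism of the residue field. -/
theorem s37u_reductionModL_decomposition {ℓ : ℕ} (hℓ : ℓ.Prime) (hA : A.LiesOverPrime ℓ)
    (hℓN : ¬ ℓ ∣ N) (h : ReductionInputsModL A N) (g : A.decompositionSubgroup ℚ)
    (x : JZero N) :
    reductionModL A N ((g : Γ) • x) = s37u_Psi A N g • reductionModL A N x := by
  have hr := h.choose_spec.1
  have hgen := h.choose_spec.2
  have huniq : ∀ r', IsPlaceReductionAlong A (IsLocalRing.residue A) N r' → r' = h.choose :=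
    fun r' hr' => s37u_unique_modL N A hℓ hA hℓN hr' hr hgen
  have e : reductionModL A N = reductionPic0Along h.choose hr hgen := reductionAlong_eq h
  rw [e]
  exact s37u_reductionPic0_equivariant A N g huniq hr hgen x

/-- **(R1)**: `reductionModL` is invariant under the inertia group. -/
theorem s37u_reductionModL_inertia {ℓ : ℕ} (hℓ : ℓ.Prime) (hA : A.LiesOverPrime ℓ)
    (hℓN : ¬ ℓ ∣ N) (h : ReductionInputsModL A N) :
    ∀ τ ∈ A.inertiaSubgroupIn ℚ, ∀ x : JZero N,
      reductionModL A N (τ • x) = reductionModL A N x := by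
  rintro τ ⟨g, hg, rfl⟩ x
  have hg1 : s37u_resAut A g = 1 := MonoidHom.mem_ker.mp hg
  have hΨ : s37u_Psi A N g = 1 := by rw [s37u_Psi, hg1, map_one]
  have := s37u_reductionModL_decomposition N A hℓ hA hℓN h g x
  rw [hΨ, one_smul] at this
  exact this

/-- **(U2), Frobenius**: `reductionModL` intertwines a Frobenius element at `ℓ` with the
coefficientwise Frobenius `ψ` of the special fibre. -/
theorem s37u_reductionModL_frobenius {ℓ : ℕ} [hℓ : Fact ℓ.Prime] [CharP kA ℓ] [PerfectRing kA ℓ]
    (hA : A.LiesOverPrime ℓ) (hℓN : ¬ ℓ ∣ N) (h : ReductionInputsModL A N) :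
    ∀ σ : Γ, A.IsFrobeniusAt σ ℓ → ∀ x : JZero N,
      reductionModL A N (σ • x) = s37e_psi kA N ℓ • reductionModL A N x := by
  rintro σ ⟨hσ, hfrob⟩ x
  have hres : s37u_resAut A ⟨σ, hσ⟩ = frobeniusEquiv kA ℓ := by
    ext y
    rw [s37u_resAut_apply, hfrob, frobeniusEquiv_apply, frobenius_def]
  have hΨ : s37u_Psi A N ⟨σ, hσ⟩ = s37e_psi kA N ℓ := by rw [s37u_Psi, hres, s37e_psi]
  have := s37u_reductionModL_decomposition N A hℓ.out hA hℓN h ⟨σ, hσ⟩ x
  rw [hΨ] at this
  exact this

end Equivariance

end Fermat.Agent.Lib.S37
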