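/-
S37 (Eichler–Shimura congruence, `SpecializationExists`): the FORMAL part.

`s37f_formal`: for a Galois/Hecke module `J`, a valuation subring `A`, a fixed Frobenius `σ₀` at `A`,
and ONE auxiliary additive map `red : J →+ M` such that
  (i)   `red (τ • y) = red y` for `τ` in the inertia group of `A`,
  (ii)  `red (σ₀ • σ₀ • y - T_ℓ • σ₀ • y + ℓ • y) = 0`,
  (iii) `red` is injective on `p`-power torsion,
the quotient `J' := J ⧸ K`, `K := HeckeAlg`-span of `(τ - 1) y` and `(σ₀² - T_ℓ σ₀ + ℓ) y`, with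
`sp :=` the quotient map and `F :=` the map induced by `σ₀`, satisfies `IsSpecialization` and
`SpecialFibreRelation`.
-/
import Mathlib
import Fermat.Prelude.Def_HeckeGalois_EichlerShimura

set_option autoImplicit false

namespace Fermat.Agent.Lib.S37

open ModularCurve

section Formal

variable {K L : Type*} [Field K] [Field L] [Algebra K L]

/-- The inertia group (as a subgroup of the full Galois group) is stable under conjugation by
elements of the decomposition group. -/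
theorem s37f_conj_mem_inertiaSubgroupIn (A : ValuationSubring L) {g τ : L ≃ₐ[K] L}
    (hg : g ∈ A.decompositionSubgroup K) (hτ : τ ∈ A.inertiaSubgroupIn K) :
    g * τ * g⁻¹ ∈ A.inertiaSubgroupIn K := by
  obtain ⟨τ', hτ', rfl⟩ := hτ
  have hn : (A.inertiaSubgroup K).Normal := by
    unfold ValuationSubring.inertiaSubgroup
    infer_instance
  refine ⟨(⟨g, hg⟩ : A.decompositionSubgroup K) * τ' * (⟨g, hg⟩ : A.decompositionSubgroup K)⁻¹,
    hn.conj_mem τ' hτ' _, ?_⟩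
  simp

/-- Two Frobenius elements at `A` differ by an element of the inertia group. -/
theorem s37f_inv_mul_mem_inertiaSubgroupIn (A : ValuationSubring L) {ℓ : ℕ} {σ₀ σ : L ≃ₐ[K] L}
    (h₀ : A.IsFrobeniusAt σ₀ ℓ) (h : A.IsFrobeniusAt σ ℓ) :
    σ₀⁻¹ * σ ∈ A.inertiaSubgroupIn K := by
  have hD₀ := h₀.mem_decompositionSubgroup
  have hD := h.mem_decompositionSubgroup
  refine ⟨(⟨σ₀, hD₀⟩ : A.decompositionSubgroup K)⁻¹ * ⟨σ, hD⟩, ?_, by simp⟩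
  show _ ∈ MonoidHom.ker _
  rw [MonoidHom.mem_ker]
  ext x
  show ((⟨σ₀, hD₀⟩ : A.decompositionSubgroup K)⁻¹ * ⟨σ, hD⟩) • x = x
  rw [mul_smul, h.smul_residue_eq x, ← h₀.smul_residue_eq x, inv_smul_smul]

end Formal

section Main

variable {K L : Type*} [Field K] [Field L] [Algebra K L]
variable (p : ℕ) (J : Type) [AddCommGroup J] [Module HeckeAlg J]
  [DistribMulAction (L ≃ₐ[K] L) J] [SMulCommClass (L ≃ₐ[K] L) HeckeAlg J]

/-- The generators of the relation submodule: `(τ - 1) y` for `τ` in inertia and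
`(σ₀² - T_ℓ σ₀ + ℓ) y`. -/
noncomputable def s37f_gens (A : ValuationSubring L) (ℓ : ℕ) (hℓ : ℓ.Prime) (σ₀ : L ≃ₐ[K] L) : Set J :=
  {x | ∃ τ ∈ A.inertiaSubgroupIn K, ∃ y : J, x = τ • y - y} ∪
    {x | ∃ y : J, x = σ₀ • σ₀ • y - heckeGen ⟨ℓ, hℓ⟩ • (σ₀ • y) + ℓ • y}

/-- The relation submodule `K`. -/
noncomputable def s37f_rel (A : ValuationSubring L) (ℓ : ℕ) (hℓ : ℓ.Prime) (σ₀ : L ≃ₐ[K] L) :
    Submodule HeckeAlg J :=
  Submodule.span HeckeAlg (s37f_gens J A ℓ hℓ σ₀)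

variable {J}

theorem s37f_smul_mem_gens (A : ValuationSubring L) (ℓ : ℕ) (hℓ : ℓ.Prime) (σ₀ : L ≃ₐ[K] L)
    (T : HeckeAlg) {x : J} (hx : x ∈ s37f_gens J A ℓ hℓ σ₀) : T • x ∈ s37f_gens J A ℓ hℓ σ₀ := by
  rcases hx with ⟨τ, hτ, y, rfl⟩ | ⟨y, rfl⟩
  · refine Or.inl ⟨τ, hτ, T • y, ?_⟩
    rw [smul_sub, smul_comm τ T y]
  · refine Or.inr ⟨T • y, ?_⟩
    rw [smul_add, smul_sub, smul_comm σ₀ T y, smul_comm σ₀ T (σ₀ • y),
      smul_comm T (heckeGen ⟨ℓ, hℓ⟩) (σ₀ • y), smul_comm T ℓ y]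

theorem s37f_galois_smul_mem_gens (A : ValuationSubring L) (ℓ : ℕ) (hℓ : ℓ.Prime)
    (σ₀ : L ≃ₐ[K] L) (hσ₀ : σ₀ ∈ A.decompositionSubgroup K)
    {x : J} (hx : x ∈ s37f_gens J A ℓ hℓ σ₀) : σ₀ • x ∈ s37f_gens J A ℓ hℓ σ₀ := by
  rcases hx with ⟨τ, hτ, y, rfl⟩ | ⟨y, rfl⟩
  · refine Or.inl ⟨σ₀ * τ * σ₀⁻¹, s37f_conj_mem_inertiaSubgroupIn A hσ₀ hτ, σ₀ • y, ?_⟩
    rw [smul_sub, mul_smul, mul_smul, inv_smul_smul]
  · refine Or.inr ⟨σ₀ • y, ?_⟩
    rw [smul_add, smul_sub, smul_comm σ₀ (heckeGen ⟨ℓ, hℓ⟩) (σ₀ • y), smul_comm σ₀ ℓ y]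

/-- `red` vanishes on the relation submodule. -/
theorem s37f_red_eq_zero_of_mem_rel (A : ValuationSubring L) (ℓ : ℕ) (hℓ : ℓ.Prime)
    (σ₀ : L ≃ₐ[K] L) {M : Type*} [AddCommGroup M] (red : J →+ M)
    (h_in : ∀ τ ∈ A.inertiaSubgroupIn K, ∀ y : J, red (τ • y) = red y)
    (h_es : ∀ y : J, red (σ₀ • σ₀ • y - heckeGen ⟨ℓ, hℓ⟩ • (σ₀ • y) + ℓ • y) = 0)
    {x : J} (hx : x ∈ s37f_rel J A ℓ hℓ σ₀) : red x = 0 := by
  have hgen : ∀ s ∈ s37f_gens J A ℓ hℓ σ₀, red s = 0 := by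
    rintro s (⟨τ, hτ, y, rfl⟩ | ⟨y, rfl⟩)
    · rw [map_sub, h_in τ hτ y, sub_self]
    · exact h_es y
  have key : ∀ T : HeckeAlg, red (T • x) = 0 := by
    unfold s37f_rel at hx
    induction hx using Submodule.span_induction with
    | mem s hs => exact fun T => hgen _ (s37f_smul_mem_gens A ℓ hℓ σ₀ T hs)
    | zero => intro T; rw [smul_zero, map_zero]
    | add a b _ _ ha hb => intro T; rw [smul_add, map_add, ha T, hb T, add_zero]
    | smul T' a _ ha => intro T; rw [smul_smul]; exact ha _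
  simpa using key 1

variable (J)

/-- **S37, formal part.** -/
theorem s37f_formal (A : ValuationSubring L) (ℓ : ℕ) (hℓ : ℓ.Prime)
    (σ₀ : L ≃ₐ[K] L) (hσ₀ : A.IsFrobeniusAt σ₀ ℓ)
    {M : Type*} [AddCommGroup M] (red : J →+ M)
    (h_in : ∀ τ ∈ A.inertiaSubgroupIn K, ∀ y : J, red (τ • y) = red y)
    (h_es : ∀ y : J, red (σ₀ • σ₀ • y - heckeGen ⟨ℓ, hℓ⟩ • (σ₀ • y) + ℓ • y) = 0)
    (h_inj : ∀ x : J, (∃ n : ℕ, p ^ n • x = 0) → red x = 0 → x = 0) :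
    ∃ (J' : Type) (_ : AddCommGroup J') (_ : Module HeckeAlg J') (sp : J →+ J')
      (F : J' →+ J'),
      IsSpecialization (K := K) p J J' A ℓ sp F ∧ SpecialFibreRelation J' ℓ hℓ F := by
  classical
  set R : Submodule HeckeAlg J := s37f_rel J A ℓ hℓ σ₀ with hR
  have hD₀ := hσ₀.mem_decompositionSubgroup
  -- the `HeckeAlg`-linear map induced by `σ₀`
  let φ₀ : J →ₗ[HeckeAlg] J := DistribSMul.toLinearMap HeckeAlg J σ₀
  have hφ₀ : ∀ x : J, φ₀ x = σ₀ • x := fun _ => rfl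
  have hstab : R ≤ R.comap φ₀ := by
    rw [hR, s37f_rel, Submodule.span_le]
    intro s hs
    exact Submodule.subset_span (s37f_galois_smul_mem_gens A ℓ hℓ σ₀ hD₀ hs)
  let Fl : (J ⧸ R) →ₗ[HeckeAlg] (J ⧸ R) := R.mapQ R φ₀ hstab
  have hFl : ∀ x : J, Fl (R.mkQ x) = R.mkQ (σ₀ • x) := fun x => rfl
  refine ⟨J ⧸ R, inferInstance, inferInstance, R.mkQ.toAddMonoidHom, Fl.toAddMonoidHom, ?_, ?_⟩
  · refine ⟨fun T x => ?_, fun τ hτ x => ?_, fun σ hσ x => ?_, fun x hx hx0 => ?_⟩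
    · exact map_smul R.mkQ T x
    · show R.mkQ (τ • x) = R.mkQ x
      rw [← sub_eq_zero, ← map_sub, Submodule.mkQ_apply, Submodule.Quotient.mk_eq_zero]
      exact Submodule.subset_span (Or.inl ⟨τ, hτ, x, rfl⟩)
    · show R.mkQ (σ • x) = Fl (R.mkQ x)
      have hτ := s37f_inv_mul_mem_inertiaSubgroupIn A hσ₀ hσ
      have hσeq : σ • x = σ₀ • ((σ₀⁻¹ * σ) • x) := by rw [mul_smul, smul_inv_smul]
      rw [hFl, hσeq, ← hFl, ← hFl]
      congr 1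
      rw [← sub_eq_zero, ← map_sub, Submodule.mkQ_apply, Submodule.Quotient.mk_eq_zero]
      exact Submodule.subset_span (Or.inl ⟨_, hτ, x, rfl⟩)
    · have hxR : x ∈ R := by
        have : R.mkQ x = 0 := hx0
        rwa [Submodule.mkQ_apply, Submodule.Quotient.mk_eq_zero] at this
      exact h_inj x hx (s37f_red_eq_zero_of_mem_rel A ℓ hℓ σ₀ red h_in h_es hxR)
  · intro y'
    obtain ⟨y, rfl⟩ := R.mkQ_surjective y'
    show Fl (Fl (R.mkQ y)) - heckeGen ⟨ℓ, hℓ⟩ • Fl (R.mkQ y) + ℓ • R.mkQ y = 0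
    rw [hFl, hFl, ← map_smul, ← map_nsmul, ← map_sub, ← map_add, Submodule.mkQ_apply,
      Submodule.Quotient.mk_eq_zero]
    exact Submodule.subset_span (Or.inr ⟨y, rfl⟩)

end Main

end Fermat.Agent.Lib.S37
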