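/-
S37: reduction of `SpecializationExists` (over `ℚ̄ / ℚ`) to the existence, for every prime `ℓ ∤ N p`
and every valuation subring `A` of `ℚ̄` over `ℓ`, of ONE additive map `red : J →+ M` which
  (i)   is invariant under the inertia group of `A`,
  (ii)  kills `(σ₀² - T_ℓ σ₀ + ℓ) y` for the given Frobenius `σ₀` at `A`,
  (iii) is injective on `p`-power torsion.
-/
import Mathlib
import Fermat.Prelude.Def_HeckeGalois_EichlerShimura
import Fermat.Agent.Lib.Frobenius.Exists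
import Fermat.Agent.Lib.S37.Formal

set_option autoImplicit false

namespace Fermat.Agent.Lib.S37

open ModularCurve

/-- The "reduction contract" at `(ℓ, A, σ₀)` for a Galois/Hecke module `J`. -/
def s37f_RedContract (p : ℕ) (J : Type) [AddCommGroup J] [Module HeckeAlg J]
    [DistribMulAction (AlgebraicClosure ℚ ≃ₐ[ℚ] AlgebraicClosure ℚ) J]
    (A : ValuationSubring (AlgebraicClosure ℚ)) (ℓ : ℕ) (hℓ : ℓ.Prime)
    (σ₀ : AlgebraicClosure ℚ ≃ₐ[ℚ] AlgebraicClosure ℚ) : Prop :=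
  ∃ (M : Type) (_ : AddCommGroup M) (red : J →+ M),
    (∀ τ ∈ A.inertiaSubgroupIn ℚ, ∀ y : J, red (τ • y) = red y) ∧
    (∀ y : J, red (σ₀ • σ₀ • y - heckeGen ⟨ℓ, hℓ⟩ • (σ₀ • y) + ℓ • y) = 0) ∧
    (∀ x : J, (∃ n : ℕ, p ^ n • x = 0) → red x = 0 → x = 0)

theorem s37f_specializationExists_of_redContract (N p : ℕ) (J : Type) [AddCommGroup J]
    [Module HeckeAlg J] [DistribMulAction (AlgebraicClosure ℚ ≃ₐ[ℚ] AlgebraicClosure ℚ) J]
    [SMulCommClass (AlgebraicClosure ℚ ≃ₐ[ℚ] AlgebraicClosure ℚ) HeckeAlg J]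
    (H : ∀ (ℓ : ℕ) (hℓ : ℓ.Prime), ¬ ℓ ∣ N * p →
      ∀ A : ValuationSubring (AlgebraicClosure ℚ), A.LiesOverPrime ℓ →
        ∀ σ₀ : AlgebraicClosure ℚ ≃ₐ[ℚ] AlgebraicClosure ℚ, A.IsFrobeniusAt σ₀ ℓ →
          s37f_RedContract p J A ℓ hℓ σ₀) :
    SpecializationExists (K := ℚ) (L := AlgebraicClosure ℚ) N p J := by
  intro ℓ hℓ hℓNp A hA
  obtain ⟨σ₀, hσ₀⟩ := Fermat.Agent.Lib.Frobenius.exists_isFrobeniusAt_of_liesOverPrime A ℓ hℓ hA
  obtain ⟨M, _, red, h_in, h_es, h_inj⟩ := H ℓ hℓ hℓNp A hA σ₀ hσ₀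
  exact s37f_formal p J A ℓ hℓ σ₀ hσ₀ red h_in h_es h_inj

end Fermat.Agent.Lib.S37
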