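/-
S37 (Eichler–Shimura congruence in the packaged form `SpecializationExists`), FORMAL TOP
(architect: helper4).

The target type lets `J'` be an ARBITRARY abstract `HeckeAlg`-module.  We take `J' := J ⧸ K` with
`K` generated by `(τ - 1) y` (`τ` inertia) and `(σ₀² - T_ℓ σ₀ + ℓ) y` (`σ₀` one fixed Frobenius).
Because Galois commutes with Hecke (hypothesis of S37) and `D_A` normalises inertia, `K` is stable
under Hecke and under `σ₀`; `hecke_comm`, `inertia_comm`, `frobenius_comm`, `SpecialFibreRelation`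
hold by construction.  The only content is `K ∩ J[p^∞] = 0`, which follows from ONE auxiliary
homomorphism `red : J →+ M` with
* `hinj`: `red` is injective on `p`-power torsion            (S18, landed),
* `hI`  : `red (τ x) = red x` for `τ` in inertia,
* `hES` : `red (σ₀² y - T_ℓ σ₀ y + ℓ y) = 0`                  (Eichler–Shimura on the reduction).
-/
import Fermat.Prelude.Def_ModularCurve_HeckeModule
import Fermat.Agent.Lib.Frobenius.Exists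

set_option autoImplicit false
set_option linter.unusedSectionVars false
set_option linter.style.haveILetI false

noncomputable section

namespace Fermat.Agent.Lib.S37

open ModularCurve

local notation "Γℚ" => (AlgebraicClosure ℚ ≃ₐ[ℚ] AlgebraicClosure ℚ)

/-! ### Group theory of decomposition / inertia / Frobenius -/

section Group

variable {L : Type*} [Field L] [Algebra ℚ L] (A : ValuationSubring L)

/-- `D_A` normalises inertia. -/
theorem s37_conj_mem_inertia {σ τ : L ≃ₐ[ℚ] L} (hσ : σ ∈ A.decompositionSubgroup ℚ)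
    (hτ : τ ∈ A.inertiaSubgroupIn ℚ) : σ * τ * σ⁻¹ ∈ A.inertiaSubgroupIn ℚ := by
  obtain ⟨t, ht, rfl⟩ := hτ
  refine ⟨⟨σ, hσ⟩ * t * ⟨σ, hσ⟩⁻¹, ?_, rfl⟩
  have hn : (A.inertiaSubgroup ℚ).Normal := by
    unfold ValuationSubring.inertiaSubgroup
    infer_instance
  exact hn.conj_mem t ht ⟨σ, hσ⟩

/-- two Frobenius elements differ by an element of inertia. -/
theorem s37_frob_inv_mul_mem_inertia {σ₀ σ : L ≃ₐ[ℚ] L} {ℓ : ℕ}
    (h₀ : A.IsFrobeniusAt σ₀ ℓ) (h : A.IsFrobeniusAt σ ℓ) :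
    σ₀⁻¹ * σ ∈ A.inertiaSubgroupIn ℚ := by
  obtain ⟨hσ₀, h₀'⟩ := h₀
  obtain ⟨hσ, h'⟩ := h
  refine ⟨(⟨σ₀, hσ₀⟩ : A.decompositionSubgroup ℚ)⁻¹ * ⟨σ, hσ⟩, ?_, rfl⟩
  show _ ∈ MonoidHom.ker _
  rw [MonoidHom.mem_ker]
  ext x
  show ((⟨σ₀, hσ₀⟩ : A.decompositionSubgroup ℚ)⁻¹ * ⟨σ, hσ⟩) • x = x
  rw [mul_smul, h' x, ← h₀' x, inv_smul_smul]

end Group

/-! ### The quotient construction -/

section Quot

variable {Γ H J : Type*} [Group Γ] [CommRing H] [AddCommGroup J] [Module H J]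
  [DistribMulAction Γ J] [SMulCommClass Γ H J]

/-- the generators of `K`. -/
def s37_gens (I : Subgroup Γ) (σ₀ : Γ) (T : H) (ℓ : ℕ) : Set J :=
  {z | ∃ τ ∈ I, ∃ y : J, z = τ • y - y} ∪
    {z | ∃ y : J, z = σ₀ • σ₀ • y - T • (σ₀ • y) + (ℓ : ℤ) • y}

/-- the subgroup `K`. -/
def s37_K (I : Subgroup Γ) (σ₀ : Γ) (T : H) (ℓ : ℕ) : AddSubgroup J :=
  AddSubgroup.closure (s37_gens (J := J) I σ₀ T ℓ)

theorem s37_K_le_ker {M : Type*} [AddCommGroup M] (I : Subgroup Γ) (σ₀ : Γ) (T : H) (ℓ : ℕ)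
    (red : J →+ M) (hI : ∀ τ ∈ I, ∀ x : J, red (τ • x) = red x)
    (hES : ∀ y : J, red (σ₀ • σ₀ • y - T • (σ₀ • y) + (ℓ : ℤ) • y) = 0) :
    s37_K (J := J) I σ₀ T ℓ ≤ red.ker := by
  unfold s37_K
  rw [AddSubgroup.closure_le]
  rintro z (⟨τ, hτ, y, rfl⟩ | ⟨y, rfl⟩)
  · show red (τ • y - y) = 0
    rw [map_sub, hI τ hτ, sub_self]
  · exact hES y

/-- `K` is stable under the `H`-action. -/
theorem s37_smul_mem_K (I : Subgroup Γ) (σ₀ : Γ) (T : H) (ℓ : ℕ) (t : H) {z : J}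
    (hz : z ∈ s37_K (J := J) I σ₀ T ℓ) : t • z ∈ s37_K (J := J) I σ₀ T ℓ := by
  unfold s37_K at hz ⊢
  induction hz using AddSubgroup.closure_induction with
  | mem z hz =>
    apply AddSubgroup.subset_closure
    rcases hz with ⟨τ, hτ, y, rfl⟩ | ⟨y, rfl⟩
    · left
      exact ⟨τ, hτ, t • y, by rw [smul_sub, smul_comm τ t y]⟩
    · right
      refine ⟨t • y, ?_⟩
      rw [smul_add, smul_sub, smul_comm σ₀ t y, smul_comm σ₀ t (σ₀ • y),
        smul_comm t T (σ₀ • y), smul_comm t ((ℓ : ℤ)) y]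
  | zero => rw [smul_zero]; exact AddSubgroup.zero_mem _
  | add a b _ _ ha hb => rw [smul_add]; exact AddSubgroup.add_mem _ ha hb
  | neg a _ ha => rw [smul_neg]; exact AddSubgroup.neg_mem _ ha

/-- `K` is stable under `σ₀` when `σ₀` normalises `I`. -/
theorem s37_sigma_smul_mem_K (I : Subgroup Γ) (σ₀ : Γ) (T : H) (ℓ : ℕ)
    (hnorm : ∀ τ ∈ I, σ₀ * τ * σ₀⁻¹ ∈ I) {z : J}
    (hz : z ∈ s37_K (J := J) I σ₀ T ℓ) : σ₀ • z ∈ s37_K (J := J) I σ₀ T ℓ := by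
  unfold s37_K at hz ⊢
  induction hz using AddSubgroup.closure_induction with
  | mem z hz =>
    apply AddSubgroup.subset_closure
    rcases hz with ⟨τ, hτ, y, rfl⟩ | ⟨y, rfl⟩
    · left
      refine ⟨σ₀ * τ * σ₀⁻¹, hnorm τ hτ, σ₀ • y, ?_⟩
      rw [smul_sub, mul_smul, mul_smul, inv_smul_smul]
    · right
      refine ⟨σ₀ • y, ?_⟩
      rw [smul_add, smul_sub, smul_comm σ₀ T (σ₀ • y), smul_comm σ₀ ((ℓ : ℤ)) y]
  | zero => rw [smul_zero]; exact AddSubgroup.zero_mem _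
  | add a b _ _ ha hb => rw [smul_add]; exact AddSubgroup.add_mem _ ha hb
  | neg a _ ha => rw [smul_neg]; exact AddSubgroup.neg_mem _ ha

/-- `K` as an `H`-submodule. -/
def s37_Ksub (I : Subgroup Γ) (σ₀ : Γ) (T : H) (ℓ : ℕ) : Submodule H J :=
  { (s37_K (J := J) I σ₀ T ℓ) with
    smul_mem' := fun t _ hz => s37_smul_mem_K I σ₀ T ℓ t hz }

theorem s37_mem_Ksub (I : Subgroup Γ) (σ₀ : Γ) (T : H) (ℓ : ℕ) (z : J) :
    z ∈ s37_Ksub (J := J) I σ₀ T ℓ ↔ z ∈ s37_K (J := J) I σ₀ T ℓ := Iff.rfl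

/-- the action of `σ₀` as an `H`-linear map. -/
def s37_sigmaLin (σ₀ : Γ) : J →ₗ[H] J where
  toFun := fun y => σ₀ • y
  map_add' := smul_add σ₀
  map_smul' := fun t y => smul_comm σ₀ t y

/-- **The abstract quotient construction.** -/
theorem s37_quot_spec (I : Subgroup Γ) (σ₀ : Γ) (T : H) (ℓ : ℕ)
    (hnorm : ∀ τ ∈ I, σ₀ * τ * σ₀⁻¹ ∈ I) :
    ∃ (sp : J →ₗ[H] (J ⧸ s37_Ksub (J := J) I σ₀ T ℓ))
      (F : (J ⧸ s37_Ksub (J := J) I σ₀ T ℓ) →ₗ[H] (J ⧸ s37_Ksub (J := J) I σ₀ T ℓ)),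
      (∀ τ ∈ I, ∀ x : J, sp (τ • x) = sp x) ∧ (∀ x : J, sp (σ₀ • x) = F (sp x)) ∧
      (∀ x : J, sp x = 0 → x ∈ s37_K (J := J) I σ₀ T ℓ) ∧
      (∀ y, F (F y) - T • F y + (ℓ : ℤ) • y = 0) := by
  have hcomap : s37_Ksub (J := J) I σ₀ T ℓ ≤
      (s37_Ksub (J := J) I σ₀ T ℓ).comap (s37_sigmaLin (H := H) (J := J) σ₀) := by
    intro z hz
    exact s37_sigma_smul_mem_K I σ₀ T ℓ hnorm hz
  refine ⟨(s37_Ksub (J := J) I σ₀ T ℓ).mkQ,
    (s37_Ksub (J := J) I σ₀ T ℓ).mapQ _ (s37_sigmaLin (H := H) (J := J) σ₀) hcomap, ?_, ?_, ?_, ?_⟩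
  · intro τ hτ x
    rw [← sub_eq_zero, ← map_sub, Submodule.mkQ_apply, Submodule.Quotient.mk_eq_zero]
    exact AddSubgroup.subset_closure (Or.inl ⟨τ, hτ, x, rfl⟩)
  · intro x
    rfl
  · intro x hx
    rw [Submodule.mkQ_apply, Submodule.Quotient.mk_eq_zero] at hx
    exact hx
  · intro y
    obtain ⟨x, rfl⟩ := Submodule.Quotient.mk_surjective _ y
    show Submodule.Quotient.mk (σ₀ • σ₀ • x) - T • Submodule.Quotient.mk (σ₀ • x) +
      (ℓ : ℤ) • Submodule.Quotient.mk x = 0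
    rw [← Submodule.Quotient.mk_smul, ← Submodule.Quotient.mk_smul, ← Submodule.Quotient.mk_sub,
      ← Submodule.Quotient.mk_add, Submodule.Quotient.mk_eq_zero]
    exact AddSubgroup.subset_closure (Or.inr ⟨x, rfl⟩)

end Quot

/-! ### S37 from one reduction homomorphism -/

/-- **S37 from one reduction homomorphism** `red : J →+ M` per place `A ∣ ℓ`, `ℓ ∤ N p`:
injective on `p`-power torsion (S18), inertia-invariant, and killing
`σ² y - T_ℓ σ y + ℓ y` for every Frobenius `σ` (Eichler–Shimura on the reduction). -/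
theorem s37_of_red (N p : ℕ) [NeZero N] (hcomm : HeckeOperatorsCommuteBar N) :
    letI := heckeModuleBar N
    ∀ (_ : SMulCommClass Γℚ HeckeAlg (JZero N)),
      (∀ ℓ : ℕ, (hℓ : ℓ.Prime) → ¬ ℓ ∣ N * p →
        ∀ A : ValuationSubring (AlgebraicClosure ℚ), A.LiesOverPrime ℓ →
          ∃ (M : Type) (_ : AddCommGroup M) (red : JZero N →+ M),
            (∀ x : JZero N, (∃ n : ℕ, p ^ n • x = 0) → red x = 0 → x = 0) ∧
            (∀ τ ∈ A.inertiaSubgroupIn ℚ, ∀ x : JZero N, red (τ • x) = red x) ∧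
            (∀ σ : Γℚ, A.IsFrobeniusAt σ ℓ → ∀ y : JZero N,
              red (σ • σ • y - heckeOperatorBar N ⟨ℓ, hℓ⟩ (σ • y) + (ℓ : ℤ) • y) = 0)) →
      SpecializationExists (K := ℚ) (L := AlgebraicClosure ℚ) N p (JZero N) := by
  letI := heckeModuleBar N
  intro hsc hred ℓ hℓ hℓNp A hA
  obtain ⟨M, _, red, hinj, hI, hES⟩ := hred ℓ hℓ hℓNp A hA
  obtain ⟨σ₀, hσ₀⟩ := Fermat.Agent.Lib.Frobenius.exists_isFrobeniusAt_of_liesOverPrime A ℓ hℓ hA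
  have hnorm : ∀ τ ∈ A.inertiaSubgroupIn ℚ, σ₀ * τ * σ₀⁻¹ ∈ A.inertiaSubgroupIn ℚ :=
    fun τ hτ => s37_conj_mem_inertia A hσ₀.mem_decompositionSubgroup hτ
  obtain ⟨sp, F, hspI, hspσ, hspK, hrel⟩ :=
    s37_quot_spec (H := HeckeAlg) (J := JZero N) (A.inertiaSubgroupIn ℚ) σ₀
      (heckeGen ⟨ℓ, hℓ⟩) ℓ hnorm
  have hKker : s37_K (J := JZero N) (A.inertiaSubgroupIn ℚ) σ₀ (heckeGen ⟨ℓ, hℓ⟩) ℓ ≤ red.ker := by
    refine s37_K_le_ker _ σ₀ _ ℓ red hI (fun y => ?_)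
    rw [heckeModuleBar_heckeGen_smul hcomm ⟨ℓ, hℓ⟩ (σ₀ • y)]
    exact hES σ₀ hσ₀ y
  refine ⟨JZero N ⧸ s37_Ksub (J := JZero N) (A.inertiaSubgroupIn ℚ) σ₀ (heckeGen ⟨ℓ, hℓ⟩) ℓ,
    inferInstance, inferInstance, sp.toAddMonoidHom, F.toAddMonoidHom, ⟨?_, ?_, ?_, ?_⟩, ?_⟩
  · intro T x
    exact sp.map_smul T x
  · intro σ hσ x
    exact hspI σ hσ x
  · intro σ hσ x
    have hτ := s37_frob_inv_mul_mem_inertia A hσ₀ hσ
    have e : σ • x = σ₀ • ((σ₀⁻¹ * σ) • x) := by rw [← mul_smul, mul_inv_cancel_left]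
    show sp (σ • x) = F (sp x)
    rw [e, hspσ, hspI _ hτ]
  · intro x hx hspx
    exact hinj x hx (hKker (hspK x hspx))
  · intro y
    have := hrel y
    rw [natCast_zsmul] at this
    exact this

end Fermat.Agent.Lib.S37
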