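/-
S37, formal top, second layer (architect: helper4): `red := reductionModL A N`, injectivity on
`p`-power torsion from the landed S18.  What remains for S37 are three facts about the reduction
map at every `A ∣ ℓ`, `ℓ ∤ N p`:
* (R0) `ReductionInputsModL A N`,
* (R1) `reductionModL A N (τ x) = reductionModL A N x` for `τ` in inertia,
* (R3) `reductionModL A N (σ² y - T_ℓ σ y + ℓ y) = 0` for every Frobenius `σ` at `A`.
-/
import Fermat.Agent.Lib.S37.Top
import Fermat.Agent.S18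

set_option autoImplicit false
set_option linter.unusedSectionVars false
set_option linter.style.haveILetI false

noncomputable section

namespace Fermat.Agent.Lib.S37

open ModularCurve

local notation "Γℚ" => (AlgebraicClosure ℚ ≃ₐ[ℚ] AlgebraicClosure ℚ)

/-- The three geometric inputs of S37 at a place `A ∣ ℓ`. -/
def s37_RedInputs (N : ℕ) [NeZero N] (ℓ : ℕ) (hℓ : ℓ.Prime)
    (A : ValuationSubring (AlgebraicClosure ℚ)) : Prop :=
  ReductionInputsModL A N ∧
  (∀ τ ∈ A.inertiaSubgroupIn ℚ, ∀ x : JZero N,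
    reductionModL A N (τ • x) = reductionModL A N x) ∧
  (∀ σ : Γℚ, A.IsFrobeniusAt σ ℓ → ∀ y : JZero N,
    reductionModL A N (σ • σ • y - heckeOperatorBar N ⟨ℓ, hℓ⟩ (σ • y) + (ℓ : ℤ) • y) = 0)

/-- **S37 from the three geometric inputs.** -/
theorem s37_of_redInputs (N p : ℕ) [NeZero N] (hcomm : HeckeOperatorsCommuteBar N)
    (hR : ∀ ℓ : ℕ, (hℓ : ℓ.Prime) → ¬ ℓ ∣ N →
      ∀ A : ValuationSubring (AlgebraicClosure ℚ), A.LiesOverPrime ℓ → s37_RedInputs N ℓ hℓ A) :
    letI := heckeModuleBar N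
    ∀ (_ : SMulCommClass Γℚ HeckeAlg (JZero N)),
      SpecializationExists (K := ℚ) (L := AlgebraicClosure ℚ) N p (JZero N) := by
  letI := heckeModuleBar N
  intro hsc
  refine s37_of_red N p hcomm hsc (fun ℓ hℓ hℓNp A hA => ?_)
  have hℓN : ¬ ℓ ∣ N := fun h => hℓNp (Dvd.dvd.mul_right h p)
  have hℓp : ¬ ℓ ∣ p := fun h => hℓNp (Dvd.dvd.mul_left h N)
  obtain ⟨h0, h1, h3⟩ := hR ℓ hℓ hℓN A hA
  haveI : Fact ℓ.Prime := ⟨hℓ⟩
  refine ⟨JZeroC (IsLocalRing.ResidueField A) N, inferInstance, reductionModL A N, ?_, h1, h3⟩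
  rintro x ⟨n, hn⟩ hx
  exact Fermat.Agent.S18.result N hℓN A hA h0 (p ^ n)
    (fun h => hℓp (hℓ.dvd_of_dvd_pow h)) x hn hx

end Fermat.Agent.Lib.S37
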