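/-
S37 moonshot, FINAL ASSEMBLY (architect: helper4).  The frozen statement of S37 from exactly two
pending inputs (design of helper3's #1006, adopted by the lead):

* `s37x_Good`     ([R] + [U] + [ES]): at every level `M` which is GOOD for `ℓ` (`s18_GoodLevel ℓ M`)
  and every `A ∣ ℓ`: (R0) `ReductionInputsModL A M`; (R1) the Prelude's `reductionModL A M` is
  invariant under inertia; (R3) it kills `σ² y - T_ℓ σ y + ℓ y` for every Frobenius `σ` at `A`,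
  with `T_ℓ = heckeOperatorBar M ⟨ℓ, hℓ⟩` (NOT `heckeGen •`: there is no `hcomm` at level `M`).
* `s37x_Transfer` ([R23]): for `ℓ ∈ {2, 3}` and `d = 3` resp. `2`, `d ∤ N`: a reduction contract
  at level `d * N` gives one at level `N` (`red_N := red_{dN} ∘ π^*`).

Injectivity on `p`-power torsion is the landed S18 (applied to `reductionModL A M` verbatim).
-/
import Fermat.Agent.Lib.S37.TopS18
import Fermat.Agent.Lib.S37.Reduce
import Fermat.Agent.Lib.S18.XFinal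

set_option autoImplicit false
set_option linter.unusedSectionVars false
set_option linter.style.haveILetI false

noncomputable section

namespace Fermat.Agent.Lib.S37

open ModularCurve Fermat.Agent.Lib.S18

local notation "Γℚ" => (AlgebraicClosure ℚ ≃ₐ[ℚ] AlgebraicClosure ℚ)

/-- The reduction contract at level `N` for `(p, ℓ, A, σ₀)`, with `T_ℓ` spelled as
`heckeOperatorBar N ⟨ℓ, hℓ⟩` (no commutation hypothesis needed to state it). -/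
def s37x_RedAt (N p : ℕ) [NeZero N] (ℓ : ℕ) (hℓ : ℓ.Prime)
    (A : ValuationSubring (AlgebraicClosure ℚ)) (σ₀ : Γℚ) : Prop :=
  ∃ (X : Type) (_ : AddCommGroup X) (red : JZero N →+ X),
    (∀ τ ∈ A.inertiaSubgroupIn ℚ, ∀ y : JZero N, red (τ • y) = red y) ∧
    (∀ y : JZero N, red (σ₀ • σ₀ • y - heckeOperatorBar N ⟨ℓ, hℓ⟩ (σ₀ • y) + ℓ • y) = 0) ∧
    (∀ x : JZero N, (∃ n : ℕ, p ^ n • x = 0) → red x = 0 → x = 0)

/-- **[GOOD]** (statement): the three geometric inputs at every good level. -/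
def s37x_Good : Prop :=
  ∀ (M : ℕ) [NeZero M] (ℓ : ℕ) (hℓ : ℓ.Prime), s18_GoodLevel ℓ M →
    ∀ A : ValuationSubring (AlgebraicClosure ℚ), A.LiesOverPrime ℓ → s37_RedInputs M ℓ hℓ A

/-- **[R23]** (statement): level transfer of the reduction contract for `ℓ ∈ {2, 3}`. -/
def s37x_Transfer : Prop :=
  ∀ (N d p : ℕ) [NeZero N] [NeZero (d * N)] (ℓ : ℕ) (hℓ : ℓ.Prime),
    ((ℓ = 2 ∧ d = 3) ∨ (ℓ = 3 ∧ d = 2)) → ¬ d ∣ N → ¬ ℓ ∣ N → ¬ ℓ ∣ p →
    ∀ (A : ValuationSubring (AlgebraicClosure ℚ)), A.LiesOverPrime ℓ →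
      ∀ σ₀ : Γℚ, A.IsFrobeniusAt σ₀ ℓ →
        s37x_RedAt (d * N) p ℓ hℓ A σ₀ → s37x_RedAt N p ℓ hℓ A σ₀

/-- the contract at a good level. -/
theorem s37x_redAt_of_good (hgood : s37x_Good) (M p : ℕ) [NeZero M] (ℓ : ℕ) (hℓ : ℓ.Prime)
    (hM : s18_GoodLevel ℓ M) (hℓp : ¬ ℓ ∣ p)
    (A : ValuationSubring (AlgebraicClosure ℚ)) (hA : A.LiesOverPrime ℓ)
    (σ₀ : Γℚ) (hσ₀ : A.IsFrobeniusAt σ₀ ℓ) : s37x_RedAt M p ℓ hℓ A σ₀ := by
  obtain ⟨h0, h1, h3⟩ := hgood M ℓ hℓ hM A hA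
  haveI : Fact ℓ.Prime := ⟨hℓ⟩
  refine ⟨JZeroC (IsLocalRing.ResidueField A) M, inferInstance, reductionModL A M, h1, ?_, ?_⟩
  · intro y
    have := h3 σ₀ hσ₀ y
    rwa [natCast_zsmul] at this
  · rintro x ⟨n, hn⟩ hx
    exact Fermat.Agent.S18.result M hM.1 A hA h0 (p ^ n)
      (fun h => hℓp (hℓ.dvd_of_dvd_pow h)) x hn hx

/-- the contract at every level prime to `ℓ`. -/
theorem s37x_redAt (hgood : s37x_Good) (htr : s37x_Transfer) (N p : ℕ) [NeZero N]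
    (ℓ : ℕ) (hℓ : ℓ.Prime) (hℓN : ¬ ℓ ∣ N) (hℓp : ¬ ℓ ∣ p)
    (A : ValuationSubring (AlgebraicClosure ℚ)) (hA : A.LiesOverPrime ℓ)
    (σ₀ : Γℚ) (hσ₀ : A.IsFrobeniusAt σ₀ ℓ) : s37x_RedAt N p ℓ hℓ A σ₀ := by
  by_cases h5 : 5 ≤ ℓ
  · exact s37x_redAt_of_good hgood N p ℓ hℓ ⟨hℓN, Or.inl h5⟩ hℓp A hA σ₀ hσ₀
  · have hℓ23 : ℓ = 2 ∨ ℓ = 3 := by
      have h2 := hℓ.two_le
      have : ℓ ≠ 4 := by rintro rfl; exact absurd hℓ (by decide)
      omega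
    rcases hℓ23 with rfl | rfl
    · -- ℓ = 2: base t₃, d = 3
      by_cases h3 : 3 ∣ N
      · exact s37x_redAt_of_good hgood N p 2 hℓ ⟨hℓN, Or.inr (Or.inr ⟨rfl, h3⟩)⟩ hℓp A hA σ₀ hσ₀
      · haveI : NeZero (3 * N) := ⟨mul_ne_zero (by norm_num) (NeZero.ne N)⟩
        refine htr N 3 p 2 hℓ (Or.inl ⟨rfl, rfl⟩) h3 hℓN hℓp A hA σ₀ hσ₀ ?_
        refine s37x_redAt_of_good hgood (3 * N) p 2 hℓ
          ⟨?_, Or.inr (Or.inr ⟨rfl, dvd_mul_right 3 N⟩)⟩ hℓp A hA σ₀ hσ₀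
        intro hdvd
        rcases (Nat.Prime.dvd_mul Nat.prime_two).mp hdvd with h | h
        · norm_num at h
        · exact hℓN h
    · -- ℓ = 3: base t₂, d = 2
      by_cases h2 : 2 ∣ N
      · exact s37x_redAt_of_good hgood N p 3 hℓ ⟨hℓN, Or.inr (Or.inl ⟨rfl, h2⟩)⟩ hℓp A hA σ₀ hσ₀
      · haveI : NeZero (2 * N) := ⟨mul_ne_zero (by norm_num) (NeZero.ne N)⟩
        refine htr N 2 p 3 hℓ (Or.inr ⟨rfl, rfl⟩) h2 hℓN hℓp A hA σ₀ hσ₀ ?_
        refine s37x_redAt_of_good hgood (2 * N) p 3 hℓ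
          ⟨?_, Or.inr (Or.inl ⟨rfl, dvd_mul_right 2 N⟩)⟩ hℓp A hA σ₀ hσ₀
        intro hdvd
        rcases (Nat.Prime.dvd_mul Nat.prime_three).mp hdvd with h | h
        · norm_num at h
        · exact hℓN h

/-- **S37 from [GOOD] and [R23].**  (The statement is the frozen statement of S37.) -/
theorem s37x_final (hgood : s37x_Good) (htr : s37x_Transfer) (N p : ℕ) [NeZero N]
    (hcomm : HeckeOperatorsCommuteBar N) :
    letI := heckeModuleBar N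
    ∀ (_ : SMulCommClass Γℚ HeckeAlg (JZero N)),
      SpecializationExists (K := ℚ) (L := AlgebraicClosure ℚ) N p (JZero N) := by
  letI := heckeModuleBar N
  intro hsc
  refine s37f_specializationExists_of_redContract N p (JZero N)
    (fun ℓ hℓ hℓNp A hA σ₀ hσ₀ => ?_)
  have hℓN : ¬ ℓ ∣ N := fun h => hℓNp (Dvd.dvd.mul_right h p)
  have hℓp : ¬ ℓ ∣ p := fun h => hℓNp (Dvd.dvd.mul_left h N)
  obtain ⟨X, _, red, h_in, h_es, h_inj⟩ := s37x_redAt hgood htr N p ℓ hℓ hℓN hℓp A hA σ₀ hσ₀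
  refine ⟨X, inferInstance, red, h_in, fun y => ?_, h_inj⟩
  rw [heckeModuleBar_heckeGen_smul hcomm ⟨ℓ, hℓ⟩ (σ₀ • y)]
  exact h_es y

end Fermat.Agent.Lib.S37
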