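/-
S37 moonshot, GLUE (architect: helper4): `s37x_Good` from the packages
* [R]  existence of a place reduction at good levels (`s37x_RExists`, pending),
* [RG] `s37g_principalGenerated` (helper2, landed),
* [U]  `s37u_reductionModL_inertia` (helper9, landed),
* [ES] the Eichler–Shimura relation for `reductionModL` (`s37x_ES`, pending).
-/
import Fermat.Agent.Lib.S37.XFinal
import Fermat.Agent.Lib.S37.UFinal
import Fermat.Agent.Lib.S37.GGen

set_option autoImplicit false
set_option linter.unusedSectionVars false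
set_option linter.style.haveILetI false

noncomputable section

namespace Fermat.Agent.Lib.S37

open ModularCurve Fermat.Agent.Lib.S18

local notation "Γℚ" => (AlgebraicClosure ℚ ≃ₐ[ℚ] AlgebraicClosure ℚ)

/-- **[R]** (statement): a place reduction exists at every good level. -/
def s37x_RExists : Prop :=
  ∀ (M : ℕ) [NeZero M] (ℓ : ℕ), ℓ.Prime → s18_GoodLevel ℓ M →
    ∀ A : ValuationSubring (AlgebraicClosure ℚ), A.LiesOverPrime ℓ →
      ∃ r, IsPlaceReductionModL A M r

/-- **[ES]** (statement): the Eichler–Shimura relation for the Prelude's reduction map, at every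
level prime to `ℓ` at which the reduction inputs exist. -/
def s37x_ES : Prop :=
  ∀ (M : ℕ) [NeZero M] (ℓ : ℕ) (hℓ : ℓ.Prime), ¬ ℓ ∣ M →
    ∀ A : ValuationSubring (AlgebraicClosure ℚ), A.LiesOverPrime ℓ → ReductionInputsModL A M →
      ∀ σ : Γℚ, A.IsFrobeniusAt σ ℓ → ∀ y : JZero M,
        reductionModL A M (σ • σ • y - heckeOperatorBar M ⟨ℓ, hℓ⟩ (σ • y) + (ℓ : ℤ) • y) = 0

/-- **[GOOD] from [R] and [ES]** ([RG] and [U] are landed). -/
theorem s37x_good_of (hR : s37x_RExists) (hES : s37x_ES) : s37x_Good := by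
  intro M _ ℓ hℓ hM A hA
  haveI : Fact ℓ.Prime := ⟨hℓ⟩
  obtain ⟨r, hr⟩ := hR M ℓ hℓ hM A hA
  have h0 : ReductionInputsModL A M := ⟨r, hr, s37g_principalGenerated M hM.1 A hA⟩
  exact ⟨h0, s37u_reductionModL_inertia M A hℓ hA hM.1 h0, hES M ℓ hℓ hM.1 A hA h0⟩

end Fermat.Agent.Lib.S37
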