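/-
S37 moonshot (M-B), package [R], FINAL ASSEMBLY from (P3), variant of `RAssemble` in which the
surjectivity half of (P3) may use the transcendence `htr` of the reduced coordinate `w̄` (helper9): `s37x_RExists` from the surjectivity half of (P3) — the chart
reduction `Psi : B → F_κ(M)` is onto the integral closure of `κ[w̄]` — taken as ONE hypothesis
`s37r11_P3T`; everything else ((P2), (P4), (P5), (P7), (P8), (P9), RCore, RTwo, bridge) is landed.
-/
import Fermat.Agent.Lib.S37.RInst2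
import Fermat.Agent.Lib.S37.RIntegral
import Fermat.Agent.Lib.S37.RTwo
import Fermat.Agent.Lib.S37.RLevel
import Fermat.Agent.Lib.S37.RBridge
import Fermat.Agent.Lib.S37.XGood

set_option autoImplicit false
set_option linter.style.haveILetI false
set_option linter.unusedSectionVars false
set_option synthInstance.maxHeartbeats 400000
set_option maxHeartbeats 1600000

noncomputable section

namespace Fermat.Agent.Lib.S37

open ModularCurve HahnSeries AlgebraicCurve Fermat.Agent.Lib.S18 Fermat.Agent.Lib.FF Polynomial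

local notation "Qbar" => AlgebraicClosure ℚ

/-- **(P3), surjectivity half** as one proposition (shape of helper3's #1030): every element of
`F_κ(M)` integral over `κ[w̄]` is the reduction of an element of the chart ring. -/
def s37r11_P3T : Prop :=
  ∀ (A : ValuationSubring Qbar) (M : ℕ) [NeZero M] {ℓ : ℕ} [Fact ℓ.Prime]
    (hA : A.LiesOverPrime ℓ) (hℓM : ¬ ℓ ∣ M) (w : ↥(modularFunctionFieldBar M))
    (_ : s37r_LevelInputs A M w) (hwO : w ∈ s37r_OF A M hA)
    (_ : Transcendental (IsLocalRing.ResidueField ↥A) (s37r_redF A M hA hℓM ⟨w, hwO⟩))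
    [Algebra (IsLocalRing.ResidueField ↥A)[X]
      ↥(modularFunctionFieldFullC (IsLocalRing.ResidueField ↥A) M)]
    (_ : ∀ p : (IsLocalRing.ResidueField ↥A)[X],
      algebraMap (IsLocalRing.ResidueField ↥A)[X]
        ↥(modularFunctionFieldFullC (IsLocalRing.ResidueField ↥A) M) p =
        Polynomial.aeval (s37r_redF A M hA hℓM ⟨w, hwO⟩) p)
    (z : ↥(modularFunctionFieldFullC (IsLocalRing.ResidueField ↥A) M)),
      IsIntegral (IsLocalRing.ResidueField ↥A)[X] z →
        ∃ b : ↥(s37r_B A M hA w), s37r_Psi A M hA hℓM w b = z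

variable (A : ValuationSubring Qbar) (M : ℕ) [NeZero M] {ℓ : ℕ} [Fact ℓ.Prime]
  (hA : A.LiesOverPrime ℓ) (hℓM : ¬ ℓ ∣ M)

local notation "κ" => IsLocalRing.ResidueField A

/-- **one chart**: the abstract chart hypotheses, with the Dedekind domain `D` and its structures
packaged existentially (so that two charts with different `κ[X]`-algebra structures can coexist). -/
theorem s37r11_chartT (hP3 : s37r11_P3T) (w : ↥(modularFunctionFieldBar M))
    (hlev : s37r_LevelInputs A M w)
    (hcoord : s37b_Coord κ ℓ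
      ((s37r_redF A M hA hℓM ⟨w, s37r7_w_mem_OF A M hA w hlev⟩ :
        ↥(modularFunctionFieldFullC κ M)) : LaurentSeries κ)) :
    haveI : FFGen Qbar (ffd_jBar M) := s18r_ffGen M
    ∃ (D : Type) (_ : CommRing D) (_ : IsDedekindDomain D)
      (_ : Algebra D ↥(modularFunctionFieldFullC κ M))
      (_ : IsFractionRing D ↥(modularFunctionFieldFullC κ M)) (_ : Algebra κ D)
      (_ : IsScalarTower κ D ↥(modularFunctionFieldFullC κ M))
      (PsiD : ↥(s37r_B A M hA w) →+* D),
      s37r_ChartHyp (ffd_jBar M) A (IsLocalRing.residue ↥A) (s37r_OF A M hA)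
        (s37r_redF A M hA hℓM) w PsiD := by
  haveI : FFGen Qbar (ffd_jBar M) := s18r_ffGen M
  letI alg := s37r9_algebraX A M (s37r_redF A M hA hℓM ⟨w, s37r7_w_mem_OF A M hA w hlev⟩)
  have hAlg : ∀ p : κ[X], algebraMap κ[X] ↥(modularFunctionFieldFullC κ M) p =
      Polynomial.aeval (s37r_redF A M hA hℓM ⟨w, s37r7_w_mem_OF A M hA w hlev⟩) p :=
    fun p => rfl
  have hi := s37r3i_Psi_isIntegral A M hA hℓM w hlev (s37r7_w_mem_OF A M hA w hlev) hAlg
  have hs := hP3 A M hA hℓM w hlev (s37r7_w_mem_OF A M hA w hlev)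
    (s37b_transcendental_of_coe (IsLocalRing.ResidueField ↥A) M _ hcoord.1) hAlg
  have hch := s37r9_chartHyp_of_P3 A M hA hℓM w hlev hAlg hcoord hi hs
  obtain ⟨hded, hfrac⟩ := s37r9_dedekindD A M hA _ hcoord hAlg
  exact ⟨_, inferInstance, hded, inferInstance, hfrac, s37r9_algebraD A M,
    s37r9_isScalarTowerD A M _ hAlg, _, hch⟩

/-- **[R] from (P3)**: existence of the place reduction at every good level. -/
theorem s37r11_existsT (hP3 : s37r11_P3T) : s37x_RExists := by
  intro M _ ℓ hℓ hgood A hA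
  haveI : Fact ℓ.Prime := ⟨hℓ⟩
  have hℓM : ¬ ℓ ∣ M := hgood.1
  haveI : FFGen Qbar (ffd_jBar M) := s18r_ffGen M
  obtain ⟨w, hwO, hwinvO, hw0, hlev1, hlev2, hred⟩ := s37rl_exists_coord A M hA hℓM hgood
  have hcoord1 : s37b_Coord (IsLocalRing.ResidueField ↥A) ℓ
      ((s37r_redF A M hA hℓM ⟨w, s37r7_w_mem_OF A M hA w hlev1⟩ :
        ↥(modularFunctionFieldFullC (IsLocalRing.ResidueField ↥A) M)) :
        LaurentSeries (IsLocalRing.ResidueField ↥A)) := by
    rcases hred with h | h | h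
    · rw [h]; exact s37b_coord_jq _ ℓ
    · rw [h]; exact s37b_coord_t2 _ ℓ
    · rw [h]; exact s37b_coord_t3 _ ℓ
  have hcoord2 : s37b_Coord (IsLocalRing.ResidueField ↥A) ℓ
      ((s37r_redF A M hA hℓM ⟨w⁻¹, s37r7_w_mem_OF A M hA w⁻¹ hlev2⟩ :
        ↥(modularFunctionFieldFullC (IsLocalRing.ResidueField ↥A) M)) :
        LaurentSeries (IsLocalRing.ResidueField ↥A)) := by
    rw [s37rl_redF_inv A M hA hℓM hw0 (s37r7_w_mem_OF A M hA w hlev1), IntermediateField.coe_inv]
    exact s37b_coord_inv hcoord1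
  obtain ⟨D₁, i1, i2, i3, i4, i5, i6, Psi₁, h₁⟩ := s37r11_chartT A M hA hℓM hP3 w hlev1 hcoord1
  obtain ⟨D₂, j1, j2, j3, j4, j5, j6, Psi₂, h₂⟩ := s37r11_chartT A M hA hℓM hP3 w⁻¹ hlev2 hcoord2
  obtain ⟨r, hr⟩ := s37r_exists_reduction h₁ h₂
  exact ⟨r, s37r10_isPlaceReduction A M hA hℓM r hr⟩

end Fermat.Agent.Lib.S37
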