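/-
S37 moonshot (M-B), package [R], leaf (P3a) (helper3): **level hmain from the [S]-contract**.

For a Gauss datum `G` and a coordinate `w ∈ V` of `𝓕(M)` with (α) and the per-chart contract
`s18f_ChartS G M w 1`: every element of `F_κ(M)` integral over `κ[w̄]` is the reduction of an
element of the chart ring `B = s18_ring V (chart1 w)`.

Argument: `φ = redF|B` and the `ψ : B ↠ D` of the contract have the same kernel `(ϖ)`, so
`range φ ≅ D` is an integrally closed domain; its fraction field is `F_κ(M)` by (α) and the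
surjectivity of `redF`.
-/
import Fermat.Agent.Lib.S18.FFinal
import Fermat.Agent.Lib.S18.FChartS
import Fermat.Agent.Lib.S18.GRedF
import Fermat.Agent.Lib.S18.BInt

set_option autoImplicit false
set_option linter.unusedSectionVars false
set_option linter.style.haveILetI false

noncomputable section

namespace Fermat.Agent.Lib.S37

open AlgebraicCurve ModularCurve Fermat.Agent.Lib.FF Fermat.Agent.Lib.S18 Polynomial

/-- abstract form: if `φ : B → Fb` has the same kernel as a surjection `ψ : B ↠ D` onto an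
integrally closed domain, and every element of the field `Fb` is a quotient of values of `φ`, then
the range of `φ` is integrally closed in `Fb`. -/
theorem s37r3a_abs {B D Fb : Type*} [CommRing B] [CommRing D] [IsDomain D]
    [IsIntegrallyClosed D] [Field Fb]
    (φ : B →+* Fb) (ψ : B →+* D) (hψ : Function.Surjective ψ)
    (hker : RingHom.ker φ = RingHom.ker ψ)
    (hfrac : ∀ z : Fb, ∃ b₁ b₂ : B, φ b₂ ≠ 0 ∧ z * φ b₂ = φ b₁)
    (z : Fb) (hz : φ.IsIntegralElem z) : ∃ b, φ b = z := by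
  set θ : D →+* Fb := RingHom.liftOfSurjective ψ hψ ⟨φ, hker.ge⟩ with hθ
  have hθψ : ∀ b, θ (ψ b) = φ b := fun b =>
    RingHom.liftOfSurjective_comp_apply ψ hψ ⟨φ, hker.ge⟩ b
  have hθinj : Function.Injective θ := by
    rw [injective_iff_map_eq_zero]
    intro d hd
    obtain ⟨b, rfl⟩ := hψ d
    rw [hθψ] at hd
    have : b ∈ RingHom.ker ψ := by rw [← hker]; exact hd
    exact this
  letI : Algebra D Fb := θ.toAlgebra
  have halg : ∀ d : D, algebraMap D Fb d = θ d := fun _ => rfl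
  haveI : FaithfulSMul D Fb := (faithfulSMul_iff_algebraMap_injective D Fb).mpr hθinj
  haveI : IsFractionRing D Fb := by
    apply IsFractionRing.of_field
    intro z
    obtain ⟨b₁, b₂, hb₂, hz⟩ := hfrac z
    refine ⟨ψ b₁, ψ b₂, ?_⟩
    rw [halg, halg, hθψ, hθψ, eq_div_iff hb₂, hz]
  have hzint : IsIntegral D z := by
    obtain ⟨p, hpm, hp⟩ := hz
    refine ⟨p.map ψ, hpm.map ψ, ?_⟩
    rw [Polynomial.eval₂_map]
    have : (algebraMap D Fb).comp ψ = φ := RingHom.ext fun b => hθψ b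
    rw [this]
    exact hp
  obtain ⟨d, hd⟩ := IsIntegrallyClosed.isIntegral_iff.mp hzint
  obtain ⟨b, rfl⟩ := hψ d
  exact ⟨b, by rw [← hθψ, ← halg, hd]⟩

/-- integrality with respect to `g` lifts along a surjection `h` to integrality with respect to
`g ∘ h`. -/
theorem s37r3a_isIntegralElem_comp_of_surjective {R S T : Type*} [CommRing R] [CommRing S]
    [CommRing T] (h : R →+* S) (hh : Function.Surjective h) (g : S →+* T) {y : T}
    (hy : g.IsIntegralElem y) : (g.comp h).IsIntegralElem y := by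
  obtain ⟨p, hp, hp0⟩ := hy
  have hlift : p ∈ Polynomial.lifts h := by
    rw [Polynomial.mem_lifts]
    exact Polynomial.map_surjective h hh p
  obtain ⟨q, hq, -, hqm⟩ := Polynomial.lifts_and_natDegree_eq_and_monic hlift hp
  refine ⟨q, hqm, ?_⟩
  rw [← Polynomial.eval₂_map, hq]
  exact hp0

section Level

variable {K : Type} [Field K] [CharZero K] [Algebra ℚ K] {κ : Type} [Field κ]
  (G : s18g_GaussData K κ) (M : ℕ) [NeZero M]

local notation "𝓕M" => laurentBaseChange K (modularFunctionFieldFull M)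
local notation "hFM" => (fun (f : LaurentSeries K)
  (hf : f ∈ laurentBaseChange K (modularFunctionFieldFull M)) => s18g_baseChange_mem_Frac G M hf)

/-- **(P3a) level hmain from the [S]-contract.** -/
theorem s37r3a_hmain [IsDiscreteValuationRing G.A] (hπ : Function.Surjective G.π)
    (hT : s18g_HT κ M) (hdeg : s18g_HDeg K M)
    (w : ↥𝓕M) (hwV : w ∈ s18x_V G M)
    (hα : ∀ y ∈ s18x_V G M, ∃ s : G.A[X], s.map G.π ≠ 0 ∧
      (s18b_ev G 𝓕M w).IsIntegralElem (s18b_ev G 𝓕M w s * y))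
    (hS : s18f_ChartS G M w 1)
    (htr : Transcendental κ (s18g_redF G M hFM hT hdeg ⟨w, hwV⟩))
    (z : ↥(modularFunctionFieldFullC κ M))
    (hz : ((Polynomial.aeval (s18g_redF G M hFM hT hdeg ⟨w, hwV⟩) :
      κ[X] →ₐ[κ] ↥(modularFunctionFieldFullC κ M)) :
        κ[X] →+* ↥(modularFunctionFieldFullC κ M)).IsIntegralElem z) :
    ∃ (b : ↥𝓕M) (hb : b ∈ s18_ring (s18x_V G M) (s18_chart1 (L₀ := K) w)),
      s18g_redF G M hFM hT hdeg ⟨b, hb.1⟩ = z := by
  obtain ⟨D, iD, iDed, ψ, hψ, hkerψ, -⟩ := hS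
  -- the reduction on the chart ring
  let φ : ↥(s18_ring (s18x_V G M) (s18_chart1 (L₀ := K) w)) →+*
      ↥(modularFunctionFieldFullC κ M) :=
    (s18g_redF G M hFM hT hdeg).comp (Subring.inclusion (s18_ring_le (s18x_V G M) _))
  have hφ : ∀ b : ↥(s18_ring (s18x_V G M) (s18_chart1 (L₀ := K) w)),
      φ b = s18g_redF G M hFM hT hdeg ⟨(b : ↥𝓕M), b.2.1⟩ := fun _ => rfl
  -- evaluation `A[X] → B`
  have hevB : ∀ q : G.A[X], s18b_ev G 𝓕M w q ∈
      s18_ring (s18x_V G M) (s18_chart1 (L₀ := K) w) := fun q =>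
    s18b_mem_ring_of_isIntegralElem G 𝓕M hFM w hwV _ (s18b_ev G 𝓕M w).isIntegralElem_map
  let evB : G.A[X] →+* ↥(s18_ring (s18x_V G M) (s18_chart1 (L₀ := K) w)) :=
    (s18b_ev G 𝓕M w).codRestrict _ hevB
  have hφev : ∀ q : G.A[X], φ (evB q) =
      Polynomial.aeval (s18g_redF G M hFM hT hdeg ⟨w, hwV⟩) (q.map G.π) := fun q =>
    s18g_redF_ev G M hFM hT hdeg w hwV q
  -- the kernels agree
  have hkerφ : RingHom.ker φ = RingHom.ker ψ := by
    rw [hkerψ]
    ext b
    rw [RingHom.mem_ker, Ideal.mem_span_singleton]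
    constructor
    · intro h0
      have hmem : (⟨(b : ↥𝓕M), b.2.1⟩ : ↥(s18g_V G 𝓕M hFM)) ∈
          RingHom.ker (s18g_redF G M hFM hT hdeg) := h0
      rw [s18g_ker_redF, Ideal.mem_span_singleton] at hmem
      obtain ⟨y, hy⟩ := hmem
      have hby : (b : ↥𝓕M) = algebraMap K ↥𝓕M ((G.ϖ : G.A) : K) * (y : ↥𝓕M) := by
        have := congrArg (fun v : ↥(s18g_V G 𝓕M hFM) => (v : ↥𝓕M)) hy
        exact this
      have hyB : (y : ↥𝓕M) ∈ s18_ring (s18x_V G M) (s18_chart1 (L₀ := K) w) :=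
        s18f_ring_pure (s18x_V G M) (s18_chart1 (L₀ := K) w) ((G.ϖ : G.A) : K)
          (s18g_unifK_ne_zero G) b.2 y.2 hby
      exact ⟨⟨(y : ↥𝓕M), hyB⟩, Subtype.ext hby⟩
    · rintro ⟨c, rfl⟩
      rw [map_mul]
      have h1 : φ (s18i_const (s18x_V G M) (s18_chart1 (L₀ := K) w) ((G.ϖ : G.A) : K)
          (s18x_const_mem_V G M G.ϖ)) = 0 := by
        have h2 := s18g_redF_constV G M hFM hT hdeg G.ϖ
        rw [s18g_pi_unif, map_zero] at h2
        exact h2
      rw [h1, zero_mul]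
  -- every element of the residue field is a quotient
  have hfrac : ∀ z : ↥(modularFunctionFieldFullC κ M), ∃ b₁ b₂ :
      ↥(s18_ring (s18x_V G M) (s18_chart1 (L₀ := K) w)), φ b₂ ≠ 0 ∧ z * φ b₂ = φ b₁ := by
    intro z
    obtain ⟨v, rfl⟩ := s18g_redF_surjective G M hFM hT hdeg hπ z
    obtain ⟨s, hs, hint⟩ := hα (v : ↥𝓕M) v.2
    have hb₁ : s18b_ev G 𝓕M w s * (v : ↥𝓕M) ∈
        s18_ring (s18x_V G M) (s18_chart1 (L₀ := K) w) :=
      s18b_mem_ring_of_isIntegralElem G 𝓕M hFM w hwV _ hint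
    refine ⟨⟨_, hb₁⟩, evB s, ?_, ?_⟩
    · rw [hφev]
      intro h0
      exact hs ((transcendental_iff_injective.mp htr) (by rw [h0, map_zero]))
    · rw [hφ, hφ, ← map_mul]
      congr 1
      apply Subtype.ext
      show (v : ↥𝓕M) * s18b_ev G 𝓕M w s = s18b_ev G 𝓕M w s * (v : ↥𝓕M)
      exact mul_comm _ _
  -- integrality over `κ[w̄]` gives integrality over the range of `φ`
  have hz' : φ.IsIntegralElem z := by
    have h1 := s37r3a_isIntegralElem_comp_of_surjective (Polynomial.mapRingHom G.π)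
      (Polynomial.map_surjective G.π hπ) _ hz
    have h2 : ((Polynomial.aeval (s18g_redF G M hFM hT hdeg ⟨w, hwV⟩) :
        κ[X] →ₐ[κ] ↥(modularFunctionFieldFullC κ M)) :
          κ[X] →+* ↥(modularFunctionFieldFullC κ M)).comp (Polynomial.mapRingHom G.π) =
        φ.comp evB := RingHom.ext fun q => (hφev q).symm
    rw [h2] at h1
    exact s18b_isIntegralElem_of_comp _ _ h1
  haveI : IsDomain D := iDed.toIsDomain
  obtain ⟨b, hb⟩ := s37r3a_abs φ ψ hψ hkerφ hfrac z hz'
  exact ⟨(b : ↥𝓕M), b.2, hb⟩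

end Level

end Fermat.Agent.Lib.S37
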