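/-
S37 moonshot (M-B), package [R], leaf (P3), glue part (helper2):

* `s37r3c_isIntegralElem_of_mem_B`: every element of the top-level chart ring `B` is integral over
  `A[w]`;
* `s37r3c_Psi_isIntegral`: `Ψ b` is integral over `κ[w̄]` for `b ∈ B`;
* `s37r3c_Psi_surjective_of`: surjectivity of `Ψ` onto the integral closure of `κ[w̄]` from the
  level statement (a) and the descent (b).
-/
import Fermat.Agent.Lib.S37.RAlpha
import Fermat.Agent.Lib.S18.FChartG

set_option autoImplicit false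
set_option linter.style.haveILetI false
set_option linter.unusedSectionVars false
set_option synthInstance.maxHeartbeats 400000
set_option maxHeartbeats 800000

noncomputable section

namespace Fermat.Agent.Lib.S37

open ModularCurve HahnSeries AlgebraicCurve Fermat.Agent.Lib.S18 Fermat.Agent.Lib.FF Polynomial

local notation "Qbar" => AlgebraicClosure ℚ

variable (A : ValuationSubring Qbar) (M : ℕ) [NeZero M] {ℓ : ℕ} [Fact ℓ.Prime]
  (hA : A.LiesOverPrime ℓ) (hℓM : ¬ ℓ ∣ M) (w : ↥(modularFunctionFieldBar M))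

/-- every element of the top-level chart ring is integral over `A[w]`. -/
theorem s37r3c_isIntegralElem_of_mem_B (hlev : s37r_LevelInputs A M w)
    (b : ↥(s37r_B A M hA w)) :
    (s37pv_evalA A w).IsIntegralElem (b : ↥(modularFunctionFieldBar M)) := by
  classical
  obtain ⟨L₀, hfd, hL₀⟩ := s18q_exists_field M {(b : ↥(modularFunctionFieldBar M))}
  obtain ⟨b₀, hb₀⟩ := hL₀ _ (Finset.mem_singleton_self _)
  haveI := hfd
  obtain ⟨hdvr, ϖ, hϖ⟩ := s37r_exists_unif A hA L₀
  haveI := hdvr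
  obtain ⟨w₀, hw₀, hgen, hwV, hα, hS⟩ := hlev L₀ ϖ hϖ
  haveI := hgen
  haveI : IsDiscreteValuationRing ↥(s37r_G A L₀ ϖ hϖ).A := hdvr
  have hbmem : s18q_incl M L₀ b₀ ∈ s37r_B A M hA w := by rw [hb₀]; exact b.2
  have hbB : b₀ ∈ s18_ring (s18x_V (s37r_G A L₀ ϖ hϖ) M) (s18_chart1 (L₀ := ↥L₀) w₀) :=
    (s37r_incl_mem_B_iff A M hA w L₀ ϖ hϖ w₀ hw₀ b₀).mp hbmem
  have hint : (s18b_ev (s37r_G A L₀ ϖ hϖ)
      (laurentBaseChange ↥L₀ (modularFunctionFieldFull M)) w₀).IsIntegralElem b₀ :=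
    s18b_isIntegralElem_of_mem_ring (s37r_G A L₀ ϖ hϖ)
      (laurentBaseChange ↥L₀ (modularFunctionFieldFull M))
      (fun _ hf => s18g_baseChange_mem_Frac (s37r_G A L₀ ϖ hϖ) M hf) w₀ hα b₀ hbB
  have hint2 : (s18b_evA ↥(s18q_A0 A L₀) ↥L₀ w₀).IsIntegralElem b₀ := hint
  obtain ⟨p, hpm, hp⟩ := hint2
  refine ⟨p.map (Polynomial.mapRingHom (s18q_A0_hom A L₀)), hpm.map _, ?_⟩
  rw [Polynomial.eval₂_map, ← s37r4_incl_comp_ev A M w L₀ w₀ hw₀, ← hb₀]
  have h3 := Polynomial.hom_eval₂ p (s18b_evA ↥(s18q_A0 A L₀) ↥L₀ w₀) (s18q_incl M L₀) b₀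
  rw [← h3, hp, map_zero]

/-- **(P3), integrality**: `Ψ b` is integral over `κ[w̄]`. -/
theorem s37r3c_Psi_isIntegral (hlev : s37r_LevelInputs A M w) (hwO : w ∈ s37r_OF A M hA)
    [Algebra (IsLocalRing.ResidueField ↥A)[X]
      ↥(modularFunctionFieldFullC (IsLocalRing.ResidueField ↥A) M)]
    (hAlg : ∀ p : (IsLocalRing.ResidueField ↥A)[X],
      algebraMap (IsLocalRing.ResidueField ↥A)[X]
        ↥(modularFunctionFieldFullC (IsLocalRing.ResidueField ↥A) M) p =
        Polynomial.aeval (s37r_redF A M hA hℓM ⟨w, hwO⟩) p)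
    (b : ↥(s37r_B A M hA w)) :
    IsIntegral (IsLocalRing.ResidueField ↥A)[X] (s37r_Psi A M hA hℓM w b) := by
  obtain ⟨p, hpm, hp⟩ := s37r3c_isIntegralElem_of_mem_B A M hA w hlev b
  set φ := s37r7_evalB A M hA w hwO with hφ
  have hφc : ((s37r_B A M hA w).subtype : ↥(s37r_B A M hA w) →+* _).comp φ = s37pv_evalA A w := by
    refine RingHom.ext fun q => ?_
    exact s37r7_coe_evalB A M hA w hwO q
  have h1 : Polynomial.eval₂ φ b p = 0 := by
    apply Subtype.val_injective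
    have := Polynomial.hom_eval₂ p φ ((s37r_B A M hA w).subtype) b
    rw [hφc] at this
    rw [ZeroMemClass.coe_zero, ← hp]
    exact this
  have hcomp : (s37r_Psi A M hA hℓM w).comp φ =
      (algebraMap (IsLocalRing.ResidueField ↥A)[X]
        ↥(modularFunctionFieldFullC (IsLocalRing.ResidueField ↥A) M)).comp
        (Polynomial.mapRingHom (IsLocalRing.residue ↥A)) := by
    refine RingHom.ext fun q => ?_
    rw [RingHom.comp_apply, RingHom.comp_apply, hAlg, Polynomial.aeval_def,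
      Polynomial.coe_mapRingHom, Polynomial.eval₂_map]
    exact s37r7_Psi_evalB A M hA hℓM w hwO q
  have h2 := Polynomial.hom_eval₂ p φ (s37r_Psi A M hA hℓM w) b
  rw [h1, map_zero, hcomp, ← Polynomial.eval₂_map] at h2
  exact ⟨p.map (Polynomial.mapRingHom (IsLocalRing.residue ↥A)), hpm.map _, h2.symm⟩

end Fermat.Agent.Lib.S37
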