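/-
S37 moonshot (M-B), package [R], leaf (P3), glue part (c) (helper2), conditional form: surjectivity of the reduction
`Ψ : B → F_κ(M)` of the top-level chart ring onto the integral closure of `κ[w̄]`, from

* (P3a) the level statement `hmain` (for the Gauss data `s37r_G A L₀ ϖ hϖ` of the number field
  levels), and
* (P3b) the descent of an integral element of `F_κ(M)` to a finite level.
-/
import Fermat.Agent.Lib.S37.RSurjGlue

set_option autoImplicit false
set_option linter.style.haveILetI false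
set_option linter.unusedSectionVars false
set_option synthInstance.maxHeartbeats 400000
set_option maxHeartbeats 800000

noncomputable section

namespace Fermat.Agent.Lib.S37

open ModularCurve HahnSeries AlgebraicCurve Fermat.Agent.Lib.S18 Fermat.Agent.Lib.FF Polynomial

local notation "Qbar" => AlgebraicClosure ℚ

variable (A : ValuationSubring Qbar) (M : ℕ) [NeZero M] {ℓ : ℕ} [Fact ℓ.Prime]
  (hA : A.LiesOverPrime ℓ) (hℓM : ¬ ℓ ∣ M) (w : ↥(modularFunctionFieldBar M))

/-- **(P3a) at the levels of `A`**: the statement `hmain` for the Gauss datum of every number field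
level. -/
def s37r3_LevelMain : Prop :=
  ∀ (L₀ : IntermediateField ℚ Qbar) [FiniteDimensional ℚ L₀]
    [IsDiscreteValuationRing ↥(s18q_A0 A L₀)] (ϖ : ↥(s18q_A0 A L₀)) (hϖ : Irreducible ϖ)
    (hT : s18g_HT (IsLocalRing.ResidueField ↥(s18q_A0 A L₀)) M) (hdeg : s18g_HDeg ↥L₀ M)
    (w₀ : ↥(laurentBaseChange ↥L₀ (modularFunctionFieldFull M)))
    (hwV : w₀ ∈ s18x_V (s37r_G A L₀ ϖ hϖ) M)
    (_hα : ∀ y ∈ s18x_V (s37r_G A L₀ ϖ hϖ) M, ∃ s : (s37r_G A L₀ ϖ hϖ).A[X],
        s.map (s37r_G A L₀ ϖ hϖ).π ≠ 0 ∧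
        (s18b_ev (s37r_G A L₀ ϖ hϖ) (laurentBaseChange ↥L₀ (modularFunctionFieldFull M))
          w₀).IsIntegralElem
          (s18b_ev (s37r_G A L₀ ϖ hϖ) (laurentBaseChange ↥L₀ (modularFunctionFieldFull M))
            w₀ s * y))
    (_hS : s18f_ChartS (s37r_G A L₀ ϖ hϖ) M w₀ 1)
    (_htr : Transcendental (IsLocalRing.ResidueField ↥(s18q_A0 A L₀))
      (s18g_redF (s37r_G A L₀ ϖ hϖ) M
        (fun _ hf => s18g_baseChange_mem_Frac (s37r_G A L₀ ϖ hϖ) M hf) hT hdeg ⟨w₀, hwV⟩))
    (z : ↥(modularFunctionFieldFullC (IsLocalRing.ResidueField ↥(s18q_A0 A L₀)) M))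
    (_hz : ((Polynomial.aeval (s18g_redF (s37r_G A L₀ ϖ hϖ) M
        (fun _ hf => s18g_baseChange_mem_Frac (s37r_G A L₀ ϖ hϖ) M hf) hT hdeg ⟨w₀, hwV⟩) :
          (IsLocalRing.ResidueField ↥(s18q_A0 A L₀))[X] →ₐ[IsLocalRing.ResidueField ↥(s18q_A0 A L₀)]
            ↥(modularFunctionFieldFullC (IsLocalRing.ResidueField ↥(s18q_A0 A L₀)) M)) :
          (IsLocalRing.ResidueField ↥(s18q_A0 A L₀))[X] →+*
            ↥(modularFunctionFieldFullC (IsLocalRing.ResidueField ↥(s18q_A0 A L₀)) M)).IsIntegralElem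
        z),
    ∃ (b : ↥(laurentBaseChange ↥L₀ (modularFunctionFieldFull M)))
      (hb : b ∈ s18_ring (s18x_V (s37r_G A L₀ ϖ hϖ) M) (s18_chart1 (L₀ := ↥L₀) w₀)),
      s18g_redF (s37r_G A L₀ ϖ hϖ) M
        (fun _ hf => s18g_baseChange_mem_Frac (s37r_G A L₀ ϖ hϖ) M hf) hT hdeg ⟨b, hb.1⟩ = z

/-- **(P3b)**: descent of an element of `F_κ(M)` integral over `κ[w̄]` to a finite level. -/
def s37r3_Descent : Prop :=
  ∀ (L₁ : IntermediateField ℚ Qbar) [FiniteDimensional ℚ ↥L₁]
    (wb z : ↥(modularFunctionFieldFullC (IsLocalRing.ResidueField ↥A) M))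
    (_hz : ((Polynomial.aeval wb : (IsLocalRing.ResidueField ↥A)[X] →ₐ[IsLocalRing.ResidueField ↥A]
        ↥(modularFunctionFieldFullC (IsLocalRing.ResidueField ↥A) M)) :
        (IsLocalRing.ResidueField ↥A)[X] →+*
          ↥(modularFunctionFieldFullC (IsLocalRing.ResidueField ↥A) M)).IsIntegralElem z),
    ∃ (L₀ : IntermediateField ℚ Qbar), FiniteDimensional ℚ ↥L₀ ∧ L₁ ≤ L₀ ∧
      ∀ w0b : ↥(modularFunctionFieldFullC (IsLocalRing.ResidueField ↥(s18q_A0 A L₀)) M),
        coeffMap (s37r_resMap A L₀)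
            (w0b : LaurentSeries (IsLocalRing.ResidueField ↥(s18q_A0 A L₀))) =
          (wb : LaurentSeries (IsLocalRing.ResidueField ↥A)) →
        ∃ z₀ : ↥(modularFunctionFieldFullC (IsLocalRing.ResidueField ↥(s18q_A0 A L₀)) M),
          coeffMap (s37r_resMap A L₀)
              (z₀ : LaurentSeries (IsLocalRing.ResidueField ↥(s18q_A0 A L₀))) =
            (z : LaurentSeries (IsLocalRing.ResidueField ↥A)) ∧
          ((Polynomial.aeval w0b :
            (IsLocalRing.ResidueField ↥(s18q_A0 A L₀))[X] →ₐ[IsLocalRing.ResidueField ↥(s18q_A0 A L₀)]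
              ↥(modularFunctionFieldFullC (IsLocalRing.ResidueField ↥(s18q_A0 A L₀)) M)) :
            (IsLocalRing.ResidueField ↥(s18q_A0 A L₀))[X] →+*
              ↥(modularFunctionFieldFullC (IsLocalRing.ResidueField ↥(s18q_A0 A L₀)) M)).IsIntegralElem
            z₀

/-- transcendence passes from the subfield to the series and back. -/
theorem s37r3_transcendental_coe {k : Type*} [Field k] (x : ↥(modularFunctionFieldFullC k M))
    (hx : Transcendental k x) : Transcendental k (x : LaurentSeries k) := by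
  intro halg
  apply hx
  obtain ⟨p, hp0, hp⟩ := halg
  refine ⟨p, hp0, ?_⟩
  apply Subtype.val_injective
  have h := Polynomial.aeval_algebraMap_apply (LaurentSeries k) x p
  rw [ZeroMemClass.coe_zero, ← hp]
  exact h.symm

/-- **(P3c), the glue**: surjectivity of `Ψ` onto the elements integral over `κ[w̄]`, from the level
statement (P3a) and the descent (P3b). -/
theorem s37r3_Psi_surjective_of (hmain : s37r3_LevelMain A M) (hdesc : s37r3_Descent A M)
    (hlev : s37r_LevelInputs A M w) (hwO : w ∈ s37r_OF A M hA)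
    (htr : Transcendental (IsLocalRing.ResidueField ↥A) (s37r_redF A M hA hℓM ⟨w, hwO⟩))
    [Algebra (IsLocalRing.ResidueField ↥A)[X]
      ↥(modularFunctionFieldFullC (IsLocalRing.ResidueField ↥A) M)]
    (hAlg : ∀ p : (IsLocalRing.ResidueField ↥A)[X],
      algebraMap (IsLocalRing.ResidueField ↥A)[X]
        ↥(modularFunctionFieldFullC (IsLocalRing.ResidueField ↥A) M) p =
        Polynomial.aeval (s37r_redF A M hA hℓM ⟨w, hwO⟩) p)
    (z : ↥(modularFunctionFieldFullC (IsLocalRing.ResidueField ↥A) M))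
    (hz : IsIntegral (IsLocalRing.ResidueField ↥A)[X] z) :
    ∃ b : ↥(s37r_B A M hA w), s37r_Psi A M hA hℓM w b = z := by
  classical
  -- integrality in the instance-free form
  have hz' : ((Polynomial.aeval (s37r_redF A M hA hℓM ⟨w, hwO⟩) :
      (IsLocalRing.ResidueField ↥A)[X] →ₐ[IsLocalRing.ResidueField ↥A]
        ↥(modularFunctionFieldFullC (IsLocalRing.ResidueField ↥A) M)) :
      (IsLocalRing.ResidueField ↥A)[X] →+*
        ↥(modularFunctionFieldFullC (IsLocalRing.ResidueField ↥A) M)).IsIntegralElem z := by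
    obtain ⟨p, hpm, hp⟩ := hz
    refine ⟨p, hpm, ?_⟩
    have hmap : algebraMap (IsLocalRing.ResidueField ↥A)[X]
        ↥(modularFunctionFieldFullC (IsLocalRing.ResidueField ↥A) M) =
        ((Polynomial.aeval (s37r_redF A M hA hℓM ⟨w, hwO⟩) :
          (IsLocalRing.ResidueField ↥A)[X] →ₐ[IsLocalRing.ResidueField ↥A]
            ↥(modularFunctionFieldFullC (IsLocalRing.ResidueField ↥A) M)) :
          (IsLocalRing.ResidueField ↥A)[X] →+*
            ↥(modularFunctionFieldFullC (IsLocalRing.ResidueField ↥A) M)) :=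
      RingHom.ext hAlg
    rw [← hmap]
    exact hp
  -- descent
  obtain ⟨L₀, hfd, -, hL₀⟩ := hdesc (⊥ : IntermediateField ℚ Qbar)
    (s37r_redF A M hA hℓM ⟨w, hwO⟩) z hz'
  haveI := hfd
  obtain ⟨hdvr, ϖ, hϖ⟩ := s37r_exists_unif A hA L₀
  haveI := hdvr
  obtain ⟨w₀, hw₀, hgen, hwV, hα, hS⟩ := hlev L₀ ϖ hϖ
  haveI := hgen
  have hℓ : ℓ.Prime := Fact.out
  have hℓ0 : ((ℓ : ℕ) : ↥L₀) ∈ (A.comap (algebraMap ↥L₀ Qbar)).nonunits := by
    rw [ValuationSubring.mem_nonunits_iff_or]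
    right
    intro hinv
    rw [ValuationSubring.mem_comap, map_inv₀, map_natCast] at hinv
    rcases (ValuationSubring.mem_nonunits_iff_or (A := A)).mp hA with h0 | h0
    · exact (Nat.cast_ne_zero.mpr hℓ.ne_zero) h0
    · exact h0 hinv
  haveI hchar : CharP (IsLocalRing.ResidueField ↥(s18q_A0 A L₀)) ℓ :=
    s18x_charP_residueField _ hℓ hℓ0
  have hT : s18g_HT (IsLocalRing.ResidueField ↥(s18q_A0 A L₀)) M := s18t_indep_j ℓ M hℓM _
  have hdeg : s18g_HDeg ↥L₀ M := fun n b hb hn =>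
    s18g_exists_relation M (algebraMap ↥L₀ Qbar) hn b hb
  -- the reduction of the level coordinate
  set w0b := s18g_redF (s37r_G A L₀ ϖ hϖ) M
    (fun _ hf => s18g_baseChange_mem_Frac (s37r_G A L₀ ϖ hϖ) M hf) hT hdeg ⟨w₀, hwV⟩ with hw0b
  have hmemw : s18q_incl M L₀ w₀ ∈ s37r_OF A M hA := by rw [hw₀]; exact hwO
  have hwbar : coeffMap (s37r_resMap A L₀)
      (w0b : LaurentSeries (IsLocalRing.ResidueField ↥(s18q_A0 A L₀))) =
      (s37r_redF A M hA hℓM ⟨w, hwO⟩ : LaurentSeries (IsLocalRing.ResidueField ↥A)) := by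
    rw [s37r_coe_redF, hw0b, s18g_coe_redF]
    have h1 := s37r_redV_incl A M hA L₀ ϖ hϖ w₀ hwV hmemw
    rw [← h1]
    congr 1
    exact Subtype.ext hw₀
  obtain ⟨z₀, hz₀, hz₀int⟩ := hL₀ w0b hwbar
  -- transcendence at the level
  have htr₀ : Transcendental (IsLocalRing.ResidueField ↥(s18q_A0 A L₀)) w0b := by
    intro halg
    obtain ⟨p, hp0, hp⟩ := halg
    have htr' := s37r3_transcendental_coe M _ htr
    apply htr'
    refine ⟨p.map (s37r_resMap A L₀), ?_, ?_⟩
    · intro h0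
      apply hp0
      apply Polynomial.map_injective (s37r_resMap A L₀) (s37r_resMap A L₀).injective
      rw [h0, Polynomial.map_zero]
    · rw [← hwbar]
      have h1 : ((Polynomial.aeval w0b p :
          ↥(modularFunctionFieldFullC (IsLocalRing.ResidueField ↥(s18q_A0 A L₀)) M)) :
          LaurentSeries (IsLocalRing.ResidueField ↥(s18q_A0 A L₀))) = 0 := by
        rw [hp]; rfl
      have h2 := Polynomial.aeval_algebraMap_apply
        (LaurentSeries (IsLocalRing.ResidueField ↥(s18q_A0 A L₀))) w0b p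
      have h3 : Polynomial.aeval
          (w0b : LaurentSeries (IsLocalRing.ResidueField ↥(s18q_A0 A L₀))) p = 0 :=
        h2.trans h1
      rw [Polynomial.aeval_def, Polynomial.eval₂_map]
      have h4 := Polynomial.hom_eval₂ p
        (algebraMap (IsLocalRing.ResidueField ↥(s18q_A0 A L₀))
          (LaurentSeries (IsLocalRing.ResidueField ↥(s18q_A0 A L₀))))
        (coeffMap (s37r_resMap A L₀))
        (w0b : LaurentSeries (IsLocalRing.ResidueField ↥(s18q_A0 A L₀)))
      rw [Polynomial.aeval_def] at h3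
      rw [h3, map_zero] at h4
      rw [h4]
      congr 1
      refine RingHom.ext fun c => ?_
      simp only [RingHom.comp_apply]
      rw [algebraMap_laurentSeries_eq_single, algebraMap_laurentSeries_eq_single, coeffMap_single]
  -- the level statement
  obtain ⟨b₀, hb₀, hb₀z⟩ := hmain L₀ ϖ hϖ hT hdeg w₀ hwV hα hS htr₀ z₀ hz₀int
  have hbB : s18q_incl M L₀ b₀ ∈ s37r_B A M hA w :=
    (s37r_incl_mem_B_iff A M hA w L₀ ϖ hϖ w₀ hw₀ b₀).mpr hb₀
  refine ⟨⟨s18q_incl M L₀ b₀, hbB⟩, ?_⟩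
  apply Subtype.ext
  rw [← hz₀, ← hb₀z, s18g_coe_redF]
  exact s37r_redV_incl A M hA L₀ ϖ hϖ b₀ hb₀.1 hbB.1

end Fermat.Agent.Lib.S37
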