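/-
S37 moonshot (M-B), package [R], CLOSING FILE (helper9): `s37r12_exists : s37x_RExists`.

(P3a) `s37r3a_hmain` (helper3) and (P3b) `s37kd_descent` (helper6) discharge the two hypotheses of
the glue (P3c) `s37r3_Psi_surjective_of` (helper2); this is the surjectivity half `s37r11_P3T` of
(P3), and `RAssembleT` gives the existence of the place reduction at every good level.
-/
import Fermat.Agent.Lib.S37.RAssembleT
import Fermat.Agent.Lib.S37.RSurjOf
import Fermat.Agent.Lib.S37.RSurjA
import Fermat.Agent.Lib.S37.KDescent

set_option autoImplicit false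
set_option linter.style.haveILetI false
set_option linter.unusedSectionVars false
set_option synthInstance.maxHeartbeats 400000
set_option maxHeartbeats 1600000

noncomputable section

namespace Fermat.Agent.Lib.S37

open ModularCurve HahnSeries AlgebraicCurve Fermat.Agent.Lib.S18 Fermat.Agent.Lib.FF Polynomial

local notation "Qbar" => AlgebraicClosure ℚ

/-- (P3a) at every level of `A`. -/
theorem s37r12_levelMain (A : ValuationSubring Qbar) (M : ℕ) [NeZero M] :
    s37r3_LevelMain A M := by
  intro L₀ hfd hdvr ϖ hϖ hT hdeg w₀ hwV hα hS htr z hz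
  haveI : IsDiscreteValuationRing ↥(s37r_G A L₀ ϖ hϖ).A := hdvr
  exact s37r3a_hmain (s37r_G A L₀ ϖ hϖ) M IsLocalRing.residue_surjective hT hdeg w₀ hwV hα hS htr
    z hz

/-- (P3b). -/
theorem s37r12_descent (A : ValuationSubring Qbar) (M : ℕ) [NeZero M] : s37r3_Descent A M :=
  fun L₁ _ wb z hz => s37kd_descent A M L₁ wb z hz

/-- **(P3), surjectivity half.** -/
theorem s37r12_p3T : s37r11_P3T :=
  fun A M _ _ _ hA hℓM w hlev hwO htr _ hAlg z hz =>
    s37r3_Psi_surjective_of A M hA hℓM w (s37r12_levelMain A M) (s37r12_descent A M) hlev hwO htr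
      hAlg z hz

/-- **[R]: existence of the place reduction at every good level.** -/
theorem s37r12_exists : s37x_RExists := s37r11_existsT s37r12_p3T

end Fermat.Agent.Lib.S37
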