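/-
S37 moonshot, [Q]-flavoured input of the conservation assembly (helper9): SEPARATING LEVEL.

For finitely many places `P` of `F̄(M) = F_{ℚ̄}(M)` there is a number field `L₀ ⊆ ℚ̄` such that, at
`L₀` and at every larger intermediate field `L`, each of these `P` is the only place of `F̄(M)`
over its restriction `P|_L` to `F_L(M)`.
(`P` has a uniformiser `u` with finitely many zeros `P'`; each `P' ≠ P` is separated from `P` by
a function regular at `P` and not at `P'`; let `L₀` contain the fields of definition of these
finitely many functions.)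
-/
import Fermat.Agent.Lib.S18.QPlace
import Fermat.Agent.Lib.S18.RData
import Fermat.Agent.Lib.FF.FFBasicPlace

set_option autoImplicit false
set_option synthInstance.maxHeartbeats 400000

noncomputable section

namespace Fermat.Agent.Lib.S37

open AlgebraicCurve ModularCurve Fermat.Agent.Lib.S18 Fermat.Agent.Lib.FF

local notation "Qbar" => AlgebraicClosure ℚ

section Trans

variable (M : ℕ) {L₀ L : IntermediateField ℚ Qbar}

/-- the transition map `F_{L₀}(M) → F_L(M)` for `L₀ ≤ L`. -/
def s37q_trans (h : L₀ ≤ L) :
    ↥(laurentBaseChange ↥L₀ (modularFunctionFieldFull M)) →+*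
      ↥(laurentBaseChange ↥L (modularFunctionFieldFull M)) :=
  s18q_map (IntermediateField.inclusion h : ↥L₀ →+* ↥L) (modularFunctionFieldFull M)

theorem s37q_incl_trans (h : L₀ ≤ L)
    (f : ↥(laurentBaseChange ↥L₀ (modularFunctionFieldFull M))) :
    s18q_incl M L (s37q_trans M h f) = s18q_incl M L₀ f := by
  rw [s18q_incl, s37q_trans, s18q_map_comp]
  rfl

theorem s37q_trans_injective (h : L₀ ≤ L) : Function.Injective (s37q_trans M h) :=
  (s37q_trans M h).injective

/-- restriction is compatible with the transition maps. -/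
theorem s37q_mem_restrict_trans (h : L₀ ≤ L)
    (P : Place Qbar ↥(modularFunctionFieldBar M))
    (f : ↥(laurentBaseChange ↥L₀ (modularFunctionFieldFull M))) :
    s37q_trans M h f ∈ (s18q_restrict M L P).toValuationSubring ↔
      f ∈ (s18q_restrict M L₀ P).toValuationSubring := by
  rw [s18q_mem_restrict, s18q_mem_restrict, s37q_incl_trans]

theorem s37q_ord_restrict_trans (h : L₀ ≤ L)
    (P : Place Qbar ↥(modularFunctionFieldBar M))
    (f : ↥(laurentBaseChange ↥L₀ (modularFunctionFieldFull M))) :
    (s18q_restrict M L P).ord (s37q_trans M h f) = (s18q_restrict M L₀ P).ord f := by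
  rw [← s18q_ord_restrict, ← s18q_ord_restrict, s37q_incl_trans]

/-- two places with the same restriction to `L` have the same restriction to `L₀ ≤ L`. -/
theorem s37q_restrict_mono (h : L₀ ≤ L) {P P' : Place Qbar ↥(modularFunctionFieldBar M)}
    (hPP' : s18q_restrict M L P' = s18q_restrict M L P) :
    s18q_restrict M L₀ P' = s18q_restrict M L₀ P := by
  apply Place.ext
  ext f
  rw [← s37q_mem_restrict_trans M h, ← s37q_mem_restrict_trans M h, hPP']

end Trans

section Separating

variable (M : ℕ) [NeZero M]

/-- **Separating level for one place.** -/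
theorem s37q_separating_one (P : Place Qbar ↥(modularFunctionFieldBar M)) :
    ∃ L₀ : IntermediateField ℚ Qbar, FiniteDimensional ℚ ↥L₀ ∧
      ∀ P' : Place Qbar ↥(modularFunctionFieldBar M),
        s18q_restrict M L₀ P' = s18q_restrict M L₀ P → P' = P := by
  classical
  obtain ⟨u, hu0, hu⟩ := ff_exists_ord_eq_one P
  obtain ⟨D, hD, -⟩ := s18r_exists_divisor M u hu0
  have hsel : ∀ P' : Place Qbar ↥(modularFunctionFieldBar M),
      ∃ f : ↥(modularFunctionFieldBar M), P' ≠ P →
        f ∈ P.toValuationSubring ∧ f ∉ P'.toValuationSubring := by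
    intro P'
    by_cases hPP' : P' = P
    · exact ⟨0, fun h => absurd hPP' h⟩
    · by_contra hcon
      push Not at hcon
      apply hPP'
      refine (ff_place_eq_of_le fun f hf => ?_).symm
      by_contra hf'
      obtain ⟨-, h2⟩ := hcon f
      exact hf' (h2 hf)
  choose fsel hfsel using hsel
  obtain ⟨L₀, hfin, hL₀⟩ := s18q_exists_field M (insert u (D.support.image fsel))
  refine ⟨L₀, hfin, fun P' hP' => ?_⟩
  obtain ⟨u₀, hu₀⟩ := hL₀ u (Finset.mem_insert_self _ _)
  have hordu : P'.ord u = 1 := by
    rw [← hu₀, s18q_ord_restrict, hP', ← s18q_ord_restrict, hu₀, hu]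
  have hmem : P' ∈ D.support := by
    rw [Finsupp.mem_support_iff, hD, hordu]
    exact one_ne_zero
  by_contra hne
  obtain ⟨h1, h2⟩ := hfsel P' hne
  obtain ⟨f₀, hf₀⟩ := hL₀ (fsel P')
    (Finset.mem_insert_of_mem (Finset.mem_image_of_mem fsel hmem))
  apply h2
  rw [← hf₀, ← s18q_mem_restrict, hP', s18q_mem_restrict, hf₀]
  exact h1

/-- **Separating level**: for a finite set `T` of places of `F̄(M)` and a number field `L₁` there
is a number field `L₀ ⊇ L₁` such that, for every intermediate field `L ⊇ L₀`, each `P ∈ T` is the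
only place of `F̄(M)` over its restriction to `F_L(M)`. -/
theorem s37q_separating (T : Finset (Place Qbar ↥(modularFunctionFieldBar M)))
    (L₁ : IntermediateField ℚ Qbar) [FiniteDimensional ℚ ↥L₁] :
    ∃ L₀ : IntermediateField ℚ Qbar, FiniteDimensional ℚ ↥L₀ ∧ L₁ ≤ L₀ ∧
      ∀ L : IntermediateField ℚ Qbar, L₀ ≤ L → ∀ P ∈ T,
        ∀ P' : Place Qbar ↥(modularFunctionFieldBar M),
          s18q_restrict M L P' = s18q_restrict M L P → P' = P := by
  classical
  induction T using Finset.induction_on with
  | empty => exact ⟨L₁, inferInstance, le_rfl, fun L _ P hP => absurd hP (Finset.notMem_empty P)⟩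
  | insert P T _ ih =>
    obtain ⟨L₂, hfin₂, hL₁₂, hT⟩ := ih
    obtain ⟨L₃, hfin₃, hP⟩ := s37q_separating_one M P
    refine ⟨L₂ ⊔ L₃, inferInstance, hL₁₂.trans le_sup_left, fun L hL P'' hP'' P' hres => ?_⟩
    rcases Finset.mem_insert.mp hP'' with rfl | hmem
    · exact hP P' (s37q_restrict_mono M (le_sup_right.trans hL) hres)
    · exact hT L (le_sup_left.trans hL) P'' hmem P' hres

end Separating

end Fermat.Agent.Lib.S37
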