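/-
S37 moonshot (M-B), package [R], leaf (P2) (helper1): the TOP-LEVEL `hinv`.

For a coordinate `w` of `F = F_{ℚ̄}(M)` with the level inputs `s37r_LevelInputs A M w`, all
finitely supported lattices of the top-level chart ring `B = s18_ring O_F (chart1 w)` are
invertible: `s37r_HInv (s37r_OF A M hA) (s37r_S M w)`.

Route: given `E` with finite support `T`, choose a number field `L₀` which SEPARATES `T` (every
`P ∈ T` is the only place of `F` above its restriction to `F_{L₀}`; helper9's `s37q_separating`),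
descend `E` to `E₀` on the places of `F_{L₀}`, apply the level `hinv` (`s18i_hinv_of_dedekind` with
the dictionary facts of Lib/S18/FDictI and the [S]-contract of the level), and push the resulting
`a_j`, `b_j` up by `s18q_incl` (orders are preserved: `s18q_ord_restrict`).
-/
import Fermat.Agent.Lib.S37.RLevelDef
import Fermat.Agent.Lib.S37.RCons
import Fermat.Agent.Lib.S37.QSep
import Fermat.Agent.Lib.S18.FDictI
import Fermat.Agent.Lib.S18.FGeoB
import Fermat.Agent.Lib.S18.BFin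

set_option autoImplicit false
set_option linter.style.haveILetI false
set_option linter.unusedSectionVars false
set_option synthInstance.maxHeartbeats 400000
set_option maxHeartbeats 800000

noncomputable section

namespace Fermat.Agent.Lib.S37

open ModularCurve HahnSeries AlgebraicCurve Fermat.Agent.Lib.S18 Fermat.Agent.Lib.FF Polynomial

local notation "Qbar" => AlgebraicClosure ℚ

/-- **Separating levels exist** (the output of helper9's `s37q_separating`, in the form consumed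
here): for every finite set `T` of places of `F_{ℚ̄}(M)` there is a number field `L₀ ⊆ ℚ̄` such that
every `P ∈ T` is the only place above its restriction to `F_{L₀}(M)`. -/
def s37r2_Sep (M : ℕ) : Prop :=
  ∀ T : Finset (Place Qbar ↥(modularFunctionFieldBar M)),
    ∃ L₀ : IntermediateField ℚ Qbar, FiniteDimensional ℚ ↥L₀ ∧
      ∀ P ∈ T, ∀ P', s18q_restrict M L₀ P' = s18q_restrict M L₀ P → P' = P

variable (A : ValuationSubring Qbar) (M : ℕ) [NeZero M] {ℓ : ℕ} [Fact ℓ.Prime]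
  (hA : A.LiesOverPrime ℓ) (w : ↥(modularFunctionFieldBar M))

/-- **(P2) top-level `hinv`**, from the level inputs and separating levels. -/
theorem s37r2_hinv_of_sep (hlev : s37r_LevelInputs A M w) (hsep : s37r2_Sep M) :
    s37r_HInv (s37r_OF A M hA) (s37r_S M w) := by
  classical
  intro E hE
  -- the support
  set T : Finset (Place Qbar ↥(modularFunctionFieldBar M)) := hE.toFinset with hT
  have hTmem : ∀ P, P ∈ T ↔ P ∈ s37r_S M w ∧ E P ≠ 0 := fun P => by
    rw [hT, Set.Finite.mem_toFinset]; rfl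
  obtain ⟨L₀, hfd, hsepT⟩ := hsep T
  haveI := hfd
  obtain ⟨hdvr, ϖ, hϖ⟩ := s37r_exists_unif A hA L₀
  haveI := hdvr
  obtain ⟨w₀, hw₀, hgen, hw₀V, hα, D, iD, iD', ψ, hψ, hker, -⟩ := hlev L₀ ϖ hϖ
  haveI := hgen
  haveI : IsDiscreteValuationRing (s37r_G A L₀ ϖ hϖ).A := hdvr
  have h𝓕 : ∀ f ∈ laurentBaseChange ↥L₀ (modularFunctionFieldFull M),
      f ∈ s18g_Frac (s37r_G A L₀ ϖ hϖ) :=
    fun _ hf => s18g_baseChange_mem_Frac (s37r_G A L₀ ϖ hϖ) M hf
  -- the level exponent function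
  set E₀ : Place ↥L₀ ↥(laurentBaseChange ↥L₀ (modularFunctionFieldFull M)) → ℤ := fun Q =>
    ∑ P ∈ T.filter (fun P => s18q_restrict M L₀ P = Q), E P with hE₀
  have hE₀_restrict : ∀ P, P ∈ s37r_S M w → E₀ (s18q_restrict M L₀ P) = E P := by
    intro P hPS
    by_cases hPT : P ∈ T
    · have hfilter : T.filter (fun P' => s18q_restrict M L₀ P' = s18q_restrict M L₀ P) = {P} := by
        ext P'
        rw [Finset.mem_filter, Finset.mem_singleton]
        constructor
        · rintro ⟨-, h⟩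
          exact hsepT P hPT P' h
        · rintro rfl
          exact ⟨hPT, rfl⟩
      rw [hE₀]
      simp only
      rw [hfilter, Finset.sum_singleton]
    · have hfilter : T.filter (fun P' => s18q_restrict M L₀ P' = s18q_restrict M L₀ P) = ∅ := by
        ext P'
        rw [Finset.mem_filter]
        constructor
        · rintro ⟨hP'T, h⟩
          exact absurd (hsepT P' hP'T P h.symm ▸ hP'T) hPT
        · intro h
          exact absurd h (Finset.notMem_empty P')
      have hEP : E P = 0 := by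
        by_contra hne
        exact hPT ((hTmem P).mpr ⟨hPS, hne⟩)
      rw [hE₀]
      simp only
      rw [hfilter, Finset.sum_empty, hEP]
  have hE₀fin : {Q | Q ∈ s18_chart1 (L₀ := ↥L₀) w₀ ∧ E₀ Q ≠ 0}.Finite := by
    refine (T.image (s18q_restrict M L₀)).finite_toSet.subset ?_
    rintro Q ⟨-, hQ⟩
    rw [Finset.mem_coe, Finset.mem_image]
    by_contra hno
    apply hQ
    rw [hE₀]
    simp only
    apply Finset.sum_eq_zero
    intro P hP
    rw [Finset.mem_filter] at hP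
    exact absurd ⟨P, hP.1, hP.2⟩ hno
  -- the level `hinv`
  have hπ0 : (((s37r_G A L₀ ϖ hϖ).ϖ : (s37r_G A L₀ ϖ hϖ).A) : ↥L₀) ≠ 0 :=
    s18g_unifK_ne_zero (s37r_G A L₀ ϖ hϖ)
  have hπO := s18x_const_mem_V (s37r_G A L₀ ϖ hϖ) M (s37r_G A L₀ ϖ hϖ).ϖ
  have U := s18f_U_gauss (s37r_G A L₀ ϖ hϖ) (laurentBaseChange ↥L₀ (modularFunctionFieldFull M)) h𝓕
  have hO := s18f_hO_of_U (s18x_V (s37r_G A L₀ ϖ hϖ) M)
    (((s37r_G A L₀ ϖ hϖ).ϖ : (s37r_G A L₀ ϖ hϖ).A) : ↥L₀) U
  haveI : IsNoetherianRing ↥(s18_ring (L₀ := ↥L₀) (s18x_V (s37r_G A L₀ ϖ hϖ) M)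
      (s18_chart1 w₀)) :=
    s18b_isNoetherianRing_ring (s37r_G A L₀ ϖ hϖ)
      (laurentBaseChange ↥L₀ (modularFunctionFieldFull M)) w₀ h𝓕 hw₀V hα
  obtain ⟨s, a₀, b₀, ha₀, hb₀, hab₀⟩ :=
    s18i_hinv_of_dedekind (s18x_V (s37r_G A L₀ ϖ hϖ) M) (s18_chart1 (L₀ := ↥L₀) w₀)
      (((s37r_G A L₀ ϖ hϖ).ϖ : (s37r_G A L₀ ϖ hϖ).A) : ↥L₀) hπ0 hπO U
      E₀ hE₀fin
      (s18f_F1 w₀ (s18x_V (s37r_G A L₀ ϖ hϖ) M) _ hπ0 hπO hO)
      (s18f_F2 w₀ (s18x_V (s37r_G A L₀ ϖ hϖ) M) _ hπ0 hπO hO)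
      (s18f_F3 w₀)
      (s18f_F5 w₀ (s18x_V (s37r_G A L₀ ϖ hϖ) M) _ hπ0 hπO hO) ψ hψ hker
  -- push up
  have hpush : ∀ (E' : Place Qbar ↥(modularFunctionFieldBar M) → ℤ)
      (E₀' : Place ↥L₀ ↥(laurentBaseChange ↥L₀ (modularFunctionFieldFull M)) → ℤ),
      (∀ P, P ∈ s37r_S M w → E₀' (s18q_restrict M L₀ P) = E' P) →
      ∀ y₀ : ↥(laurentBaseChange ↥L₀ (modularFunctionFieldFull M)),
        y₀ ∈ s18_latSet (s18x_V (s37r_G A L₀ ϖ hϖ) M) (s18_chart1 (L₀ := ↥L₀) w₀) E₀' →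
        s18q_incl M L₀ y₀ ∈ s18_latSet (s37r_OF A M hA) (s37r_S M w) E' := by
    intro E' E₀' hEE y₀ hy₀
    refine ⟨(s37r_incl_mem_OF_iff A M hA L₀ ϖ hϖ y₀).mpr hy₀.1, fun P hP => ?_⟩
    have hQ : s18q_restrict M L₀ P ∈ s18_chart1 (L₀ := ↥L₀) w₀ := by
      show w₀ ∈ (s18q_restrict M L₀ P).toValuationSubring
      rw [s18q_mem_restrict, hw₀]
      exact hP
    rcases hy₀.2 _ hQ with h0 | h0
    · left
      rw [h0, map_zero]
    · right
      rw [s18q_ord_restrict, ← hEE P hP]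
      exact h0
  refine ⟨s, fun j => s18q_incl M L₀ (a₀ j), fun j => s18q_incl M L₀ (b₀ j), ?_, ?_, ?_⟩
  · intro j hj
    exact hpush E E₀ hE₀_restrict (a₀ j) (ha₀ j hj)
  · intro j hj
    refine hpush (fun Q => - E Q) (fun Q => - E₀ Q) (fun P hP => ?_) (b₀ j) (hb₀ j hj)
    show - E₀ (s18q_restrict M L₀ P) = - E P
    rw [hE₀_restrict P hP]
  · simp only [← map_mul]
    rw [← map_sum, hab₀, map_one]

omit [Fact ℓ.Prime] in
/-- separating levels exist (helper9's `s37q_separating`). -/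
theorem s37r2_sep : s37r2_Sep M := by
  intro T
  obtain ⟨L₀, hfd, -, h⟩ := s37q_separating M T (⊥ : IntermediateField ℚ Qbar)
  exact ⟨L₀, hfd, fun P hP P' hPP' => h L₀ le_rfl P hP P' hPP'⟩

/-- **(P2) TOP-LEVEL `hinv`.** -/
theorem s37r2_hinv (hlev : s37r_LevelInputs A M w) :
    s37r_HInv (s37r_OF A M hA) (s37r_S M w) :=
  s37r2_hinv_of_sep A M hA w hlev (s37r2_sep M)

end Fermat.Agent.Lib.S37
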