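/-
S37 moonshot (M-B), package [R], leaf (P9) (lead): the CONCRETE INSTANTIATION of the abstract chart
hypotheses `s37r_ChartHyp` (Lib/S37/RCoreDef) for a coordinate `w` of `F = F_{ℚ̄}(M)`:

* `K = ℚ̄`, `x = ffd_jBar M`, `A ⊆ ℚ̄` a valuation ring over `ℓ ∤ M`, `π = residue`, `κ = A/𝔪`;
* `O = s37r_OF A M hA` (Gauss valuation ring), `red = s37r_redF`, `Fb = F_κ(M)`;
* `D = integralClosure κ[X] Fb` (any algebra structure through `X ↦ w̄`), `PsiD` = the reduction
  `s37r_Psi` on the chart ring, co-restricted to `D` by (P3).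

The leaves (P2) `hinv`, (P3) integrality/surjectivity of `Ψ`, (P7) `(α)` enter as hypotheses in the
announced shapes; (P4)/(P5) (Lib/S37/RValue) and [RV] (Lib/S37/PValue) are consumed directly.
Also: the instance package for `D` (Dedekind, fraction ring, `κ`-algebra, scalar tower).
-/
import Fermat.Agent.Lib.S37.RCoreDef
import Fermat.Agent.Lib.S37.RValue
import Fermat.Agent.Lib.S37.BGen

set_option autoImplicit false
set_option linter.style.haveILetI false
set_option linter.unusedSectionVars false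
set_option synthInstance.maxHeartbeats 400000
set_option maxHeartbeats 800000

noncomputable section

namespace Fermat.Agent.Lib.S37

open ModularCurve HahnSeries AlgebraicCurve Fermat.Agent.Lib.S18 Fermat.Agent.Lib.FF Polynomial

local notation "Qbar" => AlgebraicClosure ℚ

variable (A : ValuationSubring Qbar) (M : ℕ) [NeZero M] {ℓ : ℕ} [Fact ℓ.Prime]
  (hA : A.LiesOverPrime ℓ) (hℓM : ¬ ℓ ∣ M) (w : ↥(modularFunctionFieldBar M))

/-! ### Small facts about `A`, `O_F`, `redF` -/

/-- a non-unit residue class: `residue a ≠ 0 → a⁻¹ ∈ A`. -/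
theorem s37r9_unit_of_ne (a : ↥A) (ha : IsLocalRing.residue ↥A a ≠ 0) : ((a : Qbar))⁻¹ ∈ A := by
  have hu : IsUnit a := (IsLocalRing.residue_ne_zero_iff_isUnit a).mp ha
  obtain ⟨u, rfl⟩ := hu
  have h1 : (((u⁻¹ : (↥A)ˣ) : ↥A) : Qbar) * ((u : ↥A) : Qbar) = 1 := by
    have h2 : ((u⁻¹ : (↥A)ˣ) : ↥A) * (u : ↥A) = 1 := Units.inv_mul u
    have h3 := congrArg (fun z : ↥A => (z : Qbar)) h2
    exact h3
  rw [← eq_inv_of_mul_eq_one_left h1]
  exact Subtype.mem _

/-- a constant with zero residue is a non-unit. -/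
theorem s37r9_residue_eq_zero (c : Qbar) (hc : c ∈ A) (hinv : c⁻¹ ∉ A) :
    IsLocalRing.residue ↥A ⟨c, hc⟩ = 0 := by
  by_contra h
  exact hinv (s37r9_unit_of_ne A ⟨c, hc⟩ h)

/-- divisors of functions have finite support. -/
theorem s37r9_fin (y : ↥(modularFunctionFieldBar M)) (hy : y ≠ 0) :
    {P : Place Qbar ↥(modularFunctionFieldBar M) | P.ord y ≠ 0}.Finite := by
  obtain ⟨D, hD, -⟩ := (s18r_hasPrincipalDivisors M).exists_divisor y hy
  refine Set.Finite.subset D.support.finite_toSet ?_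
  intro P hP
  rw [Finset.mem_coe, Finsupp.mem_support_iff, hD]
  exact hP

/-- the reduction of an integral constant. -/
theorem s37r9_red_const (c : ↥A) :
    s37r_redF A M hA hℓM ⟨algebraMap Qbar ↥(modularFunctionFieldBar M) (c : Qbar),
        s37r4_const_mem_OF A M hA (c : Qbar) c.2⟩ =
      algebraMap (IsLocalRing.ResidueField ↥A)
        ↥(modularFunctionFieldFullC (IsLocalRing.ResidueField ↥A) M)
        (IsLocalRing.residue ↥A c) :=
  s37r4_Psi_const A M hA hℓM (algebraMap Qbar ↥(modularFunctionFieldBar M) (c : Qbar))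
    (c : Qbar) c.2

/-- `O_F` is local with maximal ideal `ker redF`. -/
theorem s37r9_inv_mem (y : ↥(s37r_OF A M hA)) (hy : s37r_redF A M hA hℓM y ≠ 0) :
    ((y : ↥(modularFunctionFieldBar M)))⁻¹ ∈ s37r_OF A M hA := by
  have hyL : s37r_redV A M hA y ≠ 0 := by
    intro h0
    apply hy
    apply Subtype.ext
    rw [s37r_coe_redF, h0]
    rfl
  obtain ⟨P, Q, hQ, hPQ⟩ := y.2
  have hP : coeffMap (IsLocalRing.residue ↥A) P ≠ 0 :=
    (s37r_red_ne_zero_iff A (IsLocalRing.residue ↥A) (s37r_OFtoO A M hA y) P Q hQ hPQ).mp hyL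
  have hy0 : ((y : ↥(modularFunctionFieldBar M)) : LaurentSeries Qbar) ≠ 0 := by
    intro h0
    rw [h0, mul_zero] at hPQ
    apply hP
    have hP0 : P = 0 := s37r_iota_injective A (by rw [← hPQ, map_zero])
    rw [hP0, map_zero]
  rw [s37r_mem_OF_iff]
  refine ⟨Q, P, hP, ?_⟩
  rw [← hPQ]
  have : (((y : ↥(modularFunctionFieldBar M))⁻¹ : ↥(modularFunctionFieldBar M)) :
      LaurentSeries Qbar) = ((y : ↥(modularFunctionFieldBar M)) : LaurentSeries Qbar)⁻¹ := rfl
  rw [this, mul_assoc, mul_inv_cancel₀ hy0, mul_one]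

/-! ### The Dedekind domain `D = integralClosure κ[X] F_κ(M)` -/

section DPackage

variable [Algebra (IsLocalRing.ResidueField ↥A)[X]
    ↥(modularFunctionFieldFullC (IsLocalRing.ResidueField ↥A) M)]

/-- the `κ`-algebra structure of `D` (through `κ → κ[X] → D`). -/
abbrev s37r9_algebraD : Algebra (IsLocalRing.ResidueField ↥A)
    ↥(integralClosure (IsLocalRing.ResidueField ↥A)[X]
      ↥(modularFunctionFieldFullC (IsLocalRing.ResidueField ↥A) M)) :=
  ((algebraMap (IsLocalRing.ResidueField ↥A)[X]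
    ↥(integralClosure (IsLocalRing.ResidueField ↥A)[X]
      ↥(modularFunctionFieldFullC (IsLocalRing.ResidueField ↥A) M))).comp
    (Polynomial.C : IsLocalRing.ResidueField ↥A →+* (IsLocalRing.ResidueField ↥A)[X])).toAlgebra

/-- the scalar tower `κ → D → F_κ(M)`. -/
theorem s37r9_isScalarTowerD
    (x : ↥(modularFunctionFieldFullC (IsLocalRing.ResidueField ↥A) M))
    (hAlg : ∀ p : (IsLocalRing.ResidueField ↥A)[X],
      algebraMap (IsLocalRing.ResidueField ↥A)[X]
        ↥(modularFunctionFieldFullC (IsLocalRing.ResidueField ↥A) M) p = Polynomial.aeval x p) :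
    letI := s37r9_algebraD A M
    IsScalarTower (IsLocalRing.ResidueField ↥A)
      ↥(integralClosure (IsLocalRing.ResidueField ↥A)[X]
        ↥(modularFunctionFieldFullC (IsLocalRing.ResidueField ↥A) M))
      ↥(modularFunctionFieldFullC (IsLocalRing.ResidueField ↥A) M) := by
  letI := s37r9_algebraD A M
  refine IsScalarTower.of_algebraMap_eq fun c => ?_
  have h1 : algebraMap (IsLocalRing.ResidueField ↥A)
      ↥(integralClosure (IsLocalRing.ResidueField ↥A)[X]
        ↥(modularFunctionFieldFullC (IsLocalRing.ResidueField ↥A) M)) c =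
      algebraMap (IsLocalRing.ResidueField ↥A)[X]
        ↥(integralClosure (IsLocalRing.ResidueField ↥A)[X]
          ↥(modularFunctionFieldFullC (IsLocalRing.ResidueField ↥A) M)) (Polynomial.C c) := rfl
  rw [h1, ← IsScalarTower.algebraMap_apply, hAlg, Polynomial.aeval_C]

include hA in
/-- `D` is a Dedekind domain with fraction field `F_κ(M)` ([RB]). -/
theorem s37r9_dedekindD
    (x : ↥(modularFunctionFieldFullC (IsLocalRing.ResidueField ↥A) M))
    (hx : s37b_Coord (IsLocalRing.ResidueField ↥A) ℓ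
      (x : LaurentSeries (IsLocalRing.ResidueField ↥A)))
    (hAlg : ∀ p : (IsLocalRing.ResidueField ↥A)[X],
      algebraMap (IsLocalRing.ResidueField ↥A)[X]
        ↥(modularFunctionFieldFullC (IsLocalRing.ResidueField ↥A) M) p = Polynomial.aeval x p) :
    IsDedekindDomain ↥(integralClosure (IsLocalRing.ResidueField ↥A)[X]
        ↥(modularFunctionFieldFullC (IsLocalRing.ResidueField ↥A) M)) ∧
      IsFractionRing ↥(integralClosure (IsLocalRing.ResidueField ↥A)[X]
        ↥(modularFunctionFieldFullC (IsLocalRing.ResidueField ↥A) M))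
        ↥(modularFunctionFieldFullC (IsLocalRing.ResidueField ↥A) M) := by
  haveI : Algebra.IsAlgebraic ℚ Qbar := AlgebraicClosure.isAlgebraic ℚ
  exact s37b_dedekind_residue A (Fact.out : ℓ.Prime) hA M x hx hAlg

/-- `D` is regular wherever the coordinate is. -/
theorem s37r9_reg
    (x : ↥(modularFunctionFieldFullC (IsLocalRing.ResidueField ↥A) M))
    (hAlg : ∀ p : (IsLocalRing.ResidueField ↥A)[X],
      algebraMap (IsLocalRing.ResidueField ↥A)[X]
        ↥(modularFunctionFieldFullC (IsLocalRing.ResidueField ↥A) M) p = Polynomial.aeval x p)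
    (Q : Place (IsLocalRing.ResidueField ↥A)
      ↥(modularFunctionFieldFullC (IsLocalRing.ResidueField ↥A) M))
    (hxQ : x ∈ Q.toValuationSubring)
    (d : ↥(integralClosure (IsLocalRing.ResidueField ↥A)[X]
      ↥(modularFunctionFieldFullC (IsLocalRing.ResidueField ↥A) M))) :
    algebraMap ↥(integralClosure (IsLocalRing.ResidueField ↥A)[X]
        ↥(modularFunctionFieldFullC (IsLocalRing.ResidueField ↥A) M))
      ↥(modularFunctionFieldFullC (IsLocalRing.ResidueField ↥A) M) d ∈ Q.toValuationSubring := by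
  -- the structure map lands in `O_Q`
  have hmem : ∀ p : (IsLocalRing.ResidueField ↥A)[X],
      algebraMap (IsLocalRing.ResidueField ↥A)[X]
        ↥(modularFunctionFieldFullC (IsLocalRing.ResidueField ↥A) M) p ∈
        Q.toValuationSubring := by
    intro p
    rw [hAlg, Polynomial.aeval_def, Polynomial.eval₂_eq_sum_range]
    refine Subring.sum_mem _ fun i _ => ?_
    exact Subring.mul_mem _ (Q.algebraMap_mem' _) (Subring.pow_mem _ hxQ _)
  let φ : (IsLocalRing.ResidueField ↥A)[X] →+* ↥Q.toValuationSubring :=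
    (algebraMap (IsLocalRing.ResidueField ↥A)[X]
      ↥(modularFunctionFieldFullC (IsLocalRing.ResidueField ↥A) M)).codRestrict
      Q.toValuationSubring hmem
  obtain ⟨p, hpm, hp⟩ := d.2
  have hint : IsIntegral ↥Q.toValuationSubring
      ((d : ↥(modularFunctionFieldFullC (IsLocalRing.ResidueField ↥A) M))) := by
    refine ⟨p.map φ, hpm.map _, ?_⟩
    rw [Polynomial.eval₂_map]
    have hcomp : (algebraMap ↥Q.toValuationSubring
        ↥(modularFunctionFieldFullC (IsLocalRing.ResidueField ↥A) M)).comp φ =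
        algebraMap (IsLocalRing.ResidueField ↥A)[X]
          ↥(modularFunctionFieldFullC (IsLocalRing.ResidueField ↥A) M) := by
      ext <;> rfl
    rw [hcomp]
    exact hp
  obtain ⟨y, hy⟩ := (IsIntegrallyClosed.isIntegral_iff
    (R := ↥Q.toValuationSubring)
    (K := ↥(modularFunctionFieldFullC (IsLocalRing.ResidueField ↥A) M))).mp hint
  have hy' : ((y : ↥Q.toValuationSubring) :
      ↥(modularFunctionFieldFullC (IsLocalRing.ResidueField ↥A) M)) =
      (d : ↥(modularFunctionFieldFullC (IsLocalRing.ResidueField ↥A) M)) := hy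
  show (d : ↥(modularFunctionFieldFullC (IsLocalRing.ResidueField ↥A) M)) ∈ Q.toValuationSubring
  rw [← hy']
  exact y.2

/-- **the reduction on the chart ring, with values in `D`** (co-restriction of `s37r_Psi` by the
integrality half of (P3)). -/
def s37r9_PsiD
    (hP3i : ∀ b : ↥(s37r_B A M hA w), IsIntegral (IsLocalRing.ResidueField ↥A)[X]
      (s37r_Psi A M hA hℓM w b)) :
    ↥(s37r_B A M hA w) →+* ↥(integralClosure (IsLocalRing.ResidueField ↥A)[X]
      ↥(modularFunctionFieldFullC (IsLocalRing.ResidueField ↥A) M)) :=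
  (s37r_Psi A M hA hℓM w).codRestrict
    (integralClosure (IsLocalRing.ResidueField ↥A)[X]
      ↥(modularFunctionFieldFullC (IsLocalRing.ResidueField ↥A) M)) hP3i

theorem s37r9_coe_PsiD
    (hP3i : ∀ b : ↥(s37r_B A M hA w), IsIntegral (IsLocalRing.ResidueField ↥A)[X]
      (s37r_Psi A M hA hℓM w b)) (b : ↥(s37r_B A M hA w)) :
    ((s37r9_PsiD A M hA hℓM w hP3i b : ↥(integralClosure (IsLocalRing.ResidueField ↥A)[X]
      ↥(modularFunctionFieldFullC (IsLocalRing.ResidueField ↥A) M))) :
      ↥(modularFunctionFieldFullC (IsLocalRing.ResidueField ↥A) M)) =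
      s37r_Psi A M hA hℓM w b := rfl

/-- **(P9) the concrete chart hypotheses.** -/
theorem s37r9_chartHyp (hlev : s37r_LevelInputs A M w) (hwO : w ∈ s37r_OF A M hA)
    (hAlg : ∀ p : (IsLocalRing.ResidueField ↥A)[X],
      algebraMap (IsLocalRing.ResidueField ↥A)[X]
        ↥(modularFunctionFieldFullC (IsLocalRing.ResidueField ↥A) M) p =
        Polynomial.aeval (s37r_redF A M hA hℓM ⟨w, hwO⟩) p)
    (hcoord : s37b_Coord (IsLocalRing.ResidueField ↥A) ℓ
      ((s37r_redF A M hA hℓM ⟨w, hwO⟩ :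
        ↥(modularFunctionFieldFullC (IsLocalRing.ResidueField ↥A) M)) :
        LaurentSeries (IsLocalRing.ResidueField ↥A)))
    (hP2 : s37r_HInv (s37r_OF A M hA) (s37r_S M w))
    (hP3i : ∀ b : ↥(s37r_B A M hA w), IsIntegral (IsLocalRing.ResidueField ↥A)[X]
      (s37r_Psi A M hA hℓM w b))
    (hP3s : ∀ z : ↥(modularFunctionFieldFullC (IsLocalRing.ResidueField ↥A) M),
      IsIntegral (IsLocalRing.ResidueField ↥A)[X] z →
        ∃ b : ↥(s37r_B A M hA w), s37r_Psi A M hA hℓM w b = z)
    (hP7 : ∀ y : ↥(modularFunctionFieldBar M), y ∈ s37r_OF A M hA →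
      ∃ b₂ : ↥(s37r_B A M hA w), s37r_Psi A M hA hℓM w b₂ ≠ 0 ∧
        y * (b₂ : ↥(modularFunctionFieldBar M)) ∈ s37r_B A M hA w) :
    haveI : FFGen Qbar (ffd_jBar M) := s18r_ffGen M
    s37r_ChartHyp (ffd_jBar M) A (IsLocalRing.residue ↥A) (s37r_OF A M hA)
      (s37r_redF A M hA hℓM) w (s37r9_PsiD A M hA hℓM w hP3i) := by
  haveI : FFGen Qbar (ffd_jBar M) := s18r_ffGen M
  -- `w̄` is not constant
  have hnc : ∀ c : IsLocalRing.ResidueField ↥A, s37r_redF A M hA hℓM ⟨w, hwO⟩ ≠
      algebraMap (IsLocalRing.ResidueField ↥A)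
        ↥(modularFunctionFieldFullC (IsLocalRing.ResidueField ↥A) M) c := by
    intro c hc
    apply hcoord.1
    rw [hc]
    exact isAlgebraic_algebraMap (R := IsLocalRing.ResidueField ↥A)
      (A := LaurentSeries (IsLocalRing.ResidueField ↥A)) c
  refine
    { pi_surj := IsLocalRing.residue_surjective
      unit_of_ne := s37r9_unit_of_ne A
      fin := s37r9_fin M
      const_mem := fun c => s37r4_const_mem_OF A M hA (c : Qbar) c.2
      red_const := s37r9_red_const A M hA hℓM
      inv_mem := s37r9_inv_mem A M hA hℓM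
      w_mem := hwO
      w_nonconst := hnc
      psi_eq := fun b => rfl
      psi_surj := ?_
      ker := ?_
      value := ?_
      hinv := hP2
      alpha := ?_
      reg := ?_ }
  · -- psi_surj
    intro d
    obtain ⟨b, hb⟩ := hP3s (d : ↥(modularFunctionFieldFullC (IsLocalRing.ResidueField ↥A) M)) d.2
    exact ⟨b, Subtype.ext hb⟩
  · -- ker
    intro b hb
    obtain ⟨c, b', hc, hcinv, hbb'⟩ := s37r4_ker A M hA hℓM w hlev b hb
    exact ⟨⟨c, hc⟩, b', s37r9_residue_eq_zero A c hc hcinv, hbb'⟩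
  · -- value
    intro P hP hev b
    set c : Qbar := s37pv_ev (ffd_jBar M) P ⟨w, hP⟩ with hc
    rcases (s37pv_ev_coe_eq_iff (ffd_jBar M) P ⟨w, hP⟩ c).mp rfl with hwc | hwc
    · -- `w` constant: impossible
      exfalso
      have hwc' : w = algebraMap Qbar ↥(modularFunctionFieldBar M) c := hwc
      apply hnc (IsLocalRing.residue ↥A ⟨c, hev⟩)
      rw [← s37r9_red_const A M hA hℓM ⟨c, hev⟩]
      congr 1
      exact Subtype.ext hwc'
    · obtain ⟨c', hc', hbc'⟩ := s37r4_value A M hA w hlev b P c hev hwc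
      have hbP : (b : ↥(modularFunctionFieldBar M)) ∈ P.toValuationSubring := b.2.2 P hP
      have : s37pv_ev (ffd_jBar M) P ⟨(b : ↥(modularFunctionFieldBar M)), hbP⟩ = c' :=
        (s37pv_ev_coe_eq_iff (ffd_jBar M) P ⟨(b : ↥(modularFunctionFieldBar M)), hbP⟩ c').mpr hbc'
      rw [this]
      exact hc'
  · -- alpha
    intro y hy
    obtain ⟨b₂, hb₂, hyb⟩ := hP7 y hy
    exact ⟨b₂, hb₂, hyb⟩
  · -- reg
    intro Q hQ d
    exact s37r9_reg A M (s37r_redF A M hA hℓM ⟨w, hwO⟩) hAlg Q hQ d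

end DPackage

end Fermat.Agent.Lib.S37
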