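/-
S37 moonshot (M-B), package [R], leaf (P9), second layer (lead): `s37r_ChartHyp` for a coordinate
`w` with level inputs, with the landed leaves (P2) `s37r2_hinv` and (P7) `s37r7_alpha` plugged in.
What remains as hypotheses: the level inputs `hlev`, the coordinate property `hcoord` of `w̄`, and
the two halves of (P3).  The algebra structure `κ[X] → F_κ(M)` is the canonical one `X ↦ w̄`.
-/
import Fermat.Agent.Lib.S37.RInst
import Fermat.Agent.Lib.S37.RHinv
import Fermat.Agent.Lib.S37.RAlpha

set_option autoImplicit false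
set_option linter.style.haveILetI false
set_option linter.unusedSectionVars false
set_option synthInstance.maxHeartbeats 400000
set_option maxHeartbeats 800000

noncomputable section

namespace Fermat.Agent.Lib.S37

open ModularCurve HahnSeries AlgebraicCurve Fermat.Agent.Lib.S18 Fermat.Agent.Lib.FF Polynomial

local notation "Qbar" => AlgebraicClosure ℚ

variable (A : ValuationSubring Qbar) (M : ℕ) [NeZero M] {ℓ : ℕ} [Fact ℓ.Prime]
  (hA : A.LiesOverPrime ℓ) (hℓM : ¬ ℓ ∣ M) (w : ↥(modularFunctionFieldBar M))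

/-- the canonical algebra structure `κ[X] → F_κ(M)`, `X ↦ x`. -/
abbrev s37r9_algebraX (x : ↥(modularFunctionFieldFullC (IsLocalRing.ResidueField ↥A) M)) :
    Algebra (IsLocalRing.ResidueField ↥A)[X]
      ↥(modularFunctionFieldFullC (IsLocalRing.ResidueField ↥A) M) :=
  (Polynomial.aeval x).toRingHom.toAlgebra

theorem s37r9_algebraX_apply (x : ↥(modularFunctionFieldFullC (IsLocalRing.ResidueField ↥A) M))
    (p : (IsLocalRing.ResidueField ↥A)[X]) :
    letI := s37r9_algebraX A M x
    algebraMap (IsLocalRing.ResidueField ↥A)[X]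
      ↥(modularFunctionFieldFullC (IsLocalRing.ResidueField ↥A) M) p = Polynomial.aeval x p :=
  rfl

/-- **(P9), with (P2) and (P7) plugged in**, for any algebra structure through `X ↦ w̄`. -/
theorem s37r9_chartHyp_of_P3 (hlev : s37r_LevelInputs A M w)
    [Algebra (IsLocalRing.ResidueField ↥A)[X]
      ↥(modularFunctionFieldFullC (IsLocalRing.ResidueField ↥A) M)]
    (hAlg : ∀ p : (IsLocalRing.ResidueField ↥A)[X],
      algebraMap (IsLocalRing.ResidueField ↥A)[X]
        ↥(modularFunctionFieldFullC (IsLocalRing.ResidueField ↥A) M) p =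
        Polynomial.aeval (s37r_redF A M hA hℓM ⟨w, s37r7_w_mem_OF A M hA w hlev⟩) p)
    (hcoord : s37b_Coord (IsLocalRing.ResidueField ↥A) ℓ
      ((s37r_redF A M hA hℓM ⟨w, s37r7_w_mem_OF A M hA w hlev⟩ :
        ↥(modularFunctionFieldFullC (IsLocalRing.ResidueField ↥A) M)) :
        LaurentSeries (IsLocalRing.ResidueField ↥A)))
    (hP3i : ∀ b : ↥(s37r_B A M hA w), IsIntegral (IsLocalRing.ResidueField ↥A)[X]
      (s37r_Psi A M hA hℓM w b))
    (hP3s : ∀ z : ↥(modularFunctionFieldFullC (IsLocalRing.ResidueField ↥A) M),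
      IsIntegral (IsLocalRing.ResidueField ↥A)[X] z →
        ∃ b : ↥(s37r_B A M hA w), s37r_Psi A M hA hℓM w b = z) :
    haveI : FFGen Qbar (ffd_jBar M) := s18r_ffGen M
    s37r_ChartHyp (ffd_jBar M) A (IsLocalRing.residue ↥A) (s37r_OF A M hA)
      (s37r_redF A M hA hℓM) w (s37r9_PsiD A M hA hℓM w hP3i) :=
  s37r9_chartHyp A M hA hℓM w hlev (s37r7_w_mem_OF A M hA w hlev) hAlg hcoord
    (s37r2_hinv A M hA w hlev) hP3i hP3s
    (s37r7_alpha A M hA hℓM w hlev (s37r7_w_mem_OF A M hA w hlev)
      (s37b_transcendental_of_coe (IsLocalRing.ResidueField ↥A) M _ hcoord.1))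

end Fermat.Agent.Lib.S37
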