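/-
S37 moonshot (M-B), package [R] (helper3): the concrete chart package and the two-chart assembly.

* `s37rp_chartPackage`: for a coordinate `w` with level inputs, coordinate property of `w̄` and the
  surjectivity half of (P3) (instance-free form), the Dedekind domain `D = integralClosure κ[w̄]`
  with all its structure, hidden behind existentials (so that the two charts `w`, `w⁻¹`, whose
  `κ[X]`-algebra structures on `F_κ(M)` differ, can be used side by side), and `s37r_ChartHyp`;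
* `s37rp_exists`: `∃ r, IsPlaceReductionModL A M r` from the packages of `w` and `w⁻¹`.
-/
import Fermat.Agent.Lib.S37.RInst2
import Fermat.Agent.Lib.S37.RIntegral
import Fermat.Agent.Lib.S37.RBridge
import Fermat.Agent.Lib.S37.RTwo

set_option autoImplicit false
set_option linter.style.haveILetI false
set_option linter.unusedSectionVars false
set_option synthInstance.maxHeartbeats 400000
set_option maxHeartbeats 800000

noncomputable section

namespace Fermat.Agent.Lib.S37

open ModularCurve HahnSeries AlgebraicCurve Fermat.Agent.Lib.S18 Fermat.Agent.Lib.FF Polynomial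

local notation "Qbar" => AlgebraicClosure ℚ

variable (A : ValuationSubring Qbar) (M : ℕ) [NeZero M] {ℓ : ℕ} [Fact ℓ.Prime]
  (hA : A.LiesOverPrime ℓ) (hℓM : ¬ ℓ ∣ M) (w : ↥(modularFunctionFieldBar M))

/-- **the chart package** of the coordinate `w`. -/
theorem s37rp_chartPackage (hlev : s37r_LevelInputs A M w)
    (hcoord : s37b_Coord (IsLocalRing.ResidueField ↥A) ℓ
      ((s37r_redF A M hA hℓM ⟨w, s37r7_w_mem_OF A M hA w hlev⟩ :
        ↥(modularFunctionFieldFullC (IsLocalRing.ResidueField ↥A) M)) :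
        LaurentSeries (IsLocalRing.ResidueField ↥A)))
    (hP3s : ∀ z : ↥(modularFunctionFieldFullC (IsLocalRing.ResidueField ↥A) M),
      ((Polynomial.aeval (s37r_redF A M hA hℓM ⟨w, s37r7_w_mem_OF A M hA w hlev⟩) :
        (IsLocalRing.ResidueField ↥A)[X] →ₐ[IsLocalRing.ResidueField ↥A]
          ↥(modularFunctionFieldFullC (IsLocalRing.ResidueField ↥A) M)) :
        (IsLocalRing.ResidueField ↥A)[X] →+*
          ↥(modularFunctionFieldFullC (IsLocalRing.ResidueField ↥A) M)).IsIntegralElem z →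
        ∃ b : ↥(s37r_B A M hA w), s37r_Psi A M hA hℓM w b = z) :
    haveI : FFGen Qbar (ffd_jBar M) := s18r_ffGen M
    ∃ (D : Type) (_ : CommRing D) (_ : IsDedekindDomain D)
      (_ : Algebra D ↥(modularFunctionFieldFullC (IsLocalRing.ResidueField ↥A) M))
      (_ : IsFractionRing D ↥(modularFunctionFieldFullC (IsLocalRing.ResidueField ↥A) M))
      (_ : Algebra (IsLocalRing.ResidueField ↥A) D)
      (_ : IsScalarTower (IsLocalRing.ResidueField ↥A) D
        ↥(modularFunctionFieldFullC (IsLocalRing.ResidueField ↥A) M))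
      (PsiD : ↥(s37r_B A M hA w) →+* D),
      s37r_ChartHyp (ffd_jBar M) A (IsLocalRing.residue ↥A) (s37r_OF A M hA)
        (s37r_redF A M hA hℓM) w PsiD := by
  haveI : FFGen Qbar (ffd_jBar M) := s18r_ffGen M
  letI algX := s37r9_algebraX A M (s37r_redF A M hA hℓM ⟨w, s37r7_w_mem_OF A M hA w hlev⟩)
  have hAlg : ∀ p : (IsLocalRing.ResidueField ↥A)[X],
      algebraMap (IsLocalRing.ResidueField ↥A)[X]
        ↥(modularFunctionFieldFullC (IsLocalRing.ResidueField ↥A) M) p =
        Polynomial.aeval (s37r_redF A M hA hℓM ⟨w, s37r7_w_mem_OF A M hA w hlev⟩) p :=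
    fun _ => rfl
  obtain ⟨hDed, hFrac⟩ := s37r9_dedekindD A M hA _ hcoord hAlg
  letI algD := s37r9_algebraD A M
  have hTower := s37r9_isScalarTowerD A M _ hAlg
  have hP3i := s37r3i_Psi_isIntegral A M hA hℓM w hlev (s37r7_w_mem_OF A M hA w hlev) hAlg
  have hP3s' : ∀ z : ↥(modularFunctionFieldFullC (IsLocalRing.ResidueField ↥A) M),
      IsIntegral (IsLocalRing.ResidueField ↥A)[X] z →
        ∃ b : ↥(s37r_B A M hA w), s37r_Psi A M hA hℓM w b = z := fun z hz => hP3s z hz
  exact ⟨_, inferInstance, hDed, inferInstance, hFrac, algD, hTower,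
    s37r9_PsiD A M hA hℓM w hP3i,
    s37r9_chartHyp_of_P3 A M hA hℓM w hlev hAlg hcoord hP3i hP3s'⟩

/-- **the place reduction exists**, from the chart packages of `w` and `w⁻¹`. -/
theorem s37rp_exists (hlev₁ : s37r_LevelInputs A M w) (hlev₂ : s37r_LevelInputs A M w⁻¹)
    (hcoord₁ : s37b_Coord (IsLocalRing.ResidueField ↥A) ℓ
      ((s37r_redF A M hA hℓM ⟨w, s37r7_w_mem_OF A M hA w hlev₁⟩ :
        ↥(modularFunctionFieldFullC (IsLocalRing.ResidueField ↥A) M)) :
        LaurentSeries (IsLocalRing.ResidueField ↥A)))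
    (hcoord₂ : s37b_Coord (IsLocalRing.ResidueField ↥A) ℓ
      ((s37r_redF A M hA hℓM ⟨w⁻¹, s37r7_w_mem_OF A M hA w⁻¹ hlev₂⟩ :
        ↥(modularFunctionFieldFullC (IsLocalRing.ResidueField ↥A) M)) :
        LaurentSeries (IsLocalRing.ResidueField ↥A)))
    (hP3s₁ : ∀ z : ↥(modularFunctionFieldFullC (IsLocalRing.ResidueField ↥A) M),
      ((Polynomial.aeval (s37r_redF A M hA hℓM ⟨w, s37r7_w_mem_OF A M hA w hlev₁⟩) :
        (IsLocalRing.ResidueField ↥A)[X] →ₐ[IsLocalRing.ResidueField ↥A]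
          ↥(modularFunctionFieldFullC (IsLocalRing.ResidueField ↥A) M)) :
        (IsLocalRing.ResidueField ↥A)[X] →+*
          ↥(modularFunctionFieldFullC (IsLocalRing.ResidueField ↥A) M)).IsIntegralElem z →
        ∃ b : ↥(s37r_B A M hA w), s37r_Psi A M hA hℓM w b = z)
    (hP3s₂ : ∀ z : ↥(modularFunctionFieldFullC (IsLocalRing.ResidueField ↥A) M),
      ((Polynomial.aeval (s37r_redF A M hA hℓM ⟨w⁻¹, s37r7_w_mem_OF A M hA w⁻¹ hlev₂⟩) :
        (IsLocalRing.ResidueField ↥A)[X] →ₐ[IsLocalRing.ResidueField ↥A]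
          ↥(modularFunctionFieldFullC (IsLocalRing.ResidueField ↥A) M)) :
        (IsLocalRing.ResidueField ↥A)[X] →+*
          ↥(modularFunctionFieldFullC (IsLocalRing.ResidueField ↥A) M)).IsIntegralElem z →
        ∃ b : ↥(s37r_B A M hA w⁻¹), s37r_Psi A M hA hℓM w⁻¹ b = z) :
    ∃ r, IsPlaceReductionModL A M r := by
  haveI : FFGen Qbar (ffd_jBar M) := s18r_ffGen M
  obtain ⟨D₁, i1, i2, i3, i4, i5, i6, PsiD₁, h₁⟩ :=
    s37rp_chartPackage A M hA hℓM w hlev₁ hcoord₁ hP3s₁
  obtain ⟨D₂, j1, j2, j3, j4, j5, j6, PsiD₂, h₂⟩ :=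
    s37rp_chartPackage A M hA hℓM w⁻¹ hlev₂ hcoord₂ hP3s₂
  obtain ⟨r, hr⟩ := s37r_exists_reduction h₁ h₂
  exact ⟨r, s37r10_isPlaceReduction A M hA hℓM r hr⟩

end Fermat.Agent.Lib.S37
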