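/-
S37 moonshot (M-B), package [R], leaf (P3), final form (helper2): for a coordinate `w` with level
inputs, the reduction `Ψ : B → F_κ(M)` of the top-level chart ring

* takes values integral over `κ[w̄]` (`s37r3_Psi_isIntegral`), and
* is onto the elements integral over `κ[w̄]` (`s37r3_Psi_surjective`),

glue of (P3a) `s37r3a_hmain` (helper3), (P3b) `s37kd_descent` (helper6) and (P3c)
`s37r3_Psi_surjective_of`.
-/
import Fermat.Agent.Lib.S37.RSurjOf
import Fermat.Agent.Lib.S37.RSurjA
import Fermat.Agent.Lib.S37.KDescent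

set_option autoImplicit false
set_option linter.style.haveILetI false
set_option linter.unusedSectionVars false
set_option synthInstance.maxHeartbeats 400000
set_option maxHeartbeats 800000

noncomputable section

namespace Fermat.Agent.Lib.S37

open ModularCurve HahnSeries AlgebraicCurve Fermat.Agent.Lib.S18 Fermat.Agent.Lib.FF Polynomial

local notation "Qbar" => AlgebraicClosure ℚ

variable (A : ValuationSubring Qbar) (M : ℕ) [NeZero M] {ℓ : ℕ} [Fact ℓ.Prime]
  (hA : A.LiesOverPrime ℓ) (hℓM : ¬ ℓ ∣ M) (w : ↥(modularFunctionFieldBar M))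

/-- (P3a) at the levels of `A`. -/
theorem s37r3_levelMain : s37r3_LevelMain A M := by
  intro L₀ _ hdvr ϖ hϖ hT hdeg w₀ hwV hα hS htr z hz
  haveI : IsDiscreteValuationRing ↥(s37r_G A L₀ ϖ hϖ).A := hdvr
  have hπ : Function.Surjective (s37r_G A L₀ ϖ hϖ).π := IsLocalRing.residue_surjective
  exact s37r3a_hmain (s37r_G A L₀ ϖ hϖ) M hπ hT hdeg w₀ hwV hα hS htr z hz

/-- (P3b). -/
theorem s37r3_descent : s37r3_Descent A M :=
  fun L₁ _ wb z hz => s37kd_descent A M L₁ wb z hz

/-- **(P3), integrality**: `Ψ b` is integral over `κ[w̄]`. -/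
theorem s37r3_Psi_isIntegral (hlev : s37r_LevelInputs A M w) (hwO : w ∈ s37r_OF A M hA)
    [Algebra (IsLocalRing.ResidueField ↥A)[X]
      ↥(modularFunctionFieldFullC (IsLocalRing.ResidueField ↥A) M)]
    (hAlg : ∀ p : (IsLocalRing.ResidueField ↥A)[X],
      algebraMap (IsLocalRing.ResidueField ↥A)[X]
        ↥(modularFunctionFieldFullC (IsLocalRing.ResidueField ↥A) M) p =
        Polynomial.aeval (s37r_redF A M hA hℓM ⟨w, hwO⟩) p)
    (b : ↥(s37r_B A M hA w)) :
    IsIntegral (IsLocalRing.ResidueField ↥A)[X] (s37r_Psi A M hA hℓM w b) :=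
  s37r3c_Psi_isIntegral A M hA hℓM w hlev hwO hAlg b

/-- **(P3), surjectivity**: every element of `F_κ(M)` integral over `κ[w̄]` is the reduction of an
element of the top-level chart ring. -/
theorem s37r3_Psi_surjective (hlev : s37r_LevelInputs A M w) (hwO : w ∈ s37r_OF A M hA)
    (htr : Transcendental (IsLocalRing.ResidueField ↥A) (s37r_redF A M hA hℓM ⟨w, hwO⟩))
    [Algebra (IsLocalRing.ResidueField ↥A)[X]
      ↥(modularFunctionFieldFullC (IsLocalRing.ResidueField ↥A) M)]
    (hAlg : ∀ p : (IsLocalRing.ResidueField ↥A)[X],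
      algebraMap (IsLocalRing.ResidueField ↥A)[X]
        ↥(modularFunctionFieldFullC (IsLocalRing.ResidueField ↥A) M) p =
        Polynomial.aeval (s37r_redF A M hA hℓM ⟨w, hwO⟩) p)
    (z : ↥(modularFunctionFieldFullC (IsLocalRing.ResidueField ↥A) M))
    (hz : IsIntegral (IsLocalRing.ResidueField ↥A)[X] z) :
    ∃ b : ↥(s37r_B A M hA w), s37r_Psi A M hA hℓM w b = z :=
  s37r3_Psi_surjective_of A M hA hℓM w (s37r3_levelMain A M) (s37r3_descent A M) hlev hwO htr
    hAlg z hz

end Fermat.Agent.Lib.S37
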