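/-
S37 moonshot (M-B), package [R] (helper3): **`s37r_exists : s37x_RExists`** — a place reduction
exists at every good level.  Assembly of RLevel (coordinates and level inputs), BConc (coordinate
property on the special fibre), RSurj ((P3)), RPack (chart packages + two-chart assembly + bridge).
-/
import Fermat.Agent.Lib.S37.RPack
import Fermat.Agent.Lib.S37.RSurj
import Fermat.Agent.Lib.S37.RLevel
import Fermat.Agent.Lib.S37.XGood

set_option autoImplicit false
set_option linter.style.haveILetI false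
set_option linter.unusedSectionVars false
set_option synthInstance.maxHeartbeats 400000
set_option maxHeartbeats 1600000

noncomputable section

namespace Fermat.Agent.Lib.S37

open ModularCurve HahnSeries AlgebraicCurve Fermat.Agent.Lib.S18 Fermat.Agent.Lib.FF Polynomial

local notation "Qbar" => AlgebraicClosure ℚ

variable (A : ValuationSubring Qbar) (M : ℕ) [NeZero M] {ℓ : ℕ} [Fact ℓ.Prime]
  (hA : A.LiesOverPrime ℓ) (hℓM : ¬ ℓ ∣ M) (w : ↥(modularFunctionFieldBar M))

/-- the surjectivity half of (P3), in the instance-free form consumed by `s37rp_chartPackage`. -/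
theorem s37r_P3s (hlev : s37r_LevelInputs A M w)
    (hcoord : s37b_Coord (IsLocalRing.ResidueField ↥A) ℓ
      ((s37r_redF A M hA hℓM ⟨w, s37r7_w_mem_OF A M hA w hlev⟩ :
        ↥(modularFunctionFieldFullC (IsLocalRing.ResidueField ↥A) M)) :
        LaurentSeries (IsLocalRing.ResidueField ↥A)))
    (z : ↥(modularFunctionFieldFullC (IsLocalRing.ResidueField ↥A) M))
    (hz : ((Polynomial.aeval (s37r_redF A M hA hℓM ⟨w, s37r7_w_mem_OF A M hA w hlev⟩) :
        (IsLocalRing.ResidueField ↥A)[X] →ₐ[IsLocalRing.ResidueField ↥A]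
          ↥(modularFunctionFieldFullC (IsLocalRing.ResidueField ↥A) M)) :
        (IsLocalRing.ResidueField ↥A)[X] →+*
          ↥(modularFunctionFieldFullC (IsLocalRing.ResidueField ↥A) M)).IsIntegralElem z) :
    ∃ b : ↥(s37r_B A M hA w), s37r_Psi A M hA hℓM w b = z := by
  letI algX := s37r9_algebraX A M (s37r_redF A M hA hℓM ⟨w, s37r7_w_mem_OF A M hA w hlev⟩)
  exact s37r3_Psi_surjective A M hA hℓM w hlev (s37r7_w_mem_OF A M hA w hlev)
    (s37b_transcendental_of_coe (IsLocalRing.ResidueField ↥A) M _ hcoord.1)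
    (fun _ => rfl) z hz

include hA hℓM in
/-- **a place reduction exists at every good level** (fixed `A`, `M`, `ℓ`). -/
theorem s37r_exists_of_good (hgood : s18_GoodLevel ℓ M) : ∃ r, IsPlaceReductionModL A M r := by
  obtain ⟨w, hwO, hwinvO, hw0, hlev₁, hlev₂, hred⟩ := s37rl_exists_coord A M hA hℓM hgood
  have hcoord₁ : s37b_Coord (IsLocalRing.ResidueField ↥A) ℓ
      ((s37r_redF A M hA hℓM ⟨w, s37r7_w_mem_OF A M hA w hlev₁⟩ :
        ↥(modularFunctionFieldFullC (IsLocalRing.ResidueField ↥A) M)) :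
        LaurentSeries (IsLocalRing.ResidueField ↥A)) := by
    rcases hred with h | h | h
    · rw [h]; exact s37b_coord_jq _ ℓ
    · rw [h]; exact s37b_coord_t2 _ ℓ
    · rw [h]; exact s37b_coord_t3 _ ℓ
  have hcoord₂ : s37b_Coord (IsLocalRing.ResidueField ↥A) ℓ
      ((s37r_redF A M hA hℓM ⟨w⁻¹, s37r7_w_mem_OF A M hA w⁻¹ hlev₂⟩ :
        ↥(modularFunctionFieldFullC (IsLocalRing.ResidueField ↥A) M)) :
        LaurentSeries (IsLocalRing.ResidueField ↥A)) := by
    rw [s37rl_redF_inv A M hA hℓM hw0 (s37r7_w_mem_OF A M hA w hlev₁), IntermediateField.coe_inv]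
    exact s37b_coord_inv hcoord₁
  exact s37rp_exists A M hA hℓM w hlev₁ hlev₂ hcoord₁ hcoord₂
    (s37r_P3s A M hA hℓM w hlev₁ hcoord₁) (s37r_P3s A M hA hℓM w⁻¹ hlev₂ hcoord₂)

/-- **[R]**: `s37x_RExists`. -/
theorem s37r_exists : s37x_RExists := by
  intro M _ ℓ hℓ hgood A hA
  haveI : Fact ℓ.Prime := ⟨hℓ⟩
  exact s37r_exists_of_good A M hA hgood.1 hgood

end Fermat.Agent.Lib.S37
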