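/-
S37, package [R23] (helper8): abstract functoriality of restriction of places, ramification
indices and pull-back of divisors along a composite of algebra homomorphisms of function fields,
equivariance of these constructions under intertwined semilinear automorphisms, and the pull-back
of degree-zero divisor classes along an algebra homomorphism.
-/
import Mathlib
import Fermat.Prelude.Def_AlgebraicCurve_Correspondence

set_option autoImplicit false

namespace Fermat.Agent.Lib.S37

open AlgebraicCurve

noncomputable section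

section Single

variable {K F : Type*} [Field K] [Field F] [Algebra K F]

/-- Every place has a uniformiser. -/
theorem s37l_exists_ord_eq_one (v : Place K F) : ∃ f : F, f ≠ 0 ∧ v.ord f = 1 := by
  obtain ⟨π, hπ⟩ := IsDiscreteValuationRing.exists_irreducible v.toValuationSubring
  refine ⟨(π : F), ?_, v.ord_coe_irreducible hπ⟩
  intro h0
  exact hπ.ne_zero (Subtype.ext h0)

end Single

section Comp

variable {K F F' F'' : Type*} [Field K] [Field F] [Field F'] [Field F'']
  [Algebra K F] [Algebra K F'] [Algebra K F'']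

/-- A composite of integral algebra homomorphisms of fields is integral. -/
theorem s37l_isIntegral_comp (φ : F →ₐ[K] F') (ψ : F' →ₐ[K] F'')
    (hφ : φ.toRingHom.IsIntegral) (hψ : ψ.toRingHom.IsIntegral) :
    (ψ.comp φ).toRingHom.IsIntegral :=
  RingHom.IsIntegral.trans _ _ hφ hψ

/-- Restriction of places is functorial. -/
theorem s37l_restrictAlong_comp (φ : F →ₐ[K] F') (ψ : F' →ₐ[K] F'')
    (hφ : φ.toRingHom.IsIntegral) (hψ : ψ.toRingHom.IsIntegral)
    (hψφ : (ψ.comp φ).toRingHom.IsIntegral) (w : Place K F'') :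
    w.restrictAlong (ψ.comp φ) hψφ = (w.restrictAlong ψ hψ).restrictAlong φ hφ := by
  apply Place.ext
  ext x
  rfl

/-- Ramification indices are multiplicative in towers. -/
theorem s37l_ramificationIndexAlong_comp (φ : F →ₐ[K] F') (ψ : F' →ₐ[K] F'')
    (hφ : φ.toRingHom.IsIntegral) (hψ : ψ.toRingHom.IsIntegral)
    (hψφ : (ψ.comp φ).toRingHom.IsIntegral) (w : Place K F'') :
    Place.ramificationIndexAlong (ψ.comp φ) w =
      Place.ramificationIndexAlong ψ w *
        Place.ramificationIndexAlong φ (w.restrictAlong ψ hψ) := by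
  obtain ⟨f, hf0, hf1⟩ := s37l_exists_ord_eq_one (w.restrictAlong (ψ.comp φ) hψφ)
  have h1 := Place.ord_restrictAlong (ψ.comp φ) hψφ w f
  have h2 := Place.ord_restrictAlong ψ hψ w (φ f)
  have h3 := Place.ord_restrictAlong φ hφ (w.restrictAlong ψ hψ) f
  rw [hf1, mul_one] at h1
  rw [← s37l_restrictAlong_comp φ ψ hφ hψ hψφ w, hf1, mul_one] at h3
  rw [h3] at h2
  have h4 : ((Place.ramificationIndexAlong (ψ.comp φ) w : ℕ) : ℤ) =
      ((Place.ramificationIndexAlong ψ w *
        Place.ramificationIndexAlong φ (w.restrictAlong ψ hψ) : ℕ) : ℤ) := by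
    rw [← h1, Nat.cast_mul, ← h2]
    rfl
  exact_mod_cast h4

/-- Pull-back of divisors is functorial. -/
theorem s37l_pullbackAlong_comp [HasPrincipalDivisors K F'] [HasPrincipalDivisors K F'']
    (φ : F →ₐ[K] F') (ψ : F' →ₐ[K] F'')
    (hφ : φ.toRingHom.IsIntegral) (hψ : ψ.toRingHom.IsIntegral)
    (hψφ : (ψ.comp φ).toRingHom.IsIntegral) (D : Divisor K F) :
    Divisor.pullbackAlong (ψ.comp φ) hψφ D =
      Divisor.pullbackAlong ψ hψ (Divisor.pullbackAlong φ hφ D) := by
  ext w
  rw [Divisor.pullbackAlong_apply, Divisor.pullbackAlong_apply, Divisor.pullbackAlong_apply,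
    s37l_ramificationIndexAlong_comp φ ψ hφ hψ hψφ w, s37l_restrictAlong_comp φ ψ hφ hψ hψφ w]
  push_cast
  ring

/-- Restriction of places only depends on the homomorphism. -/
theorem s37l_restrictAlong_congr {φ φ' : F →ₐ[K] F'} (h : φ = φ')
    (hφ : φ.toRingHom.IsIntegral) (hφ' : φ'.toRingHom.IsIntegral) (w : Place K F') :
    w.restrictAlong φ hφ = w.restrictAlong φ' hφ' := by
  subst h
  rfl

/-- Pull-back of divisors only depends on the homomorphism. -/
theorem s37l_pullbackAlong_congr [HasPrincipalDivisors K F'] {φ φ' : F →ₐ[K] F'} (h : φ = φ')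
    (hφ : φ.toRingHom.IsIntegral) (hφ' : φ'.toRingHom.IsIntegral) (D : Divisor K F) :
    Divisor.pullbackAlong φ hφ D = Divisor.pullbackAlong φ' hφ' D := by
  subst h
  rfl

end Comp

section Equivariance

variable {K F F' : Type*} [Field K] [Field F] [Field F'] [Algebra K F] [Algebra K F']

open scoped Pointwise

/-- Restriction of places commutes with intertwined semilinear automorphisms. -/
theorem s37l_restrictAlong_smul (φ : F →ₐ[K] F') (hφ : φ.toRingHom.IsIntegral)
    (g : SemilinearAut K F) (g' : SemilinearAut K F')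
    (h : SemilinearAut.IntertwinesAlong (φ : F →+* F') g g') (w : Place K F') :
    (g' • w).restrictAlong φ hφ = g • (w.restrictAlong φ hφ) := by
  apply Place.ext
  ext x
  have hinv := h.inv
  show φ x ∈ (g' • w.toValuationSubring : ValuationSubring F') ↔
    x ∈ (g • (w.restrictAlong φ hφ).toValuationSubring : ValuationSubring F)
  rw [ValuationSubring.mem_pointwise_smul_iff_inv_smul_mem,
    ValuationSubring.mem_pointwise_smul_iff_inv_smul_mem]
  have hx : g'⁻¹ • φ x = φ (g⁻¹ • x) := hinv x
  show g'⁻¹ • φ x ∈ w.toValuationSubring ↔ φ (g⁻¹ • x) ∈ w.toValuationSubring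
  rw [hx]

/-- Ramification indices are invariant under intertwined semilinear automorphisms. -/
theorem s37l_ramificationIndexAlong_smul (φ : F →ₐ[K] F') (hφ : φ.toRingHom.IsIntegral)
    (g : SemilinearAut K F) (g' : SemilinearAut K F')
    (h : SemilinearAut.IntertwinesAlong (φ : F →+* F') g g') (w : Place K F') :
    Place.ramificationIndexAlong φ (g' • w) = Place.ramificationIndexAlong φ w := by
  obtain ⟨f, hf0, hf1⟩ := s37l_exists_ord_eq_one (w.restrictAlong φ hφ)
  have h1 := Place.ord_restrictAlong φ hφ w f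
  rw [hf1, mul_one] at h1
  have h2 := Place.ord_restrictAlong φ hφ (g' • w) (g • f)
  rw [s37l_restrictAlong_smul φ hφ g g' h w, SemilinearAut.ord_smul, hf1, mul_one] at h2
  have h3 : (g' • w).ord (φ (g • f)) = w.ord (φ f) := by
    have hf : g' • φ f = φ (g • f) := h f
    rw [← hf]
    exact SemilinearAut.ord_smul g' w _
  have h4 : ((Place.ramificationIndexAlong φ (g' • w) : ℕ) : ℤ) =
      ((Place.ramificationIndexAlong φ w : ℕ) : ℤ) := by
    rw [← h1, ← h2, h3]
  exact_mod_cast h4

/-- Pull-back of divisors commutes with intertwined semilinear automorphisms. -/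
theorem s37l_pullbackAlong_smul [HasPrincipalDivisors K F'] (φ : F →ₐ[K] F')
    (hφ : φ.toRingHom.IsIntegral)
    (g : SemilinearAut K F) (g' : SemilinearAut K F')
    (h : SemilinearAut.IntertwinesAlong (φ : F →+* F') g g') (D : Divisor K F) :
    Divisor.pullbackAlong φ hφ (g • D) = g' • Divisor.pullbackAlong φ hφ D := by
  ext w
  rw [Divisor.pullbackAlong_apply, SemilinearAut.divisor_smul_apply,
    SemilinearAut.divisor_smul_apply, Divisor.pullbackAlong_apply,
    s37l_restrictAlong_smul φ hφ g⁻¹ g'⁻¹ h.inv w,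
    s37l_ramificationIndexAlong_smul φ hφ g⁻¹ g'⁻¹ h.inv w]

end Equivariance

section Pic0

variable {K F F' : Type*} [Field K] [Field F] [Field F'] [Algebra K F] [Algebra K F']
variable [HasPrincipalDivisors K F']

/-- Pull-back of degree-zero divisors along an algebra homomorphism. -/
def s37l_degZeroPullback (φ : F →ₐ[K] F') (hφ : φ.toRingHom.IsIntegral)
    (hFI : FundamentalIdentityAlong K φ hφ) :
    Divisor.degZero (K := K) (F := F) →+ Divisor.degZero (K := K) (F := F') :=
  ((Divisor.pullbackAlong φ hφ).domRestrict (Divisor.degZero (K := K) (F := F))).codRestrict _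
    (fun D => Divisor.pullbackAlong_mem_degZero φ hφ hFI D.2)

@[simp]
theorem s37l_coe_degZeroPullback (φ : F →ₐ[K] F') (hφ : φ.toRingHom.IsIntegral)
    (hFI : FundamentalIdentityAlong K φ hφ) (D : Divisor.degZero (K := K) (F := F)) :
    (s37l_degZeroPullback φ hφ hFI D : Divisor K F') =
      Divisor.pullbackAlong φ hφ (D : Divisor K F) := rfl

/-- Pull-back of degree-zero divisor classes along an algebra homomorphism. -/
def s37l_pic0Pullback (φ : F →ₐ[K] F') (hφ : φ.toRingHom.IsIntegral)
    (hFI : FundamentalIdentityAlong K φ hφ) : Pic0 K F →+ Pic0 K F' :=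
  QuotientAddGroup.map _ _ (s37l_degZeroPullback φ hφ hFI) (by
    rintro ⟨D, hD0⟩ hD
    simp only [AddSubgroup.mem_addSubgroupOf] at hD ⊢
    exact Divisor.isPrincipal_pullbackAlong φ hφ hD)

theorem s37l_pic0Pullback_mk (φ : F →ₐ[K] F') (hφ : φ.toRingHom.IsIntegral)
    (hFI : FundamentalIdentityAlong K φ hφ) (D : Divisor.degZero (K := K) (F := F)) :
    s37l_pic0Pullback φ hφ hFI (Pic0.mk D) = Pic0.mk (s37l_degZeroPullback φ hφ hFI D) := rfl

/-- The pull-back of divisor classes commutes with intertwined semilinear automorphisms. -/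
theorem s37l_pic0Pullback_smul (φ : F →ₐ[K] F') (hφ : φ.toRingHom.IsIntegral)
    (hFI : FundamentalIdentityAlong K φ hφ)
    (g : SemilinearAut K F) (g' : SemilinearAut K F')
    (h : SemilinearAut.IntertwinesAlong (φ : F →+* F') g g') (x : Pic0 K F) :
    s37l_pic0Pullback φ hφ hFI (g • x) = g' • s37l_pic0Pullback φ hφ hFI x := by
  obtain ⟨D, rfl⟩ := Pic0.mk_surjective x
  rw [SemilinearAut.pic0_smul_mk, s37l_pic0Pullback_mk, s37l_pic0Pullback_mk,
    SemilinearAut.pic0_smul_mk]
  refine congrArg Pic0.mk (Subtype.ext ?_)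
  rw [s37l_coe_degZeroPullback, SemilinearAut.coe_degZeroSMulHom,
    SemilinearAut.coe_degZeroSMulHom, s37l_coe_degZeroPullback]
  exact s37l_pullbackAlong_smul φ hφ g g' h _

end Pic0

end

end Fermat.Agent.Lib.S37
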