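/-
S37, package [H] (HeckeInputsAlong), part 1: the LOCAL dictionary for a finite separable extension
`F'/F` of fields over `K` and a place `v` of `F`:  `R := O_v` (a DVR), `S :=` integral closure of `R`
in `F'` (a semilocal Dedekind domain); places `w` of `F'` over `v`  ↔  nonzero primes of `S`.
All names prefixed `s37h_`, namespace `Fermat.Agent.Lib.S37`.
-/
import Mathlib
import Fermat.Prelude.Def_AlgebraicCurve_DivisorPushPull
import Fermat.Agent.Lib.FF.FFBasicPlace

set_option autoImplicit false
set_option linter.style.haveILetI false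
set_option linter.unusedSectionVars false
set_option linter.deprecated false

noncomputable section

open IsDedekindDomain WithZero IsLocalRing AlgebraicCurve
open Fermat.Agent.Lib.FF

namespace Fermat.Agent.Lib.S37

section Generic

variable {K F : Type*} [Field K] [Field F] [Algebra K F]
variable {R : Type*} [CommRing R] [IsDedekindDomain R] [Algebra R F] [IsFractionRing R F]
  [Algebra K R] [IsScalarTower K R F]

/-- membership in the valuation ring of `ofHeightOneSpectrum w` -/
theorem s37h_mem_ofHeightOneSpectrum_iff (w : HeightOneSpectrum R) (f : F) :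
    f ∈ (Place.ofHeightOneSpectrum (K := K) (F := F) w).toValuationSubring ↔ w.valuation F f ≤ 1 :=
  Iff.rfl

/-- the normalised order of `ofHeightOneSpectrum w` is the `w`-adic valuation -/
theorem s37h_ofHeightOneSpectrum_ord (w : HeightOneSpectrum R) (f : F) :
    (Place.ofHeightOneSpectrum (K := K) (F := F) w).ord f = -(WithZero.log (w.valuation F f)) := by
  rcases eq_or_ne f 0 with rfl | hf
  · simp
  set v := Place.ofHeightOneSpectrum (K := K) (F := F) w
  obtain ⟨m, hm, hmf⟩ := ff_ord_unique v (fun f => -(WithZero.log (w.valuation F f)))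
    (fun f g hf hg => by
      simp only [map_mul]
      rw [WithZero.log_mul ((Valuation.ne_zero_iff _).mpr hf) ((Valuation.ne_zero_iff _).mpr hg)]
      ring)
    (fun f hf => by
      rw [s37h_mem_ofHeightOneSpectrum_iff, neg_nonneg, ← WithZero.log_one,
        WithZero.log_le_log ((Valuation.ne_zero_iff _).mpr hf) one_ne_zero])
  obtain ⟨ϖ, hϖ⟩ := w.valuation_exists_uniformizer F
  have hϖ0 : ϖ ≠ 0 := by
    rintro rfl
    rw [map_zero] at hϖ
    exact WithZero.exp_ne_zero hϖ.symm
  have h1 := hmf ϖ hϖ0
  simp only [hϖ, WithZero.log_exp, neg_neg] at h1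
  have hm1 : m = 1 := by
    have hd : m ∣ 1 := ⟨v.ord ϖ, h1⟩
    exact Int.eq_one_of_dvd_one hm.le hd
  have := hmf f hf
  simp only [hm1, one_mul] at this
  exact this.symm

/-- elements of `R` are integral at every `ofHeightOneSpectrum w` -/
theorem s37h_coe_mem_ofHeightOneSpectrum (w : HeightOneSpectrum R) (b : R) :
    algebraMap R F b ∈ (Place.ofHeightOneSpectrum (K := K) (F := F) w).toValuationSubring :=
  w.valuation_le_one b

theorem s37h_ofHeightOneSpectrum_injective :
    Function.Injective (Place.ofHeightOneSpectrum (K := K) (F := F) (R := R)) := by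
  intro w w' h
  apply HeightOneSpectrum.eq_of_valuation_isEquiv_valuation (K := F)
  rw [Valuation.isEquiv_iff_val_le_one]
  intro f
  have := congrArg Place.toValuationSubring h
  rw [← s37h_mem_ofHeightOneSpectrum_iff (K := K) (F := F), ← s37h_mem_ofHeightOneSpectrum_iff (K := K) (F := F), this]

end Generic

section Local

variable {K F F' : Type*} [Field K] [Field F] [Field F'] [Algebra K F] [Algebra K F']
  [Algebra F F'] [IsScalarTower K F F']

/-- `O_v → F'` -/
@[reducible] def s37h_algRF' (v : Place K F) : Algebra v.toValuationSubring F' :=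
  ((algebraMap F F').comp (algebraMap v.toValuationSubring F)).toAlgebra

attribute [local instance 10] s37h_algRF'

instance s37h_towerRFF' (v : Place K F) : IsScalarTower v.toValuationSubring F F' :=
  IsScalarTower.of_algebraMap_eq fun _ => rfl

theorem s37h_algebraMap_RF' (v : Place K F) (a : v.toValuationSubring) :
    algebraMap v.toValuationSubring F' a = algebraMap F F' (a : F) := rfl

/-- `S`: the integral closure of `O_v` in `F'` -/
abbrev s37h_S (v : Place K F) : Subalgebra v.toValuationSubring F' :=
  integralClosure v.toValuationSubring F'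

/-- `K → S` -/
@[reducible] def s37h_algKS (v : Place K F) : Algebra K (s37h_S (F' := F') v) :=
  ((algebraMap v.toValuationSubring (s37h_S (F' := F') v)).comp
    (algebraMap K v.toValuationSubring)).toAlgebra

attribute [local instance 10] s37h_algKS

instance s37h_towerKSF' (v : Place K F) : IsScalarTower K (s37h_S (F' := F') v) F' :=
  IsScalarTower.of_algebraMap_eq fun k => by
    show algebraMap K F' k = algebraMap F F' (algebraMap K F k)
    exact IsScalarTower.algebraMap_apply K F F' k

variable [FiniteDimensional F F'] [CharZero F]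

instance s37h_S_isDedekindDomain (v : Place K F) : IsDedekindDomain (s37h_S (F' := F') v) :=
  integralClosure.isDedekindDomain v.toValuationSubring F F'

instance s37h_S_isFractionRing (v : Place K F) : IsFractionRing (s37h_S (F' := F') v) F' :=
  integralClosure.isFractionRing_of_finite_extension F F'

instance s37h_S_finite (v : Place K F) : Module.Finite v.toValuationSubring (s37h_S (F' := F') v) :=
  IsIntegralClosure.finite v.toValuationSubring F F' (s37h_S (F' := F') v)

end Local

section InvUnit

variable {K F : Type*} [Field K] [Field F] [Algebra K F]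

/-- inverse of a unit of `O_v` lies in `O_v` -/
theorem s37h_inv_mem_of_isUnit (v : Place K F) {a : v.toValuationSubring} (ha : IsUnit a) :
    ((a : F))⁻¹ ∈ v.toValuationSubring := by
  obtain ⟨u, rfl⟩ := ha
  have h4 : (u : v.toValuationSubring) *
      ((u⁻¹ : (v.toValuationSubring)ˣ) : v.toValuationSubring) = 1 := u.mul_inv
  have h3 : ((u : v.toValuationSubring) : F) *
      ((u⁻¹ : (v.toValuationSubring)ˣ) : v.toValuationSubring) = 1 := congrArg (Subtype.val) h4
  rw [inv_eq_of_mul_eq_one_right h3]
  exact Subtype.mem _

end InvUnit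

section Dictionary

variable {K F F' : Type*} [Field K] [Field F] [Field F'] [Algebra K F] [Algebra K F']
  [Algebra F F'] [IsScalarTower K F F'] [FiniteDimensional F F'] [CharZero F]

attribute [local instance 10] s37h_algRF' s37h_algKS

/-- the place of `F'` attached to a nonzero prime of `S` -/
def s37h_placeOf (v : Place K F) (P : HeightOneSpectrum (s37h_S (F' := F') v)) : Place K F' :=
  Place.ofHeightOneSpectrum (K := K) (F := F') P

theorem s37h_placeOf_injective (v : Place K F) :
    Function.Injective (s37h_placeOf (F' := F') v) := fun _ _ h =>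
  s37h_ofHeightOneSpectrum_injective (K := K) (F := F') (R := s37h_S (F' := F') v) h

theorem s37h_placeOf_restrict (v : Place K F) (P : HeightOneSpectrum (s37h_S (F' := F') v)) :
    (s37h_placeOf v P).restrict F = v := by
  symm
  apply ff_place_eq_of_le
  intro f hf
  rw [Place.mem_restrict_iff]
  have h := s37h_coe_mem_ofHeightOneSpectrum (K := K) (F := F') P
    (algebraMap v.toValuationSubring (s37h_S (F' := F') v) ⟨f, hf⟩)
  exact h

/-- `S ⊆ O_w` for every place `w` of `F'` over `v` -/
theorem s37h_S_mem_of_restrict {v : Place K F} {w : Place K F'} (hw : w.restrict F = v)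
    (b : s37h_S (F' := F') v) : (b : F') ∈ w.toValuationSubring := by
  have hb : IsIntegral v.toValuationSubring (b : F') := b.2
  have hmem : ∀ a : v.toValuationSubring, algebraMap F F' (a : F) ∈ w.toValuationSubring := by
    intro a
    have ha : (a : F) ∈ (w.restrict F).toValuationSubring := by rw [hw]; exact a.2
    exact (Place.mem_restrict_iff w).mp ha
  have hb' : IsIntegral w.toValuationSubring (b : F') := by
    obtain ⟨q, hq, hqb⟩ := hb
    let φ : v.toValuationSubring →+* w.toValuationSubring :=
      { toFun := fun a => ⟨algebraMap F F' (a : F), hmem a⟩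
        map_one' := Subtype.ext (by simp)
        map_mul' := fun _ _ => Subtype.ext (by simp)
        map_zero' := Subtype.ext (by simp)
        map_add' := fun _ _ => Subtype.ext (by simp) }
    refine ⟨q.map φ, hq.map φ, ?_⟩
    rw [Polynomial.eval₂_map]
    have : (algebraMap w.toValuationSubring F').comp φ = algebraMap v.toValuationSubring F' := rfl
    rw [this]; exact hqb
  obtain ⟨y, hy⟩ :=
    (IsIntegrallyClosed.isIntegral_iff (R := w.toValuationSubring) (K := F')).mp hb'
  rw [← hy]; exact y.2

/-- the inclusion `S → O_w` -/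
def s37h_StoO {v : Place K F} {w : Place K F'} (hw : w.restrict F = v) :
    s37h_S (F' := F') v →+* w.toValuationSubring where
  toFun b := ⟨b, s37h_S_mem_of_restrict hw b⟩
  map_one' := rfl
  map_mul' _ _ := rfl
  map_zero' := rfl
  map_add' _ _ := rfl

@[simp] theorem s37h_StoO_coe {v : Place K F} {w : Place K F'} (hw : w.restrict F = v)
    (b : s37h_S (F' := F') v) : ((s37h_StoO hw b : w.toValuationSubring) : F') = b := rfl

/-- the prime of `S` cut out by a place over `v` -/
def s37h_primeOf {v : Place K F} {w : Place K F'} (hw : w.restrict F = v) :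
    HeightOneSpectrum (s37h_S (F' := F') v) where
  asIdeal := (IsLocalRing.maximalIdeal w.toValuationSubring).comap (s37h_StoO hw)
  isPrime := Ideal.comap_isPrime _ _
  ne_bot := by
    intro hbot
    apply w.ne_top'
    refine SetLike.ext fun f => ⟨fun _ => ValuationSubring.mem_top f, fun _ => ?_⟩
    obtain ⟨b, s, hs, rfl⟩ := IsFractionRing.div_surjective (A := s37h_S (F' := F') v) f
    have hs0 : s ≠ 0 := nonZeroDivisors.ne_zero hs
    have hsu : IsUnit (s37h_StoO hw s) := by
      by_contra hnu
      have : s ∈ (IsLocalRing.maximalIdeal w.toValuationSubring).comap (s37h_StoO hw) := by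
        rw [Ideal.mem_comap, IsLocalRing.mem_maximalIdeal]; exact hnu
      rw [hbot, Ideal.mem_bot] at this
      exact hs0 this
    have hinv := s37h_inv_mem_of_isUnit w hsu
    rw [div_eq_mul_inv]
    exact mul_mem (s37h_S_mem_of_restrict hw b) hinv

theorem s37h_placeOf_primeOf {v : Place K F} {w : Place K F'} (hw : w.restrict F = v) :
    s37h_placeOf v (s37h_primeOf hw) = w := by
  apply ff_place_eq_of_le
  intro f hf
  rw [s37h_placeOf, s37h_mem_ofHeightOneSpectrum_iff] at hf
  obtain ⟨n, d, hnd⟩ := (s37h_primeOf hw).exists_primeCompl_mul_eq_of_integer f hf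
  have hd : IsUnit (s37h_StoO hw d) := by
    by_contra hnu
    apply d.2
    show (d : s37h_S (F' := F') v) ∈
      (IsLocalRing.maximalIdeal w.toValuationSubring).comap (s37h_StoO hw)
    rw [Ideal.mem_comap, IsLocalRing.mem_maximalIdeal]; exact hnu
  have hd0 : algebraMap (s37h_S (F' := F') v) F' d ≠ 0 := by
    intro h0
    have : (s37h_StoO hw d) = 0 := Subtype.ext h0
    rw [this] at hd
    exact not_isUnit_zero hd
  have : f = algebraMap (s37h_S (F' := F') v) F' n * (algebraMap (s37h_S (F' := F') v) F' d)⁻¹ := by
    rw [← hnd, mul_assoc, mul_inv_cancel₀ hd0, mul_one]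
  rw [this]
  exact mul_mem (s37h_S_mem_of_restrict hw n) (s37h_inv_mem_of_isUnit w hd)

end Dictionary

section Sum

variable {K F F' : Type*} [Field K] [Field F] [Field F'] [Algebra K F] [Algebra K F']
  [Algebra F F'] [IsScalarTower K F F'] [FiniteDimensional F F'] [CharZero F]

attribute [local instance 10] s37h_algRF' s37h_algKS

/-- the maximal ideal of `O_v` -/
abbrev s37h_p (v : Place K F) : Ideal v.toValuationSubring :=
  IsLocalRing.maximalIdeal v.toValuationSubring

theorem s37h_p_ne_bot (v : Place K F) : s37h_p v ≠ ⊥ :=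
  IsDiscreteValuationRing.not_a_field _

instance s37h_towerKRS (v : Place K F) :
    IsScalarTower K v.toValuationSubring (s37h_S (F' := F') v) :=
  IsScalarTower.of_algebraMap_eq fun _ => rfl

instance s37h_faithful_RS (v : Place K F) :
    FaithfulSMul v.toValuationSubring (s37h_S (F' := F') v) :=
  (faithfulSMul_iff_algebraMap_injective _ _).mpr fun a b h => by
    have h' : algebraMap F F' (a : F) = algebraMap F F' (b : F) :=
      congrArg (fun x : s37h_S (F' := F') v => (x : F')) h
    exact Subtype.ext ((algebraMap F F').injective h')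

instance s37h_torsionFree_RS (v : Place K F) :
    Module.IsTorsionFree v.toValuationSubring (s37h_S (F' := F') v) :=
  inferInstance

/-- the prime cut out by a place over `v` lies over the maximal ideal of `O_v` -/
theorem s37h_primeOf_liesOver {v : Place K F} {w : Place K F'} (hw : w.restrict F = v) :
    (s37h_primeOf hw).asIdeal.LiesOver (s37h_p v) := by
  subst hw
  constructor
  ext a
  rw [Ideal.under_def, Ideal.mem_comap, IsLocalRing.mem_maximalIdeal, mem_nonunits_iff]
  show ¬ IsUnit a ↔ s37h_StoO rfl (algebraMap _ _ a) ∈ IsLocalRing.maximalIdeal _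
  rw [IsLocalRing.mem_maximalIdeal, mem_nonunits_iff, not_iff_not]
  have heq : s37h_StoO (rfl : w.restrict F = w.restrict F)
      (algebraMap _ (s37h_S (F' := F') (w.restrict F)) a) = Place.restrictInclusion F w a := rfl
  rw [heq]
  exact ⟨fun h => h.map _, fun h => isUnit_of_map_unit (Place.restrictInclusion F w) a h⟩

/-- the ramification index of the Prelude agrees with Mathlib's -/
theorem s37h_ramificationIdx_eq (v : Place K F) (P : HeightOneSpectrum (s37h_S (F' := F') v)) :
    Ideal.ramificationIdx' (s37h_p v) P.asIdeal = (s37h_placeOf v P).ramificationIndex F := by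
  obtain ⟨π, hπ⟩ := IsDiscreteValuationRing.exists_irreducible v.toValuationSubring
  set w := s37h_placeOf v P with hw
  set n := w.ramificationIndex F with hn
  have hπ0 : (π : F) ≠ 0 := by
    simpa [ne_eq, ZeroMemClass.coe_eq_zero] using hπ.ne_zero
  have hord : w.ord (algebraMap F F' (π : F)) = n := by
    rw [w.ord_restrict (π : F), s37h_placeOf_restrict, v.ord_coe_irreducible hπ, mul_one]
  set πS : s37h_S (F' := F') v := algebraMap v.toValuationSubring _ π with hπS
  have hπS0 : πS ≠ 0 := by
    intro h0
    have : algebraMap F F' (π : F) = 0 := congrArg (fun b : s37h_S (F' := F') v => (b : F')) h0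
    exact hπ0 (by simpa using this)
  have hval : P.intValuation πS = WithZero.exp (-(n : ℤ)) := by
    have h1 : P.valuation F' (algebraMap F F' (π : F)) = P.intValuation πS := by
      rw [← P.valuation_of_algebraMap (K := F')]; rfl
    have h2 := s37h_ofHeightOneSpectrum_ord (K := K) (F := F') P (algebraMap F F' (π : F))
    rw [← s37h_placeOf, ← hw, hord, h1] at h2
    have h3 : WithZero.log (P.intValuation πS) = -(n : ℤ) := by omega
    rw [← h3, WithZero.exp_log]
    exact P.intValuation_ne_zero _ hπS0
  have hmap : (s37h_p v).map (algebraMap v.toValuationSubring (s37h_S (F' := F') v))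
      = Ideal.span {πS} := by
    rw [s37h_p, hπ.maximalIdeal_eq, Ideal.map_span, Set.image_singleton]
  have h1 : (s37h_p v).map (algebraMap v.toValuationSubring (s37h_S (F' := F') v))
      ≤ P.asIdeal ^ n := by
    rw [hmap, Ideal.span_singleton_le_iff_mem, ← P.intValuation_le_pow_iff_mem, hval]
  have h2 : ¬ (s37h_p v).map (algebraMap v.toValuationSubring (s37h_S (F' := F') v))
      ≤ P.asIdeal ^ (n + 1) := by
    rw [hmap, Ideal.span_singleton_le_iff_mem, ← P.intValuation_le_pow_iff_mem, hval,
      WithZero.exp_le_exp]
    push_cast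
    omega
  exact Ideal.ramificationIdx'_spec h1 h2

end Sum

section FundId

variable {K F F' : Type*} [Field K] [Field F] [Field F'] [Algebra K F] [Algebra K F']
  [Algebra F F'] [IsScalarTower K F F'] [FiniteDimensional F F'] [CharZero F]

attribute [local instance 10] s37h_algRF' s37h_algKS

/-- abstract form: residue degree one over an algebraically closed constant field
(copy of `ff_inertiaDeg_eq_one_aux`, to keep this file independent of `FFBasicIdentity`) -/
theorem s37h_inertiaDeg_eq_one_aux {K A B : Type*} [Field K] [IsAlgClosed K] [CommRing A]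
    [CommRing B] [Algebra K A] [Algebra K B] [Algebra A B] [IsScalarTower K A B]
    [Algebra.IsIntegral A B] (p : Ideal A) [p.IsMaximal] (P : Ideal B) [P.IsPrime]
    [P.LiesOver p] (hsurj1 : Function.Surjective (algebraMap K (A ⧸ p))) :
    Ideal.inertiaDeg' p P = 1 := by
  rw [Ideal.inertiaDeg'_algebraMap]
  haveI : Algebra.IsIntegral K (A ⧸ p) :=
    Algebra.IsIntegral.of_surjective (Algebra.ofId K (A ⧸ p)) hsurj1
  haveI : Algebra.IsIntegral K (B ⧸ P) := Algebra.IsIntegral.trans (A ⧸ p)
  have hbij : Function.Bijective (algebraMap K (B ⧸ P)) :=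
    IsAlgClosed.algebraMap_bijective_of_isIntegral
  have hsurj2 : Function.Surjective (algebraMap (A ⧸ p) (B ⧸ P)) := by
    intro y
    obtain ⟨c, rfl⟩ := hbij.2 y
    exact ⟨algebraMap K _ c, (IsScalarTower.algebraMap_apply K _ _ c).symm⟩
  have hinj2 : Function.Injective (algebraMap (A ⧸ p) (B ⧸ P)) :=
    FaithfulSMul.algebraMap_injective _ _
  have e : (A ⧸ p) ≃ₗ[A ⧸ p] (B ⧸ P) :=
    LinearEquiv.ofBijective (Algebra.linearMap _ _) ⟨hinj2, hsurj2⟩
  rw [← e.finrank_eq, Module.finrank_self]

variable [IsAlgClosed K] [HasPrincipalDivisors K F']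

/-- **Fundamental identity** `∑_{w | v} e(w|v) f(w|v) = [F' : F]` in the Prelude's formalism, for a
finite extension of function fields over an algebraically closed field of characteristic zero all
of whose places have degree one. -/
theorem s37h_sum_ramificationIndex_mul_inertiaDeg
    (hF : ∀ v : Place K F, Function.Surjective (algebraMap K v.ResidueField))
    (hF' : ∀ w : Place K F', w.deg = 1) (v : Place K F) :
    ∑ w ∈ v.fiber F', (w.ramificationIndex F : ℤ) * (w.inertiaDeg F : ℤ)
      = (Module.finrank F F' : ℤ) := by
  classical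
  set S₀ := IsDedekindDomain.primesOverFinset (s37h_p v) (s37h_S (F' := F') v) with hS₀
  have hmem : ∀ P : Ideal (s37h_S (F' := F') v),
      P ∈ S₀ ↔ P ∈ Ideal.primesOver (s37h_p v) (s37h_S (F' := F') v) :=
    fun P => IsDedekindDomain.mem_primesOverFinset_iff (A := v.toValuationSubring)
      (p := s37h_p v) (s37h_p_ne_bot v) (s37h_S (F' := F') v)
  have hprime : ∀ P : {P // P ∈ S₀}, P.1.IsPrime := fun P => ((hmem P.1).mp P.2).1
  have hlies : ∀ P : {P // P ∈ S₀}, P.1.LiesOver (s37h_p v) := fun P => ((hmem P.1).mp P.2).2
  have hnebot : ∀ P : {P // P ∈ S₀}, P.1 ≠ ⊥ := fun P h => by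
    haveI := hlies P
    have h1 : (s37h_p v) = P.1.under v.toValuationSubring := (hlies P).over
    rw [h, Ideal.under_def, Ideal.comap_bot_of_injective _
      (FaithfulSMul.algebraMap_injective _ _)] at h1
    exact s37h_p_ne_bot v h1
  let φ : {P // P ∈ S₀} → HeightOneSpectrum (s37h_S (F' := F') v) :=
    fun P => ⟨P.1, hprime P, hnebot P⟩
  have hφinj : Function.Injective φ := by
    intro P Q h
    apply Subtype.ext
    exact congrArg HeightOneSpectrum.asIdeal h
  -- the fibre is the image of the primes over `p`
  have hfib : v.fiber F' = S₀.attach.image (fun P => s37h_placeOf v (φ P)) := by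
    ext w
    rw [Place.mem_fiber, Finset.mem_image]
    constructor
    · intro hw
      have hwS : (s37h_primeOf hw).asIdeal ∈ S₀ := by
        rw [hmem]
        exact ⟨(s37h_primeOf hw).isPrime, s37h_primeOf_liesOver hw⟩
      refine ⟨⟨(s37h_primeOf hw).asIdeal, hwS⟩, Finset.mem_attach _ _, ?_⟩
      exact s37h_placeOf_primeOf hw
    · rintro ⟨P, _, rfl⟩
      exact s37h_placeOf_restrict v (φ P)
  rw [hfib, Finset.sum_image (fun P _ Q _ h => hφinj (s37h_placeOf_injective v h))]
  have hinert : ∀ w : Place K F', w.inertiaDeg F = 1 := by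
    intro w
    have h := w.deg_restrict_mul_inertiaDeg (F := F)
    rw [hF' w] at h
    exact Nat.eq_one_of_mul_eq_one_left h
  have h1 : ∀ P ∈ S₀.attach,
      ((s37h_placeOf v (φ P)).ramificationIndex F : ℤ) * ((s37h_placeOf v (φ P)).inertiaDeg F : ℤ)
        = ((Ideal.ramificationIdx' (s37h_p v) P.1 * Ideal.inertiaDeg' (s37h_p v) P.1 : ℕ) : ℤ) := by
    intro P _
    haveI := hprime P
    haveI := hlies P
    have hi : Ideal.inertiaDeg' (s37h_p v) P.1 = 1 :=
      s37h_inertiaDeg_eq_one_aux (K := K) (s37h_p v) P.1 (hF v)
    rw [hinert, hi, mul_one, Nat.cast_one, mul_one, ← s37h_ramificationIdx_eq v (φ P)]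
  rw [Finset.sum_congr rfl h1, ← Nat.cast_sum,
    Finset.sum_attach S₀
      (fun P => Ideal.ramificationIdx' (s37h_p v) P * Ideal.inertiaDeg' (s37h_p v) P)]
  congr 1
  have key := Ideal.sum_ramification_inertia (R := v.toValuationSubring) (s37h_S (F' := F') v) F F'
    (p := s37h_p v) (s37h_p_ne_bot v)
  exact key

/-- The class `SumRamificationInertia` (hence `FundamentalIdentity`). -/
theorem s37h_sumRamificationInertia
    (hF : ∀ v : Place K F, Function.Surjective (algebraMap K v.ResidueField))
    (hF' : ∀ w : Place K F', w.deg = 1) : SumRamificationInertia K F F' :=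
  ⟨s37h_sum_ramificationIndex_mul_inertiaDeg hF hF'⟩

end FundId

end Fermat.Agent.Lib.S37
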