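/-
S37, package [H] (HeckeInputsAlong), part 2: the NORM FORMULA
`ord_v (N_{F'/F} f) = ∑_{w | v} f(w|v) ord_w f`  (`Divisor.PushforwardNormFormula`)
for a finite extension of function fields over an algebraically closed field of characteristic 0,
via the local dictionary of `HLocal` and Mathlib's `Ideal.relNorm`.
All names prefixed `s37h_`, namespace `Fermat.Agent.Lib.S37`.
-/
import Mathlib
import Fermat.Prelude.Def_AlgebraicCurve_DivisorPushPull
import Fermat.Agent.Lib.FF.FFBasicPlace
import Fermat.Agent.Lib.S37.HLocal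

set_option autoImplicit false
set_option linter.style.haveILetI false
set_option linter.unusedSectionVars false
set_option linter.deprecated false

noncomputable section

open IsDedekindDomain WithZero IsLocalRing AlgebraicCurve
open Fermat.Agent.Lib.FF

namespace Fermat.Agent.Lib.S37

section Primes

variable {K F F' : Type*} [Field K] [Field F] [Field F'] [Algebra K F] [Algebra K F']
  [Algebra F F'] [IsScalarTower K F F'] [FiniteDimensional F F'] [CharZero F]

attribute [local instance 10] s37h_algRF' s37h_algKS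

/-- `primeOf` is a left inverse of `placeOf` -/
theorem s37h_primeOf_placeOf (v : Place K F) (P : HeightOneSpectrum (s37h_S (F' := F') v)) :
    s37h_primeOf (s37h_placeOf_restrict v P) = P :=
  s37h_placeOf_injective v (s37h_placeOf_primeOf (s37h_placeOf_restrict v P))

/-- every nonzero prime of `S` lies over the maximal ideal of `O_v` -/
theorem s37h_liesOver (v : Place K F) (P : HeightOneSpectrum (s37h_S (F' := F') v)) :
    P.asIdeal.LiesOver (s37h_p v) := by
  have h := s37h_primeOf_liesOver (s37h_placeOf_restrict v P)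
  rwa [s37h_primeOf_placeOf] at h

/-- `S` has finitely many primes -/
theorem s37h_finite_primes (v : Place K F) :
    {I : Ideal (s37h_S (F' := F') v) | I.IsPrime}.Finite := by
  classical
  have hsub : {I : Ideal (s37h_S (F' := F') v) | I.IsPrime} ⊆
      insert ⊥ ((IsDedekindDomain.primesOverFinset (s37h_p v) (s37h_S (F' := F') v) :
        Finset (Ideal (s37h_S (F' := F') v))) : Set (Ideal (s37h_S (F' := F') v))) := by
    intro I hI
    by_cases hb : I = ⊥
    · exact Or.inl hb
    · right
      rw [Finset.mem_coe, IsDedekindDomain.mem_primesOverFinset_iff (A := v.toValuationSubring)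
        (p := s37h_p v) (s37h_p_ne_bot v) (s37h_S (F' := F') v)]
      exact ⟨hI, s37h_liesOver v ⟨I, hI, hb⟩⟩
  exact (Set.Finite.insert _ (Finset.finite_toSet _)).subset hsub

instance s37h_S_isPrincipalIdealRing (v : Place K F) :
    IsPrincipalIdealRing (s37h_S (F' := F') v) :=
  IsPrincipalIdealRing.of_finite_primes (s37h_finite_primes v)

end Primes

section Key

variable {K F F' : Type*} [Field K] [Field F] [Field F'] [Algebra K F] [Algebra K F']
  [Algebra F F'] [IsScalarTower K F F'] [FiniteDimensional F F'] [CharZero F]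

attribute [local instance 10] s37h_algRF' s37h_algKS

/-- the order at `placeOf Q` of an element of `S` -/
theorem s37h_ord_placeOf_coe (v : Place K F) (Q : HeightOneSpectrum (s37h_S (F' := F') v))
    (a : s37h_S (F' := F') v) :
    (s37h_placeOf v Q).ord (a : F') = -(WithZero.log (Q.intValuation a)) := by
  have h1 : Q.valuation F' (a : F') = Q.intValuation a := by
    rw [← Q.valuation_of_algebraMap (K := F')]; rfl
  rw [s37h_placeOf, s37h_ofHeightOneSpectrum_ord, h1]

/-- norms of elements of `S` are (images of) elements of `O_v` -/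
theorem s37h_norm_coe (v : Place K F) (a : s37h_S (F' := F') v) :
    Algebra.norm F (a : F') =
      ((Algebra.intNorm v.toValuationSubring (s37h_S (F' := F') v) a : v.toValuationSubring) : F) :=
  (Algebra.algebraMap_intNorm (A := v.toValuationSubring) (K := F) (L := F')
    (B := s37h_S (F' := F') v) a).symm

variable [IsAlgClosed K]

/-- the norm of a prime element of `S` is a uniformizer at `v` -/
theorem s37h_ord_norm_prime
    (hF : ∀ v : Place K F, Function.Surjective (algebraMap K v.ResidueField))
    (v : Place K F) {ϖ : s37h_S (F' := F') v} (hϖ : Prime ϖ) :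
    v.ord (Algebra.norm F (ϖ : F')) = 1 := by
  let P : HeightOneSpectrum (s37h_S (F' := F') v) :=
    ⟨Ideal.span {ϖ}, (Ideal.span_singleton_prime hϖ.ne_zero).mpr hϖ, by
      simpa using hϖ.ne_zero⟩
  haveI := s37h_liesOver v P
  haveI : P.asIdeal.IsMaximal := P.isMaximal
  haveI : CharZero v.toValuationSubring := (algebraMap v.toValuationSubring F).charZero
  haveI : CharZero (FractionRing v.toValuationSubring) :=
    charZero_of_injective_algebraMap
      (IsFractionRing.injective v.toValuationSubring (FractionRing v.toValuationSubring))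
  have h1 : Ideal.relNorm v.toValuationSubring P.asIdeal
      = (s37h_p v) ^ (P.asIdeal.inertiaDeg v.toValuationSubring) :=
    Ideal.relNorm_eq_pow_of_isMaximal P.asIdeal (s37h_p v)
  have h2 : P.asIdeal.inertiaDeg v.toValuationSubring = 1 := by
    rw [← Ideal.inertiaDeg'_eq_inertiaDeg (s37h_p v) P.asIdeal]
    exact s37h_inertiaDeg_eq_one_aux (K := K) (s37h_p v) P.asIdeal (hF v)
  have h3 : Ideal.relNorm v.toValuationSubring P.asIdeal
      = Ideal.span {Algebra.intNorm v.toValuationSubring (s37h_S (F' := F') v) ϖ} :=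
    Ideal.relNorm_singleton v.toValuationSubring ϖ
  have h4 : IsLocalRing.maximalIdeal v.toValuationSubring
      = Ideal.span {Algebra.intNorm v.toValuationSubring (s37h_S (F' := F') v) ϖ} := by
    rw [← h3, h1, h2, pow_one]
  have h5 : Irreducible (Algebra.intNorm v.toValuationSubring (s37h_S (F' := F') v) ϖ) :=
    (IsDiscreteValuationRing.irreducible_iff_uniformizer _).mpr h4
  rw [s37h_norm_coe]
  exact v.ord_coe_irreducible h5

end Key

section SumOrd

variable {K F F' : Type*} [Field K] [Field F] [Field F'] [Algebra K F] [Algebra K F']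
  [Algebra F F'] [IsScalarTower K F F'] [FiniteDimensional F F'] [CharZero F]
  [HasPrincipalDivisors K F']

attribute [local instance 10] s37h_algRF' s37h_algKS

/-- `∑_{w | v} ord_w f` -/
def s37h_sumOrd (v : Place K F) (f : F') : ℤ := ∑ w ∈ v.fiber F', w.ord f

theorem s37h_sumOrd_mul (v : Place K F) {f g : F'} (hf : f ≠ 0) (hg : g ≠ 0) :
    s37h_sumOrd v (f * g) = s37h_sumOrd v f + s37h_sumOrd v g := by
  unfold s37h_sumOrd
  rw [← Finset.sum_add_distrib]
  exact Finset.sum_congr rfl fun w _ => w.ord_mul hf hg

theorem s37h_sumOrd_inv (v : Place K F) (f : F') :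
    s37h_sumOrd v f⁻¹ = - s37h_sumOrd v f := by
  unfold s37h_sumOrd
  rw [← Finset.sum_neg_distrib]
  exact Finset.sum_congr rfl fun w _ => w.ord_inv f

/-- every place in the fibre is `placeOf` of a prime -/
theorem s37h_exists_placeOf_eq {v : Place K F} {w : Place K F'} (hw : w ∈ v.fiber F') :
    ∃ Q : HeightOneSpectrum (s37h_S (F' := F') v), s37h_placeOf v Q = w :=
  ⟨s37h_primeOf (Place.mem_fiber.mp hw), s37h_placeOf_primeOf (Place.mem_fiber.mp hw)⟩

theorem s37h_placeOf_mem_fiber (v : Place K F) (Q : HeightOneSpectrum (s37h_S (F' := F') v)) :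
    s37h_placeOf v Q ∈ v.fiber F' :=
  Place.mem_fiber.mpr (s37h_placeOf_restrict v Q)

/-- units of `S` have order zero at every place over `v` -/
theorem s37h_sumOrd_unit (v : Place K F) {u : s37h_S (F' := F') v} (hu : IsUnit u) :
    s37h_sumOrd v (u : F') = 0 := by
  unfold s37h_sumOrd
  refine Finset.sum_eq_zero fun w hw => ?_
  obtain ⟨Q, rfl⟩ := s37h_exists_placeOf_eq hw
  rw [s37h_ord_placeOf_coe]
  have : Q.intValuation u = 1 := by
    rw [HeightOneSpectrum.intValuation_eq_one_iff]
    intro hmem
    exact Q.isPrime.ne_top (Ideal.eq_top_of_isUnit_mem _ hmem hu)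
  rw [this, WithZero.log_one, neg_zero]

/-- a prime element of `S` has total order one over `v` -/
theorem s37h_sumOrd_prime (v : Place K F) {ϖ : s37h_S (F' := F') v} (hϖ : Prime ϖ) :
    s37h_sumOrd v (ϖ : F') = 1 := by
  classical
  let P : HeightOneSpectrum (s37h_S (F' := F') v) :=
    ⟨Ideal.span {ϖ}, (Ideal.span_singleton_prime hϖ.ne_zero).mpr hϖ, by
      simpa using hϖ.ne_zero⟩
  unfold s37h_sumOrd
  rw [Finset.sum_eq_single_of_mem (s37h_placeOf v P) (s37h_placeOf_mem_fiber v P)]
  · rw [s37h_ord_placeOf_coe, HeightOneSpectrum.intValuation_singleton P hϖ.ne_zero rfl,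
      WithZero.log_exp, neg_neg]
  · intro w hw hne
    obtain ⟨Q, rfl⟩ := s37h_exists_placeOf_eq hw
    rw [s37h_ord_placeOf_coe]
    have hQP : Q ≠ P := fun h => hne (by rw [h])
    have : Q.intValuation ϖ = 1 := by
      rw [HeightOneSpectrum.intValuation_eq_one_iff]
      intro hmem
      apply hQP
      have hle : P.asIdeal ≤ Q.asIdeal := (Ideal.span_singleton_le_iff_mem _).mpr hmem
      exact HeightOneSpectrum.ext (P.isMaximal.eq_of_le Q.isPrime.ne_top hle).symm
    rw [this, WithZero.log_one, neg_zero]

end SumOrd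

section Formula

variable {K F F' : Type*} [Field K] [Field F] [Field F'] [Algebra K F] [Algebra K F']
  [Algebra F F'] [IsScalarTower K F F'] [FiniteDimensional F F'] [CharZero F]
  [HasPrincipalDivisors K F'] [IsAlgClosed K]

attribute [local instance 10] s37h_algRF' s37h_algKS

/-- the norm of a unit of `S` has order zero at `v` -/
theorem s37h_ord_norm_unit (v : Place K F) {u : s37h_S (F' := F') v} (hu : IsUnit u) :
    v.ord (Algebra.norm F (u : F')) = 0 := by
  rw [s37h_norm_coe]
  have h := hu.map (Algebra.intNorm v.toValuationSubring (s37h_S (F' := F') v))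
  obtain ⟨u', hu'⟩ := h
  rw [← hu']
  exact v.ord_coe_unit u'

/-- key: `ord_v (N a) = ∑_{w | v} ord_w a` for `0 ≠ a ∈ S` -/
theorem s37h_ord_norm_coe
    (hF : ∀ v : Place K F, Function.Surjective (algebraMap K v.ResidueField))
    (v : Place K F) (a : s37h_S (F' := F') v) (ha : a ≠ 0) :
    v.ord (Algebra.norm F (a : F')) = s37h_sumOrd v (a : F') := by
  revert ha
  induction a using UniqueFactorizationMonoid.induction_on_prime with
  | h₁ => intro h; exact absurd rfl h
  | h₂ x hx => intro _; rw [s37h_ord_norm_unit v hx, s37h_sumOrd_unit v hx]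
  | h₃ a ϖ ha0 hϖ ih =>
    intro _
    have hϖ0 : ((ϖ : s37h_S (F' := F') v) : F') ≠ 0 := by
      simpa [ne_eq, ZeroMemClass.coe_eq_zero] using hϖ.ne_zero
    have ha0' : ((a : s37h_S (F' := F') v) : F') ≠ 0 := by
      simpa [ne_eq, ZeroMemClass.coe_eq_zero] using ha0
    have hcoe : ((ϖ * a : s37h_S (F' := F') v) : F') = (ϖ : F') * (a : F') := rfl
    rw [hcoe, map_mul, v.ord_mul (Algebra.norm_ne_zero_iff.mpr hϖ0)
      (Algebra.norm_ne_zero_iff.mpr ha0'), s37h_sumOrd_mul v hϖ0 ha0', ih ha0,
      s37h_ord_norm_prime hF v hϖ, s37h_sumOrd_prime v hϖ]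

/-- `ord_v (N f) = ∑_{w | v} ord_w f` for every `f ≠ 0` in `F'` -/
theorem s37h_ord_norm
    (hF : ∀ v : Place K F, Function.Surjective (algebraMap K v.ResidueField))
    (v : Place K F) (f : F') (hf : f ≠ 0) :
    v.ord (Algebra.norm F f) = s37h_sumOrd v f := by
  obtain ⟨a, b, hb, rfl⟩ := IsFractionRing.div_surjective (A := s37h_S (F' := F') v) f
  have hb0 : b ≠ 0 := nonZeroDivisors.ne_zero hb
  have ha0 : a ≠ 0 := by
    rintro rfl
    simp at hf
  have hb0' : ((b : s37h_S (F' := F') v) : F') ≠ 0 := by
    simpa [ne_eq, ZeroMemClass.coe_eq_zero] using hb0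
  have ha0' : ((a : s37h_S (F' := F') v) : F') ≠ 0 := by
    simpa [ne_eq, ZeroMemClass.coe_eq_zero] using ha0
  have hcoe : algebraMap (s37h_S (F' := F') v) F' a / algebraMap (s37h_S (F' := F') v) F' b
      = (a : F') * (b : F')⁻¹ := by rw [div_eq_mul_inv]; rfl
  have hNinv : Algebra.norm F ((b : F')⁻¹) = (Algebra.norm F (b : F'))⁻¹ := by
    apply eq_inv_of_mul_eq_one_left
    rw [← map_mul, inv_mul_cancel₀ hb0', map_one]
  rw [hcoe, map_mul, hNinv, v.ord_mul (Algebra.norm_ne_zero_iff.mpr ha0')
    (inv_ne_zero (Algebra.norm_ne_zero_iff.mpr hb0')), v.ord_inv,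
    s37h_sumOrd_mul v ha0' (inv_ne_zero hb0'), s37h_sumOrd_inv,
    s37h_ord_norm_coe hF v a ha0, s37h_ord_norm_coe hF v b hb0]

/-- **Norm formula** (`Divisor.PushforwardNormFormula`) for a finite extension of function fields
over an algebraically closed field of characteristic zero all of whose places have degree one. -/
theorem s37h_pushforwardNormFormula
    (hF : ∀ v : Place K F, Function.Surjective (algebraMap K v.ResidueField))
    (hF' : ∀ w : Place K F', w.deg = 1) :
    Divisor.PushforwardNormFormula K F F' := by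
  classical
  intro f hf D hD v
  rw [s37h_ord_norm hF v f hf, Divisor.pushforward_apply]
  have hinert : ∀ w : Place K F', w.inertiaDeg F = 1 := by
    intro w
    have h := w.deg_restrict_mul_inertiaDeg (F := F)
    rw [hF' w] at h
    exact Nat.eq_one_of_mul_eq_one_left h
  unfold s37h_sumOrd
  rw [← Finset.sum_filter]
  have hsub : D.support.filter (fun w => w.restrict F = v) ⊆ v.fiber F' := by
    intro w hw
    exact Place.mem_fiber.mpr (Finset.mem_filter.mp hw).2
  rw [Finset.sum_subset hsub]
  · refine Finset.sum_congr rfl fun w _ => ?_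
    rw [hinert, Nat.cast_one, mul_one, hD]
  · intro w hw hnot
    have hwv : w.restrict F = v := Place.mem_fiber.mp hw
    have : w ∉ D.support := fun h => hnot (Finset.mem_filter.mpr ⟨h, hwv⟩)
    rw [Finsupp.notMem_support_iff] at this
    rw [this, zero_mul]

end Formula

end Fermat.Agent.Lib.S37
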