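/-
S37, package [R23] (helper8): the BASE CHANGE FORMULA for divisors.  For a commutative square of
function fields

      F  --α-->  F₁
      |π         |π'
      v          v
      F₂ --α'--> F₃

such that norms are compatible (`Nm_{α'}(π' f) = π (Nm_α f)`, e.g. `F₃ = F₂ ⊗_F F₁`), with the norm
formula along `α` and `α'` and weak approximation in the fibres of `α`:
`π^* ∘ α_* = α'_* ∘ π'^*` on divisors of `F₁`.
-/
import Mathlib
import Fermat.Prelude.Def_AlgebraicCurve_Correspondence
import Fermat.Agent.Lib.S37.LFunct

set_option autoImplicit false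

namespace Fermat.Agent.Lib.S37

open AlgebraicCurve

noncomputable section

section Pushforward

variable {K F F' : Type*} [Field K] [Field F] [Field F'] [Algebra K F] [Algebra K F']

/-- The push-forward of a divisor without support in the fibre of `v` vanishes at `v`. -/
theorem s37l_pushforwardAlong_apply_eq_zero (φ : F →ₐ[K] F') (hφ : φ.toRingHom.IsIntegral)
    (D : Divisor K F') (v : Place K F)
    (h : ∀ w : Place K F', w.restrictAlong φ hφ = v → D w = 0) :
    Divisor.pushforwardAlong φ hφ D v = 0 := by
  classical
  induction D using Finsupp.induction with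
  | zero => simp
  | single_add w n D hw hn ih =>
    have hD : ∀ w' : Place K F', w'.restrictAlong φ hφ = v → D w' = 0 := by
      intro w' hw'
      have := h w' hw'
      rw [Finsupp.add_apply] at this
      by_cases hww : w' = w
      · subst hww
        exact Finsupp.notMem_support_iff.mp hw
      · rwa [Finsupp.single_eq_of_ne hww, zero_add] at this
    rw [map_add, Finsupp.add_apply, ih hD, add_zero, Divisor.pushforwardAlong_single]
    by_cases hwv : w.restrictAlong φ hφ = v
    · have := h w hwv
      rw [Finsupp.add_apply, Finsupp.single_eq_same, Finsupp.notMem_support_iff.mp hw,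
        add_zero] at this
      rw [this, zero_mul, Finsupp.single_zero, Finsupp.zero_apply]
    · exact Finsupp.single_eq_of_ne (Ne.symm hwv)

/-- The norm formula, in applied form. -/
theorem s37l_normFormulaAlong_apply (φ : F →ₐ[K] F') (hφ : φ.toRingHom.IsIntegral)
    (hfin : FiniteAlong K φ) (hN : NormFormulaAlong K φ hfin) {f : F'} (hf : f ≠ 0)
    {D : Divisor K F'} (hD : ∀ w, D w = w.ord f) (v : Place K F) :
    Divisor.pushforwardAlong φ hφ D v =
      v.ord (letI := algebraAlong φ; Algebra.norm F f) := by
  letI := algebraAlong φ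
  haveI := isScalarTower_along φ
  haveI : Module.Finite F F' := hfin
  exact hN f hf D hD v

end Pushforward

section BaseChange

variable {K F F₁ F₂ F₃ : Type*} [Field K] [Field F] [Field F₁] [Field F₂] [Field F₃]
  [Algebra K F] [Algebra K F₁] [Algebra K F₂] [Algebra K F₃]
  [HasPrincipalDivisors K F₁] [HasPrincipalDivisors K F₂] [HasPrincipalDivisors K F₃]

/-- **Base change formula** for divisors in a commutative square of function fields with
compatible norms. -/
theorem s37l_baseChange
    (α : F →ₐ[K] F₁) (π : F →ₐ[K] F₂) (α' : F₂ →ₐ[K] F₃) (π' : F₁ →ₐ[K] F₃)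
    (hsq : α'.comp π = π'.comp α)
    (hα : α.toRingHom.IsIntegral) (hπ : π.toRingHom.IsIntegral)
    (hα' : α'.toRingHom.IsIntegral) (hπ' : π'.toRingHom.IsIntegral)
    (hfinα : FiniteAlong K α) (hNα : NormFormulaAlong K α hfinα)
    (hfinα' : FiniteAlong K α') (hNα' : NormFormulaAlong K α' hfinα')
    (hnorm : ∀ f : F₁, (letI := algebraAlong α'; Algebra.norm F₂ (π' f)) =
      π (letI := algebraAlong α; Algebra.norm F f))
    (hwa : ∀ u : Place K F₁, ∃ f : F₁, f ≠ 0 ∧ u.ord f = 1 ∧
      ∀ u₂ : Place K F₁, u₂ ≠ u → u₂.restrictAlong α hα = u.restrictAlong α hα → u₂.ord f = 0)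
    (E : Divisor K F₁) :
    Divisor.pullbackAlong π hπ (Divisor.pushforwardAlong α hα E) =
      Divisor.pushforwardAlong α' hα' (Divisor.pullbackAlong π' hπ' E) := by
  classical
  -- the square on places
  have hsqI : (α'.comp π).toRingHom.IsIntegral := s37l_isIntegral_comp π α' hπ hα'
  have hsqI' : (π'.comp α).toRingHom.IsIntegral := s37l_isIntegral_comp α π' hα hπ'
  have hplace : ∀ w : Place K F₃,
      (w.restrictAlong α' hα').restrictAlong π hπ = (w.restrictAlong π' hπ').restrictAlong α hα := by
    intro w
    rw [← s37l_restrictAlong_comp π α' hπ hα' hsqI w, ← s37l_restrictAlong_comp α π' hα hπ' hsqI' w]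
    exact s37l_restrictAlong_congr hsq hsqI hsqI' w
  -- reduce to a single place
  suffices hsingle : ∀ u : Place K F₁,
      Divisor.pullbackAlong π hπ (Divisor.pushforwardAlong α hα (Finsupp.single u 1)) =
        Divisor.pushforwardAlong α' hα' (Divisor.pullbackAlong π' hπ' (Finsupp.single u 1)) by
    induction E using Finsupp.induction with
    | zero => simp
    | single_add u n E _ _ ih =>
      rw [map_add, map_add, map_add, map_add, ih]
      congr 1
      have hn : (Finsupp.single u n : Divisor K F₁) = n • Finsupp.single u 1 := by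
        rw [Finsupp.smul_single, smul_eq_mul, mul_one]
      rw [hn, map_zsmul, map_zsmul, map_zsmul, map_zsmul, hsingle u]
  intro u
  set v : Place K F := u.restrictAlong α hα with hv
  obtain ⟨f, hf0, hfu, hfo⟩ := hwa u
  obtain ⟨Df, hDf, -⟩ := HasPrincipalDivisors.exists_divisor (K := K) f hf0
  -- the pull-back of `Df` is the divisor of `π' f`
  have hπ'f0 : π' f ≠ 0 := by
    intro h0
    exact hf0 ((map_eq_zero π').mp h0)
  have hDf' : ∀ w : Place K F₃, Divisor.pullbackAlong π' hπ' Df w = w.ord (π' f) := by
    intro w
    rw [Divisor.pullbackAlong_apply, hDf, ← Place.ord_restrictAlong]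
  -- Step 1: the identity for `Df`
  have step1 : ∀ v' : Place K F₂,
      Divisor.pullbackAlong π hπ (Divisor.pushforwardAlong α hα Df) v' =
        Divisor.pushforwardAlong α' hα' (Divisor.pullbackAlong π' hπ' Df) v' := by
    intro v'
    rw [Divisor.pullbackAlong_apply, s37l_normFormulaAlong_apply α hα hfinα hNα hf0 hDf,
      ← Place.ord_restrictAlong, s37l_normFormulaAlong_apply α' hα' hfinα' hNα' hπ'f0 hDf', hnorm f]
  -- the remainder
  obtain ⟨D', hD'⟩ : ∃ D' : Divisor K F₁, D' = Df - Finsupp.single u 1 := ⟨_, rfl⟩
  have hD'0 : ∀ u₂ : Place K F₁, u₂.restrictAlong α hα = v → D' u₂ = 0 := by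
    intro u₂ hu₂
    rw [hD', Finsupp.sub_apply, hDf]
    by_cases h : u₂ = u
    · subst h
      rw [hfu, Finsupp.single_eq_same, sub_self]
    · rw [hfo u₂ h hu₂, Finsupp.single_eq_of_ne h, sub_self]
  have hsplit : (Finsupp.single u 1 : Divisor K F₁) = Df - D' := by
    rw [hD']
    abel
  ext v'
  by_cases hv' : v'.restrictAlong π hπ = v
  · -- over `v`: subtract
    have hL : Divisor.pullbackAlong π hπ (Divisor.pushforwardAlong α hα D') v' = 0 := by
      rw [Divisor.pullbackAlong_apply, hv',
        s37l_pushforwardAlong_apply_eq_zero α hα D' v hD'0, mul_zero]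
    have hR : Divisor.pushforwardAlong α' hα' (Divisor.pullbackAlong π' hπ' D') v' = 0 := by
      apply s37l_pushforwardAlong_apply_eq_zero
      intro w hw
      rw [Divisor.pullbackAlong_apply, hD'0, mul_zero]
      rw [← hplace w, hw, hv']
    rw [hsplit, map_sub, map_sub, map_sub, map_sub, Finsupp.sub_apply, Finsupp.sub_apply, hL, hR,
      step1 v']
  · -- away from `v`: both sides vanish
    have hL : Divisor.pullbackAlong π hπ
        (Divisor.pushforwardAlong α hα (Finsupp.single u 1)) v' = 0 := by
      rw [Divisor.pullbackAlong_apply, Divisor.pushforwardAlong_single,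
        Finsupp.single_eq_of_ne hv', mul_zero]
    have hR : Divisor.pushforwardAlong α' hα'
        (Divisor.pullbackAlong π' hπ' (Finsupp.single u 1)) v' = 0 := by
      apply s37l_pushforwardAlong_apply_eq_zero
      intro w hw
      rw [Divisor.pullbackAlong_apply]
      by_cases hwu : w.restrictAlong π' hπ' = u
      · exfalso
        apply hv'
        rw [← hw, hplace w, hwu]
      · rw [Finsupp.single_eq_of_ne hwu, mul_zero]
    rw [hL, hR]

end BaseChange

end

end Fermat.Agent.Lib.S37
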