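/-
S37, package [R23] (helper8): a correspondence `α_* β^*` commutes with the pull-back along a
change of level `π`, given the base change formula for the `α`-square; the kernel of the
pull-back of divisor classes is killed by the degree.
-/
import Mathlib
import Fermat.Prelude.Def_AlgebraicCurve_Correspondence
import Fermat.Agent.Lib.S37.LFunct
import Fermat.Agent.Lib.S37.LBase

set_option autoImplicit false

namespace Fermat.Agent.Lib.S37

open AlgebraicCurve

noncomputable section

section Correspondence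

variable {K F F₁ F₂ F₃ : Type*} [Field K] [Field F] [Field F₁] [Field F₂] [Field F₃]
  [Algebra K F] [Algebra K F₁] [Algebra K F₂] [Algebra K F₃]
  [HasPrincipalDivisors K F₁] [HasPrincipalDivisors K F₂] [HasPrincipalDivisors K F₃]

/-- The correspondence `α_* β^*` commutes with the pull-back along `π` (divisor level). -/
theorem s37l_correspondence_pullback
    (α β : F →ₐ[K] F₁) (π : F →ₐ[K] F₂) (α' β' : F₂ →ₐ[K] F₃) (π' : F₁ →ₐ[K] F₃)
    (hsqα : α'.comp π = π'.comp α) (hsqβ : β'.comp π = π'.comp β)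
    (hα : α.toRingHom.IsIntegral) (hβ : β.toRingHom.IsIntegral) (hπ : π.toRingHom.IsIntegral)
    (hα' : α'.toRingHom.IsIntegral) (hβ' : β'.toRingHom.IsIntegral)
    (hπ' : π'.toRingHom.IsIntegral)
    (hfinα : FiniteAlong K α) (hNα : NormFormulaAlong K α hfinα)
    (hfinα' : FiniteAlong K α') (hNα' : NormFormulaAlong K α' hfinα')
    (hnorm : ∀ f : F₁, (letI := algebraAlong α'; Algebra.norm F₂ (π' f)) =
      π (letI := algebraAlong α; Algebra.norm F f))
    (hwa : ∀ u : Place K F₁, ∃ f : F₁, f ≠ 0 ∧ u.ord f = 1 ∧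
      ∀ u₂ : Place K F₁, u₂ ≠ u → u₂.restrictAlong α hα = u.restrictAlong α hα → u₂.ord f = 0)
    (D : Divisor K F) :
    Divisor.pullbackAlong π hπ (Divisor.correspondence β α hβ hα D) =
      Divisor.correspondence β' α' hβ' hα' (Divisor.pullbackAlong π hπ D) := by
  rw [Divisor.correspondence_apply, Divisor.correspondence_apply,
    s37l_baseChange α π α' π' hsqα hα hπ hα' hπ' hfinα hNα hfinα' hNα' hnorm hwa]
  congr 1
  have h1 : (β'.comp π).toRingHom.IsIntegral := s37l_isIntegral_comp π β' hπ hβ'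
  have h2 : (π'.comp β).toRingHom.IsIntegral := s37l_isIntegral_comp β π' hβ hπ'
  rw [← s37l_pullbackAlong_comp β π' hβ hπ' h2, ← s37l_pullbackAlong_comp π β' hπ hβ' h1]
  exact (s37l_pullbackAlong_congr hsqβ h1 h2 D).symm

/-- The correspondence `α_* β^*` commutes with the pull-back along `π` (divisor classes). -/
theorem s37l_pic0_correspondence_pullback
    (α β : F →ₐ[K] F₁) (π : F →ₐ[K] F₂) (α' β' : F₂ →ₐ[K] F₃) (π' : F₁ →ₐ[K] F₃)
    (hsqα : α'.comp π = π'.comp α) (hsqβ : β'.comp π = π'.comp β)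
    (hα : α.toRingHom.IsIntegral) (hβ : β.toRingHom.IsIntegral) (hπ : π.toRingHom.IsIntegral)
    (hα' : α'.toRingHom.IsIntegral) (hβ' : β'.toRingHom.IsIntegral)
    (hπ' : π'.toRingHom.IsIntegral)
    (hFIβ : FundamentalIdentityAlong K β hβ) (hFIβ' : FundamentalIdentityAlong K β' hβ')
    (hFIπ : FundamentalIdentityAlong K π hπ)
    (hfinα : FiniteAlong K α) (hNα : NormFormulaAlong K α hfinα)
    (hfinα' : FiniteAlong K α') (hNα' : NormFormulaAlong K α' hfinα')
    (hnorm : ∀ f : F₁, (letI := algebraAlong α'; Algebra.norm F₂ (π' f)) =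
      π (letI := algebraAlong α; Algebra.norm F f))
    (hwa : ∀ u : Place K F₁, ∃ f : F₁, f ≠ 0 ∧ u.ord f = 1 ∧
      ∀ u₂ : Place K F₁, u₂ ≠ u → u₂.restrictAlong α hα = u.restrictAlong α hα → u₂.ord f = 0)
    (x : Pic0 K F) :
    s37l_pic0Pullback π hπ hFIπ (Pic0.correspondence β α hβ hα hFIβ hfinα hNα x) =
      Pic0.correspondence β' α' hβ' hα' hFIβ' hfinα' hNα' (s37l_pic0Pullback π hπ hFIπ x) := by
  obtain ⟨D, rfl⟩ := Pic0.mk_surjective x
  rw [Pic0.correspondence_mk, s37l_pic0Pullback_mk, s37l_pic0Pullback_mk, Pic0.correspondence_mk]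
  refine congrArg Pic0.mk (Subtype.ext ?_)
  rw [s37l_coe_degZeroPullback, Pic0.coe_degZeroCorrespondence, Pic0.coe_degZeroCorrespondence,
    s37l_coe_degZeroPullback]
  exact s37l_correspondence_pullback α β π α' β' π' hsqα hsqβ hα hβ hπ hα' hβ' hπ' hfinα hNα
    hfinα' hNα' hnorm hwa _

end Correspondence

section Kernel

variable {K F F' : Type*} [Field K] [Field F] [Field F'] [Algebra K F] [Algebra K F']
  [HasPrincipalDivisors K F']

/-- `π_* π^* = n` on divisors, given `∑ e f = n` in every fibre. -/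
theorem s37l_pushforward_pullback (π : F →ₐ[K] F') (hπ : π.toRingHom.IsIntegral) (n : ℤ)
    (hsum : ∀ v : Place K F, ∑ W ∈ Place.fiberAlong π hπ v,
      (W.ramificationIndexAlong π : ℤ) * (W.inertiaDegAlong π hπ : ℤ) = n)
    (D : Divisor K F) :
    Divisor.pushforwardAlong π hπ (Divisor.pullbackAlong π hπ D) = n • D := by
  induction D using Finsupp.induction with
  | zero => simp
  | single_add v m D _ _ ih =>
    rw [map_add, map_add, ih, smul_add]
    congr 1
    rw [Divisor.pullbackAlong_single, map_sum]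
    have : ∀ W ∈ Place.fiberAlong π hπ v,
        Divisor.pushforwardAlong π hπ (Finsupp.single W (m * (W.ramificationIndexAlong π : ℤ))) =
          Finsupp.single v (m * ((W.ramificationIndexAlong π : ℤ) *
            (W.inertiaDegAlong π hπ : ℤ))) := by
      intro W hW
      rw [Divisor.pushforwardAlong_single, Place.mem_fiberAlong.mp hW, mul_assoc]
    rw [Finset.sum_congr rfl this, ← Finsupp.single_finsetSum, ← Finset.mul_sum, hsum v,
      Finsupp.smul_single, smul_eq_mul, mul_comm]

/-- The kernel of the pull-back of divisor classes is killed by the degree. -/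
theorem s37l_pic0Pullback_eq_zero (π : F →ₐ[K] F') (hπ : π.toRingHom.IsIntegral)
    (hFI : FundamentalIdentityAlong K π hπ) (hfin : FiniteAlong K π)
    (hN : NormFormulaAlong K π hfin) (n : ℕ)
    (hsum : ∀ v : Place K F, ∑ W ∈ Place.fiberAlong π hπ v,
      (W.ramificationIndexAlong π : ℤ) * (W.inertiaDegAlong π hπ : ℤ) = n)
    (x : Pic0 K F) (hx : s37l_pic0Pullback π hπ hFI x = 0) : n • x = 0 := by
  obtain ⟨D, rfl⟩ := Pic0.mk_surjective x
  rw [s37l_pic0Pullback_mk] at hx
  have hprin : Divisor.IsPrincipal (Divisor.pullbackAlong π hπ (D : Divisor K F)) := by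
    have := (QuotientAddGroup.eq_zero_iff _).mp hx
    rw [AddSubgroup.mem_addSubgroupOf] at this
    exact this
  have hprin2 := Divisor.isPrincipal_pushforwardAlong π hπ hfin hN hprin
  rw [s37l_pushforward_pullback π hπ n hsum] at hprin2
  have : (n • D : Divisor.degZero (K := K) (F := F)) ∈
      (Divisor.principal (K := K) (F := F)).addSubgroupOf (Divisor.degZero (K := K) (F := F)) := by
    rw [AddSubgroup.mem_addSubgroupOf]
    have hc : ((n • D : Divisor.degZero (K := K) (F := F)) : Divisor K F) =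
        (n : ℤ) • (D : Divisor K F) := by
      rw [AddSubgroupClass.coe_nsmul, Nat.cast_smul_eq_nsmul]
    rw [hc]
    exact hprin2
  exact (QuotientAddGroup.eq_zero_iff _).mpr this

end Kernel

end

end Fermat.Agent.Lib.S37
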