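/-
S37, package [R23] (helper8): norms commute with base change in a square of fields with coprime
degrees (linear disjointness), in instance form and in "along a homomorphism" form.
-/
import Mathlib
import Fermat.Prelude.Def_AlgebraicCurve_Correspondence

set_option autoImplicit false
set_option linter.style.haveILetI false

noncomputable section

namespace Fermat.Agent.Lib.S37

open Module AlgebraicCurve

section NormBaseChange

variable {F F₁ F₂ F₃ : Type*} [Field F] [Field F₁] [Field F₂] [Field F₃]
  [Algebra F F₁] [Algebra F F₂] [Algebra F₁ F₃] [Algebra F₂ F₃] [Algebra F F₃]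
  [IsScalarTower F F₁ F₃] [IsScalarTower F F₂ F₃]

/-- In a square of fields with `[F₁ : F]` and `[F₂ : F]` coprime, an `F`-basis of `F₁` stays
linearly independent over `F₂`. -/
theorem s37l_linearIndependent_of_coprime [FiniteDimensional F F₁] [FiniteDimensional F F₂]
    (hcop : (finrank F F₁).Coprime (finrank F F₂)) {ι : Type*} (b : Basis ι F F₁) :
    LinearIndependent F₂ (fun i => algebraMap F₁ F₃ (b i)) := by
  let A : IntermediateField F F₃ := (IsScalarTower.toAlgHom F F₁ F₃).fieldRange
  let e : F₁ ≃ₐ[F] A := AlgEquiv.ofInjectiveField (IsScalarTower.toAlgHom F F₁ F₃)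
  have hfr : finrank F A = finrank F F₁ := e.toLinearEquiv.finrank_eq.symm
  have H : A.LinearDisjoint F₂ :=
    IntermediateField.LinearDisjoint.of_finrank_coprime (by rwa [hfr])
  have ha : LinearIndependent F (fun i => e (b i)) :=
    b.linearIndependent.map' e.toLinearEquiv.toLinearMap e.toLinearEquiv.ker
  exact H.linearIndependent_left ha

/-- **Norms commute with base change** in a square of fields with coprime degrees. -/
theorem s37l_norm_baseChange [FiniteDimensional F F₁] [FiniteDimensional F F₂]
    (hcop : (finrank F F₁).Coprime (finrank F F₂)) (hdeg : finrank F₂ F₃ = finrank F F₁)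
    (x : F₁) :
    Algebra.norm F₂ (algebraMap F₁ F₃ x) = algebraMap F F₂ (Algebra.norm F x) := by
  classical
  set n := finrank F F₁ with hn
  have hnpos : 0 < n := Module.finrank_pos
  haveI : Nonempty (Fin n) := ⟨⟨0, hnpos⟩⟩
  let b : Basis (Fin n) F F₁ := Module.finBasis F F₁
  have hli := s37l_linearIndependent_of_coprime (F₃ := F₃) hcop b
  let b' : Basis (Fin n) F₂ F₃ :=
    basisOfLinearIndependentOfCardEqFinrank hli (by rw [Fintype.card_fin, hdeg])
  have hb' : ∀ i, b' i = algebraMap F₁ F₃ (b i) := fun i => by
    simp only [b', coe_basisOfLinearIndependentOfCardEqFinrank]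
  rw [Algebra.norm_eq_matrix_det b', Algebra.norm_eq_matrix_det b, RingHom.map_det]
  congr 1
  ext i j
  rw [RingHom.mapMatrix_apply, Matrix.map_apply, Algebra.leftMulMatrix_eq_repr_mul,
    Algebra.leftMulMatrix_eq_repr_mul]
  have hexp : algebraMap F₁ F₃ x * b' j =
      ∑ k, algebraMap F F₂ (b.repr (x * b j) k) • b' k := by
    rw [hb', ← map_mul]
    conv_lhs => rw [← b.sum_repr (x * b j)]
    rw [map_sum]
    refine Finset.sum_congr rfl fun k _ => ?_
    rw [hb', Algebra.smul_def, Algebra.smul_def, map_mul, ← IsScalarTower.algebraMap_apply,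
      ← IsScalarTower.algebraMap_apply]
  rw [hexp, map_sum, Finsupp.coe_finsetSum, Finset.sum_apply]
  simp only [map_smul, Basis.repr_self, Finsupp.smul_apply, Finsupp.single_apply, smul_eq_mul,
    mul_ite, mul_one, mul_zero, Finset.sum_ite_eq', Finset.mem_univ, if_true]

end NormBaseChange

section Along

variable {K F F₁ F₂ F₃ : Type*} [Field K] [Field F] [Field F₁] [Field F₂] [Field F₃]
  [Algebra K F] [Algebra K F₁] [Algebra K F₂] [Algebra K F₃]

/-- Norms commute with base change in a commutative square of function fields with coprime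
degrees, "along" form. -/
theorem s37l_norm_baseChangeAlong
    (α : F →ₐ[K] F₁) (π : F →ₐ[K] F₂) (α' : F₂ →ₐ[K] F₃) (π' : F₁ →ₐ[K] F₃)
    (hsq : α'.comp π = π'.comp α)
    (hfinα : FiniteAlong K α) (hfinπ : FiniteAlong K π)
    (hcop : (finrankAlong K α).Coprime (finrankAlong K π))
    (hdeg : finrankAlong K α' = finrankAlong K α) (f : F₁) :
    (letI := algebraAlong α'; Algebra.norm F₂ (π' f)) =
      π (letI := algebraAlong α; Algebra.norm F f) := by
  letI i1 : Algebra F F₁ := algebraAlong α
  letI i2 : Algebra F F₂ := algebraAlong π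
  letI i3 : Algebra F₁ F₃ := algebraAlong π'
  letI i4 : Algebra F₂ F₃ := algebraAlong α'
  letI i5 : Algebra F F₃ := algebraAlong (α'.comp π)
  haveI t1 : IsScalarTower F F₂ F₃ := IsScalarTower.of_algebraMap_eq fun x => rfl
  haveI t2 : IsScalarTower F F₁ F₃ := IsScalarTower.of_algebraMap_eq fun x => by
    show (α'.comp π) x = π' (α x)
    rw [hsq]
    rfl
  haveI : FiniteDimensional F F₁ := hfinα
  haveI : FiniteDimensional F F₂ := hfinπ
  exact s37l_norm_baseChange (F := F) (F₁ := F₁) (F₂ := F₂) (F₃ := F₃) hcop hdeg f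

end Along

end Fermat.Agent.Lib.S37
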