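/-
S37 (Eichler–Shimura congruence), package (E) (helper6), part 1: pure Laurent-series lemmas
for the norm congruence (d1).

* (P1) `s37e_pow_char`: over a ring of characteristic `ℓ`,
  `y ^ ℓ = qExpand ℓ (coeffMap Frobenius y)` for every Laurent series `y`.
* (P2) `s37e_coeffMap_prod_tw`: if `f ζ = 1` then
  `coeffMap f (∏_{b<ℓ} tw(ζ^b) y) = (coeffMap f y) ^ ℓ`.
* (P3) `s37e_exists_qExpand_eq_prod_tw`: over a domain, with `ζ` a primitive `ℓ`-th root of unity,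
  `∏_{b<ℓ} tw(ζ^b) y = qExpand ℓ z` for a (unique) `z`.
* (P4) `s37e_coeffMap_normFactor`, `s37e_qExpand_eq_pow`, `s37e_coeffMap_norm`: the reduction of
  the norm `qExpand ℓ y * z` is `(Fr⁻¹ ȳ) ^ ℓ * Fr ȳ`.
-/
import Fermat.Agent.Lib.S28.MTwist

set_option autoImplicit false

namespace Fermat.Agent.Lib.S37

open ModularCurve HahnSeries Fermat.Agent.Lib.S28

noncomputable section

/-! ### (P1) Frobenius on Laurent series -/

section P1

variable {k : Type*} [CommRing k] (ℓ : ℕ) [hℓ : Fact ℓ.Prime] [CharP k ℓ]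

instance s37e_neZero : NeZero ℓ := ⟨hℓ.out.ne_zero⟩

theorem s37e_powerSeries_pow_char (p : PowerSeries k) :
    p ^ ℓ = PowerSeries.map (frobenius k ℓ) (PowerSeries.expand ℓ hℓ.out.ne_zero p) :=
  (MvPowerSeries.map_frobenius_expand (σ := Unit) ℓ hℓ.out.ne_zero (f := p)).symm

theorem s37e_coeffMap_ofPowerSeries {R S : Type*} [CommRing R] [CommRing S] (f : R →+* S)
    (p : PowerSeries R) :
    coeffMap f (HahnSeries.ofPowerSeries ℤ R p) =
      HahnSeries.ofPowerSeries ℤ S (PowerSeries.map f p) := by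
  ext i
  rw [coeffMap_coeff, PowerSeries.coeff_coe, PowerSeries.coeff_coe]
  split_ifs with h
  · exact map_zero f
  · rw [PowerSeries.coeff_map]

theorem s37e_qExpand_ofPowerSeries {R : Type*} [CommRing R] (n : ℕ) [NeZero n]
    (p : PowerSeries R) :
    qExpand R n (HahnSeries.ofPowerSeries ℤ R p) =
      HahnSeries.ofPowerSeries ℤ R (PowerSeries.expand n (NeZero.ne n) p) := by
  ext i
  have hn : (0 : ℤ) < n := by exact_mod_cast Nat.pos_of_ne_zero (NeZero.ne n)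
  by_cases hi : (n : ℤ) ∣ i
  · obtain ⟨m, rfl⟩ := hi
    rw [qExpand_coeff_mul, PowerSeries.coeff_coe, PowerSeries.coeff_coe]
    by_cases hm : m < 0
    · rw [if_pos hm, if_pos (mul_neg_of_pos_of_neg hn hm)]
    · rw [if_neg hm, if_neg (by push Not at hm ⊢; exact mul_nonneg hn.le hm)]
      have hm' : 0 ≤ m := not_lt.mp hm
      have : ((n : ℤ) * m).natAbs = n * m.natAbs := by
        rw [Int.natAbs_mul, Int.natAbs_natCast]
      rw [this, PowerSeries.coeff_expand_mul]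
  · rw [qExpand_coeff_of_not_dvd n _ hi, PowerSeries.coeff_coe]
    split_ifs with h
    · rfl
    · rw [PowerSeries.coeff_expand_of_not_dvd]
      intro hd
      apply hi
      have h0 : 0 ≤ i := not_lt.mp h
      obtain ⟨c, hc⟩ := hd
      refine ⟨c, ?_⟩
      rw [← Int.natAbs_of_nonneg h0, hc]
      push_cast
      rfl

/-- **(P1)** In characteristic `ℓ`, `y ^ ℓ = (Fr y)(t^ℓ)`. -/
theorem s37e_pow_char (y : LaurentSeries k) :
    y ^ ℓ = qExpand k ℓ (coeffMap (frobenius k ℓ) y) := by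
  have hy := LaurentSeries.single_order_mul_powerSeriesPart y
  set p := LaurentSeries.powerSeriesPart y
  have h1 : (HahnSeries.single (HahnSeries.order y) (1 : k)) ^ ℓ =
      qExpand k ℓ (coeffMap (frobenius k ℓ) (HahnSeries.single (HahnSeries.order y) (1 : k))) := by
    rw [coeffMap_single, qExpand_single, HahnSeries.single_pow, one_pow, map_one (frobenius k ℓ),
      nsmul_eq_mul]
  have h2 : (HahnSeries.ofPowerSeries ℤ k p) ^ ℓ =
      qExpand k ℓ (coeffMap (frobenius k ℓ) (HahnSeries.ofPowerSeries ℤ k p)) := by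
    rw [← PowerSeries.coe_pow, s37e_powerSeries_pow_char ℓ p, s37e_coeffMap_ofPowerSeries,
      s37e_qExpand_ofPowerSeries, PowerSeries.map_expand]
  rw [← hy, mul_pow, map_mul, map_mul, h1, h2]

end P1

/-! ### (P2) the product of the twists, reduced -/

section P2

variable {R k : Type*} [CommRing R] [CommRing k]

/-- The product `∏_{b<ℓ} y(ζ^b t)`. -/
def s37e_prodTw (ℓ : ℕ) (ζ : Rˣ) (y : LaurentSeries R) : LaurentSeries R :=
  ∏ b ∈ Finset.range ℓ, s28m_tw (ζ ^ b) y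

/-- **(P2)** -/
theorem s37e_coeffMap_prodTw (ℓ : ℕ) (ζ : Rˣ) (f : R →+* k) (hζ : f (ζ : R) = 1)
    (y : LaurentSeries R) :
    coeffMap f (s37e_prodTw ℓ ζ y) = (coeffMap f y) ^ ℓ := by
  have h1 : Units.map (f : R →* k) ζ = 1 := by
    apply Units.ext
    simpa using hζ
  unfold s37e_prodTw
  rw [map_prod]
  have : ∀ b ∈ Finset.range ℓ, coeffMap f (s28m_tw (ζ ^ b) y) = coeffMap f y := by
    intro b _
    rw [s28m_coeffMap_tw, map_pow, h1, one_pow, s28m_tw_one]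
  rw [Finset.prod_congr rfl this, Finset.prod_const, Finset.card_range]

theorem s37e_tw_prodTw (ℓ : ℕ) (hℓ : 0 < ℓ) (ζ : Rˣ) (hζ : ζ ^ ℓ = 1) (y : LaurentSeries R) :
    s28m_tw ζ (s37e_prodTw ℓ ζ y) = s37e_prodTw ℓ ζ y := by
  unfold s37e_prodTw
  rw [map_prod]
  simp_rw [s28m_tw_tw, ← pow_succ']
  obtain ⟨m, rfl⟩ : ∃ m, ℓ = m + 1 := ⟨ℓ - 1, by omega⟩
  rw [Finset.prod_range_succ (fun b => s28m_tw (ζ ^ (b + 1)) y) m, hζ, s28m_tw_one,
    Finset.prod_range_succ' (fun b => s28m_tw (ζ ^ b) y) m, pow_zero, s28m_tw_one]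

end P2

/-! ### (P3) the product of the twists is a series in `t^ℓ` -/

section P3

variable {R : Type*} [CommRing R] [IsDomain R]

/-- A series fixed by `t ↦ ζ t` (`ζ` a primitive `ℓ`-th root of unity) is a series in `t^ℓ`. -/
theorem s37e_exists_qExpand_of_tw_eq (ℓ : ℕ) [NeZero ℓ] (ζ : Rˣ)
    (hζ : IsPrimitiveRoot (ζ : R) ℓ) (x : LaurentSeries R) (hx : s28m_tw ζ x = x) :
    ∃ z : LaurentSeries R, qExpand R ℓ z = x := by
  have hℓ0 : (0 : ℤ) < ℓ := by exact_mod_cast Nat.pos_of_ne_zero (NeZero.ne ℓ)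
  have hvan : ∀ n : ℤ, ¬ (ℓ : ℤ) ∣ n → x.coeff n = 0 := by
    intro n hn
    have h := congrArg (fun s => s.coeff n) hx
    simp only [s28m_tw_coeff] at h
    have h1 : (((ζ ^ n : Rˣ) : R) - 1) * x.coeff n = 0 := by rw [sub_mul, one_mul, h, sub_self]
    rcases mul_eq_zero.mp h1 with h2 | h2
    · exfalso
      apply hn
      have h3 : ((ζ ^ n : Rˣ) : R) = 1 := sub_eq_zero.mp h2
      have h4 : (ζ ^ n : Rˣ) = 1 := Units.ext h3
      have hζu : IsPrimitiveRoot ζ ℓ := IsPrimitiveRoot.of_map_of_injective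
        (f := Units.coeHom R) (by simpa using hζ) Units.val_injective
      exact (hζu.zpow_eq_one_iff_dvd n).mp h4
    · exact h2
  -- the series `z` with `z_m = x_{ℓ m}`
  let z : LaurentSeries R :=
    { coeff := fun m => x.coeff ((ℓ : ℤ) * m)
      isPWO_support' := by
        have hmono : Monotone (fun i : ℤ => i / (ℓ : ℤ)) := fun a b hab =>
          Int.ediv_le_ediv hℓ0 hab
        refine (x.isPWO_support.image_of_monotone hmono).mono ?_
        intro m hm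
        refine ⟨(ℓ : ℤ) * m, hm, ?_⟩
        show (ℓ : ℤ) * m / (ℓ : ℤ) = m
        exact Int.mul_ediv_cancel_left m hℓ0.ne' }
  refine ⟨z, ?_⟩
  ext n
  by_cases hn : (ℓ : ℤ) ∣ n
  · obtain ⟨m, rfl⟩ := hn
    rw [qExpand_coeff_mul]
  · rw [qExpand_coeff_of_not_dvd ℓ _ hn, hvan n hn]

/-- **(P3)** -/
theorem s37e_exists_qExpand_eq_prodTw (ℓ : ℕ) [NeZero ℓ] (ζ : Rˣ)
    (hζ : IsPrimitiveRoot (ζ : R) ℓ) (y : LaurentSeries R) :
    ∃ z : LaurentSeries R, qExpand R ℓ z = s37e_prodTw ℓ ζ y := by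
  refine s37e_exists_qExpand_of_tw_eq ℓ ζ hζ _ (s37e_tw_prodTw ℓ (Nat.pos_of_ne_zero (NeZero.ne ℓ))
    ζ ?_ y)
  apply Units.ext
  rw [Units.val_pow_eq_pow_val, hζ.pow_eq_one, Units.val_one]

end P3

/-! ### (P4) the reduction of the norm factor and of the norm -/

section P4

variable {R k : Type*} [CommRing R] [CommRing k] (ℓ : ℕ) [hℓ : Fact ℓ.Prime] [CharP k ℓ]

/-- **(P4a)** If `z(t^ℓ) = ∏_{b<ℓ} y(ζ^b t)` and `ζ ↦ 1` under `f`, then `z̄ = Fr(ȳ)`. -/
theorem s37e_coeffMap_normFactor (ζ : Rˣ) (f : R →+* k) (hζ : f (ζ : R) = 1)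
    (y z : LaurentSeries R) (hz : qExpand R ℓ z = s37e_prodTw ℓ ζ y) :
    coeffMap f z = coeffMap (frobenius k ℓ) (coeffMap f y) := by
  apply qExpand_injective (R := k) ℓ
  rw [← coeffMap_qExpand, hz, s37e_coeffMap_prodTw ℓ ζ f hζ, s37e_pow_char ℓ]

/-- **(P4b)** Over a perfect ring of characteristic `ℓ`, `ȳ(t^ℓ) = (Fr⁻¹ ȳ) ^ ℓ`. -/
theorem s37e_qExpand_eq_pow [PerfectRing k ℓ] (y : LaurentSeries k) :
    qExpand k ℓ y = (coeffMap ((frobeniusEquiv k ℓ).symm : k →+* k) y) ^ ℓ := by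
  rw [s37e_pow_char ℓ, coeffMap_coeffMap]
  congr 1
  conv_lhs => rw [← coeffMap_id y]
  refine coeffMap_congr (RingHom.ext fun a => ?_) y
  simp

/-- **(P4c)** The reduction of the norm `y(t^ℓ) · z`, where `z(t^ℓ) = ∏_{b<ℓ} y(ζ^b t)`:
it is `(Fr⁻¹ ȳ) ^ ℓ · Fr ȳ`. -/
theorem s37e_coeffMap_norm [PerfectRing k ℓ] (ζ : Rˣ) (f : R →+* k) (hζ : f (ζ : R) = 1)
    (y z : LaurentSeries R) (hz : qExpand R ℓ z = s37e_prodTw ℓ ζ y) :
    coeffMap f (qExpand R ℓ y * z) =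
      (coeffMap ((frobeniusEquiv k ℓ).symm : k →+* k) (coeffMap f y)) ^ ℓ *
        coeffMap (frobenius k ℓ) (coeffMap f y) := by
  rw [map_mul, coeffMap_qExpand, s37e_coeffMap_normFactor ℓ ζ f hζ y z hz, s37e_qExpand_eq_pow ℓ]

end P4

/-! ### Auxiliary transport lemmas -/

section Aux

variable {R S : Type*} [CommRing R] [CommRing S]

/-- `prodTw` commutes with coefficient maps. -/
theorem s37e_coeffMap_prodTw' (ℓ : ℕ) (ζ : Rˣ) (g : R →+* S) (y : LaurentSeries R) :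
    coeffMap g (s37e_prodTw ℓ ζ y) = s37e_prodTw ℓ (Units.map (g : R →* S) ζ) (coeffMap g y) := by
  unfold s37e_prodTw
  rw [map_prod]
  refine Finset.prod_congr rfl fun b _ => ?_
  rw [s28m_coeffMap_tw, map_pow]

/-- In the `t`-coordinate the norm `y(t^ℓ) z` becomes `y(t^{ℓ²}) ∏_{b<ℓ} y(ζ^b t)`. -/
theorem s37e_qExpand_norm (ℓ : ℕ) [NeZero ℓ] (ζ : Rˣ) (y z : LaurentSeries R)
    (hz : qExpand R ℓ z = s37e_prodTw ℓ ζ y) :
    qExpand R ℓ (qExpand R ℓ y * z) = qExpand R ℓ (qExpand R ℓ y) * s37e_prodTw ℓ ζ y := by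
  rw [map_mul, hz]

/-- In a reduced ring of characteristic `ℓ`, an `ℓ`-th root of unity is `1`. -/
theorem s37e_eq_one_of_pow_eq_one {k : Type*} [CommRing k] [IsReduced k] (ℓ : ℕ)
    [hℓ : Fact ℓ.Prime] [CharP k ℓ] {x : k} (hx : x ^ ℓ = 1) : x = 1 := by
  have h : (x - 1) ^ ℓ = 0 := by rw [sub_pow_char, hx, one_pow, sub_self]
  exact sub_eq_zero.mp (pow_eq_zero_iff (hℓ.out.ne_zero) |>.mp h)

/-- The residue of a root of unity of order `ℓ` in characteristic `ℓ` is `1`. -/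
theorem s37e_map_zeta {k : Type*} [CommRing k] [IsReduced k] (ℓ : ℕ) [Fact ℓ.Prime] [CharP k ℓ]
    (ζ : Rˣ) (hζ : ζ ^ ℓ = 1) (f : R →+* k) : f (ζ : R) = 1 := by
  apply s37e_eq_one_of_pow_eq_one ℓ
  rw [← map_pow, ← Units.val_pow_eq_pow_val, hζ, Units.val_one, map_one]

end Aux

end

end Fermat.Agent.Lib.S37
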