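/-
S37 moonshot, package [W] (helper1), part 1: SUBSTITUTION AUTOMORPHISMS of the function field
`F̄(M) = Q̄(j(q^d) : d ∣ M) ⊆ Q̄((q))` (generic form of the Fricke construction of Lib/S28/WFricke).

Input: an involution `co` of the divisors of `M` and a map `H : ℍ → ℍ` of the upper half plane
with `j(d · H z) = j(co(d) · z)` for all `d ∣ M`.  Output: the `Q̄`-algebra automorphism
`s37w_substEquiv` of `F̄(M)` with `j(q^d) ↦ j(q^(co d))`, an involution.
Proof: polynomial relations (with `Q̄`-coefficients) between the functions `z ↦ j(d z)` are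
preserved by the substitution `z ↦ H z`, and a function is determined by its Laurent
`q`-expansion (Lib/FF bridge, embedding `ffb_iota : Q̄ → ℂ`).
-/
import Fermat.Agent.Lib.S28.WFricke
import Fermat.Agent.Lib.FF.BridgePsi
import Fermat.Agent.Lib.FF.DegreeBridgeModel

set_option autoImplicit false

namespace Fermat.Agent.Lib.S37

open UpperHalfPlane hiding I
open Complex ModularCurve Fermat.Agent.Lib.FF Fermat.Agent.Lib.S28
open scoped MatrixGroups

noncomputable section

set_option linter.unusedSectionVars false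

local notation "Kb" => AlgebraicClosure ℚ

variable (M : ℕ) [NeZero M]

/-- The generators `J_d = j(q^d)` over `Q̄`. -/
def s37w_gen (d : s28w_Idx M) : LaurentSeries Kb := coeffEmb Kb (qExpand ℚ d.1 jq)

theorem s37w_range_gen : Set.range (s37w_gen M) = ffg_gens M := by
  ext x
  constructor
  · rintro ⟨d, rfl⟩
    exact ⟨qExpand ℚ d.1 jq, ⟨d.1, inferInstance, d.2, rfl⟩, rfl⟩
  · rintro ⟨_, ⟨d, hne, hd, rfl⟩, rfl⟩
    exact ⟨⟨d, hd⟩, rfl⟩

variable (co : s28w_Idx M → s28w_Idx M)

/-- Evaluation `X_d ↦ j(q^d)`. -/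
def s37w_ev : MvPolynomial (s28w_Idx M) Kb →ₐ[Kb] LaurentSeries Kb :=
  MvPolynomial.aeval (s37w_gen M)

/-- Evaluation `X_d ↦ j(q^(co d))`. -/
def s37w_ev' : MvPolynomial (s28w_Idx M) Kb →ₐ[Kb] LaurentSeries Kb :=
  MvPolynomial.aeval (fun d => s37w_gen M (co d))

/-- The functions `z ↦ P(j(d z))`. -/
def s37w_fn (P : MvPolynomial (s28w_Idx M) Kb) : ℍ → ℂ := fun z =>
  MvPolynomial.eval₂ ffb_iota (fun d : s28w_Idx M => ffb_jd d.1 z) P

/-- The functions `z ↦ P(j(co(d) z))`. -/
def s37w_fn' (P : MvPolynomial (s28w_Idx M) Kb) : ℍ → ℂ := fun z =>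
  MvPolynomial.eval₂ ffb_iota (fun d : s28w_Idx M => ffb_jd (co d).1 z) P

theorem s37w_coeffMap_gen (d : s28w_Idx M) :
    coeffMap ffb_iota (s37w_gen M d) = coeffMap (algebraMap ℚ ℂ) (qExpand ℚ d.1 jq) :=
  ffb_coeffMap_iota_coeffEmb _

theorem s37w_isLaurent_fn (P : MvPolynomial (s28w_Idx M) Kb) :
    ffb_IsLaurent (s37w_fn M P) (coeffMap ffb_iota (s37w_ev M P)) := by
  induction P using MvPolynomial.induction_on with
  | C a =>
    have h1 : s37w_fn M (MvPolynomial.C a) = fun _ => ffb_iota a := by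
      funext z
      simp [s37w_fn]
    have h2 : s37w_ev M (MvPolynomial.C a) = algebraMap Kb (LaurentSeries Kb) a := by
      simp [s37w_ev]
    rw [h1, h2, ffb_coeffMap_iota_algebraMap]
    exact ffb_IsLaurent.const _
  | add p q hp hq =>
    have h1 : s37w_fn M (p + q) = s37w_fn M p + s37w_fn M q := by
      funext z
      simp [s37w_fn]
    rw [h1, map_add, map_add]
    exact hp.add hq
  | mul_X p d hp =>
    have h1 : s37w_fn M (p * MvPolynomial.X d) = s37w_fn M p * ffb_jd d.1 := by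
      funext z
      simp [s37w_fn]
    have h2 : s37w_ev M (p * MvPolynomial.X d) = s37w_ev M p * s37w_gen M d := by
      simp [s37w_ev]
    rw [h1, h2, map_mul, s37w_coeffMap_gen]
    exact hp.mul (ffb_isLaurent_jd d.1)

theorem s37w_isLaurent_fn' (P : MvPolynomial (s28w_Idx M) Kb) :
    ffb_IsLaurent (s37w_fn' M co P) (coeffMap ffb_iota (s37w_ev' M co P)) := by
  induction P using MvPolynomial.induction_on with
  | C a =>
    have h1 : s37w_fn' M co (MvPolynomial.C a) = fun _ => ffb_iota a := by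
      funext z
      simp [s37w_fn']
    have h2 : s37w_ev' M co (MvPolynomial.C a) = algebraMap Kb (LaurentSeries Kb) a := by
      simp [s37w_ev']
    rw [h1, h2, ffb_coeffMap_iota_algebraMap]
    exact ffb_IsLaurent.const _
  | add p q hp hq =>
    have h1 : s37w_fn' M co (p + q) = s37w_fn' M co p + s37w_fn' M co q := by
      funext z
      simp [s37w_fn']
    rw [h1, map_add, map_add]
    exact hp.add hq
  | mul_X p d hp =>
    have h1 : s37w_fn' M co (p * MvPolynomial.X d) = s37w_fn' M co p * ffb_jd (co d).1 := by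
      funext z
      simp [s37w_fn']
    have h2 : s37w_ev' M co (p * MvPolynomial.X d) =
        s37w_ev' M co p * s37w_gen M (co d) := by
      simp [s37w_ev']
    rw [h1, h2, map_mul, s37w_coeffMap_gen]
    exact hp.mul (ffb_isLaurent_jd (co d).1)

variable (H : ℍ → ℍ) (hH : ∀ (d : s28w_Idx M) (z : ℍ), ffb_jd d.1 (H z) = ffb_jd (co d).1 z)

include hH in
theorem s37w_fn'_eq (P : MvPolynomial (s28w_Idx M) Kb) (z : ℍ) :
    s37w_fn' M co P z = s37w_fn M P (H z) := by
  unfold s37w_fn' s37w_fn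
  simp only [hH]

include hH in
/-- **Key**: relations between the `j(q^d)` are relations between the `j(q^(co d))`. -/
theorem s37w_ker_le (P : MvPolynomial (s28w_Idx M) Kb) (h : s37w_ev M P = 0) :
    s37w_ev' M co P = 0 := by
  have h1 := s37w_isLaurent_fn M P
  rw [h, map_zero] at h1
  have h2 : s37w_fn M P = 0 := h1.eq_zero
  have h3 : s37w_fn' M co P = 0 := by
    funext z
    rw [s37w_fn'_eq M co H hH, h2]
    rfl
  have h4 := s37w_isLaurent_fn' M co P
  rw [h3] at h4
  have h5 : ffb_IsLaurent (0 : ℍ → ℂ) (0 : LaurentSeries ℂ) := by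
    have := ffb_IsLaurent.const 0
    rw [map_zero] at this
    exact this
  have h6 := h4.unique h5
  apply ffb_coeffMap_injective _ ffb_iota_injective
  rw [h6, map_zero]

/-! ### The algebra part -/

variable (hco : ∀ d, co (co d) = d)

theorem s37w_range_gen_co (hco : ∀ d, co (co d) = d) :
    Set.range (fun d => s37w_gen M (co d)) = ffg_gens M := by
  rw [← s37w_range_gen]
  ext x
  constructor
  · rintro ⟨d, rfl⟩
    exact ⟨co d, rfl⟩
  · rintro ⟨d, rfl⟩
    exact ⟨co d, by simp only [hco]⟩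

theorem s37w_ev_range : (s37w_ev M).range = ffg_A M := by
  rw [s37w_ev, ← Algebra.adjoin_range_eq_range_aeval, s37w_range_gen]

include hco in
theorem s37w_ev'_range : (s37w_ev' M co).range = ffg_A M := by
  rw [s37w_ev', ← Algebra.adjoin_range_eq_range_aeval, s37w_range_gen_co M co hco]

/-- Renaming `X_d ↦ X_{co d}`. -/
def s37w_ren : MvPolynomial (s28w_Idx M) Kb →ₐ[Kb] MvPolynomial (s28w_Idx M) Kb :=
  MvPolynomial.rename co

theorem s37w_ev_ren (P : MvPolynomial (s28w_Idx M) Kb) :
    s37w_ev M (s37w_ren M co P) = s37w_ev' M co P := by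
  simp only [s37w_ev, s37w_ev', s37w_ren, MvPolynomial.aeval_rename]
  rfl

include hco in
theorem s37w_ev'_ren (P : MvPolynomial (s28w_Idx M) Kb) :
    s37w_ev' M co (s37w_ren M co P) = s37w_ev M P := by
  simp only [s37w_ev, s37w_ev', s37w_ren, MvPolynomial.aeval_rename]
  have h : ((fun d => s37w_gen M (co d)) ∘ co) = s37w_gen M := by
    funext d
    simp only [Function.comp_apply, hco]
  rw [h]

include hH hco in
theorem s37w_ker_ge (P : MvPolynomial (s28w_Idx M) Kb) (h : s37w_ev' M co P = 0) :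
    s37w_ev M P = 0 := by
  rw [← s37w_ev'_ren M co hco]
  apply s37w_ker_le M co H hH
  rw [s37w_ev_ren, h]

/-- `ev` with codomain `B = Q̄[j(q^d) : d ∣ M]`. -/
def s37w_evB : MvPolynomial (s28w_Idx M) Kb →ₐ[Kb] ffg_A M :=
  (s37w_ev M).codRestrict (ffg_A M) fun P => by
    rw [← s37w_ev_range]; exact ⟨P, rfl⟩

theorem s37w_evB_coe (P : MvPolynomial (s28w_Idx M) Kb) : (s37w_evB M P : LaurentSeries Kb) =
    s37w_ev M P := rfl

theorem s37w_evB_surjective : Function.Surjective (s37w_evB M) := by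
  rintro ⟨b, hb⟩
  have hb' : b ∈ (s37w_ev M).range := by rw [s37w_ev_range]; exact hb
  obtain ⟨P, rfl⟩ := hb'
  exact ⟨P, rfl⟩

/-- The substitution map on `B`. -/
def s37w_gB : ffg_A M →ₐ[Kb] LaurentSeries Kb :=
  AlgHom.liftOfSurjective (s37w_evB M) (s37w_evB_surjective M) (s37w_ev' M co) (by
    intro P hP
    rw [RingHom.mem_ker] at hP ⊢
    have h1 : s37w_ev M P = 0 := by
      have := congrArg (fun b : ffg_A M => (b : LaurentSeries Kb)) hP
      exact this
    exact s37w_ker_le M co H hH P h1)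

theorem s37w_gB_evB (P : MvPolynomial (s28w_Idx M) Kb) :
    s37w_gB M co H hH (s37w_evB M P) = s37w_ev' M co P :=
  AlgHom.liftOfSurjective_apply _ _ _ _ P

include hco in
theorem s37w_gB_injective : Function.Injective (s37w_gB M co H hH) := by
  rw [injective_iff_map_eq_zero]
  intro b hb
  obtain ⟨P, rfl⟩ := s37w_evB_surjective M b
  rw [s37w_gB_evB] at hb
  apply Subtype.ext
  rw [s37w_evB_coe, s37w_ker_ge M co H hH hco P hb]
  rfl

include hco in
theorem s37w_gB_mem (b : ffg_A M) : s37w_gB M co H hH b ∈ ffg_A M := by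
  obtain ⟨P, rfl⟩ := s37w_evB_surjective M b
  rw [s37w_gB_evB, ← s37w_ev'_range M co hco]
  exact ⟨P, rfl⟩

/-- The substitution map `F̄(M) → Q̄((q))`. -/
def s37w_substHom : ffi_F M →ₐ[Kb] LaurentSeries Kb :=
  IsFractionRing.liftAlgHom (A := ffg_A M) (K := ffi_F M) (g := s37w_gB M co H hH)
    (s37w_gB_injective M co H hH hco)

theorem s37w_substHom_algebraMap (b : ffg_A M) :
    s37w_substHom M co H hH hco (algebraMap (ffg_A M) (ffi_F M) b) = s37w_gB M co H hH b := by
  unfold s37w_substHom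
  rw [IsFractionRing.liftAlgHom_apply, IsFractionRing.lift_algebraMap]
  rfl

theorem s37w_substHom_mem (x : ffi_F M) :
    s37w_substHom M co H hH hco x ∈ modularFunctionFieldBar M := by
  obtain ⟨a, b, -, rfl⟩ := IsFractionRing.div_surjective (A := ffg_A M) x
  rw [map_div₀, s37w_substHom_algebraMap, s37w_substHom_algebraMap]
  exact div_mem (ffg_A_le M (s37w_gB_mem M co H hH hco a)) (ffg_A_le M (s37w_gB_mem M co H hH hco b))

/-- The substitution endomorphism of `F̄(M)`. -/
def s37w_substEnd : ffi_F M →ₐ[Kb] ffi_F M :=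
  (s37w_substHom M co H hH hco).codRestrict (modularFunctionFieldBar M).toSubalgebra
    (s37w_substHom_mem M co H hH hco)

theorem s37w_substEnd_coe (x : ffi_F M) :
    ((s37w_substEnd M co H hH hco x : ffi_F M) : LaurentSeries Kb) =
      s37w_substHom M co H hH hco x := rfl

/-- `g ∘ g = id` on `B`. -/
theorem s37w_gB_gB (b : ffg_A M) :
    s37w_gB M co H hH ⟨s37w_gB M co H hH b, s37w_gB_mem M co H hH hco b⟩ =
      (b : LaurentSeries Kb) := by
  obtain ⟨P, rfl⟩ := s37w_evB_surjective M b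
  have h1 : (⟨s37w_gB M co H hH (s37w_evB M P), s37w_gB_mem M co H hH hco _⟩ : ffg_A M) =
      s37w_evB M (s37w_ren M co P) := by
    apply Subtype.ext
    rw [s37w_evB_coe, s37w_ev_ren]
    exact s37w_gB_evB M co H hH P
  rw [h1, s37w_gB_evB, s37w_ev'_ren M co hco, s37w_evB_coe]

theorem s37w_substEnd_algebraMap (b : ffg_A M) :
    s37w_substEnd M co H hH hco (algebraMap (ffg_A M) (ffi_F M) b) =
      algebraMap (ffg_A M) (ffi_F M)
        ⟨s37w_gB M co H hH b, s37w_gB_mem M co H hH hco b⟩ := by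
  apply Subtype.ext
  rw [s37w_substEnd_coe, s37w_substHom_algebraMap]
  rfl

theorem s37w_substEnd_substEnd (x : ffi_F M) :
    s37w_substEnd M co H hH hco (s37w_substEnd M co H hH hco x) = x := by
  obtain ⟨a, b, -, rfl⟩ := IsFractionRing.div_surjective (A := ffg_A M) x
  rw [map_div₀, map_div₀, s37w_substEnd_algebraMap, s37w_substEnd_algebraMap,
    s37w_substEnd_algebraMap, s37w_substEnd_algebraMap]
  congr 1
  · apply Subtype.ext
    exact s37w_gB_gB M co H hH hco a
  · apply Subtype.ext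
    exact s37w_gB_gB M co H hH hco b

/-- **The substitution automorphism** of `F̄(M) = Q̄(j(q^d) : d ∣ M)`, an involution. -/
def s37w_substEquiv : ffi_F M ≃ₐ[Kb] ffi_F M :=
  AlgEquiv.ofAlgHom (s37w_substEnd M co H hH hco) (s37w_substEnd M co H hH hco)
    (AlgHom.ext (s37w_substEnd_substEnd M co H hH hco))
    (AlgHom.ext (s37w_substEnd_substEnd M co H hH hco))

theorem s37w_substEquiv_substEquiv (x : ffi_F M) :
    s37w_substEquiv M co H hH hco (s37w_substEquiv M co H hH hco x) = x :=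
  s37w_substEnd_substEnd M co H hH hco x

theorem s37w_gen_mem_A (d : s28w_Idx M) : s37w_gen M d ∈ ffg_A M :=
  Algebra.subset_adjoin (by rw [← s37w_range_gen]; exact ⟨d, rfl⟩)

theorem s37w_gB_gen (d : s28w_Idx M) :
    s37w_gB M co H hH ⟨s37w_gen M d, s37w_gen_mem_A M d⟩ = s37w_gen M (co d) := by
  have h1 : (⟨s37w_gen M d, s37w_gen_mem_A M d⟩ : ffg_A M) =
      s37w_evB M (MvPolynomial.X d) := by
    apply Subtype.ext
    rw [s37w_evB_coe]
    simp [s37w_ev]
  rw [h1, s37w_gB_evB]
  simp [s37w_ev']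

/-- **On generators**: `j(q^d) ↦ j(q^(co d))`. -/
theorem s37w_substEquiv_gen (d : s28w_Idx M)
    (x : ffi_F M) (hx : (x : LaurentSeries Kb) = s37w_gen M d) :
    ((s37w_substEquiv M co H hH hco x : ffi_F M) : LaurentSeries Kb) = s37w_gen M (co d) := by
  have h1 : x = algebraMap (ffg_A M) (ffi_F M) ⟨s37w_gen M d, s37w_gen_mem_A M d⟩ := by
    apply Subtype.ext
    rw [hx]
    rfl
  show ((s37w_substEnd M co H hH hco x : ffi_F M) : LaurentSeries Kb) = _
  rw [h1, s37w_substEnd_coe, s37w_substHom_algebraMap, s37w_gB_gen]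

end

end Fermat.Agent.Lib.S37
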