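/-
S37 moonshot, package [W] (helper1), part 2: the ATKIN–LEHNER involution `w_ℓ` of
`F̄(N ℓ) = Q̄(j(q^d) : d ∣ N ℓ)` for a prime `ℓ ∤ N`:
`j(q^d) ↦ j(q^(d ℓ))`, `j(q^(d ℓ)) ↦ j(q^d)` for `d ∣ N`; it swaps the two degeneracy maps
`heckeAlphaBar`, `heckeBetaBar : F̄(N) → F̄(N ℓ)`.

Analytic input: `W z = γ₀ • (ℓ z)` with `γ₀ = (1, -y; N, ℓ x) ∈ SL₂(ℤ)`, `ℓ x + N y = 1`:
`d · W z = γ₁ • (d ℓ z)`, `d ℓ · W z = γ₂ • (d z)` with `γ₁ = (1, -d y; N/d, ℓ x)`,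
`γ₂ = (ℓ, -d y; N/d, x)` in `SL₂(ℤ)`.
-/
import Fermat.Agent.Lib.S37.WSubst
import Fermat.Prelude.Def_ModularCurve_HeckeOperator

set_option autoImplicit false

namespace Fermat.Agent.Lib.S37

open UpperHalfPlane hiding I
open Complex ModularCurve Fermat.Agent.Lib.FF Fermat.Agent.Lib.S28
open scoped MatrixGroups

noncomputable section

set_option linter.unusedSectionVars false

local notation "Kb" => AlgebraicClosure ℚ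

/-- **Conjugation lemma**: `diag(d,1) γ diag(m,1) = k γ' diag(d',1)` entrywise implies
`d · (γ • (m z)) = γ' • (d' z)`. -/
theorem s37w_dmul_smul_dmul (d m d' : ℕ) [NeZero d] [NeZero m] [NeZero d'] (γ γ' : SL(2, ℤ))
    (k : ℤ) (hk : k ≠ 0)
    (h00 : (d : ℤ) * γ 0 0 * m = k * (γ' 0 0 * d')) (h01 : (d : ℤ) * γ 0 1 = k * γ' 0 1)
    (h10 : γ 1 0 * m = k * (γ' 1 0 * d')) (h11 : γ 1 1 = k * γ' 1 1) (z : ℍ) :
    ffb_dmul d (γ • ffb_dmul m z) = γ' • ffb_dmul d' z := by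
  apply UpperHalfPlane.ext
  rw [ffb_dmul_coe, coe_specialLinearGroup_apply, coe_specialLinearGroup_apply, ffb_dmul_coe,
    ffb_dmul_coe]
  simp only [algebraMap_int_eq, Int.coe_castRingHom, ofReal_intCast]
  have hA : ((γ 1 0 : ℤ) : ℂ) * ((m : ℂ) * z) + ((γ 1 1 : ℤ) : ℂ) ≠ 0 := by
    have := UpperHalfPlane.denom_ne_zero γ (ffb_dmul m z)
    simpa [UpperHalfPlane.denom] using this
  have hB : ((γ' 1 0 : ℤ) : ℂ) * ((d' : ℂ) * z) + ((γ' 1 1 : ℤ) : ℂ) ≠ 0 := by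
    have := UpperHalfPlane.denom_ne_zero γ' (ffb_dmul d' z)
    simpa [UpperHalfPlane.denom] using this
  have hkC : (k : ℂ) ≠ 0 := Int.cast_ne_zero.mpr hk
  have e00 : (d : ℂ) * ((γ 0 0 : ℤ) : ℂ) * (m : ℂ) = (k : ℂ) * (((γ' 0 0 : ℤ) : ℂ) * (d' : ℂ)) := by
    exact_mod_cast congrArg (Int.cast : ℤ → ℂ) h00
  have e01 : (d : ℂ) * ((γ 0 1 : ℤ) : ℂ) = (k : ℂ) * ((γ' 0 1 : ℤ) : ℂ) := by
    exact_mod_cast congrArg (Int.cast : ℤ → ℂ) h01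
  have e10 : ((γ 1 0 : ℤ) : ℂ) * (m : ℂ) = (k : ℂ) * (((γ' 1 0 : ℤ) : ℂ) * (d' : ℂ)) := by
    exact_mod_cast congrArg (Int.cast : ℤ → ℂ) h10
  have e11 : ((γ 1 1 : ℤ) : ℂ) = (k : ℂ) * ((γ' 1 1 : ℤ) : ℂ) := by
    exact_mod_cast congrArg (Int.cast : ℤ → ℂ) h11
  rw [mul_div_assoc', div_eq_div_iff hA hB]
  have hden : ((γ 1 0 : ℤ) : ℂ) * ((m : ℂ) * z) + ((γ 1 1 : ℤ) : ℂ) =
      (k : ℂ) * (((γ' 1 0 : ℤ) : ℂ) * ((d' : ℂ) * z) + ((γ' 1 1 : ℤ) : ℂ)) := by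
    linear_combination (z : ℂ) * e10 + e11
  have hnum : (d : ℂ) * (((γ 0 0 : ℤ) : ℂ) * ((m : ℂ) * z) + ((γ 0 1 : ℤ) : ℂ)) =
      (k : ℂ) * (((γ' 0 0 : ℤ) : ℂ) * ((d' : ℂ) * z) + ((γ' 0 1 : ℤ) : ℂ)) := by
    linear_combination (z : ℂ) * e00 + e01
  rw [hnum, hden]
  ring

variable (N ℓ : ℕ) [NeZero N] [NeZero ℓ]

/-- The Atkin–Lehner involution on the divisors of `N ℓ`: `D ↦ D / ℓ` if `ℓ ∣ D`, else `D ℓ`. -/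
def s37w_alCo (hℓ : ℓ.Prime) (D : s28w_Idx (N * ℓ)) : s28w_Idx (N * ℓ) :=
  if h : ℓ ∣ D.1 then ⟨D.1 / ℓ, (Nat.div_dvd_of_dvd h).trans D.2⟩
  else ⟨D.1 * ℓ, Nat.mul_dvd_mul_right
    (Nat.Coprime.dvd_of_dvd_mul_right ((Nat.Prime.coprime_iff_not_dvd hℓ).mpr h).symm D.2) ℓ⟩

theorem s37w_alCo_of_dvd (hℓ : ℓ.Prime) (D : s28w_Idx (N * ℓ)) (h : ℓ ∣ D.1) :
    (s37w_alCo N ℓ hℓ D).1 = D.1 / ℓ := by
  rw [s37w_alCo, dif_pos h]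

theorem s37w_alCo_of_not_dvd (hℓ : ℓ.Prime) (D : s28w_Idx (N * ℓ)) (h : ¬ ℓ ∣ D.1) :
    (s37w_alCo N ℓ hℓ D).1 = D.1 * ℓ := by
  rw [s37w_alCo, dif_neg h]

theorem s37w_dvd_of_not_dvd (hℓ : ℓ.Prime) (D : s28w_Idx (N * ℓ)) (h : ¬ ℓ ∣ D.1) : D.1 ∣ N :=
  Nat.Coprime.dvd_of_dvd_mul_right ((Nat.Prime.coprime_iff_not_dvd hℓ).mpr h).symm D.2

theorem s37w_div_dvd_of_dvd (hℓ : ℓ.Prime) (D : s28w_Idx (N * ℓ)) (h : ℓ ∣ D.1) :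
    D.1 / ℓ ∣ N := by
  obtain ⟨d, hd⟩ := h
  rw [hd, Nat.mul_div_cancel_left d hℓ.pos]
  have h2 : ℓ * d ∣ ℓ * N := by rw [← hd, mul_comm ℓ N]; exact D.2
  exact (Nat.mul_dvd_mul_iff_left hℓ.pos).mp h2

theorem s37w_not_dvd_div (hℓ : ℓ.Prime) (hℓN : ¬ ℓ ∣ N) (D : s28w_Idx (N * ℓ)) (h : ℓ ∣ D.1) :
    ¬ ℓ ∣ D.1 / ℓ := fun h2 => hℓN (h2.trans (s37w_div_dvd_of_dvd N ℓ hℓ D h))

theorem s37w_alCo_alCo (hℓ : ℓ.Prime) (hℓN : ¬ ℓ ∣ N) (D : s28w_Idx (N * ℓ)) :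
    s37w_alCo N ℓ hℓ (s37w_alCo N ℓ hℓ D) = D := by
  apply Subtype.ext
  by_cases h : ℓ ∣ D.1
  · have h1 := s37w_alCo_of_dvd N ℓ hℓ D h
    have h2 : ¬ ℓ ∣ (s37w_alCo N ℓ hℓ D).1 := by
      rw [h1]; exact s37w_not_dvd_div N ℓ hℓ hℓN D h
    rw [s37w_alCo_of_not_dvd N ℓ hℓ _ h2, h1]
    exact Nat.div_mul_cancel h
  · have h1 := s37w_alCo_of_not_dvd N ℓ hℓ D h
    have h2 : ℓ ∣ (s37w_alCo N ℓ hℓ D).1 := by
      rw [h1]; exact dvd_mul_left ℓ D.1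
    rw [s37w_alCo_of_dvd N ℓ hℓ _ h2, h1]
    exact Nat.mul_div_cancel D.1 hℓ.pos

/-- **The analytic Atkin–Lehner substitution**: there is a map `W : ℍ → ℍ` with
`j(D · W z) = j(co(D) · z)` for every `D ∣ N ℓ`. -/
theorem s37w_exists_alH (hℓ : ℓ.Prime) (hℓN : ¬ ℓ ∣ N) :
    ∃ W : ℍ → ℍ, ∀ (D : s28w_Idx (N * ℓ)) (z : ℍ),
      ffb_jd D.1 (W z) = ffb_jd (s37w_alCo N ℓ hℓ D).1 z := by
  have hcop : Nat.Coprime ℓ N := (Nat.Prime.coprime_iff_not_dvd hℓ).mpr hℓN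
  -- Bezout
  obtain ⟨x, y, hxy⟩ : ∃ x y : ℤ, (ℓ : ℤ) * x + (N : ℤ) * y = 1 := by
    have h := Int.gcd_eq_gcd_ab (ℓ : ℤ) (N : ℤ)
    have hg : Int.gcd (ℓ : ℤ) (N : ℤ) = 1 := by
      rw [Int.gcd_natCast_natCast]; exact hcop
    rw [hg] at h
    exact ⟨Int.gcdA ℓ N, Int.gcdB ℓ N, by rw [← h]; rfl⟩
  let γ₀ : SL(2, ℤ) := ⟨!![1, -y; (N : ℤ), (ℓ : ℤ) * x], by
    rw [Matrix.det_fin_two_of]; linear_combination hxy⟩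
  refine ⟨fun z => γ₀ • ffb_dmul ℓ z, fun D z => ?_⟩
  have g00 : γ₀ 0 0 = 1 := rfl
  have g01 : γ₀ 0 1 = -y := rfl
  have g10 : γ₀ 1 0 = (N : ℤ) := rfl
  have g11 : γ₀ 1 1 = (ℓ : ℤ) * x := rfl
  by_cases h : ℓ ∣ D.1
  · -- `D = d ℓ`
    have hco := s37w_alCo_of_dvd N ℓ hℓ D h
    obtain ⟨c', hc'⟩ := s37w_div_dvd_of_dvd N ℓ hℓ D h
    set d := D.1 / ℓ with hd
    have hD : D.1 = d * ℓ := (Nat.div_mul_cancel h).symm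
    have hdne : NeZero d := ⟨fun h0 => NeZero.ne D.1 (by rw [hD, h0, zero_mul])⟩
    let γ₂ : SL(2, ℤ) := ⟨!![(ℓ : ℤ), -((d : ℤ) * y); (c' : ℤ), x], by
      rw [Matrix.det_fin_two_of]
      have : (N : ℤ) = (d : ℤ) * (c' : ℤ) := by exact_mod_cast hc'
      rw [this] at hxy
      linear_combination hxy⟩
    have key : ffb_dmul D.1 (γ₀ • ffb_dmul ℓ z) = γ₂ • ffb_dmul d z := by
      refine s37w_dmul_smul_dmul D.1 ℓ d γ₀ γ₂ (ℓ : ℤ)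
        (Int.natCast_ne_zero.mpr hℓ.ne_zero) ?_ ?_ ?_ ?_ z
      · rw [g00]
        show (D.1 : ℤ) * 1 * (ℓ : ℤ) = (ℓ : ℤ) * ((ℓ : ℤ) * (d : ℤ))
        rw [hD]; push_cast; ring
      · rw [g01]
        show (D.1 : ℤ) * -y = (ℓ : ℤ) * -((d : ℤ) * y)
        rw [hD]; push_cast; ring
      · rw [g10]
        show (N : ℤ) * (ℓ : ℤ) = (ℓ : ℤ) * ((c' : ℤ) * (d : ℤ))
        have hN : (N : ℤ) = (d : ℤ) * (c' : ℤ) := by exact_mod_cast hc'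
        linear_combination (ℓ : ℤ) * hN
      · rw [g11]
        rfl
    have e1 : ffb_jd (s37w_alCo N ℓ hℓ D).1 z = ffb_jd d z := by
      congr 1
    rw [e1, ffb_jd_apply, ffb_jd_apply, key, ffj_smul]
  · -- `D = d ∣ N`
    have hco := s37w_alCo_of_not_dvd N ℓ hℓ D h
    obtain ⟨c', hc'⟩ := s37w_dvd_of_not_dvd N ℓ hℓ D h
    let γ₁ : SL(2, ℤ) := ⟨!![1, -((D.1 : ℤ) * y); (c' : ℤ), (ℓ : ℤ) * x], by
      rw [Matrix.det_fin_two_of]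
      have : (N : ℤ) = (D.1 : ℤ) * (c' : ℤ) := by exact_mod_cast hc'
      rw [this] at hxy
      linear_combination hxy⟩
    have hne : NeZero (D.1 * ℓ) := ⟨mul_ne_zero (NeZero.ne D.1) hℓ.ne_zero⟩
    have key : ffb_dmul D.1 (γ₀ • ffb_dmul ℓ z) = γ₁ • ffb_dmul (D.1 * ℓ) z := by
      refine s37w_dmul_smul_dmul D.1 ℓ (D.1 * ℓ) γ₀ γ₁ 1 one_ne_zero ?_ ?_ ?_ ?_ z
      · rw [g00]
        show (D.1 : ℤ) * 1 * (ℓ : ℤ) = 1 * (1 * ((D.1 * ℓ : ℕ) : ℤ))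
        push_cast; ring
      · rw [g01]
        show (D.1 : ℤ) * -y = 1 * -((D.1 : ℤ) * y)
        ring
      · rw [g10]
        show (N : ℤ) * (ℓ : ℤ) = 1 * ((c' : ℤ) * ((D.1 * ℓ : ℕ) : ℤ))
        have hN : (N : ℤ) = (D.1 : ℤ) * (c' : ℤ) := by exact_mod_cast hc'
        push_cast
        linear_combination (ℓ : ℤ) * hN
      · rw [g11]
        show (ℓ : ℤ) * x = 1 * ((ℓ : ℤ) * x)
        ring
    have e1 : ffb_jd (s37w_alCo N ℓ hℓ D).1 z = ffb_jd (D.1 * ℓ) z := by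
      congr 1
    rw [e1, ffb_jd_apply, ffb_jd_apply, key, ffj_smul]

/-! ### The involution `w_ℓ` -/

/-- **The Atkin–Lehner involution** `w_ℓ` of `F̄(N ℓ)` (`ℓ` prime, `ℓ ∤ N`). -/
def s37w_al (hℓ : ℓ.Prime) (hℓN : ¬ ℓ ∣ N) : ffi_F (N * ℓ) ≃ₐ[Kb] ffi_F (N * ℓ) :=
  s37w_substEquiv (N * ℓ) (s37w_alCo N ℓ hℓ) (s37w_exists_alH N ℓ hℓ hℓN).choose
    (s37w_exists_alH N ℓ hℓ hℓN).choose_spec (s37w_alCo_alCo N ℓ hℓ hℓN)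

theorem s37w_al_al (hℓ : ℓ.Prime) (hℓN : ¬ ℓ ∣ N) (x : ffi_F (N * ℓ)) :
    s37w_al N ℓ hℓ hℓN (s37w_al N ℓ hℓ hℓN x) = x :=
  s37w_substEquiv_substEquiv _ _ _ _ _ x

theorem s37w_al_gen (hℓ : ℓ.Prime) (hℓN : ¬ ℓ ∣ N) (D : s28w_Idx (N * ℓ))
    (x : ffi_F (N * ℓ)) (hx : (x : LaurentSeries Kb) = s37w_gen (N * ℓ) D) :
    ((s37w_al N ℓ hℓ hℓN x : ffi_F (N * ℓ)) : LaurentSeries Kb) =
      s37w_gen (N * ℓ) (s37w_alCo N ℓ hℓ D) :=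
  s37w_substEquiv_gen _ _ _ _ _ D x hx

/-- Two `Q̄`-algebra homomorphisms out of `F̄(M)` which agree on the generators `j(q^d)`, `d ∣ M`,
are equal. -/
theorem s37w_algHom_ext (M : ℕ) [NeZero M] {E : Type*} [Field E] [Algebra Kb E]
    (f g : ffi_F M →ₐ[Kb] E)
    (h : ∀ (d : s28w_Idx M) (x : ffi_F M), (x : LaurentSeries Kb) = s37w_gen M d → f x = g x) :
    f = g := by
  have hA : ∀ b : ffg_A M, f (algebraMap (ffg_A M) (ffi_F M) b) =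
      g (algebraMap (ffg_A M) (ffi_F M) b) := by
    rintro ⟨b, hb⟩
    induction hb using Algebra.adjoin_induction with
    | mem x hx =>
      rw [← s37w_range_gen] at hx
      obtain ⟨d, rfl⟩ := hx
      exact h d _ rfl
    | algebraMap r =>
      have e : (algebraMap (ffg_A M) (ffi_F M) ⟨algebraMap Kb (LaurentSeries Kb) r,
          Subalgebra.algebraMap_mem _ r⟩) = algebraMap Kb (ffi_F M) r := Subtype.ext rfl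
      rw [e, AlgHom.commutes, AlgHom.commutes]
    | add x y hx hy ihx ihy =>
      have e : (algebraMap (ffg_A M) (ffi_F M) ⟨x + y, Subalgebra.add_mem _ hx hy⟩) =
          algebraMap (ffg_A M) (ffi_F M) ⟨x, hx⟩ + algebraMap (ffg_A M) (ffi_F M) ⟨y, hy⟩ :=
        Subtype.ext rfl
      rw [e, map_add, map_add, ihx, ihy]
    | mul x y hx hy ihx ihy =>
      have e : (algebraMap (ffg_A M) (ffi_F M) ⟨x * y, Subalgebra.mul_mem _ hx hy⟩) =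
          algebraMap (ffg_A M) (ffi_F M) ⟨x, hx⟩ * algebraMap (ffg_A M) (ffi_F M) ⟨y, hy⟩ :=
        Subtype.ext rfl
      rw [e, map_mul, map_mul, ihx, ihy]
  have : (f : ffi_F M →+* E) = (g : ffi_F M →+* E) :=
    IsFractionRing.ringHom_ext (A := ffg_A M) hA
  exact AlgHom.ext fun x => RingHom.congr_fun this x

theorem s37w_gen_qExpand (d : s28w_Idx N) :
    qExpand Kb ℓ (s37w_gen N d) = coeffEmb Kb (qExpand ℚ (d.1 * ℓ) jq) := by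
  rw [s37w_gen, coeffEmb, ← ffb_coeffMap_qExpand, qExpand_qExpand]
  exact congrArg _ (qExpand_congr (mul_comm ℓ d.1) jq)

/-- **`w_ℓ ∘ α = β`.** -/
theorem s37w_al_alpha (hℓ : ℓ.Prime) (hℓN : ¬ ℓ ∣ N) (y : ffi_F N) :
    s37w_al N ℓ hℓ hℓN (heckeAlphaBar Kb N ℓ y) = heckeBetaBar Kb N ℓ y := by
  have key : ((s37w_al N ℓ hℓ hℓN : ffi_F (N * ℓ) →ₐ[Kb] ffi_F (N * ℓ)).comp
      (heckeAlphaBar Kb N ℓ)) = heckeBetaBar Kb N ℓ := by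
    refine s37w_algHom_ext N _ _ fun d x hx => ?_
    apply Subtype.ext
    have hdℓ : ¬ ℓ ∣ d.1 := fun h => hℓN (h.trans d.2)
    let D : s28w_Idx (N * ℓ) := ⟨d.1, d.2.trans (dvd_mul_right N ℓ)⟩
    have h1 : ((heckeAlphaBar Kb N ℓ x : ffi_F (N * ℓ)) : LaurentSeries Kb) =
        s37w_gen (N * ℓ) D := by
      rw [coe_heckeAlphaBar, hx]; rfl
    rw [AlgHom.comp_apply]
    show ((s37w_al N ℓ hℓ hℓN (heckeAlphaBar Kb N ℓ x) : ffi_F (N * ℓ)) : LaurentSeries Kb) = _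
    rw [s37w_al_gen N ℓ hℓ hℓN D _ h1, coe_heckeBetaBar, hx, s37w_gen_qExpand, s37w_gen]
    have h2 : (s37w_alCo N ℓ hℓ D).1 = d.1 * ℓ := s37w_alCo_of_not_dvd N ℓ hℓ D hdℓ
    exact congrArg _ (qExpand_congr h2 jq)
  exact AlgHom.congr_fun key y

/-- **`w_ℓ ∘ β = α`.** -/
theorem s37w_al_beta (hℓ : ℓ.Prime) (hℓN : ¬ ℓ ∣ N) (y : ffi_F N) :
    s37w_al N ℓ hℓ hℓN (heckeBetaBar Kb N ℓ y) = heckeAlphaBar Kb N ℓ y := by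
  rw [← s37w_al_alpha N ℓ hℓ hℓN y, s37w_al_al]

end

end Fermat.Agent.Lib.S37
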