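/-
S37 moonshot, package [W] (helper1), part 3: the `ℓ + 1` embeddings of `F̄(N ℓ)` over
`α(F̄(N))` into `Q̄((q))` (with `F̄(N) → Q̄((q))`, `y ↦ y(q^ℓ)`) and the NORM PRODUCT FORMULA
`Nm_α(f)(q^ℓ) = f(q^ℓ) · ∏_{i<ℓ} (w_ℓ f)(ζ^i q)`.
-/
import Fermat.Agent.Lib.S37.WAtkin
import Fermat.Agent.Lib.S37.ESeries
import Fermat.Agent.Lib.S18.LChange

set_option autoImplicit false

namespace Fermat.Agent.Lib.S37

open ModularCurve AlgebraicCurve Fermat.Agent.Lib.FF Fermat.Agent.Lib.S28 Fermat.Agent.Lib.S18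

noncomputable section

set_option linter.unusedSectionVars false

local notation "Kb" => AlgebraicClosure ℚ

/-- **Generic**: for a finite separable extension `L / K` of degree `n` and `n` pairwise distinct
`K`-embeddings `σ_i` of `L` into a field `E` (over `φ : K → E`), `φ(Nm x) = ∏ σ_i x`. -/
theorem s37w_norm_eq_prod_of_embeddings {K L E ι : Type*} [Field K] [Field L] [Field E]
    [Algebra K L] [FiniteDimensional K L] [Algebra.IsSeparable K L] [Fintype ι]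
    (φ : K →+* E) (σ : ι → (L →+* E)) (hσ : ∀ i, (σ i).comp (algebraMap K L) = φ)
    (hinj : Function.Injective σ) (hcard : Fintype.card ι = Module.finrank K L) (x : L) :
    φ (Algebra.norm K x) = ∏ i, σ i x := by
  let _ : Algebra K E := φ.toAlgebra
  let τ : ι → (L →ₐ[K] AlgebraicClosure E) := fun i =>
    { ((algebraMap E (AlgebraicClosure E)).comp (σ i)) with
      commutes' := fun k => by
        show algebraMap E (AlgebraicClosure E) (σ i (algebraMap K L k)) =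
          algebraMap K (AlgebraicClosure E) k
        have h := RingHom.congr_fun (hσ i) k
        rw [RingHom.comp_apply] at h
        rw [h, IsScalarTower.algebraMap_apply K E (AlgebraicClosure E)]
        rfl }
  have hτ : ∀ i y, τ i y = algebraMap E (AlgebraicClosure E) (σ i y) := fun i y => rfl
  have hτinj : Function.Injective τ := by
    intro i j hij
    apply hinj
    ext y
    have := AlgHom.congr_fun hij y
    rw [hτ, hτ] at this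
    exact (algebraMap E (AlgebraicClosure E)).injective this
  have hbij : Function.Bijective τ := by
    rw [Fintype.bijective_iff_injective_and_card]
    refine ⟨hτinj, ?_⟩
    rw [hcard, AlgHom.card K L (AlgebraicClosure E)]
  have h1 := Algebra.norm_eq_prod_embeddings K (AlgebraicClosure E) x
  rw [← Fintype.prod_bijective τ hbij (fun i => τ i x) (fun σ' => σ' x) (fun i => rfl)] at h1
  simp only [hτ] at h1
  rw [← map_prod, IsScalarTower.algebraMap_apply K E (AlgebraicClosure E)] at h1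
  exact (algebraMap E (AlgebraicClosure E)).injective h1

variable (N ℓ : ℕ) [NeZero N] [NeZero ℓ]

/-! ### The degree of `α` -/

theorem s37w_bar_le : modularFunctionFieldBar N ≤ modularFunctionFieldBar (N * ℓ) :=
  s18l_bar_mono (dvd_mul_right N ℓ)

/-- `[F̄(N ℓ) : α F̄(N)] = ℓ + 1`. -/
theorem s37w_finrank_alpha (hℓ : ℓ.Prime) (hℓN : ¬ ℓ ∣ N) :
    letI := algebraAlong (heckeAlphaBar Kb N ℓ)
    Module.finrank (ffi_F N) (ffi_F (N * ℓ)) = ℓ + 1 := by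
  have hle := s37w_bar_le N ℓ
  have h0 := s18l_relfinrank_level N ℓ hℓ hℓN
  rw [mul_comm ℓ N] at h0
  have h1 := IntermediateField.relfinrank_eq_finrank_of_le hle
  rw [h0] at h1
  let _ := algebraAlong (heckeAlphaBar Kb N ℓ)
  let e : ↥(modularFunctionFieldBar (N * ℓ)) ≃ₗ[↥(modularFunctionFieldBar N)]
      ↥(IntermediateField.extendScalars hle) :=
    { toFun := fun x => ⟨x.1, x.2⟩
      invFun := fun x => ⟨x.1, x.2⟩
      map_add' := fun _ _ => rfl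
      map_smul' := fun a x => by
        apply Subtype.ext
        rfl
      left_inv := fun _ => rfl
      right_inv := fun _ => rfl }
  show Module.finrank ↥(modularFunctionFieldBar N) ↥(modularFunctionFieldBar (N * ℓ)) = ℓ + 1
  rw [e.finrank_eq, ← h1]

theorem s37w_finite_alpha (hℓ : ℓ.Prime) (hℓN : ¬ ℓ ∣ N) :
    FiniteAlong Kb (heckeAlphaBar Kb N ℓ) := by
  let _ := algebraAlong (heckeAlphaBar Kb N ℓ)
  show Module.Finite (ffi_F N) (ffi_F (N * ℓ))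
  exact Module.finite_of_finrank_pos (by rw [s37w_finrank_alpha N ℓ hℓ hℓN]; omega)

/-! ### The `ℓ + 1` embeddings -/

/-- The base embedding `F̄(N) → Q̄((q))`, `y ↦ y(q^ℓ)`. -/
def s37w_base : ffi_F N →+* LaurentSeries Kb :=
  (qExpand Kb ℓ).comp (algebraMap (ffi_F N) (LaurentSeries Kb))

theorem s37w_base_apply (y : ffi_F N) :
    s37w_base N ℓ y = qExpand Kb ℓ (y : LaurentSeries Kb) := rfl

/-- The `ℓ + 1` embeddings of `F̄(N ℓ)` into `Q̄((q))`: `f ↦ f(q^ℓ)` and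
`f ↦ (w_ℓ f)(ζ^i q)`, `i < ℓ`. -/
def s37w_emb (hℓ : ℓ.Prime) (hℓN : ¬ ℓ ∣ N) (ζ : Kbˣ) :
    Option (Fin ℓ) → (ffi_F (N * ℓ) →+* LaurentSeries Kb)
  | none => (qExpand Kb ℓ).comp (algebraMap (ffi_F (N * ℓ)) (LaurentSeries Kb))
  | some i => (s28m_tw (ζ ^ (i : ℕ))).comp
      ((algebraMap (ffi_F (N * ℓ)) (LaurentSeries Kb)).comp
        (s37w_al N ℓ hℓ hℓN : ffi_F (N * ℓ) →+* ffi_F (N * ℓ)))

theorem s37w_emb_none (hℓ : ℓ.Prime) (hℓN : ¬ ℓ ∣ N) (ζ : Kbˣ) (f : ffi_F (N * ℓ)) :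
    s37w_emb N ℓ hℓ hℓN ζ none f = qExpand Kb ℓ (f : LaurentSeries Kb) := rfl

theorem s37w_emb_some (hℓ : ℓ.Prime) (hℓN : ¬ ℓ ∣ N) (ζ : Kbˣ) (i : Fin ℓ) (f : ffi_F (N * ℓ)) :
    s37w_emb N ℓ hℓ hℓN ζ (some i) f =
      s28m_tw (ζ ^ (i : ℕ)) ((s37w_al N ℓ hℓ hℓN f : ffi_F (N * ℓ)) : LaurentSeries Kb) := rfl

/-- All the embeddings restrict to `y ↦ y(q^ℓ)` on `α F̄(N)`. -/
theorem s37w_emb_alpha (hℓ : ℓ.Prime) (hℓN : ¬ ℓ ∣ N) (ζ : Kbˣ) (hζ : ζ ^ ℓ = 1)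
    (i : Option (Fin ℓ)) (y : ffi_F N) :
    s37w_emb N ℓ hℓ hℓN ζ i (heckeAlphaBar Kb N ℓ y) = s37w_base N ℓ y := by
  cases i with
  | none => rw [s37w_emb_none, coe_heckeAlphaBar, s37w_base_apply]
  | some i =>
    rw [s37w_emb_some, s37w_al_alpha, coe_heckeBetaBar, s37w_base_apply, s28m_tw_qExpand]
    rw [← pow_mul, mul_comm, pow_mul, hζ, one_pow]

/-- The values at `β(j) = j(q^ℓ)`. -/
theorem s37w_emb_none_beta_j (hℓ : ℓ.Prime) (hℓN : ¬ ℓ ∣ N) (ζ : Kbˣ) :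
    s37w_emb N ℓ hℓ hℓN ζ none (heckeBetaBar Kb N ℓ (ffd_jBar N)) =
      qExpand Kb ℓ (qExpand Kb ℓ ffd_jSeries) := by
  rw [s37w_emb_none, coe_heckeBetaBar]
  rfl

theorem s37w_emb_some_beta_j (hℓ : ℓ.Prime) (hℓN : ¬ ℓ ∣ N) (ζ : Kbˣ) (i : Fin ℓ) :
    s37w_emb N ℓ hℓ hℓN ζ (some i) (heckeBetaBar Kb N ℓ (ffd_jBar N)) =
      s28m_tw (ζ ^ (i : ℕ)) ffd_jSeries := by
  rw [s37w_emb_some, s37w_al_beta, coe_heckeAlphaBar]
  rfl

theorem s37w_coeff_none (hℓ : ℓ.Prime) :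
    (qExpand Kb ℓ (qExpand Kb ℓ ffd_jSeries)).coeff (-1 : ℤ) = 0 := by
  apply qExpand_coeff_of_not_dvd
  intro h
  have h1 : ((ℓ : ℤ)) ∣ 1 := by
    obtain ⟨c, hc⟩ := h
    exact ⟨-c, by linarith⟩
  have h2 : (ℓ : ℤ) = 1 := Int.eq_one_of_dvd_one (by positivity) h1
  have h3 : ℓ = 1 := by exact_mod_cast h2
  exact hℓ.one_lt.ne' h3

theorem s37w_coeff_some (ζ : Kbˣ) (i : ℕ) :
    (s28m_tw (ζ ^ i) ffd_jSeries).coeff (-1 : ℤ) = (((ζ ^ i)⁻¹ : Kbˣ) : Kb) := by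
  rw [s28m_tw_coeff, ffd_jSeries_coeff_neg_one, mul_one, zpow_neg_one]

/-- The `ℓ + 1` embeddings are pairwise distinct. -/
theorem s37w_emb_injective (hℓ : ℓ.Prime) (hℓN : ¬ ℓ ∣ N) (ζ : Kbˣ)
    (hζ : IsPrimitiveRoot (ζ : Kb) ℓ) : Function.Injective (s37w_emb N ℓ hℓ hℓN ζ) := by
  have hζ' : IsPrimitiveRoot ζ ℓ := IsPrimitiveRoot.of_map_of_injective (f := Units.coeHom Kb)
    (by simpa using hζ) Units.val_injective
  intro a b hab
  have hv := RingHom.congr_fun hab (heckeBetaBar Kb N ℓ (ffd_jBar N))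
  have hc : (s37w_emb N ℓ hℓ hℓN ζ a (heckeBetaBar Kb N ℓ (ffd_jBar N))).coeff (-1 : ℤ) =
      (s37w_emb N ℓ hℓ hℓN ζ b (heckeBetaBar Kb N ℓ (ffd_jBar N))).coeff (-1 : ℤ) := by
    rw [hv]
  cases a with
  | none =>
    cases b with
    | none => rfl
    | some j =>
      exfalso
      rw [s37w_emb_none_beta_j, s37w_emb_some_beta_j, s37w_coeff_none ℓ hℓ, s37w_coeff_some] at hc
      exact Units.ne_zero _ hc.symm
  | some i =>
    cases b with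
    | none =>
      exfalso
      rw [s37w_emb_none_beta_j, s37w_emb_some_beta_j, s37w_coeff_none ℓ hℓ, s37w_coeff_some] at hc
      exact Units.ne_zero _ hc
    | some j =>
      rw [s37w_emb_some_beta_j, s37w_emb_some_beta_j, s37w_coeff_some, s37w_coeff_some] at hc
      have h1 : ζ ^ (i : ℕ) = ζ ^ (j : ℕ) := inv_injective (Units.ext hc)
      have h2 : (i : ℕ) = (j : ℕ) := hζ'.pow_inj i.2 j.2 h1
      exact congrArg some (Fin.ext h2)

/-! ### The norm product formula -/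

/-- **Norm product formula** for `α : F̄(N) → F̄(N ℓ)`: for every `f ∈ F̄(N ℓ)`,
`Nm_α(f)(q^ℓ) = f(q^ℓ) · ∏_{i<ℓ} (w_ℓ f)(ζ^i q)`. -/
theorem s37w_norm (hℓ : ℓ.Prime) (hℓN : ¬ ℓ ∣ N) (ζ : Kbˣ) (hζ : IsPrimitiveRoot (ζ : Kb) ℓ)
    (f : ffi_F (N * ℓ)) :
    letI := algebraAlong (heckeAlphaBar Kb N ℓ)
    qExpand Kb ℓ ((Algebra.norm (ffi_F N) f : ffi_F N) : LaurentSeries Kb) =
      qExpand Kb ℓ (f : LaurentSeries Kb) *
        s37e_prodTw ℓ ζ ((s37w_al N ℓ hℓ hℓN f : ffi_F (N * ℓ)) : LaurentSeries Kb) := by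
  let _ := algebraAlong (heckeAlphaBar Kb N ℓ)
  have hfin : Module.Finite (ffi_F N) (ffi_F (N * ℓ)) := s37w_finite_alpha N ℓ hℓ hℓN
  have hpow : ζ ^ ℓ = 1 := by
    apply Units.ext
    rw [Units.val_pow_eq_pow_val, hζ.pow_eq_one, Units.val_one]
  have key := s37w_norm_eq_prod_of_embeddings (K := ffi_F N) (L := ffi_F (N * ℓ))
    (s37w_base N ℓ) (s37w_emb N ℓ hℓ hℓN ζ)
    (fun i => RingHom.ext fun y => s37w_emb_alpha N ℓ hℓ hℓN ζ hpow i y)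
    (s37w_emb_injective N ℓ hℓ hℓN ζ hζ)
    (by rw [s37w_finrank_alpha N ℓ hℓ hℓN]; simp) f
  rw [Fintype.prod_option] at key
  rw [← s37w_base_apply, key, s37w_emb_none]
  congr 1
  unfold s37e_prodTw
  rw [← Fin.prod_univ_eq_prod_range (fun b => s28m_tw (ζ ^ b)
    ((s37w_al N ℓ hℓ hℓN f : ffi_F (N * ℓ)) : LaurentSeries Kb))]
  rfl

/-- The norm product formula at `f = β y`:
`Nm_α(β y)(q^ℓ) = y(q^{ℓ²}) · ∏_{i<ℓ} y(ζ^i q)`. -/
theorem s37w_norm_beta (hℓ : ℓ.Prime) (hℓN : ¬ ℓ ∣ N) (ζ : Kbˣ) (hζ : IsPrimitiveRoot (ζ : Kb) ℓ)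
    (y : ffi_F N) :
    letI := algebraAlong (heckeAlphaBar Kb N ℓ)
    qExpand Kb ℓ ((Algebra.norm (ffi_F N) (heckeBetaBar Kb N ℓ y) : ffi_F N) : LaurentSeries Kb) =
      qExpand Kb ℓ (qExpand Kb ℓ (y : LaurentSeries Kb)) *
        s37e_prodTw ℓ ζ (y : LaurentSeries Kb) := by
  have h := s37w_norm N ℓ hℓ hℓN ζ hζ (heckeBetaBar Kb N ℓ y)
  rw [s37w_al_beta, coe_heckeAlphaBar, coe_heckeBetaBar] at h
  exact h

/-! ### The `β`-side: `β = w_ℓ ∘ α`, so `Nm_β(f) = Nm_α(w_ℓ f)` -/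

/-- Transport of norms: if `w ∘ b = a` for a ring automorphism `w` of `L`, then
`Nm_b(x) = Nm_a(w x)`. -/
theorem s37w_norm_transport {K L : Type*} [Field K] [Field L] (a b : K →+* L) (w : L ≃+* L)
    (h : ∀ y, w (b y) = a y) (x : L) :
    @Algebra.norm K L _ _ b.toAlgebra x = @Algebra.norm K L _ _ a.toAlgebra (w x) := by
  have h1 := @Algebra.norm_eq_of_equiv_equiv K L K L _ _ _ _ b.toAlgebra a.toAlgebra
    (RingEquiv.refl K) w (RingHom.ext fun y => (h y).symm) x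
  rw [h1]
  rfl

theorem s37w_norm_beta_side (hℓ : ℓ.Prime) (hℓN : ¬ ℓ ∣ N) (f : ffi_F (N * ℓ)) :
    @Algebra.norm (ffi_F N) (ffi_F (N * ℓ)) _ _ (algebraAlong (heckeBetaBar Kb N ℓ)) f =
      @Algebra.norm (ffi_F N) (ffi_F (N * ℓ)) _ _ (algebraAlong (heckeAlphaBar Kb N ℓ))
        (s37w_al N ℓ hℓ hℓN f) :=
  s37w_norm_transport (heckeAlphaBar Kb N ℓ).toRingHom (heckeBetaBar Kb N ℓ).toRingHom
    (s37w_al N ℓ hℓ hℓN).toRingEquiv (fun y => s37w_al_beta N ℓ hℓ hℓN y) f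

/-- **Norm product formula** for `β : F̄(N) → F̄(N ℓ)`: for every `f ∈ F̄(N ℓ)`,
`Nm_β(f)(q^ℓ) = (w_ℓ f)(q^ℓ) · ∏_{i<ℓ} f(ζ^i q)`. -/
theorem s37w_norm' (hℓ : ℓ.Prime) (hℓN : ¬ ℓ ∣ N) (ζ : Kbˣ) (hζ : IsPrimitiveRoot (ζ : Kb) ℓ)
    (f : ffi_F (N * ℓ)) :
    letI := algebraAlong (heckeBetaBar Kb N ℓ)
    qExpand Kb ℓ ((Algebra.norm (ffi_F N) f : ffi_F N) : LaurentSeries Kb) =
      qExpand Kb ℓ ((s37w_al N ℓ hℓ hℓN f : ffi_F (N * ℓ)) : LaurentSeries Kb) *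
        s37e_prodTw ℓ ζ (f : LaurentSeries Kb) := by
  have h := s37w_norm N ℓ hℓ hℓN ζ hζ (s37w_al N ℓ hℓ hℓN f)
  rw [s37w_al_al] at h
  show qExpand Kb ℓ ((@Algebra.norm (ffi_F N) (ffi_F (N * ℓ)) _ _
    (algebraAlong (heckeBetaBar Kb N ℓ)) f : ffi_F N) : LaurentSeries Kb) = _
  rw [s37w_norm_beta_side N ℓ hℓ hℓN f]
  exact h

/-- The norm product formula at `f = α y` for `β`:
`Nm_β(α y)(q^ℓ) = y(q^{ℓ²}) · ∏_{i<ℓ} y(ζ^i q)`. -/
theorem s37w_norm'_alpha (hℓ : ℓ.Prime) (hℓN : ¬ ℓ ∣ N) (ζ : Kbˣ)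
    (hζ : IsPrimitiveRoot (ζ : Kb) ℓ) (y : ffi_F N) :
    letI := algebraAlong (heckeBetaBar Kb N ℓ)
    qExpand Kb ℓ ((Algebra.norm (ffi_F N) (heckeAlphaBar Kb N ℓ y) : ffi_F N) : LaurentSeries Kb) =
      qExpand Kb ℓ (qExpand Kb ℓ (y : LaurentSeries Kb)) *
        s37e_prodTw ℓ ζ (y : LaurentSeries Kb) := by
  have h := s37w_norm' N ℓ hℓ hℓN ζ hζ (heckeAlphaBar Kb N ℓ y)
  rw [s37w_al_alpha, coe_heckeAlphaBar, coe_heckeBetaBar] at h
  exact h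

/-- Transport of degrees: if `w ∘ b = a` for a ring automorphism `w` of `L`, then
`[L : b K] = [L : a K]`. -/
theorem s37w_finrank_transport {K L : Type*} [Field K] [Field L] (a b : K →+* L) (w : L ≃+* L)
    (h : ∀ y, w (b y) = a y) :
    @Module.finrank K L _ _ b.toAlgebra.toModule = @Module.finrank K L _ _ a.toAlgebra.toModule :=
  @Algebra.finrank_eq_of_equiv_equiv K L _ _ b.toAlgebra K L _ _ a.toAlgebra
    (RingEquiv.refl K) w (RingHom.ext fun y => (h y).symm)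

/-- `[F̄(N ℓ) : β F̄(N)] = ℓ + 1`. -/
theorem s37w_finrank_beta (hℓ : ℓ.Prime) (hℓN : ¬ ℓ ∣ N) :
    letI := algebraAlong (heckeBetaBar Kb N ℓ)
    Module.finrank (ffi_F N) (ffi_F (N * ℓ)) = ℓ + 1 := by
  rw [← s37w_finrank_alpha N ℓ hℓ hℓN]
  exact s37w_finrank_transport (heckeAlphaBar Kb N ℓ).toRingHom (heckeBetaBar Kb N ℓ).toRingHom
    (s37w_al N ℓ hℓ hℓN).toRingEquiv (fun y => s37w_al_beta N ℓ hℓ hℓN y)

theorem s37w_finite_beta (hℓ : ℓ.Prime) (hℓN : ¬ ℓ ∣ N) :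
    FiniteAlong Kb (heckeBetaBar Kb N ℓ) := by
  let _ := algebraAlong (heckeBetaBar Kb N ℓ)
  show Module.Finite (ffi_F N) (ffi_F (N * ℓ))
  exact Module.finite_of_finrank_pos (by rw [s37w_finrank_beta N ℓ hℓ hℓN]; omega)

end

end Fermat.Agent.Lib.S37
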