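/-
S37, package [R23] (helper8): the concrete function fields `F̄(N)`: general [H]-facts for any finite
homomorphism between them (from helper7's HLocal/HNorm), the inclusions `F̄(N) ⊂ F̄(M)` for
`N ∣ M`, their degrees, and their compatibility with the arithmetic Galois action and with the
degeneracy maps `α`, `β`.
-/
import Mathlib
import Fermat.Agent.Lib.S37.HLocal
import Fermat.Agent.Lib.S37.HNorm
import Fermat.Agent.Lib.S37.LHecke
import Fermat.Agent.Lib.S37.LNorm
import Fermat.Agent.Lib.S37.LApprox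
import Fermat.Agent.Lib.S37.WNorm
import Fermat.Agent.Lib.S18.RData
import Fermat.Agent.Lib.S18.LChange
import Fermat.Prelude.Def_ModularCurve_HeckeModule

set_option autoImplicit false
set_option linter.style.haveILetI false
set_option linter.unusedSectionVars false

noncomputable section

namespace Fermat.Agent.Lib.S37

open ModularCurve AlgebraicCurve Fermat.Agent.Lib.FF Fermat.Agent.Lib.S18

local notation "Kb" => AlgebraicClosure ℚ
local notation "Γℚ" => (AlgebraicClosure ℚ ≃ₐ[ℚ] AlgebraicClosure ℚ)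

section General

variable (N M : ℕ) [NeZero N] [NeZero M]

theorem s37l_residue_surjective (v : Place Kb (ffi_F N)) :
    Function.Surjective (algebraMap Kb v.ResidueField) :=
  haveI := s18r_ffGen N
  ff_residue_surjective Kb (ffd_jBar N) v

theorem s37l_deg_eq_one (v : Place Kb (ffi_F N)) : v.deg = 1 :=
  haveI := s18r_ffGen N
  ff_deg_eq_one Kb (ffd_jBar N) v

variable {N M}

theorem s37l_isIntegral_of_finite (φ : ffi_F N →ₐ[Kb] ffi_F M) (hfin : FiniteAlong Kb φ) :
    φ.toRingHom.IsIntegral := by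
  letI := algebraAlong φ
  haveI : Module.Finite (ffi_F N) (ffi_F M) := hfin
  exact (Algebra.IsIntegral.of_finite (ffi_F N) (ffi_F M)).isIntegral

theorem s37l_sumRamificationInertia (φ : ffi_F N →ₐ[Kb] ffi_F M) (hφ : φ.toRingHom.IsIntegral)
    (hfin : FiniteAlong Kb φ) :
    letI := algebraAlong φ
    haveI := isScalarTower_along φ
    haveI := isIntegral_along φ hφ
    SumRamificationInertia Kb (ffi_F N) (ffi_F M) := by
  letI := algebraAlong φ
  haveI := isScalarTower_along φ
  haveI := isIntegral_along φ hφ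
  haveI : FiniteDimensional (ffi_F N) (ffi_F M) := hfin
  exact s37h_sumRamificationInertia (s37l_residue_surjective N) (s37l_deg_eq_one M)

/-- [H], general: the fundamental identity along any finite homomorphism `F̄(N) → F̄(M)`. -/
theorem s37l_fundamentalIdentityAlong (φ : ffi_F N →ₐ[Kb] ffi_F M)
    (hφ : φ.toRingHom.IsIntegral) (hfin : FiniteAlong Kb φ) :
    FundamentalIdentityAlong Kb φ hφ := by
  letI := algebraAlong φ
  haveI := isScalarTower_along φ
  haveI := isIntegral_along φ hφ
  haveI := s37l_sumRamificationInertia φ hφ hfin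
  show FundamentalIdentity Kb (ffi_F N) (ffi_F M)
  infer_instance

/-- [H], general: the norm formula along any finite homomorphism `F̄(N) → F̄(M)`. -/
theorem s37l_normFormulaAlong (φ : ffi_F N →ₐ[Kb] ffi_F M) (hfin : FiniteAlong Kb φ) :
    NormFormulaAlong Kb φ hfin := by
  letI := algebraAlong φ
  haveI := isScalarTower_along φ
  haveI : FiniteDimensional (ffi_F N) (ffi_F M) := hfin
  exact s37h_pushforwardNormFormula (s37l_residue_surjective N) (s37l_deg_eq_one M)

/-- [H], general: `∑ e f = n` along any finite homomorphism `F̄(N) → F̄(M)`. -/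
theorem s37l_sum_e_f (φ : ffi_F N →ₐ[Kb] ffi_F M) (hφ : φ.toRingHom.IsIntegral)
    (hfin : FiniteAlong Kb φ) (v : Place Kb (ffi_F N)) :
    ∑ W ∈ Place.fiberAlong φ hφ v,
      (W.ramificationIndexAlong φ : ℤ) * (W.inertiaDegAlong φ hφ : ℤ) =
        (finrankAlong Kb φ : ℕ) := by
  letI := algebraAlong φ
  haveI := isScalarTower_along φ
  haveI := isIntegral_along φ hφ
  haveI : FiniteDimensional (ffi_F N) (ffi_F M) := hfin
  exact s37h_sum_ramificationIndex_mul_inertiaDeg (s37l_residue_surjective N)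
    (s37l_deg_eq_one M) v

end General

section HeckeInputs

variable (N ℓ : ℕ) [NeZero N] [NeZero ℓ]

/-- [H] for `ℓ ∤ N`: the Prelude's `T_ℓ` at level `N` is the honest correspondence. -/
theorem s37l_heckeInputsAlong (hℓ : ℓ.Prime) (hℓN : ¬ ℓ ∣ N) : HeckeInputsAlong Kb N ℓ := by
  haveI : NeZero (N * ℓ) := ⟨mul_ne_zero (NeZero.ne N) (NeZero.ne ℓ)⟩
  have hfinα := s37w_finite_alpha N ℓ hℓ hℓN
  have hfinβ := s37w_finite_beta N ℓ hℓ hℓN
  have hα : HeckeAlphaBarIntegral Kb N ℓ := s37l_isIntegral_of_finite _ hfinα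
  have hβ : HeckeBetaBarIntegral Kb N ℓ := s37l_isIntegral_of_finite _ hfinβ
  exact ⟨hα, hβ, s18r_hasPrincipalDivisors (N * ℓ), hfinα,
    s37l_fundamentalIdentityAlong _ hβ hfinβ, s37l_normFormulaAlong _ hfinα⟩

end HeckeInputs

section Levels

variable (N M : ℕ) [NeZero N] [NeZero M]

/-- The inclusion of function fields for `N ∣ M`. -/
def s37l_incl (h : N ∣ M) : ffi_F N →ₐ[Kb] ffi_F M :=
  IntermediateField.inclusion (s18l_bar_mono h)

@[simp]
theorem s37l_coe_incl (h : N ∣ M) (x : ffi_F N) :
    ((s37l_incl N M h x : ffi_F M) : LaurentSeries Kb) = (x : LaurentSeries Kb) :=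
  IntermediateField.coe_inclusion _ x

/-- The inclusion intertwines the arithmetic Galois actions. -/
theorem s37l_incl_intertwines (h : N ∣ M) (σ : Γℚ) :
    SemilinearAut.IntertwinesAlong
      ((s37l_incl N M h : ffi_F N →ₐ[Kb] ffi_F M) : ffi_F N →+* ffi_F M)
      (arithmeticGalois (modularFunctionFieldFull N) σ)
      (arithmeticGalois (modularFunctionFieldFull M) σ) := by
  intro x
  apply Subtype.ext
  show ((arithmeticGalois (modularFunctionFieldFull M) σ • (s37l_incl N M h x) : ffi_F M) :
      LaurentSeries Kb) =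
    ((s37l_incl N M h (arithmeticGalois (modularFunctionFieldFull N) σ • x) : ffi_F M) :
      LaurentSeries Kb)
  rw [coe_arithmeticGalois_smul, s37l_coe_incl, s37l_coe_incl, coe_arithmeticGalois_smul]

end Levels

section Degree

variable (N : ℕ) [NeZero N]

/-- `[F̄(p N) : F̄(N)] = p + 1` for a prime `p ∤ N`. -/
theorem s37l_finrank_incl (p : ℕ) (hp : p.Prime) (hpN : ¬ p ∣ N) [NeZero (p * N)] :
    finrankAlong Kb (s37l_incl N (p * N) (dvd_mul_left N p)) = p + 1 := by
  have hle : modularFunctionFieldBar N ≤ modularFunctionFieldBar (p * N) :=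
    s18l_bar_mono (dvd_mul_left N p)
  have h0 := s18l_relfinrank_level N p hp hpN
  have h1 := IntermediateField.relfinrank_eq_finrank_of_le hle
  rw [h0] at h1
  let _ := algebraAlong (s37l_incl N (p * N) (dvd_mul_left N p))
  let e : ↥(modularFunctionFieldBar (p * N)) ≃ₗ[↥(modularFunctionFieldBar N)]
      ↥(IntermediateField.extendScalars hle) :=
    { toFun := fun x => ⟨x.1, x.2⟩
      invFun := fun x => ⟨x.1, x.2⟩
      map_add' := fun _ _ => rfl
      map_smul' := fun a x => by
        apply Subtype.ext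
        rfl
      left_inv := fun _ => rfl
      right_inv := fun _ => rfl }
  show Module.finrank ↥(modularFunctionFieldBar N) ↥(modularFunctionFieldBar (p * N)) = p + 1
  rw [e.finrank_eq, ← h1]

theorem s37l_finite_incl (p : ℕ) (hp : p.Prime) (hpN : ¬ p ∣ N) [NeZero (p * N)] :
    FiniteAlong Kb (s37l_incl N (p * N) (dvd_mul_left N p)) := by
  let _ := algebraAlong (s37l_incl N (p * N) (dvd_mul_left N p))
  show Module.Finite (ffi_F N) (ffi_F (p * N))
  exact Module.finite_of_finrank_pos (by
    have := s37l_finrank_incl N p hp hpN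
    rw [finrankAlong] at this
    rw [this]; omega)

end Degree

section Squares

variable (N d ℓ : ℕ) [NeZero N] [NeZero (d * N)] [NeZero ℓ] [NeZero (N * ℓ)] [NeZero (d * N * ℓ)]

theorem s37l_dvd_level : N * ℓ ∣ d * N * ℓ := ⟨d, by ring⟩

/-- The `α`-square commutes. -/
theorem s37l_sq_alpha :
    (heckeAlphaBar Kb (d * N) ℓ).comp (s37l_incl N (d * N) (dvd_mul_left N d)) =
      (s37l_incl (N * ℓ) (d * N * ℓ) (s37l_dvd_level N d ℓ)).comp (heckeAlphaBar Kb N ℓ) := by
  apply AlgHom.ext
  intro x
  apply Subtype.ext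
  rw [AlgHom.comp_apply, AlgHom.comp_apply, coe_heckeAlphaBar, s37l_coe_incl, s37l_coe_incl,
    coe_heckeAlphaBar]

/-- The `β`-square commutes. -/
theorem s37l_sq_beta :
    (heckeBetaBar Kb (d * N) ℓ).comp (s37l_incl N (d * N) (dvd_mul_left N d)) =
      (s37l_incl (N * ℓ) (d * N * ℓ) (s37l_dvd_level N d ℓ)).comp (heckeBetaBar Kb N ℓ) := by
  apply AlgHom.ext
  intro x
  apply Subtype.ext
  rw [AlgHom.comp_apply, AlgHom.comp_apply, coe_heckeBetaBar, s37l_coe_incl, s37l_coe_incl,
    coe_heckeBetaBar]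

end Squares

end Fermat.Agent.Lib.S37
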