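/-
S37 (Eichler–Shimura congruence), package (E) (helper6), part 7: the Eichler–Shimura relation for
ALL divisors,

  `r_* (T_ℓ D) = ψ • r_* D + ℓ • ψ⁻¹ • r_* D`,

from the relation on divisors of Gauss units (`s37e_es_principal`), the generation of principal
divisors by integral ones, weak Riemann and the bounded-homomorphism lemma `s37e_eq_of_bounded`.
-/
import Fermat.Agent.Lib.S37.EFun
import Fermat.Agent.Lib.S37.EBounded

set_option autoImplicit false
set_option linter.style.haveILetI false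
set_option linter.unusedSectionVars false

namespace Fermat.Agent.Lib.S37

open ModularCurve HahnSeries AlgebraicCurve IntermediateField Fermat.Agent.Lib.S28

noncomputable section

/-! ### Generalities on `Finsupp.mapDomain` and totals -/

section Totals

variable {X Y : Type*}

theorem s37e_total_mapDomain (r : X → Y) (D : X →₀ ℤ) :
    s37e_total (Finsupp.mapDomain r D) = s37e_total D := by
  induction D using Finsupp.induction with
  | zero => simp
  | single_add P a D _ _ ih =>
    rw [Finsupp.mapDomain_add, map_add, map_add, ih, Finsupp.mapDomain_single, s37e_total_single,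
      s37e_total_single]

theorem s37e_mapDomain_nonneg (r : X → Y) (D : X →₀ ℤ) (hD : ∀ P, 0 ≤ D P) (Q : Y) :
    0 ≤ Finsupp.mapDomain r D Q := by
  classical
  rw [Finsupp.mapDomain, Finsupp.sum_apply]
  refine Finset.sum_nonneg fun P _ => ?_
  show 0 ≤ (Finsupp.single (r P) (D P)) Q
  rw [Finsupp.single_apply]
  split_ifs
  · exact hD P
  · exact le_rfl

theorem s37e_total_single_add_nsmul (Q Q' : Y) (n : ℕ) :
    s37e_total (Finsupp.single Q (1 : ℤ) + n • Finsupp.single Q' (1 : ℤ)) = (n : ℤ) + 1 := by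
  rw [map_add, map_nsmul, s37e_total_single, s37e_total_single, nsmul_eq_mul, mul_one, add_comm]

theorem s37e_single_add_nsmul_nonneg (Q Q' Q'' : Y) (n : ℕ) :
    0 ≤ (Finsupp.single Q (1 : ℤ) + n • Finsupp.single Q' (1 : ℤ)) Q'' := by
  classical
  rw [Finsupp.add_apply, Finsupp.smul_apply, Finsupp.single_apply, Finsupp.single_apply]
  have h1 : (0 : ℤ) ≤ if Q = Q'' then 1 else 0 := by split_ifs <;> norm_num
  have h2 : (0 : ℤ) ≤ if Q' = Q'' then 1 else 0 := by split_ifs <;> norm_num
  exact add_nonneg h1 (nsmul_nonneg h2 n)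

theorem s37e_single_add_nsmul_eq_zero {Q Q' Q'' : Y} (h1 : Q ≠ Q'') (h2 : Q' ≠ Q'') (n : ℕ) :
    (Finsupp.single Q (1 : ℤ) + n • Finsupp.single Q' (1 : ℤ)) Q'' = 0 := by
  classical
  rw [Finsupp.add_apply, Finsupp.smul_apply, Finsupp.single_apply, Finsupp.single_apply,
    if_neg h1, if_neg h2, smul_zero, add_zero]

/-- Three pairwise distinct values cannot all lie in a two-element set. -/
theorem s37e_exists_avoid {X : Type*} (r : X → Y) (P₁ P₂ P₃ : X) (h12 : r P₁ ≠ r P₂)
    (h13 : r P₁ ≠ r P₃) (h23 : r P₂ ≠ r P₃) (a b : Y) : ∃ P, r P ≠ a ∧ r P ≠ b := by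
  by_contra hcon
  have hcase : ∀ P, r P = a ∨ r P = b := by
    intro P
    by_contra h
    exact hcon ⟨P, fun ha => h (Or.inl ha), fun hb => h (Or.inr hb)⟩
  rcases hcase P₁ with a1 | a1 <;> rcases hcase P₂ with a2 | a2 <;>
    rcases hcase P₃ with a3 | a3 <;>
    first
      | exact h12 (a1.trans a2.symm)
      | exact h13 (a1.trans a3.symm)
      | exact h23 (a2.trans a3.symm)

end Totals

/-! ### Degrees and totals for divisors of a function field with all places of degree one -/

section Degree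

variable {K F : Type*} [Field K] [Field F] [Algebra K F]

theorem s37e_degree_eq_total (hdeg : ∀ P : Place K F, P.deg = 1) (D : Divisor K F) :
    Divisor.degree D = s37e_total D := by
  induction D using Finsupp.induction with
  | zero => simp
  | single_add P a D _ _ ih =>
    rw [map_add, map_add, ih, Divisor.degree_single, s37e_total_single, hdeg, Nat.cast_one,
      mul_one]

theorem s37e_degree_principal [HasPrincipalDivisors K F] (D : Divisor K F)
    (hD : D ∈ Divisor.principal (K := K) (F := F)) : Divisor.degree D = 0 := by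
  obtain ⟨f, hf, hD⟩ := hD
  obtain ⟨D', hD', hdeg'⟩ := HasPrincipalDivisors.exists_divisor (K := K) f hf
  have : D = D' := Finsupp.ext fun v => by rw [hD, hD']
  rw [this, hdeg']

/-- Weak Riemann in "function" form implies weak Riemann in "divisor" form. -/
theorem s37e_riemann_convert [HasPrincipalDivisors K F]
    (hRI : ∃ γ : ℕ, ∀ D : Divisor K F, (γ : ℤ) ≤ Divisor.degree D →
      ∃ f : F, f ≠ 0 ∧ ∀ P : Place K F, 0 ≤ D P + P.ord f) :
    ∃ γ : ℕ, ∀ D : Divisor K F, (γ : ℤ) ≤ Divisor.degree D →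
      ∃ E : Divisor K F, (∀ P, 0 ≤ E P) ∧ D - E ∈ Divisor.principal (K := K) (F := F) := by
  obtain ⟨γ, hγ⟩ := hRI
  refine ⟨γ, fun D hD => ?_⟩
  obtain ⟨f, hf, hpos⟩ := hγ D hD
  obtain ⟨D', hD', -⟩ := HasPrincipalDivisors.exists_divisor (K := K) f hf
  refine ⟨D + D', fun P => by rw [Finsupp.add_apply, hD']; exact hpos P, ?_⟩
  have : D - (D + D') = -D' := by abel
  rw [this]
  exact AddSubgroup.neg_mem _ ⟨f, hf, hD'⟩

end Degree

/-! ### The Hecke correspondence is effective of degree `ℓ + 1` -/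

section Main

variable {L : Type*} [Field L] [Algebra ℚ L] {N ℓ : ℕ} [NeZero N] [NeZero ℓ]

theorem s37e_heckeDivBar_single_nonneg
    (hα : HeckeAlphaBarIntegral L N ℓ) (hβ : HeckeBetaBarIntegral L N ℓ)
    [HasPrincipalDivisors L ↥(laurentBaseChange L (modularFunctionFieldFull (N * ℓ)))]
    (P Q : Place L ↥(laurentBaseChange L (modularFunctionFieldFull N))) :
    0 ≤ heckeDivBar hα hβ (Finsupp.single P 1) Q := by
  classical
  have hα' : (heckeAlphaBar L N ℓ).toRingHom.IsIntegral := hα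
  have hβ' : (heckeBetaBar L N ℓ).toRingHom.IsIntegral := hβ
  show 0 ≤ Divisor.pushforwardAlong (heckeAlphaBar L N ℓ) hα'
    (Divisor.pullbackAlong (heckeBetaBar L N ℓ) hβ' (Finsupp.single P 1)) Q
  rw [Divisor.pullbackAlong_single, map_sum, Finsupp.finsetSum_apply]
  refine Finset.sum_nonneg fun W _ => ?_
  rw [Divisor.pushforwardAlong_single, Finsupp.single_apply]
  split_ifs
  · positivity
  · exact le_rfl

theorem s37e_total_heckeDivBar_single
    (hα : HeckeAlphaBarIntegral L N ℓ) (hβ : HeckeBetaBarIntegral L N ℓ)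
    [HasPrincipalDivisors L ↥(laurentBaseChange L (modularFunctionFieldFull (N * ℓ)))]
    (hFI : FundamentalIdentityAlong L (heckeBetaBar L N ℓ) hβ)
    (hdeg : ∀ P : Place L ↥(laurentBaseChange L (modularFunctionFieldFull N)), P.deg = 1)
    (P : Place L ↥(laurentBaseChange L (modularFunctionFieldFull N))) :
    s37e_total (heckeDivBar hα hβ (Finsupp.single P 1)) =
      (finrankAlong L (heckeBetaBar L N ℓ) : ℤ) := by
  rw [← s37e_degree_eq_total hdeg]
  have hα' : (heckeAlphaBar L N ℓ).toRingHom.IsIntegral := hα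
  have hβ' : (heckeBetaBar L N ℓ).toRingHom.IsIntegral := hβ
  have hFI' : FundamentalIdentityAlong L (heckeBetaBar L N ℓ) hβ' := hFI
  show Divisor.degree (Divisor.correspondence (heckeBetaBar L N ℓ) (heckeAlphaBar L N ℓ) hβ' hα'
    (Finsupp.single P 1)) = _
  rw [Divisor.degree_correspondence _ _ _ _ hFI', Divisor.degree_single, hdeg, Nat.cast_one,
    mul_one, mul_one]

end Main

/-! ### The Eichler–Shimura relation on all divisors -/

section ES

variable {L : Type*} [Field L] [Algebra ℚ L] {N ℓ : ℕ} [NeZero N] [NeZero ℓ]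
variable (A : ValuationSubring L) {κ : Type*} [Field κ] (π : ↥A →+* κ)
  [hℓ : Fact ℓ.Prime] [CharP κ ℓ] [PerfectRing κ ℓ]

/-- The correspondence `ψ + ℓ ψ⁻¹` ("Frobenius plus Verschiebung") on divisors of `F̄_N`. -/
def s37e_frobVer (κ : Type*) [Field κ] (N ℓ : ℕ) [Fact ℓ.Prime] [CharP κ ℓ] [PerfectRing κ ℓ] :
    Divisor κ ↥(modularFunctionFieldFullC κ N) →+ Divisor κ ↥(modularFunctionFieldFullC κ N) :=
  DistribSMul.toAddMonoidHom (Divisor κ ↥(modularFunctionFieldFullC κ N)) (s37e_psi κ N ℓ) +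
    ℓ • DistribSMul.toAddMonoidHom (Divisor κ ↥(modularFunctionFieldFullC κ N)) (s37e_psi κ N ℓ)⁻¹

theorem s37e_frobVer_apply (E : Divisor κ ↥(modularFunctionFieldFullC κ N)) :
    s37e_frobVer κ N ℓ E = s37e_psi κ N ℓ • E + ℓ • ((s37e_psi κ N ℓ)⁻¹ • E) :=
  rfl

theorem s37e_frobVer_single (Q : Place κ ↥(modularFunctionFieldFullC κ N)) :
    s37e_frobVer κ N ℓ (Finsupp.single Q 1) =
      Finsupp.single (s37e_psi κ N ℓ • Q) (1 : ℤ) +
        ℓ • Finsupp.single ((s37e_psi κ N ℓ)⁻¹ • Q) (1 : ℤ) := by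
  rw [s37e_frobVer_apply, SemilinearAut.smul_single, SemilinearAut.smul_single]

/-- The two correspondences agree on principal divisors. -/
theorem s37e_es_agree
    (r : Place L ↥(laurentBaseChange L (modularFunctionFieldFull N)) →
      Place κ ↥(modularFunctionFieldFullC κ N))
    (hr : IsPlaceReductionAlong A π N r) (hgen : PrincipalGeneratedByIntegral A π N)
    (hα : HeckeAlphaBarIntegral L N ℓ) (hβ : HeckeBetaBarIntegral L N ℓ)
    [HasPrincipalDivisors L ↥(laurentBaseChange L (modularFunctionFieldFull (N * ℓ)))]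
    (hfin : FiniteAlong L (heckeAlphaBar L N ℓ))
    (hN : NormFormulaAlong L (heckeAlphaBar L N ℓ) hfin)
    (ζ : Lˣ) (hζ : IsPrimitiveRoot (ζ : L) ℓ)
    (hW : ∀ y : ↥(laurentBaseChange L (modularFunctionFieldFull N)),
      qExpand L ℓ ((s37e_normAlpha N ℓ (heckeBetaBar L N ℓ y) :
          ↥(laurentBaseChange L (modularFunctionFieldFull N))) : LaurentSeries L) =
        qExpand L (ℓ * ℓ) (y : LaurentSeries L) * s37e_prodTw ℓ ζ (y : LaurentSeries L))
    (D : Divisor L ↥(laurentBaseChange L (modularFunctionFieldFull N)))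
    (hD : D ∈ Divisor.principal (K := L)
      (F := ↥(laurentBaseChange L (modularFunctionFieldFull N)))) :
    reductionDivAlong r (heckeDivBar hα hβ D) = s37e_frobVer κ N ℓ (reductionDivAlong r D) := by
  have hD' := hgen hD
  clear hD
  induction hD' using AddSubgroup.closure_induction with
  | mem E hE =>
    obtain ⟨Y, hY, hYk, hY0, hE⟩ := hE
    rw [s37e_frobVer_apply]
    exact s37e_es_principal A π r hr hα hβ hfin hN ζ hζ hW Y hY hYk hY0 E hE
  | zero => rw [map_zero, map_zero, map_zero]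
  | add E E' _ _ hE hE' => rw [map_add, map_add, hE, hE', map_add, map_add]
  | neg E _ hE => rw [map_neg, map_neg, hE, map_neg, map_neg]

/-- **(I2)** the Eichler–Shimura relation `r_* ∘ T_ℓ = (ψ + ℓ ψ⁻¹) ∘ r_*` on ALL divisors. -/
theorem s37e_es_div
    (r : Place L ↥(laurentBaseChange L (modularFunctionFieldFull N)) →
      Place κ ↥(modularFunctionFieldFullC κ N))
    (hr : IsPlaceReductionAlong A π N r) (hgen : PrincipalGeneratedByIntegral A π N)
    (hα : HeckeAlphaBarIntegral L N ℓ) (hβ : HeckeBetaBarIntegral L N ℓ)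
    [HasPrincipalDivisors L ↥(laurentBaseChange L (modularFunctionFieldFull (N * ℓ)))]
    [HasPrincipalDivisors L ↥(laurentBaseChange L (modularFunctionFieldFull N))]
    (hfin : FiniteAlong L (heckeAlphaBar L N ℓ))
    (hN : NormFormulaAlong L (heckeAlphaBar L N ℓ) hfin)
    (ζ : Lˣ) (hζ : IsPrimitiveRoot (ζ : L) ℓ)
    (hW : ∀ y : ↥(laurentBaseChange L (modularFunctionFieldFull N)),
      qExpand L ℓ ((s37e_normAlpha N ℓ (heckeBetaBar L N ℓ y) :
          ↥(laurentBaseChange L (modularFunctionFieldFull N))) : LaurentSeries L) =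
        qExpand L (ℓ * ℓ) (y : LaurentSeries L) * s37e_prodTw ℓ ζ (y : LaurentSeries L))
    (hFI : FundamentalIdentityAlong L (heckeBetaBar L N ℓ) hβ)
    (hrank : finrankAlong L (heckeBetaBar L N ℓ) = ℓ + 1)
    (hdeg : ∀ P : Place L ↥(laurentBaseChange L (modularFunctionFieldFull N)), P.deg = 1)
    (hRI : ∃ γ : ℕ, ∀ D : Divisor L ↥(laurentBaseChange L (modularFunctionFieldFull N)),
      (γ : ℤ) ≤ Divisor.degree D →
        ∃ f : ↥(laurentBaseChange L (modularFunctionFieldFull N)), f ≠ 0 ∧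
          ∀ P : Place L ↥(laurentBaseChange L (modularFunctionFieldFull N)), 0 ≤ D P + P.ord f)
    (h3 : ∃ P₁ P₂ P₃, r P₁ ≠ r P₂ ∧ r P₁ ≠ r P₃ ∧ r P₂ ≠ r P₃)
    (D : Divisor L ↥(laurentBaseChange L (modularFunctionFieldFull N))) :
    reductionDivAlong r (heckeDivBar hα hβ D) =
      s37e_psi κ N ℓ • reductionDivAlong r D +
        ℓ • ((s37e_psi κ N ℓ)⁻¹ • reductionDivAlong r D) := by
  classical
  obtain ⟨P₁, P₂, P₃, h12, h13, h23⟩ := h3
  haveI : Nonempty (Place L ↥(laurentBaseChange L (modularFunctionFieldFull N))) := ⟨P₁⟩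
  set Λ₁ : Divisor L ↥(laurentBaseChange L (modularFunctionFieldFull N)) →+
      Divisor κ ↥(modularFunctionFieldFullC κ N) :=
    (reductionDivAlong r).comp (heckeDivBar hα hβ) with hΛ₁def
  set Λ₂ : Divisor L ↥(laurentBaseChange L (modularFunctionFieldFull N)) →+
      Divisor κ ↥(modularFunctionFieldFullC κ N) :=
    (s37e_frobVer κ N ℓ).comp (reductionDivAlong r) with hΛ₂def
  have hΛ₁ : ∀ E, Λ₁ E = reductionDivAlong r (heckeDivBar hα hβ E) := fun _ => rfl
  have hΛ₂ : ∀ E, Λ₂ E = s37e_frobVer κ N ℓ (reductionDivAlong r E) := fun _ => rfl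
  have hΛ₂s : ∀ P, Λ₂ (Finsupp.single P 1) =
      Finsupp.single (s37e_psi κ N ℓ • r P) (1 : ℤ) +
        ℓ • Finsupp.single ((s37e_psi κ N ℓ)⁻¹ • r P) (1 : ℤ) := by
    intro P
    rw [hΛ₂, reductionDivAlong_single, s37e_frobVer_single]
  have key : Λ₁ = Λ₂ := by
    refine s37e_eq_of_bounded
      (Divisor.principal (K := L) (F := ↥(laurentBaseChange L (modularFunctionFieldFull N))))
      Divisor.degree ?_ s37e_degree_principal (s37e_riemann_convert hRI) Λ₁ Λ₂ ?_ ?_ ?_
      ((ℓ : ℤ) + 1) ?_ ?_ ?_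
    · intro P
      rw [Divisor.degree_single, hdeg, Nat.cast_one, mul_one]
    · intro E hE
      rw [hΛ₁, hΛ₂]
      exact s37e_es_agree A π r hr hgen hα hβ hfin hN ζ hζ hW E hE
    · intro P Q
      rw [hΛ₁]
      exact s37e_mapDomain_nonneg r _ (s37e_heckeDivBar_single_nonneg hα hβ P) Q
    · intro P Q
      rw [hΛ₂s]
      exact s37e_single_add_nsmul_nonneg _ _ _ _
    · intro P
      have h1 : s37e_total (Λ₁ (Finsupp.single P 1)) =
          s37e_total (heckeDivBar hα hβ (Finsupp.single P 1)) :=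
        s37e_total_mapDomain r _
      rw [h1, s37e_total_heckeDivBar_single hα hβ hFI hdeg, hrank]
      push_cast
      ring
    · intro P
      rw [hΛ₂s]
      exact s37e_total_single_add_nsmul _ _ _
    · intro Q
      obtain ⟨P, hP1, hP2⟩ := s37e_exists_avoid r P₁ P₂ P₃ h12 h13 h23
        ((s37e_psi κ N ℓ)⁻¹ • Q) (s37e_psi κ N ℓ • Q)
      refine ⟨P, ?_⟩
      rw [hΛ₂s]
      refine s37e_single_add_nsmul_eq_zero (fun h => hP1 ?_) (fun h => hP2 ?_) ℓ
      · rw [← h, inv_smul_smul]
      · rw [← h, smul_inv_smul]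
  have := DFunLike.congr_fun key D
  rw [hΛ₁, hΛ₂, s37e_frobVer_apply] at this
  exact this

end ES

end

end Fermat.Agent.Lib.S37
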