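/-
S37 (Eichler–Shimura congruence), package (E) (helper6), part 8: the Eichler–Shimura relation on
`Pic⁰`,

  `red (T_ℓ z) = ψ • red z + ℓ • ψ⁻¹ • red z`,

first for a general reduction datum `(r, hr, hgen)` and explicit Hecke inputs, then for the
Prelude's `reductionModL A N` and `heckeOperatorBar N ⟨ℓ, hℓ⟩`.
-/
import Fermat.Agent.Lib.S37.EDiv
import Fermat.Prelude.Def_ModularCurve_HeckeModule

set_option autoImplicit false
set_option linter.style.haveILetI false
set_option linter.unusedSectionVars false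

namespace Fermat.Agent.Lib.S37

open ModularCurve HahnSeries AlgebraicCurve IntermediateField Fermat.Agent.Lib.S28

noncomputable section

section Generic

variable {K F : Type*} [Field K] [Field F] [Algebra K F]

theorem s37e_pic0_mk_nsmul (n : ℕ) (D : AlgebraicCurve.Divisor.degZero (K := K) (F := F)) :
    Pic0.mk (n • D) = n • Pic0.mk D :=
  map_nsmul (QuotientAddGroup.mk' _) n D

end Generic

section Along

variable {L : Type*} [Field L] [Algebra ℚ L] {N ℓ : ℕ} [NeZero N] [NeZero ℓ]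
variable (A : ValuationSubring L) {κ : Type*} [Field κ] (π : ↥A →+* κ)
  [hℓ : Fact ℓ.Prime] [CharP κ ℓ] [PerfectRing κ ℓ]

set_option maxHeartbeats 800000 in
/-- **(I3)** the Eichler–Shimura relation on `Pic⁰`, general form. -/
theorem s37e_es_pic0Along
    (r : Place L ↥(laurentBaseChange L (modularFunctionFieldFull N)) →
      Place κ ↥(modularFunctionFieldFullC κ N))
    (hr : IsPlaceReductionAlong A π N r) (hgen : PrincipalGeneratedByIntegral A π N)
    (hα : HeckeAlphaBarIntegral L N ℓ) (hβ : HeckeBetaBarIntegral L N ℓ)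
    [HasPrincipalDivisors L ↥(laurentBaseChange L (modularFunctionFieldFull (N * ℓ)))]
    [HasPrincipalDivisors L ↥(laurentBaseChange L (modularFunctionFieldFull N))]
    (hfin : FiniteAlong L (heckeAlphaBar L N ℓ))
    (hN : NormFormulaAlong L (heckeAlphaBar L N ℓ) hfin)
    (ζ : Lˣ) (hζ : IsPrimitiveRoot (ζ : L) ℓ)
    (hW : ∀ y : ↥(laurentBaseChange L (modularFunctionFieldFull N)),
      qExpand L ℓ ((s37e_normAlpha N ℓ (heckeBetaBar L N ℓ y) :
          ↥(laurentBaseChange L (modularFunctionFieldFull N))) : LaurentSeries L) =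
        qExpand L (ℓ * ℓ) (y : LaurentSeries L) * s37e_prodTw ℓ ζ (y : LaurentSeries L))
    (hFI : FundamentalIdentityAlong L (heckeBetaBar L N ℓ) hβ)
    (hrank : finrankAlong L (heckeBetaBar L N ℓ) = ℓ + 1)
    (hdeg : ∀ P : Place L ↥(laurentBaseChange L (modularFunctionFieldFull N)), P.deg = 1)
    (hRI : ∃ γ : ℕ, ∀ D : Divisor L ↥(laurentBaseChange L (modularFunctionFieldFull N)),
      (γ : ℤ) ≤ Divisor.degree D →
        ∃ f : ↥(laurentBaseChange L (modularFunctionFieldFull N)), f ≠ 0 ∧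
          ∀ P : Place L ↥(laurentBaseChange L (modularFunctionFieldFull N)), 0 ≤ D P + P.ord f)
    (h3 : ∃ P₁ P₂ P₃, r P₁ ≠ r P₂ ∧ r P₁ ≠ r P₃ ∧ r P₂ ≠ r P₃)
    (z : Pic0 L ↥(laurentBaseChange L (modularFunctionFieldFull N))) :
    reductionPic0Along r hr hgen (heckePic0Bar hα hβ hFI hfin hN z) =
      s37e_psi κ N ℓ • reductionPic0Along r hr hgen z +
        ℓ • ((s37e_psi κ N ℓ)⁻¹ • reductionPic0Along r hr hgen z) := by
  obtain ⟨D, rfl⟩ := Pic0.mk_surjective z
  have hα' : (heckeAlphaBar L N ℓ).toRingHom.IsIntegral := hα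
  have hβ' : (heckeBetaBar L N ℓ).toRingHom.IsIntegral := hβ
  have hFI' : FundamentalIdentityAlong L (heckeBetaBar L N ℓ) hβ' := hFI
  have h1 : heckePic0Bar hα hβ hFI hfin hN (Pic0.mk D) =
      Pic0.mk (Pic0.degZeroCorrespondence (heckeBetaBar L N ℓ) (heckeAlphaBar L N ℓ) hβ' hα' hFI'
        D) := rfl
  rw [h1]
  rw [reductionPic0Along_mk, reductionPic0Along_mk]
  rw [SemilinearAut.pic0_smul_mk,
    SemilinearAut.pic0_smul_mk]
  rw [← s37e_pic0_mk_nsmul, ← Pic0.mk_add]
  refine congrArg Pic0.mk (Subtype.ext ?_)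
  rw [AddSubgroup.coe_add, AddSubgroup.coe_nsmul, SemilinearAut.coe_degZeroSMulHom,
    SemilinearAut.coe_degZeroSMulHom, coe_reductionDegZeroAlong, coe_reductionDegZeroAlong,
    Pic0.coe_degZeroCorrespondence]
  exact s37e_es_div A π r hr hgen hα hβ hfin hN ζ hζ hW hFI hrank hdeg hRI h3
    (D : Divisor L ↥(laurentBaseChange L (modularFunctionFieldFull N)))

end Along

/-! ### The Prelude's `reductionModL` and `heckeOperatorBar` -/

section ModL

local notation "Kb" => AlgebraicClosure ℚ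

variable {M ℓ : ℕ} [NeZero M] [NeZero ℓ] (A : ValuationSubring Kb)
  [hℓ : Fact ℓ.Prime] [CharP (IsLocalRing.ResidueField A) ℓ]
  [PerfectRing (IsLocalRing.ResidueField A) ℓ]

set_option maxHeartbeats 800000 in
/-- **(I4)** the Eichler–Shimura relation for the Prelude's `reductionModL A M` and
`heckeOperatorAlong`. -/
theorem s37e_es_modL (h : ReductionInputsModL A M) (hH : HeckeInputsAlong Kb M ℓ)
    [HasPrincipalDivisors Kb ↥(modularFunctionFieldBar M)]
    (ζ : Kbˣ) (hζ : IsPrimitiveRoot (ζ : Kb) ℓ)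
    (hW : ∀ y : ↥(modularFunctionFieldBar M),
      qExpand Kb ℓ ((s37e_normAlpha M ℓ (heckeBetaBar Kb M ℓ y) :
          ↥(modularFunctionFieldBar M)) : LaurentSeries Kb) =
        qExpand Kb (ℓ * ℓ) (y : LaurentSeries Kb) * s37e_prodTw ℓ ζ (y : LaurentSeries Kb))
    (hrank : finrankAlong Kb (heckeBetaBar Kb M ℓ) = ℓ + 1)
    (hdeg : ∀ P : Place Kb ↥(modularFunctionFieldBar M), P.deg = 1)
    (hRI : ∃ γ : ℕ, ∀ D : Divisor Kb ↥(modularFunctionFieldBar M),
      (γ : ℤ) ≤ Divisor.degree D →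
        ∃ f : ↥(modularFunctionFieldBar M), f ≠ 0 ∧
          ∀ P : Place Kb ↥(modularFunctionFieldBar M), 0 ≤ D P + P.ord f)
    (h3 : ∃ P₁ P₂ P₃, placeReductionModL h P₁ ≠ placeReductionModL h P₂ ∧
      placeReductionModL h P₁ ≠ placeReductionModL h P₃ ∧
      placeReductionModL h P₂ ≠ placeReductionModL h P₃)
    (z : JZero M) :
    reductionModL A M (heckeOperatorAlong Kb M ℓ z) =
      s37e_psi (IsLocalRing.ResidueField A) M ℓ • reductionModL A M z +
        ℓ • ((s37e_psi (IsLocalRing.ResidueField A) M ℓ)⁻¹ • reductionModL A M z) := by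
  obtain ⟨hα, hβ, hP, hfin, hFI, hN⟩ := hH
  haveI := hP
  rw [heckeOperatorAlong_eq hα hβ hFI hfin hN]
  have h0 : reductionModL A M = reductionPic0Along (placeReductionModL h)
      (isPlaceReductionModL_placeReductionModL h) h.choose_spec.2 := reductionAlong_eq h
  rw [h0]
  exact s37e_es_pic0Along A (IsLocalRing.residue A) (placeReductionModL h)
    (isPlaceReductionModL_placeReductionModL h) h.choose_spec.2 hα hβ hfin hN ζ hζ hW hFI hrank
    hdeg hRI h3 z

/-- The formal computation `ψ² − (ψ + ℓ ψ⁻¹) ψ + ℓ = 0`. -/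
theorem s37e_r3_algebra {G X Y : Type*} [Group G] [AddCommGroup X] [AddCommGroup Y]
    [DistribMulAction G Y] (red : X →+ Y) (S T : X → X) (ψ : G) (n : ℕ)
    (hS : ∀ x, red (S x) = ψ • red x)
    (hT : ∀ x, red (T x) = ψ • red x + n • (ψ⁻¹ • red x)) (y : X) :
    red (S (S y) - T (S y) + (n : ℤ) • y) = 0 := by
  rw [map_add, map_sub, map_zsmul, hS, hS, hT, hS, inv_smul_smul, natCast_zsmul]
  abel

/-- **(R3)** from the Eichler–Shimura relation on `Pic⁰` and the Frobenius equivariance (U2) of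
the reduction map. -/
theorem s37e_R3_of (hℓ' : ℓ.Prime)
    (hES : ∀ z : JZero M, reductionModL A M (heckeOperatorAlong Kb M ℓ z) =
      s37e_psi (IsLocalRing.ResidueField A) M ℓ • reductionModL A M z +
        ℓ • ((s37e_psi (IsLocalRing.ResidueField A) M ℓ)⁻¹ • reductionModL A M z))
    (σ : Kb ≃ₐ[ℚ] Kb)
    (hU2 : ∀ x : JZero M, reductionModL A M (σ • x) =
      s37e_psi (IsLocalRing.ResidueField A) M ℓ • reductionModL A M x)
    (y : JZero M) :
    reductionModL A M (σ • σ • y - heckeOperatorBar M ⟨ℓ, hℓ'⟩ (σ • y) + (ℓ : ℤ) • y) = 0 :=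
  s37e_r3_algebra (reductionModL A M) (fun x => σ • x) (fun x => heckeOperatorBar M ⟨ℓ, hℓ'⟩ x)
    (s37e_psi (IsLocalRing.ResidueField A) M ℓ) ℓ hU2 hES y

end ModL

end

end Fermat.Agent.Lib.S37
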