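/-
S37 moonshot, package [U] (helper9), part 4: the clause (R3) of `s37_RedInputs` from the
Eichler–Shimura relation on `Pic⁰` ((U3): `red ∘ T_ℓ = (ψ + ℓ ψ⁻¹) ∘ red`) and the Frobenius
equivariance `red ∘ σ = ψ ∘ red` of `UFinal`:
`red (σ² y - T_ℓ σ y + ℓ y) = ψ² r - (ψ + ℓ ψ⁻¹) ψ r + ℓ r = 0`.
-/
import Fermat.Agent.Lib.S37.UFinal
import Fermat.Prelude.Def_ModularCurve_HeckeModule

set_option autoImplicit false
set_option synthInstance.maxHeartbeats 400000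
set_option maxHeartbeats 800000

noncomputable section

namespace Fermat.Agent.Lib.S37

open ModularCurve AlgebraicCurve

section R3

variable (N : ℕ) [NeZero N] (A : ValuationSubring (AlgebraicClosure ℚ))

local notation "kA" => IsLocalRing.ResidueField A
local notation "Γ" => AlgebraicClosure ℚ ≃ₐ[ℚ] AlgebraicClosure ℚ

/-- **(R3) from (U3)**, abstract form: `T` any additive endomorphism of `JZero N` with
`red (T z) = ψ • red z + ℓ • ψ⁻¹ • red z`. -/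
theorem s37u_R3_of_hecke_aux {ℓ : ℕ} [hℓ : Fact ℓ.Prime] [CharP kA ℓ] [PerfectRing kA ℓ]
    (hA : A.LiesOverPrime ℓ) (hℓN : ¬ ℓ ∣ N) (h : ReductionInputsModL A N)
    (T : JZero N →+ JZero N)
    (hT : ∀ z : JZero N, reductionModL A N (T z) =
      s37e_psi kA N ℓ • reductionModL A N z + ℓ • ((s37e_psi kA N ℓ)⁻¹ • reductionModL A N z))
    (σ : Γ) (hσ : A.IsFrobeniusAt σ ℓ) (y : JZero N) :
    reductionModL A N (σ • σ • y - T (σ • y) + (ℓ : ℤ) • y) = 0 := by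
  have hF := s37u_reductionModL_frobenius N A hA hℓN h σ hσ
  rw [map_add, map_sub, map_zsmul, hT, hF (σ • y), hF y, inv_smul_smul, natCast_zsmul]
  abel

/-- **(R3) from (U3)**, in the spelling of `s37_RedInputs`. -/
theorem s37u_R3_of_hecke {ℓ : ℕ} (hℓ : ℓ.Prime) [Fact ℓ.Prime] [CharP kA ℓ] [PerfectRing kA ℓ]
    (hA : A.LiesOverPrime ℓ) (hℓN : ¬ ℓ ∣ N) (h : ReductionInputsModL A N)
    (hT : ∀ z : JZero N, reductionModL A N (heckeOperatorBar N ⟨ℓ, hℓ⟩ z) =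
      s37e_psi kA N ℓ • reductionModL A N z + ℓ • ((s37e_psi kA N ℓ)⁻¹ • reductionModL A N z)) :
    ∀ σ : Γ, A.IsFrobeniusAt σ ℓ → ∀ y : JZero N,
      reductionModL A N (σ • σ • y - heckeOperatorBar N ⟨ℓ, hℓ⟩ (σ • y) + (ℓ : ℤ) • y) = 0 :=
  fun σ hσ y => s37u_R3_of_hecke_aux N A hA hℓN h
    (heckeOperatorBar N ⟨ℓ, hℓ⟩).toAddMonoidHom hT σ hσ y

end R3

end Fermat.Agent.Lib.S37
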