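/-
S37 moonshot, package [V3] (helper1): a place reduction `r` at `ℓ ∤ M` takes at least THREE
values — more precisely every zero of `j̄ - c̄` on the special fibre lies in the range of `r`.

Route: `κ = ResidueField A` is algebraically closed, so infinite.  For `c ∈ A` the series
`Y_c = j - c` is integral with reduction `j̄ - c̄ ≠ 0`; `1 / (j̄ - c̄)` is not constant, so by the
constants lemma of S18 (a function without poles is constant) it has a pole `Q_c`, i.e.
`j̄ - c̄` has a zero `Q_c`.  Conservation of number gives `(r_* div(j - c))(Q_c) > 0`, so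
`Q_c = r P_c`.  Zeros for different `c̄` are different.
-/
import Fermat.Agent.Lib.S18.NConst
import Fermat.Agent.Lib.S18.NLift
import Fermat.Agent.Lib.S18.RData
import Fermat.Agent.Lib.S28.TPrimeAll
import Fermat.Agent.Lib.S28.VTrans
import Fermat.Agent.Lib.S37.ENorm

set_option autoImplicit false
set_option synthInstance.maxHeartbeats 400000
set_option maxHeartbeats 800000

noncomputable section

namespace Fermat.Agent.Lib.S37

open ModularCurve AlgebraicCurve Fermat.Agent.Lib.FF Fermat.Agent.Lib.S18 Fermat.Agent.Lib.S28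

section Special

set_option linter.unusedSectionVars false

variable (k : Type*) [Field k] (N : ℕ) [NeZero N]

/-- `j̄` as an element of the special function field. -/
def s37v_jF : ↥(modularFunctionFieldFullC k N) := ⟨jqModC k, jqModC_mem_full k N⟩

theorem s37v_transcendental_jF : Transcendental k (s37v_jF k N) := by
  have h := s28v_transcendental_jqModC k
  rw [← transcendental_algebraMap_iff
    (algebraMap ↥(modularFunctionFieldFullC k N) (LaurentSeries k)).injective]
  exact h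

theorem s37v_jF_sub_ne_zero (c : k) :
    s37v_jF k N - algebraMap k ↥(modularFunctionFieldFullC k N) c ≠ 0 := by
  intro h
  apply s37v_transcendental_jF k N
  rw [sub_eq_zero.mp h]
  exact isAlgebraic_algebraMap c

/-- **Every value is taken**: `j̄ - c` has a zero on the special fibre. -/
theorem s37v_exists_zero [IsAlgClosed k] (ℓ : ℕ) [Fact ℓ.Prime] [CharP k ℓ] (hℓN : ¬ ℓ ∣ N)
    (c : k) : ∃ Q : Place k ↥(modularFunctionFieldFullC k N),
      0 < Q.ord (s37v_jF k N - algebraMap k ↥(modularFunctionFieldFullC k N) c) := by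
  set f := s37v_jF k N - algebraMap k ↥(modularFunctionFieldFullC k N) c with hf
  have hf0 : f ≠ 0 := s37v_jF_sub_ne_zero k N c
  by_contra hno
  have hh : ∀ Q : Place k ↥(modularFunctionFieldFullC k N), 0 ≤ Q.ord f⁻¹ := by
    intro Q
    rw [Q.ord_inv]
    have : ¬ 0 < Q.ord f := fun h => hno ⟨Q, h⟩
    omega
  obtain ⟨c', hc'⟩ := s18n_const_of_primeLevelAll k N (s28t_primeLevelAll k ℓ N hℓN) f⁻¹ hh
  apply s37v_transcendental_jF k N
  have h1 : f = algebraMap k ↥(modularFunctionFieldFullC k N) c'⁻¹ := by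
    rw [map_inv₀, ← hc', inv_inv]
  have h2 : s37v_jF k N = algebraMap k ↥(modularFunctionFieldFullC k N) (c'⁻¹ + c) := by
    rw [map_add, ← h1, hf]
    ring
  rw [h2]
  exact isAlgebraic_algebraMap _

/-- Zeros of `j̄ - c` for different `c` are different. -/
theorem s37v_zero_ne {c c' : k} (hcc' : c ≠ c') {Q Q' : Place k ↥(modularFunctionFieldFullC k N)}
    (hQ : 0 < Q.ord (s37v_jF k N - algebraMap k ↥(modularFunctionFieldFullC k N) c))
    (hQ' : 0 < Q'.ord (s37v_jF k N - algebraMap k ↥(modularFunctionFieldFullC k N) c')) :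
    Q ≠ Q' := by
  rintro rfl
  exact hcc' (ff_ord_sub_pos_unique Q hQ hQ')

end Special

section ModL

variable (N : ℕ) [NeZero N] (A : ValuationSubring (AlgebraicClosure ℚ))

local notation "kA" => IsLocalRing.ResidueField A
local notation "Fk" => modularFunctionFieldFullC kA N

/-- **Every zero of `j̄ - c̄` is in the range of a place reduction.** -/
theorem s37v_mem_range_of_zero
    {r : Place (AlgebraicClosure ℚ) (modularFunctionFieldBar N) → Place kA Fk}
    (hr : IsPlaceReductionModL A N r) (c : A) (Q : Place kA Fk)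
    (hQ : 0 < Q.ord (s37v_jF kA N - algebraMap kA Fk (IsLocalRing.residue A c))) :
    ∃ P, r P = Q := by
  classical
  set Y : LaurentSeries A := jqModC A - HahnSeries.single 0 c with hYdef
  have hYsub : coeffMap A.subtype Y = jqModC (AlgebraicClosure ℚ) -
      algebraMap (AlgebraicClosure ℚ) (LaurentSeries (AlgebraicClosure ℚ)) (c : AlgebraicClosure ℚ) := by
    rw [hYdef, map_sub, coeffMap_jqModC, algebraMap_laurentSeries_eq_single, coeffMap_single]
    rfl
  have hjmem : jqModC (AlgebraicClosure ℚ) ∈ modularFunctionFieldBar N := by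
    have h := s18n_jqd_mem_bar (L := AlgebraicClosure ℚ) (N := N) (d := 1) (one_dvd N)
    rwa [qExpand_one_apply] at h
  have hY : coeffMap A.subtype Y ∈ modularFunctionFieldBar N := by
    rw [hYsub]
    exact sub_mem hjmem ((modularFunctionFieldBar N).algebraMap_mem _)
  have hYk_eq : coeffMap (IsLocalRing.residue A) Y =
      ((s37v_jF kA N - algebraMap kA Fk (IsLocalRing.residue A c) : Fk) : LaurentSeries kA) := by
    rw [hYdef, map_sub, coeffMap_jqModC, coeffMap_single, ← algebraMap_laurentSeries_eq_single]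
    rfl
  have hYk : coeffMap (IsLocalRing.residue A) Y ∈ Fk := by
    rw [hYk_eq]
    exact (s37v_jF kA N - algebraMap kA Fk (IsLocalRing.residue A c)).2
  have hx : (⟨coeffMap (IsLocalRing.residue A) Y, hYk⟩ : Fk) =
      s37v_jF kA N - algebraMap kA Fk (IsLocalRing.residue A c) := Subtype.ext hYk_eq
  have hne : coeffMap (IsLocalRing.residue A) Y ≠ 0 := by
    intro h0
    apply s37v_jF_sub_ne_zero kA N (IsLocalRing.residue A c)
    rw [← hx]
    exact Subtype.ext h0
  have hf : (⟨coeffMap A.subtype Y, hY⟩ : modularFunctionFieldBar N) ≠ 0 := by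
    intro h0
    apply hne
    have h1 : coeffMap A.subtype Y = 0 := congrArg Subtype.val h0
    have h2 : Y = 0 := s37e_coeffMap_subtype_injective A (by rw [h1, map_zero])
    rw [h2, map_zero]
  obtain ⟨D, hD, -⟩ := s18r_exists_divisor N ⟨coeffMap A.subtype Y, hY⟩ hf
  have hcons := hr.2 Y hY hYk hne D hD Q
  rw [hx] at hcons
  have hne0 : Finsupp.mapDomain r D Q ≠ 0 := by rw [hcons]; omega
  have hmem : Q ∈ (Finsupp.mapDomain r D).support := Finsupp.mem_support_iff.mpr hne0
  have hsub := Finsupp.mapDomain_support (f := r) (s := D) hmem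
  obtain ⟨P, -, hP⟩ := Finset.mem_image.mp hsub
  exact ⟨P, hP⟩

/-- Three places with pairwise distinct reductions (section form). -/
theorem s37v_three_values_aux {ℓ : ℕ} [Fact ℓ.Prime] (hℓN : ¬ ℓ ∣ N) (hA : A.LiesOverPrime ℓ)
    (r : Place (AlgebraicClosure ℚ) (modularFunctionFieldBar N) → Place kA Fk)
    (hr : IsPlaceReductionModL A N r) :
    ∃ P₁ P₂ P₃, r P₁ ≠ r P₂ ∧ r P₁ ≠ r P₃ ∧ r P₂ ≠ r P₃ := by
  have hℓ : ℓ.Prime := Fact.out
  have := s18n_isAlgClosed_residueField A
  have := s18n_charP_residueField A hℓ hA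
  -- three distinct residues
  obtain ⟨c₁, c₂, c₃, h12, h13, h23⟩ : ∃ c₁ c₂ c₃ : kA, c₁ ≠ c₂ ∧ c₁ ≠ c₃ ∧ c₂ ≠ c₃ := by
    classical
    have hinf : Infinite kA := IsAlgClosed.instInfinite
    obtain ⟨c₁⟩ : Nonempty kA := inferInstance
    obtain ⟨c₂, h2⟩ := Infinite.exists_notMem_finset ({c₁} : Finset kA)
    obtain ⟨c₃, h3⟩ := Infinite.exists_notMem_finset ({c₁, c₂} : Finset kA)
    simp only [Finset.mem_singleton, Finset.mem_insert, not_or] at h2 h3
    exact ⟨c₁, c₂, c₃, fun h => h2 h.symm, fun h => h3.1 h.symm, fun h => h3.2 h.symm⟩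
  obtain ⟨a₁, rfl⟩ := IsLocalRing.residue_surjective c₁
  obtain ⟨a₂, rfl⟩ := IsLocalRing.residue_surjective c₂
  obtain ⟨a₃, rfl⟩ := IsLocalRing.residue_surjective c₃
  obtain ⟨Q₁, hQ₁⟩ := s37v_exists_zero kA N ℓ hℓN (IsLocalRing.residue A a₁)
  obtain ⟨Q₂, hQ₂⟩ := s37v_exists_zero kA N ℓ hℓN (IsLocalRing.residue A a₂)
  obtain ⟨Q₃, hQ₃⟩ := s37v_exists_zero kA N ℓ hℓN (IsLocalRing.residue A a₃)
  obtain ⟨P₁, hP₁⟩ := s37v_mem_range_of_zero N A hr a₁ Q₁ hQ₁
  obtain ⟨P₂, hP₂⟩ := s37v_mem_range_of_zero N A hr a₂ Q₂ hQ₂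
  obtain ⟨P₃, hP₃⟩ := s37v_mem_range_of_zero N A hr a₃ Q₃ hQ₃
  refine ⟨P₁, P₂, P₃, ?_, ?_, ?_⟩
  · rw [hP₁, hP₂]; exact s37v_zero_ne kA N h12 hQ₁ hQ₂
  · rw [hP₁, hP₃]; exact s37v_zero_ne kA N h13 hQ₁ hQ₃
  · rw [hP₂, hP₃]; exact s37v_zero_ne kA N h23 hQ₂ hQ₃

end ModL

/-- **[V3] A place reduction at `l ∤ M` takes at least three values.** -/
theorem s37v_three_values (M : ℕ) [NeZero M] {l : ℕ} [Fact l.Prime] (hlM : ¬ l ∣ M)
    (A : ValuationSubring (AlgebraicClosure ℚ)) (hA : A.LiesOverPrime l)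
    (r : Place (AlgebraicClosure ℚ) (modularFunctionFieldBar M) →
      Place (IsLocalRing.ResidueField A) (modularFunctionFieldFullC (IsLocalRing.ResidueField A) M))
    (hr : IsPlaceReductionModL A M r) :
    ∃ P₁ P₂ P₃, r P₁ ≠ r P₂ ∧ r P₁ ≠ r P₃ ∧ r P₂ ≠ r P₃ :=
  s37v_three_values_aux M A hlM hA r hr

/-- **Avoiding two places**: for any two places `Q₁`, `Q₂` of the special fibre there is `P` with
`r P ∉ {Q₁, Q₂}` (the `havoid` input of the abstract Eichler–Shimura lemma). -/
theorem s37v_avoid_two (M : ℕ) [NeZero M] {l : ℕ} [Fact l.Prime] (hlM : ¬ l ∣ M)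
    (A : ValuationSubring (AlgebraicClosure ℚ)) (hA : A.LiesOverPrime l)
    (r : Place (AlgebraicClosure ℚ) (modularFunctionFieldBar M) →
      Place (IsLocalRing.ResidueField A) (modularFunctionFieldFullC (IsLocalRing.ResidueField A) M))
    (hr : IsPlaceReductionModL A M r)
    (Q₁ Q₂ : Place (IsLocalRing.ResidueField A)
      (modularFunctionFieldFullC (IsLocalRing.ResidueField A) M)) :
    ∃ P, r P ≠ Q₁ ∧ r P ≠ Q₂ := by
  obtain ⟨P₁, P₂, P₃, h12, h13, h23⟩ := s37v_three_values M hlM A hA r hr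
  by_cases a1 : r P₁ ≠ Q₁ ∧ r P₁ ≠ Q₂
  · exact ⟨P₁, a1⟩
  by_cases a2 : r P₂ ≠ Q₁ ∧ r P₂ ≠ Q₂
  · exact ⟨P₂, a2⟩
  refine ⟨P₃, ?_, ?_⟩
  · intro h3
    rw [not_and_or, not_not, not_not] at a1 a2
    rcases a1 with a1 | a1 <;> rcases a2 with a2 | a2
    · exact h12 (a1.trans a2.symm)
    · exact h13 (a1.trans h3.symm)
    · exact h23 (a2.trans h3.symm)
    · exact h12 (a1.trans a2.symm)
  · intro h3
    rw [not_and_or, not_not, not_not] at a1 a2
    rcases a1 with a1 | a1 <;> rcases a2 with a2 | a2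
    · exact h12 (a1.trans a2.symm)
    · exact h23 (a2.trans h3.symm)
    · exact h13 (a1.trans h3.symm)
    · exact h12 (a1.trans a2.symm)

/-- The two-value corollary. -/
theorem s37v_two_values (M : ℕ) [NeZero M] {l : ℕ} [Fact l.Prime] (hlM : ¬ l ∣ M)
    (A : ValuationSubring (AlgebraicClosure ℚ)) (hA : A.LiesOverPrime l)
    (r : Place (AlgebraicClosure ℚ) (modularFunctionFieldBar M) →
      Place (IsLocalRing.ResidueField A) (modularFunctionFieldFullC (IsLocalRing.ResidueField A) M))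
    (hr : IsPlaceReductionModL A M r) : ∃ P P', r P ≠ r P' := by
  obtain ⟨P₁, P₂, -, h12, -, -⟩ := s37v_three_values M hlM A hA r hr
  exact ⟨P₁, P₂, h12⟩

end Fermat.Agent.Lib.S37
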