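/-
S37 (Eichler–Shimura congruence), package (E) (helper6), part 9: the final assembly of [ES].

`s37e_hT`: for `ℓ ∤ M`, `A ∣ ℓ` and `h : ReductionInputsModL A M`, given the Hecke inputs
`HeckeInputsAlong Q̄ M ℓ` (package [H]),

  `reductionModL A M (T_ℓ z) = ψ • reductionModL A M z + ℓ • ψ⁻¹ • reductionModL A M z`,

and `s37e_es_of`: the clause `s37x_ES` of the final glue, from [H].
Inputs: [W] `s37w_norm_beta`, `s37w_finrank_beta` (helper1), [RI] `s37i_riemann_bar` (helper1),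
[V3] `s37v_three_values` (helper1), [U] `s37u_R3_of_hecke` (helper9).
-/
import Fermat.Agent.Lib.S37.EPic
import Fermat.Agent.Lib.S37.XGood
import Fermat.Agent.Lib.S37.UGlue
import Fermat.Agent.Lib.S37.VThree
import Fermat.Agent.Lib.S37.IRiemannBar
import Fermat.Agent.Lib.S37.WNorm

set_option autoImplicit false
set_option linter.style.haveILetI false
set_option linter.unusedSectionVars false
set_option synthInstance.maxHeartbeats 400000

namespace Fermat.Agent.Lib.S37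

open ModularCurve HahnSeries AlgebraicCurve IntermediateField Fermat.Agent.Lib.S28
  Fermat.Agent.Lib.S18 Fermat.Agent.Lib.FF

noncomputable section

local notation "Kb" => AlgebraicClosure ℚ

/-- A primitive `ℓ`-th root of unity in `Q̄`, as a unit. -/
theorem s37e_exists_zeta (ℓ : ℕ) [NeZero ℓ] : ∃ ζ : Kbˣ, IsPrimitiveRoot (ζ : Kb) ℓ := by
  haveI : NeZero ((ℓ : ℕ) : Kb) := ⟨Nat.cast_ne_zero.mpr (NeZero.ne ℓ)⟩
  obtain ⟨ζ, hζ⟩ := HasEnoughRootsOfUnity.exists_primitiveRoot Kb ℓ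
  exact ⟨(hζ.isUnit (NeZero.ne ℓ)).unit, by rw [IsUnit.unit_spec]; exact hζ⟩

section ModL

variable (M : ℕ) [NeZero M] (ℓ : ℕ) [NeZero ℓ]

/-- [W] in the form consumed by `s37e_es_principal`. -/
theorem s37e_hW (hℓ : ℓ.Prime) (hℓM : ¬ ℓ ∣ M) (ζ : Kbˣ) (hζ : IsPrimitiveRoot (ζ : Kb) ℓ)
    (y : ↥(modularFunctionFieldBar M)) :
    qExpand Kb ℓ ((s37e_normAlpha M ℓ (heckeBetaBar Kb M ℓ y) :
        ↥(modularFunctionFieldBar M)) : LaurentSeries Kb) =
      qExpand Kb (ℓ * ℓ) (y : LaurentSeries Kb) * s37e_prodTw ℓ ζ (y : LaurentSeries Kb) := by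
  have h := s37w_norm_beta M ℓ hℓ hℓM ζ hζ y
  rw [qExpand_qExpand] at h
  exact h

end ModL

section Final

variable (M : ℕ) [NeZero M] (ℓ : ℕ)

set_option maxHeartbeats 800000 in
/-- **(U3) = hT**: the Eichler–Shimura relation on `Pic⁰` for the Prelude's `reductionModL A M` and
`heckeOperatorBar M ⟨ℓ, hℓ⟩`, given the Hecke inputs [H]. -/
theorem s37e_hT [NeZero ℓ] (hℓ : ℓ.Prime) (hℓM : ¬ ℓ ∣ M) (A : ValuationSubring Kb)
    (hA : A.LiesOverPrime ℓ) (h : ReductionInputsModL A M)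
    [Fact ℓ.Prime] [CharP (IsLocalRing.ResidueField A) ℓ]
    [PerfectRing (IsLocalRing.ResidueField A) ℓ]
    (hH : HeckeInputsAlong Kb M ℓ) (z : JZero M) :
    reductionModL A M (heckeOperatorBar M ⟨ℓ, hℓ⟩ z) =
      s37e_psi (IsLocalRing.ResidueField A) M ℓ • reductionModL A M z +
        ℓ • ((s37e_psi (IsLocalRing.ResidueField A) M ℓ)⁻¹ • reductionModL A M z) := by
  obtain ⟨ζ, hζ⟩ := s37e_exists_zeta ℓ
  have h3 := s37v_three_values M hℓM A hA (placeReductionModL h)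
    (isPlaceReductionModL_placeReductionModL h)
  exact s37e_es_modL A h hH ζ hζ (s37e_hW M ℓ hℓ hℓM ζ hζ) (s37w_finrank_beta M ℓ hℓ hℓM)
    (s37i_deg_eq_one_bar M) (s37i_riemann_bar M) h3 z

/-- **[ES] from [H]**: the clause `s37x_ES` of the final glue. -/
theorem s37e_es_of
    (hH : ∀ (M : ℕ) [NeZero M] (ℓ : ℕ) [NeZero ℓ], ℓ.Prime → ¬ ℓ ∣ M →
      HeckeInputsAlong Kb M ℓ) : s37x_ES := by
  intro M _ ℓ hℓ hℓM A hA h
  haveI : Fact ℓ.Prime := ⟨hℓ⟩
  haveI : NeZero ℓ := ⟨hℓ.ne_zero⟩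
  haveI := s18n_charP_residueField A hℓ hA
  haveI : IsAlgClosed (IsLocalRing.ResidueField A) := s18n_isAlgClosed_residueField A
  haveI : PerfectRing (IsLocalRing.ResidueField A) ℓ := inferInstance
  exact s37u_R3_of_hecke M A hℓ hA hℓM h (s37e_hT M ℓ hℓ hℓM A hA h (hH M ℓ hℓ hℓM))

end Final

end

end Fermat.Agent.Lib.S37
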