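/-
S37, package [H], part 3: `HeckeInputsAlong (AlgebraicClosure ℚ) N ℓ` for a prime `ℓ ∤ N`, so that the
Prelude's `heckeOperatorAlong Q̄ N ℓ` IS the honest correspondence `α_* β^*`; unfolding lemmas.
All names prefixed `s37h_`, namespace `Fermat.Agent.Lib.S37`.
-/
import Fermat.Agent.Lib.S37.HNorm
import Fermat.Agent.Lib.S37.WNorm
import Fermat.Agent.Lib.S18.RData
import Fermat.Prelude.Def_ModularCurve_HeckeModule

set_option autoImplicit false
set_option linter.style.haveILetI false
set_option linter.unusedSectionVars false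

noncomputable section

open IsDedekindDomain AlgebraicCurve ModularCurve
open Fermat.Agent.Lib.FF Fermat.Agent.Lib.S18

namespace Fermat.Agent.Lib.S37

local notation "Kb" => AlgebraicClosure ℚ

section Places

variable (M : ℕ) [NeZero M]

/-- residue fields of places of `F̄(M)` are `Q̄` -/
theorem s37h_residue_surjective (v : Place Kb (ffi_F M)) :
    Function.Surjective (algebraMap Kb v.ResidueField) :=
  haveI : FFGen ffi_K (ffd_jBar M) := s18r_ffGen M
  ff_residue_surjective Kb (ffd_jBar M) v

/-- places of `F̄(M)` have degree one -/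
theorem s37h_deg_eq_one (v : Place Kb (ffi_F M)) : v.deg = 1 :=
  haveI : FFGen ffi_K (ffd_jBar M) := s18r_ffGen M
  ff_deg_eq_one Kb (ffd_jBar M) v

instance s37h_charZero : CharZero (ffi_F M) :=
  charZero_of_injective_algebraMap (algebraMap Kb (ffi_F M)).injective

end Places

section General

variable {N M : ℕ} [NeZero N] [NeZero M]

/-- a finite `Q̄`-embedding `φ : F̄(N) → F̄(M)` is integral -/
theorem s37h_isIntegral_of_finiteAlong (φ : ffi_F N →ₐ[Kb] ffi_F M) (hfin : FiniteAlong Kb φ) :
    φ.toRingHom.IsIntegral := by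
  letI := algebraAlong φ
  haveI : Module.Finite (ffi_F N) (ffi_F M) := hfin
  exact (Algebra.IsIntegral.of_finite (ffi_F N) (ffi_F M)).isIntegral

/-- the fundamental identity along a finite `Q̄`-embedding `φ : F̄(N) → F̄(M)` -/
theorem s37h_fundamentalIdentityAlong (φ : ffi_F N →ₐ[Kb] ffi_F M) (hfin : FiniteAlong Kb φ)
    (hφ : φ.toRingHom.IsIntegral) : FundamentalIdentityAlong Kb φ hφ := by
  letI := algebraAlong φ
  haveI := isScalarTower_along φ
  haveI := isIntegral_along φ hφ
  haveI : Module.Finite (ffi_F N) (ffi_F M) := hfin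
  haveI : SumRamificationInertia Kb (ffi_F N) (ffi_F M) :=
    s37h_sumRamificationInertia (s37h_residue_surjective N) (s37h_deg_eq_one M)
  show FundamentalIdentity Kb (ffi_F N) (ffi_F M)
  infer_instance

/-- the norm formula along a finite `Q̄`-embedding `φ : F̄(N) → F̄(M)` -/
theorem s37h_normFormulaAlong (φ : ffi_F N →ₐ[Kb] ffi_F M) (hfin : FiniteAlong Kb φ) :
    NormFormulaAlong Kb φ hfin := by
  letI := algebraAlong φ
  haveI := isScalarTower_along φ
  haveI : Module.Finite (ffi_F N) (ffi_F M) := hfin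
  show Divisor.PushforwardNormFormula Kb (ffi_F N) (ffi_F M)
  exact s37h_pushforwardNormFormula (s37h_residue_surjective N) (s37h_deg_eq_one M)

end General

section Hecke

variable (N ℓ : ℕ) [NeZero N] [NeZero ℓ]

/-- **[H]**: the Prelude's inputs for the Hecke correspondence `T_ℓ` on `J₀(N)(Q̄)` hold. -/
theorem s37h_heckeInputsAlong (hℓ : ℓ.Prime) (hℓN : ¬ ℓ ∣ N) : HeckeInputsAlong Kb N ℓ := by
  have hfinα := s37w_finite_alpha N ℓ hℓ hℓN
  have hfinβ := s37w_finite_beta N ℓ hℓ hℓN
  have hα : HeckeAlphaBarIntegral Kb N ℓ := s37h_isIntegral_of_finiteAlong _ hfinα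
  have hβ : HeckeBetaBarIntegral Kb N ℓ := s37h_isIntegral_of_finiteAlong _ hfinβ
  exact ⟨hα, hβ, s18r_hasPrincipalDivisors (N * ℓ), hfinα,
    s37h_fundamentalIdentityAlong _ hfinβ hβ, s37h_normFormulaAlong _ hfinα⟩

end Hecke

end Fermat.Agent.Lib.S37
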