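/-
S37 (Eichler–Shimura congruence), package (E) (helper6), part 10: **[ES] closed**.
`s37e_es : s37x_ES` from `s37e_es_of` (EFinal) and the Hecke inputs [H] `s37h_heckeInputsAlong`
(helper7, HInputs).
-/
import Fermat.Agent.Lib.S37.EFinal
import Fermat.Agent.Lib.S37.HInputs

set_option autoImplicit false

namespace Fermat.Agent.Lib.S37

/-- **[ES]**: the Eichler–Shimura relation for the Prelude's reduction map, at every level prime
to `ℓ` at which the reduction inputs exist. -/
theorem s37e_es : s37x_ES :=
  s37e_es_of fun M _ ℓ _ hℓ hℓM => s37h_heckeInputsAlong M ℓ hℓ hℓM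

end Fermat.Agent.Lib.S37
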