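/-
S37, package [R23] (helper8): LEVEL TRANSFER of the reduction contract for `ℓ ∈ {2, 3}`:
`red_N := red_{dN} ∘ π^*`, with `π : F̄(N) ⊂ F̄(dN)`, `d = 3` resp. `2`.
* inertia invariance: `π^*` commutes with the arithmetic Galois action;
* Eichler–Shimura: `π^* T_ℓ^{(N)} = T_ℓ^{(dN)} π^*` (functoriality of pull-back + base change formula,
  the latter from the norm formula, weak approximation and linear disjointness:
  `[F̄(Nℓ) : F̄(N)] = ℓ + 1` and `[F̄(dN) : F̄(N)] = d + 1` are coprime);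
* injectivity on `p`-power torsion: `ker π^*` is killed by `d + 1`, which is prime to `p`.
-/
import Mathlib
import Fermat.Agent.Lib.S37.LLevel
import Fermat.Agent.Lib.S37.XFinal

set_option autoImplicit false
set_option linter.style.haveILetI false
set_option linter.unusedSectionVars false

noncomputable section

namespace Fermat.Agent.Lib.S37

open ModularCurve AlgebraicCurve Fermat.Agent.Lib.FF Fermat.Agent.Lib.S18

local notation "Kb" => AlgebraicClosure ℚ
local notation "Γℚ" => (AlgebraicClosure ℚ ≃ₐ[ℚ] AlgebraicClosure ℚ)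

section Data

variable (N d ℓ : ℕ) [NeZero N] [NeZero (d * N)] [NeZero ℓ]

/-- The data of the level change `N → d N` relative to `T_ℓ`. -/
theorem s37l_levelData (hd : d.Prime) (hdN : ¬ d ∣ N) (hℓ : ℓ.Prime) (hℓN : ¬ ℓ ∣ N)
    (hℓM : ¬ ℓ ∣ d * N) (hcop : (ℓ + 1).Coprime (d + 1)) :
    ∃ (hπ : (s37l_incl N (d * N) (dvd_mul_left N d)).toRingHom.IsIntegral)
      (hFIπ : FundamentalIdentityAlong Kb (s37l_incl N (d * N) (dvd_mul_left N d)) hπ),
      (∀ (σ : Γℚ) (x : JZero N),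
        s37l_pic0Pullback _ hπ hFIπ (σ • x) = σ • s37l_pic0Pullback _ hπ hFIπ x) ∧
      (∀ x : JZero N,
        s37l_pic0Pullback _ hπ hFIπ (heckeOperatorAlong Kb N ℓ x) =
          heckeOperatorAlong Kb (d * N) ℓ (s37l_pic0Pullback _ hπ hFIπ x)) ∧
      (∀ x : JZero N, s37l_pic0Pullback _ hπ hFIπ x = 0 → (d + 1) • x = 0) := by
  haveI : NeZero (N * ℓ) := ⟨mul_ne_zero (NeZero.ne N) (NeZero.ne ℓ)⟩
  haveI : NeZero (d * N * ℓ) := ⟨mul_ne_zero (NeZero.ne (d * N)) (NeZero.ne ℓ)⟩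
  -- the six maps
  set α := heckeAlphaBar Kb N ℓ with hαdef
  set β := heckeBetaBar Kb N ℓ with hβdef
  set α' := heckeAlphaBar Kb (d * N) ℓ with hα'def
  set β' := heckeBetaBar Kb (d * N) ℓ with hβ'def
  set π := s37l_incl N (d * N) (dvd_mul_left N d) with hπdef
  set π' := s37l_incl (N * ℓ) (d * N * ℓ) (s37l_dvd_level N d ℓ) with hπ'def
  have hsqα : α'.comp π = π'.comp α := s37l_sq_alpha N d ℓ
  have hsqβ : β'.comp π = π'.comp β := s37l_sq_beta N d ℓ
  -- finiteness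
  have hfinα : FiniteAlong Kb α := s37w_finite_alpha N ℓ hℓ hℓN
  have hfinβ : FiniteAlong Kb β := s37w_finite_beta N ℓ hℓ hℓN
  have hfinα' : FiniteAlong Kb α' := s37w_finite_alpha (d * N) ℓ hℓ hℓM
  have hfinβ' : FiniteAlong Kb β' := s37w_finite_beta (d * N) ℓ hℓ hℓM
  have hfinπ : FiniteAlong Kb π := s37l_finite_incl N d hd hdN
  -- integrality
  have hα : α.toRingHom.IsIntegral := s37l_isIntegral_of_finite α hfinα
  have hβ : β.toRingHom.IsIntegral := s37l_isIntegral_of_finite β hfinβ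
  have hα' : α'.toRingHom.IsIntegral := s37l_isIntegral_of_finite α' hfinα'
  have hβ' : β'.toRingHom.IsIntegral := s37l_isIntegral_of_finite β' hfinβ'
  have hπ : π.toRingHom.IsIntegral := s37l_isIntegral_of_finite π hfinπ
  have hπ' : π'.toRingHom.IsIntegral := by
    have h1 : (α'.comp π).toRingHom.IsIntegral := s37l_isIntegral_comp π α' hπ hα'
    rw [hsqα] at h1
    exact RingHom.IsIntegral.tower_top α.toRingHom π'.toRingHom h1
  -- [H]
  have hFIβ : FundamentalIdentityAlong Kb β hβ := s37l_fundamentalIdentityAlong β hβ hfinβ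
  have hFIβ' : FundamentalIdentityAlong Kb β' hβ' := s37l_fundamentalIdentityAlong β' hβ' hfinβ'
  have hFIπ : FundamentalIdentityAlong Kb π hπ := s37l_fundamentalIdentityAlong π hπ hfinπ
  have hNα : NormFormulaAlong Kb α hfinα := s37l_normFormulaAlong α hfinα
  have hNα' : NormFormulaAlong Kb α' hfinα' := s37l_normFormulaAlong α' hfinα'
  have hNπ : NormFormulaAlong Kb π hfinπ := s37l_normFormulaAlong π hfinπ
  -- degrees
  have hdegα : finrankAlong Kb α = ℓ + 1 := s37w_finrank_alpha N ℓ hℓ hℓN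
  have hdegα' : finrankAlong Kb α' = ℓ + 1 := s37w_finrank_alpha (d * N) ℓ hℓ hℓM
  have hdegπ : finrankAlong Kb π = d + 1 := s37l_finrank_incl N d hd hdN
  -- norm compatibility and weak approximation
  have hnorm : ∀ f : ffi_F (N * ℓ),
      (letI := algebraAlong α'; Algebra.norm (ffi_F (d * N)) (π' f)) =
        π (letI := algebraAlong α; Algebra.norm (ffi_F N) f) :=
    s37l_norm_baseChangeAlong α π α' π' hsqα hfinα hfinπ (by rw [hdegα, hdegπ]; exact hcop)
      (by rw [hdegα', hdegα])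
  have hwa := s37l_weakApproxAlong α hα hfinα
  refine ⟨hπ, hFIπ, ?_, ?_, ?_⟩
  · -- Galois equivariance
    intro σ x
    rw [galois_smul_pic0_def, galois_smul_pic0_def]
    exact s37l_pic0Pullback_smul π hπ hFIπ _ _ (s37l_incl_intertwines N (d * N) _ σ) x
  · -- Hecke equivariance
    intro x
    rw [heckeOperatorAlong_eq hα hβ hFIβ hfinα hNα, heckeOperatorAlong_eq hα' hβ' hFIβ' hfinα' hNα']
    exact s37l_pic0_correspondence_pullback α β π α' β' π' hsqα hsqβ hα hβ hπ hα' hβ' hπ'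
      hFIβ hFIβ' hFIπ hfinα hNα hfinα' hNα' hnorm hwa x
  · -- kernel
    intro x hx
    refine s37l_pic0Pullback_eq_zero π hπ hFIπ hfinπ hNπ (d + 1) (fun v => ?_) x hx
    rw [s37l_sum_e_f π hπ hfinπ v, hdegπ]

end Data

/-- **[R23]**: the level transfer of the reduction contract. -/
theorem s37l_transfer : s37x_Transfer := by
  intro N d p _ _ ℓ hℓ hcase hdN hℓN hℓp A hA σ₀ hσ₀ hM
  obtain ⟨X, instX, redM, h_in, h_es, h_inj⟩ := hM
  haveI : NeZero ℓ := ⟨hℓ.ne_zero⟩
  have hd : d.Prime := by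
    rcases hcase with ⟨-, rfl⟩ | ⟨-, rfl⟩
    · exact Nat.prime_three
    · exact Nat.prime_two
  have hℓd : ¬ ℓ ∣ d := by
    rcases hcase with ⟨rfl, rfl⟩ | ⟨rfl, rfl⟩ <;> norm_num
  have hℓM : ¬ ℓ ∣ d * N := by
    intro h
    rcases (Nat.Prime.dvd_mul hℓ).mp h with h | h
    · exact hℓd h
    · exact hℓN h
  have hcop : (ℓ + 1).Coprime (d + 1) := by
    rcases hcase with ⟨rfl, rfl⟩ | ⟨rfl, rfl⟩ <;> norm_num
  have hcopp : (d + 1).Coprime p := by
    rcases hcase with ⟨rfl, rfl⟩ | ⟨rfl, rfl⟩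
    · -- d + 1 = 4, p odd
      have h2 : Nat.Coprime 2 p := (Nat.Prime.coprime_iff_not_dvd Nat.prime_two).mpr hℓp
      exact Nat.Coprime.pow_left 2 h2
    · -- d + 1 = 3
      exact (Nat.Prime.coprime_iff_not_dvd Nat.prime_three).mpr hℓp
  obtain ⟨hπ, hFIπ, hgal, hhecke, hker⟩ := s37l_levelData N d ℓ hd hdN hℓ hℓN hℓM hcop
  set P := s37l_pic0Pullback (s37l_incl N (d * N) (dvd_mul_left N d)) hπ hFIπ with hP
  refine ⟨X, instX, redM.comp P, ?_, ?_, ?_⟩
  · intro τ hτ y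
    rw [AddMonoidHom.comp_apply, AddMonoidHom.comp_apply, hgal τ y]
    exact h_in τ hτ (P y)
  · intro y
    have hT : P (heckeOperatorBar N ⟨ℓ, hℓ⟩ (σ₀ • y)) =
        heckeOperatorBar (d * N) ⟨ℓ, hℓ⟩ (σ₀ • P y) := by
      rw [heckeOperatorBar_apply, heckeOperatorBar_apply, ← hgal σ₀ y]
      exact hhecke (σ₀ • y)
    rw [AddMonoidHom.comp_apply, map_add, map_sub, map_nsmul, hgal, hgal, hT]
    exact h_es (P y)
  · rintro x ⟨n, hn⟩ hx
    rw [AddMonoidHom.comp_apply] at hx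
    have h1 : P x = 0 := by
      refine h_inj (P x) ⟨n, ?_⟩ hx
      rw [← map_nsmul, hn, map_zero]
    have h2 : (d + 1) • x = 0 := hker x h1
    have h3 : addOrderOf x ∣ d + 1 := addOrderOf_dvd_of_nsmul_eq_zero h2
    have h4 : addOrderOf x ∣ p ^ n := addOrderOf_dvd_of_nsmul_eq_zero hn
    have h5 : addOrderOf x ∣ 1 := by
      have := Nat.dvd_gcd h3 h4
      rwa [Nat.Coprime.pow_right n hcopp] at this
    exact AddMonoid.addOrderOf_eq_one_iff.mp (Nat.dvd_one.mp h5)

end Fermat.Agent.Lib.S37
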