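/-
S37, package [H], part 4: UNFOLDING of the Prelude's Hecke operator `T_ℓ` on `J₀(N)(Q̄)` for a prime
`ℓ ∤ N`:  `heckeOperatorBar N ⟨ℓ, hℓ⟩ = α_* β^*` on divisor classes, and on principal divisors
`α_* β^* (div y) = div (Nm_α (β y))`.
All names prefixed `s37h_`, namespace `Fermat.Agent.Lib.S37`.
-/
import Fermat.Agent.Lib.S37.HInputs

set_option autoImplicit false
set_option linter.style.haveILetI false
set_option linter.unusedSectionVars false

noncomputable section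

open IsDedekindDomain AlgebraicCurve ModularCurve
open Fermat.Agent.Lib.FF Fermat.Agent.Lib.S18

namespace Fermat.Agent.Lib.S37

local notation "Kb" => AlgebraicClosure ℚ

variable (N ℓ : ℕ) [NeZero N] [NeZero ℓ] (hℓ : ℓ.Prime) (hℓN : ¬ ℓ ∣ N)

include hℓ hℓN

theorem s37h_alphaIntegral : HeckeAlphaBarIntegral Kb N ℓ :=
  s37h_isIntegral_of_finiteAlong _ (s37w_finite_alpha N ℓ hℓ hℓN)

theorem s37h_betaIntegral : HeckeBetaBarIntegral Kb N ℓ :=
  s37h_isIntegral_of_finiteAlong _ (s37w_finite_beta N ℓ hℓ hℓN)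

theorem s37h_fundId_beta :
    FundamentalIdentityAlong Kb (heckeBetaBar Kb N ℓ) (s37h_betaIntegral N ℓ hℓ hℓN) :=
  s37h_fundamentalIdentityAlong _ (s37w_finite_beta N ℓ hℓ hℓN) _

theorem s37h_fundId_alpha :
    FundamentalIdentityAlong Kb (heckeAlphaBar Kb N ℓ) (s37h_alphaIntegral N ℓ hℓ hℓN) :=
  s37h_fundamentalIdentityAlong _ (s37w_finite_alpha N ℓ hℓ hℓN) _

theorem s37h_normFormula_alpha :
    NormFormulaAlong Kb (heckeAlphaBar Kb N ℓ) (s37w_finite_alpha N ℓ hℓ hℓN) :=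
  s37h_normFormulaAlong _ _

theorem s37h_normFormula_beta :
    NormFormulaAlong Kb (heckeBetaBar Kb N ℓ) (s37w_finite_beta N ℓ hℓ hℓN) :=
  s37h_normFormulaAlong _ _

/-- `T_ℓ` (Prelude) is the honest correspondence `α_* β^*` on `Pic⁰`. -/
theorem s37h_heckeOperatorAlong_eq :
    heckeOperatorAlong Kb N ℓ =
      heckePic0Bar (s37h_alphaIntegral N ℓ hℓ hℓN) (s37h_betaIntegral N ℓ hℓ hℓN)
        (s37h_fundId_beta N ℓ hℓ hℓN) (s37w_finite_alpha N ℓ hℓ hℓN)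
        (s37h_normFormula_alpha N ℓ hℓ hℓN) :=
  heckeOperatorAlong_eq _ _ _ _ _

/-- `T_ℓ` on the class of a degree-zero divisor. -/
theorem s37h_heckeOperatorBar_mk (D : Divisor.degZero (K := Kb) (F := ffi_F N)) :
    heckeOperatorBar N ⟨ℓ, hℓ⟩ (Pic0.mk D) =
      Pic0.mk (Pic0.degZeroCorrespondence (heckeBetaBar Kb N ℓ) (heckeAlphaBar Kb N ℓ)
        (s37h_betaIntegral N ℓ hℓ hℓN) (s37h_alphaIntegral N ℓ hℓ hℓN)
        (s37h_fundId_beta N ℓ hℓ hℓN) D) := by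
  show heckeOperatorAlong Kb N ℓ (Pic0.mk D) = _
  rw [s37h_heckeOperatorAlong_eq N ℓ hℓ hℓN]
  rfl

/-- the divisor-level correspondence `α_* β^*`  -/
theorem s37h_coe_degZeroCorrespondence (D : Divisor.degZero (K := Kb) (F := ffi_F N)) :
    (Pic0.degZeroCorrespondence (heckeBetaBar Kb N ℓ) (heckeAlphaBar Kb N ℓ)
        (s37h_betaIntegral N ℓ hℓ hℓN) (s37h_alphaIntegral N ℓ hℓ hℓN)
        (s37h_fundId_beta N ℓ hℓ hℓN) D : Divisor Kb (ffi_F N)) =
      heckeDivBar (s37h_alphaIntegral N ℓ hℓ hℓN) (s37h_betaIntegral N ℓ hℓ hℓN)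
        (D : Divisor Kb (ffi_F N)) :=
  rfl

/-- `α_* β^* (div y) = div (Nm_α (β y))`: the Hecke correspondence on a principal divisor. -/
theorem s37h_heckeDivBar_principal {y : ffi_F N} (hy : y ≠ 0) {D : Divisor Kb (ffi_F N)}
    (hD : ∀ v : Place Kb (ffi_F N), D v = v.ord y) (v : Place Kb (ffi_F N)) :
    heckeDivBar (s37h_alphaIntegral N ℓ hℓ hℓN) (s37h_betaIntegral N ℓ hℓ hℓN) D v =
      v.ord (letI := algebraAlong (heckeAlphaBar Kb N ℓ)
        Algebra.norm (ffi_F N) (heckeBetaBar Kb N ℓ y)) := by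
  have hβy : heckeBetaBar Kb N ℓ y ≠ 0 := by
    intro h0
    apply hy
    apply (heckeBetaBar Kb N ℓ).toRingHom.injective
    rw [map_zero]
    exact h0
  -- pull back along `β`
  have hpull : ∀ w : Place Kb (ffi_F (N * ℓ)),
      Divisor.pullbackAlong (heckeBetaBar Kb N ℓ) (s37h_betaIntegral N ℓ hℓ hℓN) D w =
        w.ord (heckeBetaBar Kb N ℓ y) := by
    intro w
    letI := algebraAlong (heckeBetaBar Kb N ℓ)
    haveI := isScalarTower_along (heckeBetaBar Kb N ℓ)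
    haveI := isIntegral_along (heckeBetaBar Kb N ℓ) (s37h_betaIntegral N ℓ hℓ hℓN)
    exact Divisor.pullback_apply_eq_ord hD w
  -- push forward along `α`
  show Divisor.pushforwardAlong (heckeAlphaBar Kb N ℓ) (s37h_alphaIntegral N ℓ hℓ hℓN)
    (Divisor.pullbackAlong (heckeBetaBar Kb N ℓ) (s37h_betaIntegral N ℓ hℓ hℓN) D) v = _
  letI := algebraAlong (heckeAlphaBar Kb N ℓ)
  haveI := isScalarTower_along (heckeAlphaBar Kb N ℓ)
  haveI := isIntegral_along (heckeAlphaBar Kb N ℓ) (s37h_alphaIntegral N ℓ hℓ hℓN)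
  haveI : Module.Finite (ffi_F N) (ffi_F (N * ℓ)) := s37w_finite_alpha N ℓ hℓ hℓN
  exact s37h_normFormula_alpha N ℓ hℓ hℓN (heckeBetaBar Kb N ℓ y) hβy _ hpull v

end Fermat.Agent.Lib.S37
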