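/-
S37, package [R23] (helper8): weak approximation in the fibre of a place, from helper7's local
dictionary (`S` = integral closure of `O_v` in `F'` is a semilocal PID).
-/
import Mathlib
import Fermat.Prelude.Def_AlgebraicCurve_Correspondence
import Fermat.Agent.Lib.S37.HLocal
import Fermat.Agent.Lib.S37.HNorm

set_option autoImplicit false
set_option linter.style.haveILetI false
set_option linter.unusedSectionVars false

noncomputable section

open IsDedekindDomain WithZero IsLocalRing AlgebraicCurve

namespace Fermat.Agent.Lib.S37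

section Approx

variable {K F F' : Type*} [Field K] [Field F] [Field F'] [Algebra K F] [Algebra K F']
  [Algebra F F'] [IsScalarTower K F F'] [FiniteDimensional F F'] [CharZero F]

attribute [local instance 10] s37h_algRF' s37h_algKS

/-- **Weak approximation in a fibre**: a function with a simple zero at `u` and neither zero nor
pole at the other places with the same restriction. -/
theorem s37l_weakApprox (u : Place K F') :
    ∃ f : F', f ≠ 0 ∧ u.ord f = 1 ∧
      ∀ u₂ : Place K F', u₂ ≠ u → u₂.restrict F = u.restrict F → u₂.ord f = 0 := by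
  set v : Place K F := u.restrict F with hv
  have hu : u.restrict F = v := rfl
  set P : HeightOneSpectrum (s37h_S (F' := F') v) := s37h_primeOf hu with hP
  obtain ⟨ϖ, hϖ⟩ := (IsPrincipalIdealRing.principal P.asIdeal).principal
  have hϖ' : P.asIdeal = Ideal.span {ϖ} := hϖ
  have hϖ0 : ϖ ≠ 0 := by
    rintro rfl
    apply P.ne_bot
    rw [hϖ', Ideal.span_singleton_eq_bot]
  refine ⟨(ϖ : F'), ?_, ?_, ?_⟩
  · intro h0
    exact hϖ0 (Subtype.ext h0)
  · have h1 := s37h_ord_placeOf_coe v P ϖ
    rw [hP, s37h_placeOf_primeOf hu, ← hP, P.intValuation_singleton hϖ0 hϖ'] at h1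
    rw [h1, log_exp]
    norm_num
  · intro u₂ hne hu₂
    have hu₂' : u₂.restrict F = v := hu₂
    set Q : HeightOneSpectrum (s37h_S (F' := F') v) := s37h_primeOf hu₂' with hQ
    have hQP : Q ≠ P := by
      intro hQP
      apply hne
      rw [← s37h_placeOf_primeOf hu₂', ← s37h_placeOf_primeOf hu, ← hQ, ← hP, hQP]
    have hnot : ϖ ∉ Q.asIdeal := by
      intro hmem
      apply hQP
      have hle : P.asIdeal ≤ Q.asIdeal := by
        rw [hϖ', Ideal.span_singleton_le_iff_mem]
        exact hmem
      exact HeightOneSpectrum.ext ((P.isMaximal.eq_of_le Q.isPrime.ne_top hle).symm)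
    have h1 := s37h_ord_placeOf_coe v Q ϖ
    rw [hQ, s37h_placeOf_primeOf hu₂', ← hQ,
      (Q.intValuation_eq_one_iff).mpr hnot] at h1
    rw [h1, log_one, neg_zero]

end Approx

section Along

variable {K F F' : Type*} [Field K] [Field F] [Field F'] [Algebra K F] [Algebra K F']

/-- Weak approximation in a fibre, for an algebra homomorphism. -/
theorem s37l_weakApproxAlong [CharZero F] (φ : F →ₐ[K] F') (hφ : φ.toRingHom.IsIntegral)
    (hfin : FiniteAlong K φ) (u : Place K F') :
    ∃ f : F', f ≠ 0 ∧ u.ord f = 1 ∧
      ∀ u₂ : Place K F', u₂ ≠ u → u₂.restrictAlong φ hφ = u.restrictAlong φ hφ →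
        u₂.ord f = 0 := by
  letI := algebraAlong φ
  haveI := isScalarTower_along φ
  haveI : FiniteDimensional F F' := hfin
  exact s37l_weakApprox (K := K) (F := F) u

end Along

end Fermat.Agent.Lib.S37
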