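/-
S37 moonshot (M-B), package [C0]: the commutative-algebra core of CONSERVATION OF NUMBER.

`R` a noetherian domain, `π` a prime element in the Jacobson radical, `R ⧸ (π)` a principal ideal
ring (in the application: `R` = a chart ring of the arithmetic surface localised at a closed point
of the special fibre, `R ⧸ (π)` = the discrete valuation ring of the special fibre at that point).

* `s37c_exists_prime_dvd`     : a non-unit `y` with `π ∤ y` is divisible by a prime element `a`,
                                `π ∤ a` (a horizontal prime through the point);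
* `s37c_exists_factorization` : every `y` with `π ∤ y` is a unit times a product of such primes;
* `s37c_ufd`                  : `R` is a unique factorisation domain;
* `s37c_span_eq_maximalIdeal` : uniformiser criterion: if `R ⧸ (a, π)` is a field then the image of
                                `a` generates a maximal ideal of `R ⧸ (π)`.
No length theory, no henselisation, no Krull principal ideal theorem.
-/
import Mathlib
import Fermat.Agent.Lib.S18.IPrincipal

set_option autoImplicit false

namespace Fermat.Agent.Lib.S37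

open Fermat.Agent.Lib.S18

variable {R : Type*} [CommRing R] [IsDomain R] [IsNoetherianRing R]

/-- A non-unit prime to `π` lies in a prime ideal avoiding `π`. -/
theorem s37c_exists_prime_ideal (π : R) (hπ : Prime π) (y : R) (hy : ¬ π ∣ y)
    (hyu : ¬ IsUnit y) : ∃ 𝔮 : Ideal R, 𝔮.IsPrime ∧ y ∈ 𝔮 ∧ π ∉ 𝔮 := by
  have hdisj : Disjoint ((Ideal.span {y} : Ideal R) : Set R) (Submonoid.powers π : Set R) := by
    rw [Set.disjoint_left]
    rintro x hx ⟨n, rfl⟩
    rw [SetLike.mem_coe, Ideal.mem_span_singleton] at hx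
    -- y ∣ π ^ n with π ∤ y forces y to be a unit
    obtain ⟨z, hz⟩ := hx
    have key : ∀ (n : ℕ) (z : R), π ^ n = y * z → IsUnit y := by
      intro n
      induction n with
      | zero =>
        intro z hz
        rw [pow_zero] at hz
        exact IsUnit.of_mul_eq_one z hz.symm
      | succ n ih =>
        intro z hz
        have hdvd : π ∣ y * z := ⟨π ^ n, by rw [← hz, pow_succ, mul_comm]⟩
        rcases hπ.dvd_or_dvd hdvd with h | h
        · exact absurd h hy
        · obtain ⟨z', rfl⟩ := h
          apply ih z'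
          have : π * π ^ n = π * (y * z') := by rw [← pow_succ', hz]; ring
          exact mul_left_cancel₀ hπ.ne_zero this
    exact hyu (key n z hz)
  obtain ⟨𝔮, h𝔮, hle, hd⟩ := Ideal.exists_le_prime_disjoint (Ideal.span {y}) (Submonoid.powers π) hdisj
  refine ⟨𝔮, h𝔮, hle (Ideal.mem_span_singleton_self y), fun hmem => ?_⟩
  exact (Set.disjoint_left.mp hd) hmem ⟨1, pow_one π⟩

/-- A non-unit prime to `π` is divisible by a prime element prime to `π`. -/
theorem s37c_exists_prime_dvd (π : R) (hπJ : π ∈ (⊥ : Ideal R).jacobson) (hπ : Prime π)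
    [IsPrincipalIdealRing (R ⧸ Ideal.span {π})] (y : R) (hy : ¬ π ∣ y) (hyu : ¬ IsUnit y) :
    ∃ a : R, Prime a ∧ ¬ π ∣ a ∧ a ∣ y := by
  obtain ⟨𝔮, h𝔮, hy𝔮, hπ𝔮⟩ := s37c_exists_prime_ideal π hπ y hy hyu
  haveI := h𝔮
  obtain ⟨⟨a, ha⟩⟩ := s18i_prime_isPrincipal π hπJ 𝔮 hπ𝔮
  have ha' : 𝔮 = Ideal.span {a} := ha
  have hy0 : y ≠ 0 := fun h => hy (h ▸ dvd_zero π)
  have ha0 : a ≠ 0 := by
    rintro rfl
    rw [ha'] at hy𝔮
    exact hy0 (by simpa using hy𝔮)
  have hap : Prime a := by
    rw [← Ideal.span_singleton_prime ha0, ← ha']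
    exact h𝔮
  refine ⟨a, hap, fun h => ?_, ?_⟩
  · -- π ∣ a would put ... no: a ∣ ? ; if π ∣ a then a ∈ (π) but we need π ∉ 𝔮: use primality of a
    obtain ⟨c, rfl⟩ := h
    -- a = π * c prime, so a ∣ π or a ∣ c
    rcases hap.dvd_or_dvd (dvd_refl (π * c)) with h1 | h1
    · exact hπ𝔮 (by rw [ha']; exact Ideal.mem_span_singleton.mpr h1)
    · -- π * c ∣ c forces π unit
      obtain ⟨d, hd⟩ := h1
      have hc0 : c ≠ 0 := fun h => ha0 (by rw [h, mul_zero])
      have : c * 1 = c * (π * d) := by
        rw [mul_one]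
        calc c = π * c * d := hd
          _ = c * (π * d) := by ring
      have h1 : 1 = π * d := mul_left_cancel₀ hc0 this
      exact hπ.not_isUnit (IsUnit.of_mul_eq_one d h1.symm)
  · rw [ha'] at hy𝔮
    exact Ideal.mem_span_singleton.mp hy𝔮

/-- **[C0a]** Every element prime to `π` is a unit times a product of prime elements prime
to `π`. -/
theorem s37c_exists_factorization (π : R) (hπJ : π ∈ (⊥ : Ideal R).jacobson) (hπ : Prime π)
    [IsPrincipalIdealRing (R ⧸ Ideal.span {π})] (y : R) (hy : ¬ π ∣ y) :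
    ∃ (u : Rˣ) (s : Multiset R), (∀ a ∈ s, Prime a ∧ ¬ π ∣ a) ∧ y = u * s.prod := by
  induction y using WfDvdMonoid.induction_on_irreducible with
  | zero => exact absurd (dvd_zero π) hy
  | unit u hu => exact ⟨hu.unit, 0, by simp, by simp⟩
  | mul a i ha0 hi ih =>
    -- y = i * a with i irreducible
    have hia : ¬ π ∣ a := fun h => hy (dvd_mul_of_dvd_right h i)
    have hii : ¬ π ∣ i := fun h => hy (dvd_mul_of_dvd_left h a)
    obtain ⟨u, s, hs, rfl⟩ := ih hia
    -- i is divisible by a prime b prime to π, hence associated to it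
    obtain ⟨b, hb, hπb, hbi⟩ := s37c_exists_prime_dvd π hπJ hπ i hii hi.not_isUnit
    obtain ⟨c, rfl⟩ := hbi
    have hcu : IsUnit c := (hi.isUnit_or_isUnit rfl).resolve_left hb.not_isUnit
    refine ⟨hcu.unit * u, b ::ₘ s, ?_, ?_⟩
    · intro x hx
      rcases Multiset.mem_cons.mp hx with rfl | hx
      · exact ⟨hb, hπb⟩
      · exact hs x hx
    · rw [Multiset.prod_cons, Units.val_mul, IsUnit.unit_spec]
      ring

/-- **[C0b]** `R` is a unique factorisation domain. -/
theorem s37c_ufd (π : R) (hπJ : π ∈ (⊥ : Ideal R).jacobson) (hπ : Prime π)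
    [IsPrincipalIdealRing (R ⧸ Ideal.span {π})] : UniqueFactorizationMonoid R := by
  refine UniqueFactorizationMonoid.of_exists_prime_factors fun a ha => ?_
  obtain ⟨n, y, hy, rfl⟩ := WfDvdMonoid.max_power_factor ha hπ.irreducible
  obtain ⟨u, s, hs, rfl⟩ := s37c_exists_factorization π hπJ hπ y hy
  refine ⟨Multiset.replicate n π + s, ?_, ?_⟩
  · intro b hb
    rcases Multiset.mem_add.mp hb with hb | hb
    · rw [Multiset.eq_of_mem_replicate hb]; exact hπ
    · exact (hs b hb).1
  · rw [Multiset.prod_add, Multiset.prod_replicate]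
    refine ⟨u, ?_⟩
    ring

omit [IsDomain R] [IsNoetherianRing R] in
/-- **[C0c]** uniformiser criterion: if `(a, π)` is a maximal ideal of `R`, the image of `a`
generates a maximal ideal of `R ⧸ (π)`. -/
theorem s37c_span_mk_isMaximal (π a : R) (hmax : (Ideal.span {a, π} : Ideal R).IsMaximal) :
    (Ideal.span {Ideal.Quotient.mk (Ideal.span {π}) a} : Ideal (R ⧸ Ideal.span {π})).IsMaximal := by
  have hsurj : Function.Surjective (Ideal.Quotient.mk (Ideal.span {π} : Ideal R)) :=
    Ideal.Quotient.mk_surjective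
  have hker : RingHom.ker (Ideal.Quotient.mk (Ideal.span {π} : Ideal R)) ≤ Ideal.span {a, π} := by
    rw [Ideal.mk_ker, Ideal.span_singleton_le_iff_mem]
    exact Ideal.subset_span (by simp)
  have hmap : (Ideal.span {a, π} : Ideal R).map (Ideal.Quotient.mk (Ideal.span {π})) =
      Ideal.span {Ideal.Quotient.mk (Ideal.span {π}) a} := by
    rw [Ideal.map_span, Set.image_pair]
    have h0 : Ideal.Quotient.mk (Ideal.span {π} : Ideal R) π = 0 :=
      Ideal.Quotient.eq_zero_iff_mem.mpr (Ideal.mem_span_singleton_self π)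
    rw [h0]
    apply le_antisymm
    · rw [Ideal.span_le]
      rintro x (rfl | rfl)
      · exact Ideal.mem_span_singleton_self _
      · exact Ideal.zero_mem _
    · exact Ideal.span_mono (by simp)
  rw [← hmap]
  exact Ideal.map_eq_top_or_isMaximal_of_surjective _ hsurj hmax |>.resolve_left (by
    intro htop
    have := Ideal.comap_map_of_surjective _ hsurj (Ideal.span {a, π} : Ideal R)
    rw [htop, Ideal.comap_top] at this
    have hle : Ideal.comap (Ideal.Quotient.mk (Ideal.span {π} : Ideal R)) ⊥ ≤ Ideal.span {a, π} := by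
      rw [← RingHom.ker_eq_comap_bot]; exact hker
    have : (⊤ : Ideal R) = Ideal.span {a, π} := by
      rw [this]; exact sup_eq_left.mpr hle
    exact hmax.ne_top this.symm)

omit [IsDomain R] [IsNoetherianRing R] in
/-- In the DVR case the image of `a` is a uniformiser: additive valuation `1`. -/
theorem s37c_addVal_mk_eq_one (π a : R) [IsDomain (R ⧸ Ideal.span {π})]
    [IsDiscreteValuationRing (R ⧸ Ideal.span {π})]
    (hmax : (Ideal.span {a, π} : Ideal R).IsMaximal) :
    IsDiscreteValuationRing.addVal (R ⧸ Ideal.span {π}) (Ideal.Quotient.mk (Ideal.span {π}) a) = 1 := by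
  have h := s37c_span_mk_isMaximal π a hmax
  have hm : IsLocalRing.maximalIdeal (R ⧸ Ideal.span {π}) =
      Ideal.span {Ideal.Quotient.mk (Ideal.span {π}) a} :=
    (IsLocalRing.eq_maximalIdeal h).symm
  have hirr : Irreducible (Ideal.Quotient.mk (Ideal.span {π}) a) :=
    (IsDiscreteValuationRing.irreducible_iff_uniformizer _).mpr hm
  exact IsDiscreteValuationRing.addVal_uniformizer hirr

omit [IsDomain R] [IsNoetherianRing R] in
/-- **Conservation of number, abstract form**: the valuation of the reduction of a product. -/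
theorem s37c_addVal_mk_factorization (π : R) [IsDomain (R ⧸ Ideal.span {π})]
    [IsDiscreteValuationRing (R ⧸ Ideal.span {π})] (u : Rˣ) (s : Multiset R) :
    IsDiscreteValuationRing.addVal (R ⧸ Ideal.span {π})
        (Ideal.Quotient.mk (Ideal.span {π}) ((u : R) * s.prod)) =
      (s.map fun a => IsDiscreteValuationRing.addVal (R ⧸ Ideal.span {π})
        (Ideal.Quotient.mk (Ideal.span {π}) a)).sum := by
  have hu : IsUnit (Ideal.Quotient.mk (Ideal.span {π}) (u : R)) := u.isUnit.map _
  have hu0 : IsDiscreteValuationRing.addVal (R ⧸ Ideal.span {π})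
      (Ideal.Quotient.mk (Ideal.span {π}) (u : R)) = 0 :=
    IsDiscreteValuationRing.addVal_eq_zero_iff.mpr hu
  rw [map_mul, IsDiscreteValuationRing.addVal_mul, hu0, zero_add]
  induction s using Multiset.induction_on with
  | empty => simp
  | cons a s ih =>
    rw [Multiset.prod_cons, map_mul, IsDiscreteValuationRing.addVal_mul, ih, Multiset.map_cons,
      Multiset.sum_cons]

omit [IsDomain R] [IsNoetherianRing R] in
/-- **[C0d]** a horizontal prime `(a)` which is a RATIONAL point (`A₀ ↠ R ⧸ (a)`, `A₀` with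
`A₀ ⧸ (ϖ)` a field, `ϖ ↦ π`) meets the special fibre in a maximal ideal `(a, π)`. -/
theorem s37c_isMaximal_of_surjective {A₀ : Type*} [CommRing A₀] [Algebra A₀ R] (ϖ : A₀)
    (hϖmax : (Ideal.span {ϖ} : Ideal A₀).IsMaximal) (π : R) (hϖπ : algebraMap A₀ R ϖ = π)
    (hπJ : π ∈ (⊥ : Ideal R).jacobson) (a : R) (ha : ¬ IsUnit a)
    (hsurj : ∀ x : R, ∃ c : A₀, x - algebraMap A₀ R c ∈ Ideal.span {a}) :
    (Ideal.span {a, π} : Ideal R).IsMaximal := by
  have haI : a ∈ (Ideal.span {a, π} : Ideal R) := Ideal.subset_span (by simp)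
  have hπI : π ∈ (Ideal.span {a, π} : Ideal R) := Ideal.subset_span (by simp)
  have hle : (Ideal.span {a} : Ideal R) ≤ Ideal.span {a, π} := Ideal.span_mono (by simp)
  rw [Ideal.isMaximal_iff]
  refine ⟨fun h1 => ?_, fun J x hIJ hxI hxJ => ?_⟩
  · -- 1 = r a + s π ⇒ r a = 1 - s π is a unit
    obtain ⟨r, s', h⟩ := Ideal.mem_span_pair.mp h1
    have hu : IsUnit (r * a) := by
      have e : r * a = π * (-s') + 1 := by
        have : r * a = 1 - s' * π := by rw [← h]; ring
        rw [this]; ring
      rw [e]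
      exact Ideal.mem_jacobson_bot.mp hπJ (-s')
    exact ha (isUnit_of_mul_isUnit_right hu)
  · obtain ⟨c, hc⟩ := hsurj x
    have hcϖ : c ∉ (Ideal.span {ϖ} : Ideal A₀) := by
      intro hcm
      obtain ⟨d, rfl⟩ := Ideal.mem_span_singleton'.mp hcm
      apply hxI
      have h2 : algebraMap A₀ R (d * ϖ) ∈ (Ideal.span {a, π} : Ideal R) := by
        rw [map_mul, hϖπ]; exact Ideal.mul_mem_left _ _ hπI
      have := Ideal.add_mem _ (hle hc) h2
      rwa [sub_add_cancel] at this
    -- c is invertible mod ϖ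
    obtain ⟨d, e, he⟩ : ∃ d e : A₀, c * d + e * ϖ = 1 := by
      obtain ⟨d, i, hi, hdi⟩ := hϖmax.exists_inv hcϖ
      obtain ⟨e, rfl⟩ := Ideal.mem_span_singleton'.mp hi
      exact ⟨d, e, by rw [← hdi]; ring⟩
    have h1 : (1 : R) = (algebraMap A₀ R c) * algebraMap A₀ R d + algebraMap A₀ R e * π := by
      rw [← hϖπ, ← map_mul, ← map_mul, ← map_add, he, map_one]
    have hcJ : algebraMap A₀ R c ∈ J := by
      have := J.sub_mem hxJ (hIJ (hle hc))
      rwa [sub_sub_cancel] at this
    rw [h1]
    exact J.add_mem (J.mul_mem_right _ hcJ) (J.mul_mem_left _ (hIJ hπI))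

end Fermat.Agent.Lib.S37
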