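/-
S37, package [H], part 5 (for [R23]): WEAK APPROXIMATION IN A FIBRE.  For a finite extension
`F'/F` of function fields (characteristic zero) and a place `u` of `F'` there is `f ∈ F'` with
`ord_u f = 1` and `ord_{u₂} f = 0` at every other place `u₂` of `F'` over the same place of `F`:
the integral closure `S` of `O_v` in `F'` is a principal ideal domain (`HNorm`), take a generator
of the prime of `S` cut out by `u`.  Also the `Along` form for the modular function fields, which
is verbatim the hypothesis `hwa` of `s37l_baseChange`.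
All names prefixed `s37h_`, namespace `Fermat.Agent.Lib.S37`.
-/
import Fermat.Agent.Lib.S37.HInputs

set_option autoImplicit false
set_option linter.style.haveILetI false
set_option linter.unusedSectionVars false
set_option linter.deprecated false

noncomputable section

open IsDedekindDomain WithZero IsLocalRing AlgebraicCurve ModularCurve
open Fermat.Agent.Lib.FF Fermat.Agent.Lib.S18

namespace Fermat.Agent.Lib.S37

section Approx

variable {K F F' : Type*} [Field K] [Field F] [Field F'] [Algebra K F] [Algebra K F']
  [Algebra F F'] [IsScalarTower K F F'] [FiniteDimensional F F'] [CharZero F]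

attribute [local instance 10] s37h_algRF' s37h_algKS

/-- **Weak approximation in a fibre**: a function with a simple zero at `u` and neither zero nor
pole at the other places over `u.restrict F`. -/
theorem s37h_weakApprox (u : Place K F') :
    ∃ f : F', f ≠ 0 ∧ u.ord f = 1 ∧
      ∀ u₂ : Place K F', u₂ ≠ u → u₂.restrict F = u.restrict F → u₂.ord f = 0 := by
  classical
  obtain ⟨v, hv⟩ : ∃ v : Place K F, u.restrict F = v := ⟨_, rfl⟩
  rw [hv]
  set P : HeightOneSpectrum (s37h_S (F' := F') v) := s37h_primeOf hv with hP
  obtain ⟨ϖ, hϖ⟩ := (IsPrincipalIdealRing.principal P.asIdeal).principal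
  have hϖ' : P.asIdeal = Ideal.span {ϖ} := hϖ
  have hϖ0 : ϖ ≠ 0 := by
    rintro rfl
    apply P.ne_bot
    rw [hϖ']
    simp
  have hu : s37h_placeOf v P = u := s37h_placeOf_primeOf hv
  refine ⟨(ϖ : F'), ?_, ?_, ?_⟩
  · simpa [ne_eq, ZeroMemClass.coe_eq_zero] using hϖ0
  · rw [← hu, s37h_ord_placeOf_coe, HeightOneSpectrum.intValuation_singleton P hϖ0 hϖ',
      WithZero.log_exp, neg_neg]
  · intro u₂ hne h₂
    have hu₂ : s37h_placeOf v (s37h_primeOf h₂) = u₂ := s37h_placeOf_primeOf h₂
    set Q : HeightOneSpectrum (s37h_S (F' := F') v) := s37h_primeOf h₂ with hQ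
    have hQP : Q ≠ P := by
      intro h
      apply hne
      rw [← hu₂, ← hu, h]
    rw [← hu₂, s37h_ord_placeOf_coe]
    have : Q.intValuation ϖ = 1 := by
      rw [HeightOneSpectrum.intValuation_eq_one_iff]
      intro hmem
      apply hQP
      have hle : P.asIdeal ≤ Q.asIdeal := by
        rw [hϖ']
        exact (Ideal.span_singleton_le_iff_mem _).mpr hmem
      exact HeightOneSpectrum.ext (P.isMaximal.eq_of_le Q.isPrime.ne_top hle).symm
    rw [this, WithZero.log_one, neg_zero]

end Approx

section Along

local notation "Kb" => AlgebraicClosure ℚ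

variable {N M : ℕ} [NeZero N] [NeZero M]

/-- weak approximation in the fibres of a finite `Q̄`-embedding `φ : F̄(N) → F̄(M)`; verbatim the
hypothesis `hwa` of `s37l_baseChange`. -/
theorem s37h_weakApproxAlong (φ : ffi_F N →ₐ[Kb] ffi_F M) (hfin : FiniteAlong Kb φ)
    (hφ : φ.toRingHom.IsIntegral) (u : Place Kb (ffi_F M)) :
    ∃ f : ffi_F M, f ≠ 0 ∧ u.ord f = 1 ∧
      ∀ u₂ : Place Kb (ffi_F M), u₂ ≠ u →
        u₂.restrictAlong φ hφ = u.restrictAlong φ hφ → u₂.ord f = 0 := by
  letI := algebraAlong φ
  haveI := isScalarTower_along φ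
  haveI := isIntegral_along φ hφ
  haveI : Module.Finite (ffi_F N) (ffi_F M) := hfin
  exact s37h_weakApprox (K := Kb) (F := ffi_F N) (F' := ffi_F M) u

end Along

end Fermat.Agent.Lib.S37
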