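/-
S37 moonshot (M-B), package [R], leaf (P3)(b) (helper6), complement: transcendence descends along
`coeffMap ρ` (for the hypothesis `htr` of the level `hmain` (P3a) in the glue (P3c)).
-/
import Fermat.Agent.Lib.S37.KDescent

set_option autoImplicit false
set_option linter.unusedSectionVars false
set_option synthInstance.maxHeartbeats 400000

noncomputable section

namespace Fermat.Agent.Lib.S37

open ModularCurve HahnSeries AlgebraicCurve Fermat.Agent.Lib.S18 IntermediateField Polynomial

local notation "Qbar" => AlgebraicClosure ℚ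

section Abstract

variable {k₀ k : Type*} [Field k₀] [Field k] (ρ : k₀ →+* k)

/-- `coeffMap ρ (p(w₀)) = (ρ p)(coeffMap ρ w₀)`, pointwise. -/
theorem s37kd_coeffMap_aeval (w₀ : LaurentSeries k₀) (p : k₀[X]) :
    coeffMap ρ (Polynomial.aeval w₀ p) = Polynomial.aeval (coeffMap ρ w₀) (p.map ρ) :=
  RingHom.congr_fun (s37kd_coeffMap_comp_aeval ρ w₀) p

/-- If `coeffMap ρ w₀` is transcendental over `k`, then `w₀` is transcendental over `k₀`. -/
theorem s37kd_transcendental_of_coeffMap (w₀ : LaurentSeries k₀)
    (h : Transcendental k (coeffMap ρ w₀)) : Transcendental k₀ w₀ := by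
  rintro ⟨p, hp0, hp⟩
  refine h ⟨p.map ρ, ?_, ?_⟩
  · exact (Polynomial.map_ne_zero_iff ρ.injective).mpr hp0
  · rw [← s37kd_coeffMap_aeval, hp, map_zero]

/-- The same for elements of intermediate fields of the Laurent series fields. -/
theorem s37kd_transcendental_of_coeffMap_coe (E₀ : IntermediateField k₀ (LaurentSeries k₀))
    (E : IntermediateField k (LaurentSeries k)) (w₀ : ↥E₀) (w : ↥E)
    (hw : coeffMap ρ (w₀ : LaurentSeries k₀) = (w : LaurentSeries k))
    (h : Transcendental k w) : Transcendental k₀ w₀ := by
  have h1 : Transcendental k (w : LaurentSeries k) := fun halg =>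
    h (IntermediateField.isAlgebraic_iff.mpr halg)
  rw [← hw] at h1
  have h2 := s37kd_transcendental_of_coeffMap ρ _ h1
  exact fun halg => h2 (IntermediateField.isAlgebraic_iff.mp halg)

end Abstract

end Fermat.Agent.Lib.S37
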