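/-
S37 moonshot, INTERFACE (architect: helper4): the contract of the place reduction `r` at a level `M`
with `ℓ ∤ M` which is "good" for `ℓ` (chart coordinate `w` with inverse `wi`: `w = j` for `ℓ ≥ 5`,
`w = t₂` for `ℓ = 3`, `2 ∣ M`, `w = t₃` for `ℓ = 2`, `3 ∣ M`).

Package [R] PROVES `∃ r, s37_PlaceRed A M w wi r`.  Packages [G] (Galois equivariance of `r`),
[E] (Eichler–Shimura at the level of places) and [X] (assembly of `red`) CONSUME it: nothing else
about `r` may be used downstream.
-/
import Fermat.Prelude.Def_ModularCurve_ReductionModL

set_option autoImplicit false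
set_option synthInstance.maxHeartbeats 400000
set_option maxHeartbeats 800000

noncomputable section

namespace Fermat.Agent.Lib.S37

open ModularCurve AlgebraicCurve

local notation "Qbar" => AlgebraicClosure ℚ

variable (A : ValuationSubring Qbar) (M : ℕ)

/-- An integral element at level `M` (the Prelude's shape): a Laurent series with coefficients in
`A` whose image over `ℚ̄` lies in the function field and whose reduction lies in the function field
of the special fibre. -/
structure s37_Int where
  /-- the `A`-integral `q`-expansion -/
  y : LaurentSeries A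
  mem : coeffMap A.subtype y ∈ modularFunctionFieldBar M
  memC : coeffMap (IsLocalRing.residue A) y ∈
    modularFunctionFieldFullC (IsLocalRing.ResidueField A) M

variable {A M}

/-- the function over `ℚ̄`. -/
def s37_Int.gen (Y : s37_Int A M) : ↥(modularFunctionFieldBar M) := ⟨_, Y.mem⟩

/-- its reduction. -/
def s37_Int.red (Y : s37_Int A M) :
    ↥(modularFunctionFieldFullC (IsLocalRing.ResidueField A) M) := ⟨_, Y.memC⟩

theorem s37_Int.coe_gen (Y : s37_Int A M) :
    ((Y.gen : ↥(modularFunctionFieldBar M)) : LaurentSeries Qbar) = coeffMap A.subtype Y.y := rfl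

theorem s37_Int.coe_red (Y : s37_Int A M) :
    ((Y.red : ↥(modularFunctionFieldFullC (IsLocalRing.ResidueField A) M)) :
      LaurentSeries (IsLocalRing.ResidueField A)) = coeffMap (IsLocalRing.residue A) Y.y := rfl

variable (A M)

/-- **The contract of the place reduction** at a good level `M`, chart coordinate `w`, `wi = w⁻¹`.
Chart 1 = places where `w` is regular, chart 2 = places where `wi` is regular (on both fibres). -/
structure s37_PlaceRed (w wi : s37_Int A M)
    (r : Place Qbar ↥(modularFunctionFieldBar M) →
      Place (IsLocalRing.ResidueField A)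
        ↥(modularFunctionFieldFullC (IsLocalRing.ResidueField A) M)) : Prop where
  /-- `wi = w⁻¹` -/
  inv : w.gen * wi.gen = 1
  /-- (C1) degrees and conservation of number `r_*(div y) = div ȳ` (the Prelude's clause) -/
  isRed : IsPlaceReductionAlong A (IsLocalRing.residue A) M r
  /-- (C2) principal divisors are generated by divisors of integral elements -/
  gen : PrincipalGeneratedByIntegral A (IsLocalRing.residue A) M
  /-- (C3) value reduction for the chart coordinate: `w(P) = c ∈ A ⇒ w̄(r P) = c̄` -/
  vr : ∀ (P : Place Qbar ↥(modularFunctionFieldBar M)) (c : A),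
    0 < P.ord (w.gen - algebraMap Qbar _ (c : Qbar)) →
      0 < (r P).ord (w.red - algebraMap (IsLocalRing.ResidueField A) _ (IsLocalRing.residue A c))
  /-- (C3') value reduction for the inverse of the chart coordinate -/
  vri : ∀ (P : Place Qbar ↥(modularFunctionFieldBar M)) (c : A),
    0 < P.ord (wi.gen - algebraMap Qbar _ (c : Qbar)) →
      0 < (r P).ord (wi.red - algebraMap (IsLocalRing.ResidueField A) _ (IsLocalRing.residue A c))
  /-- (C4) lifting on chart 1: a function on the special fibre which is regular wherever `w̄` is
  regular is the reduction of an integral element which is regular wherever `w` is regular. -/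
  lift : ∀ z : ↥(modularFunctionFieldFullC (IsLocalRing.ResidueField A) M),
    (∀ Q : Place (IsLocalRing.ResidueField A)
        ↥(modularFunctionFieldFullC (IsLocalRing.ResidueField A) M),
      0 ≤ Q.ord w.red → 0 ≤ Q.ord z) →
    ∃ Y : s37_Int A M, Y.red = z ∧
      ∀ P : Place Qbar ↥(modularFunctionFieldBar M), 0 ≤ P.ord w.gen → 0 ≤ P.ord Y.gen
  /-- (C4') lifting on chart 2. -/
  lifti : ∀ z : ↥(modularFunctionFieldFullC (IsLocalRing.ResidueField A) M),
    (∀ Q : Place (IsLocalRing.ResidueField A)
        ↥(modularFunctionFieldFullC (IsLocalRing.ResidueField A) M),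
      0 ≤ Q.ord wi.red → 0 ≤ Q.ord z) →
    ∃ Y : s37_Int A M, Y.red = z ∧
      ∀ P : Place Qbar ↥(modularFunctionFieldBar M), 0 ≤ P.ord wi.gen → 0 ≤ P.ord Y.gen

/-- **[G], statement** (to be PROVED from `s37_PlaceRed`): equivariance of `r` under the
decomposition group, `r (σ P) = σ̄ (r P)`, where `σ̄` acts on the special fibre through the
coefficients (`g` is any semilinear automorphism of the special fibre acting coefficientwise as
`σ̄`; helper6's `s37e_coeffAut` provides one). -/
def s37_GaloisEquivariant
    (r : Place Qbar ↥(modularFunctionFieldBar M) →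
      Place (IsLocalRing.ResidueField A)
        ↥(modularFunctionFieldFullC (IsLocalRing.ResidueField A) M)) : Prop :=
  ∀ (σ : Qbar ≃ₐ[ℚ] Qbar) (hσ : σ ∈ A.decompositionSubgroup ℚ)
    (g : SemilinearAut (IsLocalRing.ResidueField A)
      ↥(modularFunctionFieldFullC (IsLocalRing.ResidueField A) M)),
    (∀ x : ↥(modularFunctionFieldFullC (IsLocalRing.ResidueField A) M),
      ((g • x : ↥(modularFunctionFieldFullC (IsLocalRing.ResidueField A) M)) :
          LaurentSeries (IsLocalRing.ResidueField A)) =
        coeffMap (MulSemiringAction.toRingHom (A.decompositionSubgroup ℚ)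
          (IsLocalRing.ResidueField A) ⟨σ, hσ⟩)
          (x : LaurentSeries (IsLocalRing.ResidueField A))) →
    ∀ P : Place Qbar ↥(modularFunctionFieldBar M),
      r (arithmeticGalois (modularFunctionFieldFull M) σ • P) = g • r P

end Fermat.Agent.Lib.S37
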